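import Mathlib
import Fermat.Agent.CFT.Basic
import Fermat.Agent.CFT.GalLevels
import Fermat.Prelude.Def_ExtEndgame_ProductionDatum

/-!
# Interface with class field theory: what the Taylor-Wiles argument needs

For a finite dimensional `F_p`-representation `ρ` of `Γ = Gal(ℚ̄/ℚ)` (smooth for `sLevels S`),
local pairings and the Greenberg-Wiles inequality.
-/

set_option autoImplicit false

namespace Fermat.Agent.TW

open Fermat.Agent.CFT Module

/-- the absolute Galois group of `ℚ` -/
local notation "GQ" => (AlgebraicClosure ℚ ≃ₐ[ℚ] AlgebraicClosure ℚ)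

instance factPrimes (v : Nat.Primes) : Fact (v : ℕ).Prime := ⟨v.2⟩

section

variable {k : Type} [CommRing k] {V : Type} [AddCommGroup V] [Module k V]

/-- the restriction of a global representation to the local Galois group at `v` -/
noncomputable abbrev locRep (ρ : Representation k GQ V) (v : Nat.Primes) :
    Representation k (PadicAlgCl v ≃ₐ[ℚ_[v]] PadicAlgCl v) V :=
  ρ.comp (localGaloisToGlobal v)

/-- local first cohomology at `v` -/
abbrev H1loc (ρ : Representation k GQ V) (v : Nat.Primes) : Type :=
  H1 (locLevels (v : ℕ)) (locRep ρ v)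

theorem cont_loc (S : Finset Nat.Primes) (v : Nat.Primes) :
    Levels.Cont (locLevels (v : ℕ)) (sLevels S) (localGaloisToGlobal v) := fun H hH =>
  Levels.cont_comap (𝓛 := galLevels ℚ (AlgebraicClosure ℚ)) _ H (sLevels_le_galLevels hH)

/-- localisation at `v` of classes unramified outside `S` -/
noncomputable def resv (S : Finset Nat.Primes) (ρ : Representation k GQ V) (v : Nat.Primes) :
    H1 (sLevels S) ρ →ₗ[k] H1loc ρ v :=
  H1.map (sLevels S) (locLevels (v : ℕ)) ρ (locRep ρ v) (localGaloisToGlobal v) LinearMap.id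
    (cont_loc S v) (fun _ _ => rfl)

/-- the Selmer group of classes unramified outside `S`, with conditions `L v` for `v ∈ S` -/
noncomputable def Sel (S : Finset Nat.Primes) (ρ : Representation k GQ V)
    (L : ∀ v : Nat.Primes, Submodule k (H1loc ρ v)) : Submodule k (H1 (sLevels S) ρ) :=
  ⨅ v ∈ S, (L v).comap (resv S ρ v)

theorem mem_Sel {S : Finset Nat.Primes} {ρ : Representation k GQ V}
    {L : ∀ v : Nat.Primes, Submodule k (H1loc ρ v)} {x : H1 (sLevels S) ρ} :
    x ∈ Sel S ρ L ↔ ∀ v ∈ S, resv S ρ v x ∈ L v := by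
  simp [Sel, Submodule.mem_iInf]

/-- invariants under a set of group elements -/
def invOn (ρ : Representation k GQ V) (X : Set GQ) : Submodule k V where
  carrier := {x | ∀ g ∈ X, ρ g x = x}
  add_mem' ha hb g hg := by rw [map_add, ha g hg, hb g hg]
  zero_mem' g _ := map_zero _
  smul_mem' c _ ha g hg := by rw [map_smul, ha g hg]

/-- local invariants at `v` -/
noncomputable def h0loc (ρ : Representation k GQ V) (v : Nat.Primes) : ℕ :=
  finrank k (invOn ρ (Set.range (localGaloisToGlobal v)))

end

section

variable (p : ℕ) [Fact p.Prime] {V : Type} [AddCommGroup V] [Module (ZMod p) V]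

/-- The Cartier dual `Hom(V, μ_p)` of a representation. -/
noncomputable def cartier (ρ : Representation (ZMod p) GQ V) :
    Representation (ZMod p) GQ (Dual (ZMod p) V) :=
  ρ.dual.twist (ExtCitation.cycloChar p)

/-- What the Taylor-Wiles argument needs from class field theory. -/
structure GWData (ρ : Representation (ZMod p) GQ V) where
  /-- local Tate pairing -/
  B : ∀ v : Nat.Primes, H1loc ρ v →ₗ[ZMod p] H1loc (cartier p ρ) v →ₗ[ZMod p] ZMod p
  /-- nondegeneracy on the side of the dual -/
  nondeg : ∀ v y, (∀ x, B v x y = 0) → y = 0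
  /-- finiteness -/
  finite_loc : ∀ v, FiniteDimensional (ZMod p) (H1loc ρ v)
  finite : ∀ S, ExtCitation.pPrime p ∈ S → Smooth (sLevels S) ρ →
    FiniteDimensional (ZMod p) (H1 (sLevels S) ρ)
  finite' : ∀ S, ExtCitation.pPrime p ∈ S → Smooth (sLevels S) ρ →
    FiniteDimensional (ZMod p) (H1 (sLevels S) (cartier p ρ))
  /-- local Euler characteristic at primes different from `p` -/
  euler : ∀ v, v ≠ ExtCitation.pPrime p →
    finrank (ZMod p) (H1loc ρ v) ≤ h0loc ρ v + h0loc (cartier p ρ) v
  /-- Greenberg-Wiles inequality -/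
  gw : ∀ S, ExtCitation.pPrime p ∈ S → Smooth (sLevels S) ρ →
    ∀ L : ∀ v : Nat.Primes, Submodule (ZMod p) (H1loc ρ v),
    finrank (ZMod p) (Sel S ρ L) + ∑ v ∈ S, h0loc ρ v +
        finrank (ZMod p) (invOn ρ {complexConjugation}) ≤
      finrank (ZMod p) (Sel S (cartier p ρ) (fun v =>
        (L v).dualAnnihilator.comap (B v).flip)) +
      finrank (ZMod p) (invOn ρ Set.univ) + ∑ v ∈ S, finrank (ZMod p) (L v)

end

end Fermat.Agent.TW
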