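import Mathlib.LinearAlgebra.Matrix.Trace
import Mathlib.LinearAlgebra.Matrix.Determinant.Basic
import Mathlib.LinearAlgebra.Matrix.Adjugate
import Mathlib.LinearAlgebra.Matrix.NonsingularInverse
import Mathlib.Tactic

/-!
# Elementary identities for `2 × 2` matrices, used in the group theory of Taylor-Wiles primes
-/

set_option autoImplicit false

namespace Fermat.Agent.TW

open Matrix

variable {k : Type*} [Field k]

local notation "M₂" => Matrix (Fin 2) (Fin 2)

/-- Cayley-Hamilton. -/
theorem mul_self_eq (A : M₂ k) : A * A = A.trace • A - A.det • (1 : M₂ k) := by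
  ext i j
  fin_cases i <;> fin_cases j <;>
    simp [Matrix.mul_apply, Fin.sum_univ_two, Matrix.trace_fin_two, Matrix.det_fin_two] <;> ring

/-- Polarised Cayley-Hamilton. -/
theorem mul_add_mul_eq (A B : M₂ k) :
    A * B + B * A = A.trace • B + B.trace • A + ((A * B).trace - A.trace * B.trace) • (1 : M₂ k) := by
  ext i j
  fin_cases i <;> fin_cases j <;>
    simp [Matrix.mul_apply, Fin.sum_univ_two, Matrix.trace_fin_two] <;> ring

theorem mul_add_mul_of_trace_zero {A B : M₂ k} (hA : A.trace = 0) (hB : B.trace = 0) :
    A * B + B * A = (A * B).trace • (1 : M₂ k) := by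
  rw [mul_add_mul_eq, hA, hB]; simp

/-- `N X N = tr(N X) N` for `N` of rank one. -/
theorem mul_mul_self_of_det_zero {N : M₂ k} (hN : N.det = 0) (X : M₂ k) :
    N * X * N = (N * X).trace • N := by
  rw [Matrix.det_fin_two] at hN
  ext i j
  fin_cases i <;> fin_cases j <;>
    simp [Matrix.mul_apply, Fin.sum_univ_two, Matrix.trace_fin_two]
  · linear_combination (-(X 1 1)) * hN
  · linear_combination (X 0 1) * hN
  · linear_combination (X 1 0) * hN
  · linear_combination (-(X 0 0)) * hN

theorem trace_zero_det_zero_of_sq {N : M₂ k} (h : N * N = 0) : N.trace = 0 ∧ N.det = 0 := by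
  have hd : N.det = 0 := by
    have := congrArg Matrix.det h
    rw [Matrix.det_mul, Matrix.det_zero] at this
    exact mul_self_eq_zero.1 this
  refine ⟨?_, hd⟩
  have h2 := mul_self_eq N
  rw [h, hd, zero_smul, sub_zero] at h2
  by_contra ht
  have hN : N = 0 := by
    have := congrArg (fun X => N.trace⁻¹ • X) h2
    simpa [smul_smul, inv_mul_cancel₀ ht] using this.symm
  rw [hN] at ht
  simp at ht

/-- commuting trace-free matrices are proportional -/
theorem exists_smul_of_comm (h2 : (2 : k) ≠ 0) {A B : M₂ k} (hA : A.trace = 0) (hB : B.trace = 0)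
    (hA0 : A ≠ 0) (h : A * B = B * A) : ∃ c : k, B = c • A := by
  have e01 := congrFun (congrFun h 0) 1
  have e10 := congrFun (congrFun h 1) 0
  have e00 := congrFun (congrFun h 0) 0
  simp only [Matrix.mul_apply, Fin.sum_univ_two] at e01 e10 e00
  rw [Matrix.trace_fin_two] at hA hB
  have hA1 : A 1 1 = - A 0 0 := by linear_combination hA
  have hB1 : B 1 1 = - B 0 0 := by linear_combination hB
  rw [hA1, hB1] at e01 e10
  have f1 : A 0 0 * B 0 1 = A 0 1 * B 0 0 := by
    apply mul_left_cancel₀ h2; linear_combination e01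
  have f2 : A 1 0 * B 0 0 = A 0 0 * B 1 0 := by
    apply mul_left_cancel₀ h2; linear_combination e10
  have f3 : A 0 1 * B 1 0 = B 0 1 * A 1 0 := by linear_combination e00
  by_cases h00 : A 0 0 = 0
  · by_cases h01 : A 0 1 = 0
    · by_cases h10 : A 1 0 = 0
      · exfalso; apply hA0; ext i j
        fin_cases i <;> fin_cases j <;> simp [h00, h01, h10, hA1]
      · refine ⟨B 1 0 / A 1 0, ?_⟩
        rw [h00, zero_mul] at f2
        have g1 : B 0 0 = 0 := by
          rcases mul_eq_zero.1 f2 with h | h
          · exact absurd h h10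
          · exact h
        rw [h01, zero_mul] at f3
        have g2 : B 0 1 = 0 := by
          rcases mul_eq_zero.1 f3.symm with h | h
          · exact h
          · exact absurd h h10
        ext i j
        fin_cases i <;> fin_cases j
        · simp [h00, g1]
        · simp [h01, g2]
        · simp [h10]
        · simp [hA1, hB1, h00, g1]
    · refine ⟨B 0 1 / A 0 1, ?_⟩
      rw [h00, zero_mul] at f1
      have g1 : B 0 0 = 0 := by
        rcases mul_eq_zero.1 f1.symm with h | h
        · exact absurd h h01
        · exact h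
      ext i j
      fin_cases i <;> fin_cases j
      · simp [h00, g1]
      · simp [h01]
      · simp only [Fin.mk_one, Fin.isValue, Fin.zero_eta, Matrix.smul_apply, smul_eq_mul]
        field_simp
        linear_combination f3
      · simp [hA1, hB1, h00, g1]
  · refine ⟨B 0 0 / A 0 0, ?_⟩
    ext i j
    fin_cases i <;> fin_cases j
    · simp [h00]
    · simp only [Fin.mk_one, Fin.isValue, Fin.zero_eta, Matrix.smul_apply, smul_eq_mul]
      field_simp
      linear_combination f1
    · simp only [Fin.mk_one, Fin.isValue, Fin.zero_eta, Matrix.smul_apply, smul_eq_mul]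
      field_simp
      linear_combination -f2
    · simp only [Fin.mk_one, Fin.isValue, Matrix.smul_apply, smul_eq_mul, hA1, hB1]
      field_simp

/-- two nilpotents orthogonal for the trace form are proportional -/
theorem exists_smul_of_nilp {N N' : M₂ k} (hN : N * N = 0) (hN' : N' * N' = 0) (h0 : N ≠ 0)
    (h : (N * N').trace = 0) : ∃ c : k, N' = c • N := by
  obtain ⟨t1, d1⟩ := trace_zero_det_zero_of_sq hN
  obtain ⟨t2, d2⟩ := trace_zero_det_zero_of_sq hN'
  rw [Matrix.trace_fin_two] at t1 t2 h
  rw [Matrix.det_fin_two] at d1 d2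
  simp only [Matrix.mul_apply, Fin.sum_univ_two] at h
  have a1 : N 1 1 = - N 0 0 := by linear_combination t1
  have b1 : N' 1 1 = - N' 0 0 := by linear_combination t2
  rw [a1] at d1 h
  rw [b1] at d2 h
  by_cases h01 : N 0 1 = 0
  · rw [h01] at d1 h
    have h00 : N 0 0 = 0 := by
      have : N 0 0 * N 0 0 = 0 := by linear_combination -d1
      exact mul_self_eq_zero.1 this
    have h10 : N 1 0 ≠ 0 := by
      intro h10; apply h0; ext i j
      fin_cases i <;> fin_cases j <;> simp [h00, h01, h10, a1]
    rw [h00] at h
    have g01 : N' 0 1 = 0 := by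
      have : N 1 0 * N' 0 1 = 0 := by linear_combination h
      rcases mul_eq_zero.1 this with h | h
      · exact absurd h h10
      · exact h
    have g00 : N' 0 0 = 0 := by
      rw [g01] at d2
      have : N' 0 0 * N' 0 0 = 0 := by linear_combination -d2
      exact mul_self_eq_zero.1 this
    refine ⟨N' 1 0 / N 1 0, ?_⟩
    ext i j
    fin_cases i <;> fin_cases j
    · simp [h00, g00]
    · simp [h01, g01]
    · simp [h10]
    · simp [a1, b1, h00, g00]
  · have key : (N 0 1 * N' 0 0 - N 0 0 * N' 0 1) ^ 2 = 0 := by
      linear_combination (-(N 0 1) ^ 2) * d2 - (N' 0 1) ^ 2 * d1 - (N 0 1 * N' 0 1) * h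
    have key' : N 0 1 * N' 0 0 = N 0 0 * N' 0 1 := by
      have := pow_eq_zero_iff (two_ne_zero) |>.1 key
      linear_combination this
    refine ⟨N' 0 1 / N 0 1, ?_⟩
    have g10 : N 0 1 * N' 1 0 = N' 0 1 * N 1 0 := by
      apply mul_left_cancel₀ h01
      linear_combination N 0 1 * h - 2 * N 0 0 * key' + 2 * N' 0 1 * d1
    ext i j
    fin_cases i <;> fin_cases j
    · simp only [Fin.isValue, Fin.zero_eta, Matrix.smul_apply, smul_eq_mul]
      field_simp
      linear_combination key'
    · simp [h01]
    · simp only [Fin.mk_one, Fin.isValue, Fin.zero_eta, Matrix.smul_apply, smul_eq_mul]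
      field_simp
      linear_combination g10
    · simp only [Fin.mk_one, Fin.isValue, Matrix.smul_apply, smul_eq_mul, a1, b1]
      field_simp
      linear_combination -key'

end Fermat.Agent.TW
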