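import Mathlib
import Fermat.Agent.CFT.Loc.Unram
import Fermat.Agent.CFT.GalLevels

/-!
# Tame inertia: prime-to-`l` quotients of the inertia group at `l` are cyclic
-/

set_option autoImplicit false
set_option linter.style.haveILetI false

namespace Fermat.Agent.TW

open Fermat.Agent.CFT.Loc Fermat.Agent

variable {l : ℕ} [Fact l.Prime]

/-- uniformizers -/
theorem exists_uniformizer (E : IntermediateField ℚ_[l] (PadicAlgCl l))
    [FiniteDimensional ℚ_[l] E] :
    ∃ π ∈ E, π ≠ 0 ∧ ∀ x ∈ E, x ≠ 0 → ∃ j : ℤ, ‖x‖ = ‖π‖ ^ j := by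
  have hn : 0 < Module.finrank ℚ_[l] E := Module.finrank_pos
  set n := Module.finrank ℚ_[l] E with hndef
  let w := LocalF.wK l E
  obtain ⟨g, hg⟩ := IsCyclic.exists_generator (α := w.range)
  obtain ⟨⟨_, ⟨π, rfl⟩⟩, hg⟩ : ∃ g : w.range, ∀ x, x ∈ Subgroup.zpowers g := ⟨g, hg⟩
  refine ⟨((π : E) : PadicAlgCl l), (π : E).2, ?_, ?_⟩
  · intro h
    have : (π : E) = 0 := Subtype.ext h
    exact π.ne_zero this
  intro x hx hx0
  have hx0' : (⟨x, hx⟩ : E) ≠ 0 := fun h => hx0 (congrArg Subtype.val h)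
  obtain ⟨j, hj⟩ := Subgroup.mem_zpowers_iff.1 (hg ⟨w (Units.mk0 ⟨x, hx⟩ hx0'), ⟨_, rfl⟩⟩)
  refine ⟨j, ?_⟩
  have h1 : w π ^ j = w (Units.mk0 ⟨x, hx⟩ hx0') := congrArg Subtype.val hj
  rw [← map_zpow] at h1
  have h2 : (π ^ j)⁻¹ * Units.mk0 ⟨x, hx⟩ hx0' ∈ w.ker := by
    rw [MonoidHom.mem_ker, map_mul, map_inv, h1, inv_mul_cancel]
  rw [LocalF.mem_ker_wK_iff, ← norm_pow_finrank] at h2
  have h3 : ‖((((π ^ j)⁻¹ * Units.mk0 ⟨x, hx⟩ hx0' : Eˣ) : E) : PadicAlgCl l)‖ = 1 :=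
    (pow_eq_one_iff_of_nonneg (norm_nonneg _) hn.ne').1 h2
  have h4 : ((((π ^ j)⁻¹ * Units.mk0 ⟨x, hx⟩ hx0' : Eˣ) : E) : PadicAlgCl l) =
      (((π : E) : PadicAlgCl l) ^ j)⁻¹ * x := by
    push_cast
    simp only [Units.val_mk0]
    rfl
  rw [h4, norm_mul, norm_inv, norm_zpow] at h3
  have h5 : ‖((π : E) : PadicAlgCl l)‖ ^ j ≠ 0 := by
    apply zpow_ne_zero
    rw [norm_ne_zero_iff]
    intro h
    have : (π : E) = 0 := Subtype.ext h
    exact π.ne_zero this
  field_simp at h3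
  exact h3

/-- If `σ` is in inertia and fixes the class of `π` mod higher terms, the same holds for all
elements of `E`. -/
theorem norm_sub_lt_of_uniformizer {E : IntermediateField ℚ_[l] (PadicAlgCl l)}
    {π : PadicAlgCl l} (hπ0 : π ≠ 0)
    (hπ : ∀ x ∈ E, x ≠ 0 → ∃ j : ℤ, ‖x‖ = ‖π‖ ^ j)
    {σ : GalLoc l} (hσ : σ ∈ inertiaLoc l) (hσπ : ‖σ π - π‖ < ‖π‖) {x : PadicAlgCl l} (hx : x ∈ E)
    (hx0 : x ≠ 0) : ‖σ x / x - 1‖ < 1 := by
  -- set of `u` with `‖u - 1‖ < 1` is a group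
  have hmul : ∀ u v : PadicAlgCl l, ‖u - 1‖ < 1 → ‖v - 1‖ < 1 → ‖u * v - 1‖ < 1 := by
    intro u v hu hv
    have hu1 : ‖u‖ ≤ 1 := by
      have : u = (u - 1) + 1 := by ring
      rw [this]
      refine (IsUltrametricDist.norm_add_le_max _ _).trans (max_le hu.le (by simp))
    have : u * v - 1 = u * (v - 1) + (u - 1) := by ring
    rw [this]
    refine lt_of_le_of_lt (IsUltrametricDist.norm_add_le_max _ _) (max_lt ?_ hu)
    rw [norm_mul]
    exact lt_of_le_of_lt (mul_le_of_le_one_left (norm_nonneg _) hu1) hv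
  have hinv : ∀ u : PadicAlgCl l, ‖u - 1‖ < 1 → ‖u⁻¹ - 1‖ < 1 := by
    intro u hu
    have hu1 : ‖u‖ = 1 := by
      have h1 : u = 1 + (u - 1) := by ring
      rw [h1]
      have := IsUltrametricDist.norm_add_eq_max_of_norm_ne_norm (x := (1 : PadicAlgCl l))
        (y := u - 1) (by rw [norm_one]; exact hu.ne')
      rw [this, norm_one, max_eq_left hu.le]
    have hu0 : u ≠ 0 := by rintro rfl; simp at hu1
    have : u⁻¹ - 1 = -(u⁻¹ * (u - 1)) := by field_simp; ring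
    rw [this, norm_neg, norm_mul, norm_inv, hu1, inv_one, one_mul]
    exact hu
  have hzpow : ∀ (u : PadicAlgCl l), ‖u - 1‖ < 1 → ∀ j : ℤ, ‖u ^ j - 1‖ < 1 := by
    intro u hu j
    have hnat : ∀ n : ℕ, ‖u ^ n - 1‖ < 1 := by
      intro n
      induction n with
      | zero => simp
      | succ n ih => rw [pow_succ]; exact hmul _ _ ih hu
    obtain ⟨n, rfl | rfl⟩ := j.eq_nat_or_neg
    · rw [zpow_natCast]; exact hnat n
    · rw [zpow_neg, zpow_natCast]; exact hinv _ (hnat n)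
  obtain ⟨j, hj⟩ := hπ x hx hx0
  -- `x = π ^ j * u`
  set u := x / π ^ j with hu
  have hu1 : ‖u‖ = 1 := by
    rw [hu, norm_div, hj, norm_zpow, div_self (zpow_ne_zero _ (norm_ne_zero_iff.2 hπ0))]
  have hu0 : u ≠ 0 := by intro h; rw [h, norm_zero] at hu1; exact zero_ne_one hu1
  have hxu : x = π ^ j * u := by rw [hu]; field_simp
  have h1 : ‖σ u / u - 1‖ < 1 := by
    have h2 := (mem_inertiaLoc l).1 hσ u hu1.le
    have : σ u / u - 1 = (σ u - u) / u := by field_simp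
    rw [this, norm_div, hu1, div_one]
    exact h2
  have h2 : ‖σ π / π - 1‖ < 1 := by
    have : σ π / π - 1 = (σ π - π) / π := by field_simp
    rw [this, norm_div, div_lt_one (norm_pos_iff.2 hπ0)]
    exact hσπ
  have h3 : σ x / x = (σ π / π) ^ j * (σ u / u) := by
    rw [hxu, map_mul, map_zpow₀, div_zpow]
    field_simp
  rw [h3]
  exact hmul _ _ (hzpow _ h2 j) h1

/-- **Trace argument**: no tame elements in the kernel of the tame character. -/
theorem apply_eq_of_pow_apply_eq {E : IntermediateField ℚ_[l] (PadicAlgCl l)}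
    {π : PadicAlgCl l} (hπ0 : π ≠ 0)
    (hπ : ∀ x ∈ E, x ≠ 0 → ∃ j : ℤ, ‖x‖ = ‖π‖ ^ j)
    {σ : GalLoc l} (hσ : σ ∈ inertiaLoc l) (hσπ : ‖σ π - π‖ < ‖π‖) {m : ℕ} (hm : ¬ l ∣ m)
    (hσm : ∀ x ∈ E, (σ ^ m) x = x) (hE : ∀ x ∈ E, σ x ∈ E) {x : PadicAlgCl l} (hx : x ∈ E) :
    σ x = x := by
  set y := x - σ x with hy
  have hyE : y ∈ E := sub_mem hx (hE x hx)
  by_contra hne
  have hy0 : y ≠ 0 := fun h => hne (sub_eq_zero.1 h).symm
  -- `T y = 0`
  have hT : ∑ i ∈ Finset.range m, (σ ^ i) y = 0 := by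
    have h1 : ∀ i, (σ ^ i) y = (σ ^ i) x - (σ ^ (i + 1)) x := by
      intro i
      rw [hy, map_sub, pow_succ]
      rfl
    simp only [h1]
    rw [Finset.sum_range_sub', pow_zero, hσm x hx]
    simp
  -- each term is `y` times something close to one
  have h2 : ∀ i, ‖(σ ^ i) y / y - 1‖ < 1 := by
    intro i
    induction i with
    | zero =>
      have : ((σ ^ 0) y) / y = 1 := by
        rw [pow_zero]; exact div_self hy0
      rw [this]; simp
    | succ i ih =>
      have h3 : (σ ^ (i + 1)) y / y - 1 =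
          (σ ^ i) y / y * ((σ ^ i) (σ y / y - 1)) + ((σ ^ i) y / y - 1) := by
        have h5 : (σ ^ i) y ≠ 0 := by
          rw [Ne, EmbeddingLike.map_eq_zero_iff]; exact hy0
        have h4 : (σ ^ i) (σ y / y - 1) = (σ ^ (i + 1)) y / (σ ^ i) y - 1 := by
          rw [map_sub, map_div₀, map_one, pow_succ]; rfl
        rw [h4]
        field_simp
        ring
      rw [h3]
      have h5 : ‖(σ ^ i) y / y‖ = 1 := by
        rw [norm_div, CFT.Loc.norm_apply, div_self (norm_ne_zero_iff.2 hy0)]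
      refine lt_of_le_of_lt (IsUltrametricDist.norm_add_le_max _ _) (max_lt ?_ ih)
      rw [norm_mul, h5, one_mul, CFT.Loc.norm_apply]
      exact norm_sub_lt_of_uniformizer hπ0 hπ hσ hσπ hyE hy0
  have h3 : ‖(m : PadicAlgCl l)‖ < 1 := by
    have h4 : (m : PadicAlgCl l) = - ∑ i ∈ Finset.range m, ((σ ^ i) y / y - 1) := by
      rw [Finset.sum_sub_distrib, ← Finset.sum_div, hT, zero_div]
      simp
    rw [h4, norm_neg]
    rcases Nat.eq_zero_or_pos m with rfl | hm0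
    · simp
    · refine lt_of_le_of_lt
        (IsUltrametricDist.norm_sum_le_of_forall_le_of_nonempty (Finset.nonempty_range_iff.2 hm0.ne')
          (C := (Finset.range m).sup' (Finset.nonempty_range_iff.2 hm0.ne')
            (fun i => ‖(σ ^ i) y / y - 1‖))
          (fun i hi => Finset.le_sup' (fun i => ‖(σ ^ i) y / y - 1‖) hi)) ?_
      rw [Finset.sup'_lt_iff]
      exact fun i _ => h2 i
  have h5 : ((m : ℕ) : ResF l) = 0 := by
    have h6 : ((m : ℕ) : ResF l) =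
        red l (m : PadicAlgCl l) h3.le := by
      rw [red, ← map_natCast (IsLocalRing.residue (padicIntegers l))]
      rfl
    rw [h6]
    have := (red_eq_red_iff (l := l) (y := 0) h3.le (by simp)).2 (by simpa using h3)
    rw [this]; exact map_zero _
  exact hm ((CharP.cast_eq_zero_iff (ResF l) l m).1 h5)

/-- The tame character: for `π ≠ 0`, `σ ↦ σ π / π` mod `𝔪` on inertia. -/
theorem exists_tame_char (π : PadicAlgCl l) (hπ0 : π ≠ 0) :
    ∃ θ : inertiaLoc l →* (ResF l)ˣ, Finite θ.range ∧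
      ∀ σ : inertiaLoc l, θ σ = 1 ↔ ‖(σ : GalLoc l) π - π‖ < ‖π‖ := by
  have hnorm : ∀ σ : GalLoc l, ‖σ π / π‖ ≤ 1 := fun σ => by
    rw [norm_div, CFT.Loc.norm_apply, div_self (norm_ne_zero_iff.2 hπ0)]
  have hmul : ∀ σ τ : inertiaLoc l,
      red l (((σ * τ : inertiaLoc l) : GalLoc l) π / π) (hnorm _) =
        red l ((σ : GalLoc l) π / π) (hnorm _) * red l ((τ : GalLoc l) π / π) (hnorm _) := by
    intro σ τ
    have h1 : red l ((σ : GalLoc l) ((τ : GalLoc l) π / π))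
        (by rw [CFT.Loc.norm_apply]; exact hnorm _) = red l ((τ : GalLoc l) π / π) (hnorm _) :=
      (red_eq_red_iff _ _).2 ((mem_inertiaLoc l).1 σ.2 _ (hnorm _))
    rw [← h1, mul_comm, red, red, red, ← map_mul]
    congr 1
    apply Subtype.ext
    show ((σ : GalLoc l) ((τ : GalLoc l) π)) / π =
      (σ : GalLoc l) ((τ : GalLoc l) π / π) * ((σ : GalLoc l) π / π)
    have hσπ : (σ : GalLoc l) π ≠ 0 := by
      rw [Ne, EmbeddingLike.map_eq_zero_iff]; exact hπ0
    rw [map_div₀]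
    field_simp
  have hone : red l (((1 : inertiaLoc l) : GalLoc l) π / π) (hnorm _) = 1 := by
    have h1 : (((1 : inertiaLoc l) : GalLoc l) π / π) = 1 := div_self hπ0
    have : red l (((1 : inertiaLoc l) : GalLoc l) π / π) (hnorm _) = red l 1 (by simp) := by
      congr 1
    rw [this]; exact map_one _
  let θ : inertiaLoc l →* (ResF l)ˣ := MonoidHom.toHomUnits
    { toFun := fun σ => red l ((σ : GalLoc l) π / π) (hnorm _)
      map_one' := hone
      map_mul' := hmul }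
  have hθ : ∀ σ : inertiaLoc l, ((θ σ : (ResF l)ˣ) : ResF l) =
      red l ((σ : GalLoc l) π / π) (hnorm _) := fun σ => rfl
  refine ⟨θ, ?_, fun σ => ?_⟩
  · -- finitely many conjugates
    classical
    have hfin : (Set.range fun σ : GalLoc l => σ π).Finite := by
      have hint : IsIntegral ℚ_[l] π := (Algebra.IsAlgebraic.isAlgebraic π).isIntegral
      refine ((minpoly ℚ_[l] π).aroots (PadicAlgCl l)).toFinset.finite_toSet.subset ?_
      rintro _ ⟨σ, rfl⟩
      rw [Finset.mem_coe, Multiset.mem_toFinset, Polynomial.mem_aroots]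
      refine ⟨minpoly.ne_zero hint, ?_⟩
      have := Polynomial.aeval_algHom_apply (σ : PadicAlgCl l →ₐ[ℚ_[l]] PadicAlgCl l) π
        (minpoly ℚ_[l] π)
      rw [minpoly.aeval, map_zero] at this
      exact this
    have hfin' : (Set.range fun σ : inertiaLoc l => ((θ σ : (ResF l)ˣ) : ResF l)).Finite := by
      let g : PadicAlgCl l → ResF l := fun y => if h : ‖y / π‖ ≤ 1 then red l (y / π) h else 0
      refine (hfin.image g).subset ?_
      rintro _ ⟨σ, rfl⟩
      refine ⟨(σ : GalLoc l) π, ⟨σ, rfl⟩, ?_⟩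
      show (if h : ‖(σ : GalLoc l) π / π‖ ≤ 1 then red l ((σ : GalLoc l) π / π) h else 0) = _
      rw [dif_pos (hnorm _)]
      rfl
    have h3 : (Set.range fun σ : inertiaLoc l => (θ σ : (ResF l)ˣ)).Finite := by
      refine Set.Finite.of_finite_image (f := fun u : (ResF l)ˣ => (u : ResF l)) ?_
        (Units.val_injective.injOn)
      rw [← Set.range_comp]
      exact hfin'
    exact h3.to_subtype
  · rw [Units.ext_iff, hθ, Units.val_one]
    have h1 : (1 : ResF l) = red l 1 (by simp) := (map_one _).symm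
    rw [h1, red_eq_red_iff]
    have h2 : (σ : GalLoc l) π / π - 1 = ((σ : GalLoc l) π - π) / π := by field_simp
    rw [h2, norm_div, div_lt_one (norm_pos_iff.2 hπ0)]

/-- **Tame generator.** For every finite extension `E` there is `τ` in inertia such that every
element of inertia is, modulo an element which has `l`-power order on `E`, a power of `τ`. -/
theorem exists_tame_gen (E : IntermediateField ℚ_[l] (PadicAlgCl l)) [FiniteDimensional ℚ_[l] E] :
    ∃ τ ∈ inertiaLoc l, ∀ σ ∈ inertiaLoc l, ∃ j : ℤ, ∃ a : ℕ,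
      (σ * (τ ^ j)⁻¹) ^ (l ^ a) ∈ E.fixingSubgroup := by
  -- normal closure
  let N : IntermediateField ℚ_[l] (PadicAlgCl l) :=
    IntermediateField.normalClosure ℚ_[l] E (PadicAlgCl l)
  haveI : FiniteDimensional ℚ_[l] N := normalClosure.is_finiteDimensional ℚ_[l] E (PadicAlgCl l)
  haveI : Normal ℚ_[l] N := normalClosure.normal ℚ_[l] E (PadicAlgCl l)
  have hEN : E ≤ N := E.le_normalClosure
  have hNst : ∀ σ : GalLoc l, ∀ x ∈ N, σ x ∈ N := by
    intro σ x hx
    have h1 := AlgEquiv.restrictNormal_commutes σ N ⟨x, hx⟩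
    have h2 : algebraMap N (PadicAlgCl l) (σ.restrictNormal N ⟨x, hx⟩) = σ x := h1
    rw [← h2]
    exact (σ.restrictNormal N ⟨x, hx⟩).2
  obtain ⟨π, hπN, hπ0, hπ⟩ := exists_uniformizer N
  obtain ⟨θ, hfin, hθ⟩ := exists_tame_char π hπ0
  haveI := hfin
  obtain ⟨g, hg⟩ := IsCyclic.exists_generator (α := θ.range)
  obtain ⟨⟨_, ⟨τ, rfl⟩⟩, hg⟩ : ∃ g : θ.range, ∀ x, x ∈ Subgroup.zpowers g := ⟨g, hg⟩
  refine ⟨τ, τ.2, fun σ hσ => ?_⟩
  obtain ⟨j, hj⟩ := Subgroup.mem_zpowers_iff.1 (hg ⟨θ ⟨σ, hσ⟩, ⟨_, rfl⟩⟩)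
  have h1 : θ τ ^ j = θ ⟨σ, hσ⟩ := congrArg Subtype.val hj
  set w : inertiaLoc l := ⟨σ, hσ⟩ * (τ ^ j)⁻¹ with hw
  have hw1 : θ w = 1 := by rw [hw, map_mul, map_inv, map_zpow, h1, mul_inv_cancel]
  -- finite order on `N`
  haveI hfi : N.fixingSubgroup.FiniteIndex := CFT.finiteIndex_fixingSubgroup N
  obtain ⟨M, hM0, -, hM⟩ := Subgroup.exists_pow_mem_of_index_ne_zero hfi.index_ne_zero
    (w : GalLoc l)
  obtain ⟨a, m, hm, rfl⟩ := Nat.exists_eq_pow_mul_and_not_dvd hM0.ne' l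
    (Fact.out : l.Prime).ne_one
  refine ⟨j, a, ?_⟩
  set w' : inertiaLoc l := w ^ (l ^ a) with hw'
  have hw'1 : θ w' = 1 := by rw [hw', map_pow, hw1, one_pow]
  have h3 : ∀ x ∈ N, (w' : GalLoc l) x = x := fun x hx =>
    apply_eq_of_pow_apply_eq hπ0 hπ w'.2 ((hθ w').1 hw'1) hm (fun x hx => by
      have h4 : ((w' : GalLoc l)) ^ m = (w : GalLoc l) ^ (l ^ a * m) := by
        rw [hw', SubmonoidClass.coe_pow, ← pow_mul]
      rw [h4]
      exact (IntermediateField.mem_fixingSubgroup_iff _ _).1 hM x hx) (hNst _) hx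
  rw [IntermediateField.mem_fixingSubgroup_iff]
  intro x hx
  have h5 := h3 x (hEN hx)
  have h6 : ((w' : GalLoc l)) = (σ * ((τ : GalLoc l) ^ j)⁻¹) ^ (l ^ a) := by
    rw [hw', SubmonoidClass.coe_pow, hw]
    rfl
  rw [h6] at h5
  exact h5

end Fermat.Agent.TW
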