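import Mathlib
import Fermat.Agent.TW.Tame
import Fermat.Agent.TW.Mat2
import Fermat.Agent.CFT.Loc.LocLevels

/-!
# Local conditions at primes `l ≠ p`: unramified classes, unipotent inertia
-/

set_option autoImplicit false
set_option linter.style.haveILetI false

namespace Fermat.Agent.TW

open Fermat.Agent.CFT Fermat.Agent.CFT.Loc Fermat.Agent Module Matrix

local notation "M₂" => Matrix (Fin 2) (Fin 2)

section Ur

variable {l : ℕ} [Fact l.Prime] {F : Type*} [Field F] {V : Type*} [AddCommGroup V] [Module F V]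
  (ρ : Representation F (GalLoc l) V)

/-- cocycles vanishing on inertia -/
def Zur : Submodule F (GalLoc l → V) where
  carrier := {c | c ∈ Z1 (locLevels l) ρ ∧ ∀ t ∈ inertiaLoc l, c t = 0}
  add_mem' := fun {a b} ha hb => ⟨add_mem ha.1 hb.1, fun t ht => by
    show a t + b t = 0
    rw [ha.2 t ht, hb.2 t ht, add_zero]⟩
  zero_mem' := ⟨zero_mem _, fun _ _ => rfl⟩
  smul_mem' := fun c a ha => ⟨Submodule.smul_mem _ _ ha.1, fun t ht => by
    show c • a t = 0
    rw [ha.2 t ht, smul_zero]⟩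

/-- the class map on cocycles vanishing on inertia -/
noncomputable def Zur.q : Zur ρ →ₗ[F] H1 (locLevels l) ρ :=
  (H1.mk (locLevels l) ρ).comp (Submodule.inclusion (fun _ h => h.1))

/-- unramified classes -/
noncomputable def urCls : Submodule F (H1 (locLevels l) ρ) := LinearMap.range (Zur.q ρ)

variable {ρ}

theorem mk_mem_urCls {c : Z1 (locLevels l) ρ} (v : V)
    (h : ∀ t ∈ inertiaLoc l, c.1 t = ρ t v - v) (hs : Smooth (locLevels l) ρ) :
    H1.mk (locLevels l) ρ c ∈ urCls ρ := by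
  have hd : d0 ρ v ∈ Z1 (locLevels l) ρ := B1_le_Z1 hs ⟨v, rfl⟩
  refine ⟨⟨c.1 - d0 ρ v, sub_mem c.2 hd, fun t ht => ?_⟩, ?_⟩
  · show c.1 t - (ρ t v - v) = 0
    rw [h t ht, sub_self]
  · show H1.mk (locLevels l) ρ ⟨c.1 - d0 ρ v, _⟩ = _
    rw [H1.mk_eq_mk]
    refine ⟨-v, ?_⟩
    rw [map_neg]
    show - d0 ρ v = c.1 - d0 ρ v - c.1
    abel

/-- The dimension of the space of unramified classes. -/
theorem finrank_urCls_le [FiniteDimensional F V] (hs : Smooth (locLevels l) ρ)
    (W : Submodule F V) (hW : ∀ v, v ∈ W ↔ ∀ g, ρ g v = v) :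
    finrank F (urCls ρ) ≤ finrank F W := by
  obtain ⟨φ, hφ⟩ := exists_isFrobLoc l ⊥
  let U : Submodule F V :=
    { carrier := {v | ∀ t ∈ inertiaLoc l, ρ t v = v}
      add_mem' := fun ha hb t ht => by rw [map_add, ha t ht, hb t ht]
      zero_mem' := fun t _ => map_zero _
      smul_mem' := fun c _ ha t ht => by rw [map_smul, ha t ht] }
  -- evaluation at Frobenius
  let ev : Zur ρ →ₗ[F] U :=
    { toFun := fun c => ⟨c.1 φ, by
        intro t ht
        have h1 := c.2.1.2 t φ
        rw [c.2.2 t ht, add_zero] at h1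
        have h2 := c.2.1.2 φ (φ⁻¹ * t * φ)
        have h3 : φ⁻¹ * t * φ ∈ inertiaLoc l := by
          have := (normal_inertiaLoc (l := l)).conj_mem t ht φ⁻¹
          simpa using this
        rw [c.2.2 _ h3, map_zero, zero_add] at h2
        have h4 : φ * (φ⁻¹ * t * φ) = t * φ := by group
        rw [h4] at h2
        rw [← h1, h2]⟩
      map_add' := fun _ _ => rfl
      map_smul' := fun _ _ => rfl }
  have hev : Function.Injective ev := by
    rw [injective_iff_map_eq_zero]
    intro c hc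
    have hc0 : c.1 φ = 0 := congrArg Subtype.val hc
    have hpow : ∀ i : ℕ, c.1 (φ ^ i) = 0 := by
      intro i
      induction i with
      | zero => rw [pow_zero]; exact Z1.map_one c.2.1
      | succ i ih => rw [pow_succ, c.2.1.2, ih, hc0, map_zero, add_zero]
    obtain ⟨H, hH, hHc⟩ := c.2.1.1
    obtain ⟨E, hE, hEH⟩ := (mem_locLevels_iff l).1 hH
    apply Subtype.ext
    funext g
    show c.1 g = 0
    obtain ⟨i, h, hh, t, ht, -, rfl⟩ := hφ.exists_eq_mul E bot_le (g := g)
      (by rw [IntermediateField.fixingSubgroup_bot]; trivial)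
    rw [c.2.1.2, c.2.2 t ht, map_zero, zero_add, hHc _ _ (hEH hh), hpow]
  -- coboundaries
  let D : U →ₗ[F] Zur ρ :=
    { toFun := fun v => ⟨d0 ρ v, B1_le_Z1 hs ⟨v, rfl⟩, fun t ht => by
        show ρ t v.1 - v.1 = 0
        rw [v.2 t ht, sub_self]⟩
      map_add' := fun a b => Subtype.ext (map_add _ _ _)
      map_smul' := fun a b => Subtype.ext (map_smul _ _ _) }
  haveI : FiniteDimensional F (Zur ρ) := FiniteDimensional.of_injective ev hev
  have h1 : LinearMap.range D ≤ LinearMap.ker (Zur.q ρ) := by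
    rintro _ ⟨v, rfl⟩
    rw [LinearMap.mem_ker]
    exact H1.mk_eq_zero.2 ⟨v, rfl⟩
  have h2 := LinearMap.finrank_range_add_finrank_ker (Zur.q ρ)
  have h3 := LinearMap.finrank_range_add_finrank_ker D
  have h4 := Submodule.finrank_mono h1
  have h5 := LinearMap.finrank_le_finrank_of_injective hev
  have h6 : finrank F (LinearMap.ker D) ≤ finrank F W := by
    let e : LinearMap.ker D →ₗ[F] W :=
      { toFun := fun v => ⟨v.1.1, (hW _).2 fun g => by
          have h7 : D v.1 = 0 := v.2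
          have h8 : d0 ρ v.1.1 g = 0 := congrFun (congrArg (fun x => x.1) h7) g
          exact sub_eq_zero.1 h8⟩
        map_add' := fun _ _ => rfl
        map_smul' := fun _ _ => rfl }
    refine LinearMap.finrank_le_finrank_of_injective (f := e) ?_
    intro a b hab
    have h9 : (e a : V) = e b := congrArg Subtype.val hab
    exact Subtype.ext (Subtype.ext h9)
  rw [urCls]
  omega

end Ur

section Unip

variable {k : Type*} [Field k]

/-- solving `U m U⁻¹ - m = c` for a unipotent `U ≠ 1` -/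
theorem exists_solve_unipotent {U U' : M₂ k} (hUU' : U * U' = 1) (htr : U.trace = 2)
    (hdet : U.det = 1) (hne : U ≠ 1) {c : M₂ k} (hc : c.trace = 0) (hcU : (c * U).trace = 0) :
    ∃ m : M₂ k, c = U * m * U' - m := by
  set N : M₂ k := U - 1 with hN
  have hU : U = 1 + N := by rw [hN]; abel
  have hNN : N * N = 0 := by
    have h := mul_self_eq U
    rw [htr, hdet, one_smul] at h
    have : N * N = U * U - (2 : k) • U + 1 := by
      rw [hN, sub_mul, mul_sub, one_mul, mul_one, two_smul]; abel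
    rw [this, h]; abel
  obtain ⟨hNtr, hNdet⟩ := trace_zero_det_zero_of_sq hNN
  have hN0 : N ≠ 0 := fun h => hne (sub_eq_zero.1 h)
  -- `N'` with `N N' + N' N = 1`
  obtain ⟨N', hN'tr, hN'⟩ : ∃ N' : M₂ k, N'.trace = 0 ∧ (N * N').trace = 1 := by
    by_cases hb : N 0 1 = 0
    · by_cases hc' : N 1 0 = 0
      · exfalso
        apply hN0
        rw [Matrix.trace_fin_two] at hNtr
        rw [Matrix.det_fin_two, hb, zero_mul, sub_zero] at hNdet
        have h1 : N 1 1 = - N 0 0 := by linear_combination hNtr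
        rw [h1] at hNdet
        have h2 : N 0 0 = 0 := by
          have : N 0 0 * N 0 0 = 0 := by linear_combination -hNdet
          exact mul_self_eq_zero.1 this
        ext i j
        fin_cases i <;> fin_cases j <;> simp [h1, h2, hb, hc']
      · refine ⟨!![0, (N 1 0)⁻¹; 0, 0], by simp [Matrix.trace_fin_two], ?_⟩
        simp [Matrix.trace_fin_two, Matrix.mul_apply, Fin.sum_univ_two, hc']
    · refine ⟨!![0, 0; (N 0 1)⁻¹, 0], by simp [Matrix.trace_fin_two], ?_⟩
      simp [Matrix.trace_fin_two, Matrix.mul_apply, Fin.sum_univ_two, hb]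
  have h1 : N * N' + N' * N = 1 := by
    rw [mul_add_mul_of_trace_zero hNtr hN'tr, hN', one_smul]
  set d : M₂ k := c * U with hd
  have hdtr : d.trace = 0 := hcU
  have hcN : (c * N).trace = 0 := by
    have : c * N = c * U - c := by rw [hN, mul_sub, mul_one]
    rw [this, Matrix.trace_sub, hcU, hc, sub_zero]
  have hdN : (N * d).trace = 0 := by
    have : d * N = c * N := by
      rw [hd, mul_assoc, hU, add_mul, one_mul, hNN, add_zero]
    rw [Matrix.trace_mul_comm, this, hcN]
  have h2 : N * d + d * N = 0 := by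
    rw [mul_add_mul_of_trace_zero hNtr hdtr, hdN, zero_smul]
  refine ⟨N' * d, ?_⟩
  have h3 : N * (N' * d) - (N' * d) * N = d := by
    have : N * (N' * d) - (N' * d) * N = (N * N' + N' * N) * d - N' * (N * d + d * N) := by
      noncomm_ring
    rw [this, h1, h2, one_mul, mul_zero, sub_zero]
  have h4 : U * (N' * d) - (N' * d) * U = c * U := by
    rw [hU, add_mul, mul_add, one_mul, mul_one, ← hU, ← hd]
    rw [add_sub_add_left_eq_sub, h3]
  have h5 : (U * (N' * d) - (N' * d) * U) * U' = c := by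
    rw [h4, mul_assoc, hUU', mul_one]
  rw [sub_mul, mul_assoc (N' * d), hUU', mul_one] at h5
  exact h5.symm

/-- **Local analysis at `l ≠ p`** with non-trivial unipotent inertia. -/
theorem exists_coboundary_inertia {p : ℕ} [Fact p.Prime] [CharP k p] {l : ℕ} [Fact l.Prime]
    (hlp : l ≠ p) {r : GalLoc l →* M₂ k} {c : GalLoc l → M₂ k}
    (hcont : ∃ H ∈ locLevels l, ∀ s ∈ H, r s = 1 ∧ c s = 0)
    (hc : ∀ σ τ, c (σ * τ) = c σ + r σ * c τ * r σ⁻¹) (htr : ∀ σ, (c σ).trace = 0)
    (huni : ∀ σ ∈ inertiaLoc l, (r σ).trace = 2 ∧ (r σ).det = 1)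
    (htrc : ∀ σ ∈ inertiaLoc l, (c σ * r σ).trace = 0)
    (hne : ∃ σ ∈ inertiaLoc l, r σ ≠ 1) :
    ∃ m : M₂ k, ∀ σ ∈ inertiaLoc l, c σ = r σ * m * r σ⁻¹ - m := by
  obtain ⟨H, hH, hHrc⟩ := hcont
  obtain ⟨E, hE, hEH⟩ := (mem_locLevels_iff l).1 hH
  obtain ⟨τ, hτ, hgen⟩ := exists_tame_gen E
  have hc1 : c 1 = 0 := by
    have := hc 1 1
    rw [mul_one, map_one, inv_one, map_one, mul_one, one_mul] at this
    exact left_eq_add.1 this
  -- reduction to powers of `τ`
  have hred : ∀ σ ∈ inertiaLoc l, ∃ j : ℤ, r σ = r (τ ^ j) ∧ c σ = c (τ ^ j) := by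
    intro σ hσ
    obtain ⟨j, a, hja⟩ := hgen σ hσ
    refine ⟨j, ?_⟩
    set w := σ * (τ ^ j)⁻¹ with hw
    have hwI : w ∈ inertiaLoc l := mul_mem hσ (inv_mem (zpow_mem hτ j))
    obtain ⟨h1, h2⟩ := hHrc _ (hEH hja)
    have hrw : r w = 1 := by
      -- `r w` is unipotent, hence of order dividing `p`
      obtain ⟨ht, hd⟩ := huni w hwI
      set N : M₂ k := r w - 1 with hN
      have hU : r w = 1 + N := by rw [hN]; abel
      have hNN : N * N = 0 := by
        have h := mul_self_eq (r w)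
        rw [ht, hd, one_smul] at h
        have : N * N = r w * r w - (2 : k) • r w + 1 := by
          rw [hN, sub_mul, mul_sub, one_mul, mul_one, two_smul]; abel
        rw [this, h]; abel
      have hpow : ∀ n : ℕ, (r w) ^ n = 1 + (n : k) • N := by
        intro n
        induction n with
        | zero => simp
        | succ n ih =>
          rw [pow_succ, ih, hU, mul_add, mul_one, add_mul, one_mul, smul_mul_assoc, hNN,
            smul_zero, add_zero, Nat.cast_add, Nat.cast_one, add_smul, one_smul]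
          abel
      rw [map_pow, hpow] at h1
      have h3 : ((l ^ a : ℕ) : k) • N = 0 := add_eq_left.1 h1
      have h4 : ((l ^ a : ℕ) : k) ≠ 0 := by
        intro h
        rw [CharP.cast_eq_zero_iff k p] at h
        have := (Nat.prime_dvd_prime_iff_eq (Fact.out : p.Prime) (Fact.out : l.Prime)).1
          ((Fact.out : p.Prime).dvd_of_dvd_pow h)
        exact hlp this.symm
      rw [hU, (smul_eq_zero.1 h3).resolve_left h4, add_zero]
    have hcw : c w = 0 := by
      have hpow : ∀ n : ℕ, c (w ^ n) = (n : k) • c w := by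
        intro n
        induction n with
        | zero => rw [pow_zero, hc1]; simp
        | succ n ih =>
          have : r (w ^ n)⁻¹ = 1 := by
            have h5 : r (w ^ n)⁻¹ * r (w ^ n) = 1 := by rw [← map_mul, inv_mul_cancel, map_one]
            rwa [map_pow, hrw, one_pow, mul_one] at h5
          rw [pow_succ, hc, ih, map_pow, hrw, one_pow, one_mul, this, mul_one, Nat.cast_add,
            Nat.cast_one, add_smul, one_smul]
      rw [hpow] at h2
      refine (smul_eq_zero.1 h2).resolve_left ?_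
      intro h
      rw [CharP.cast_eq_zero_iff k p] at h
      have := (Nat.prime_dvd_prime_iff_eq (Fact.out : p.Prime) (Fact.out : l.Prime)).1
        ((Fact.out : p.Prime).dvd_of_dvd_pow h)
      exact hlp this.symm
    have hσw : σ = w * τ ^ j := by rw [hw]; group
    have hrw' : r w⁻¹ = 1 := by
      have h5 : r w⁻¹ * r w = 1 := by rw [← map_mul, inv_mul_cancel, map_one]
      rwa [hrw, mul_one] at h5
    constructor
    · rw [hσw, map_mul, hrw, one_mul]
    · rw [hσw, hc, hcw, hrw, hrw', one_mul, mul_one, zero_add]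
  -- `r τ ≠ 1`
  have hτ1 : r τ ≠ 1 := by
    intro h
    obtain ⟨σ, hσ, hσne⟩ := hne
    obtain ⟨j, hj, -⟩ := hred σ hσ
    apply hσne
    have h1 : ∀ j : ℤ, r (τ ^ j) = 1 := by
      intro j
      let r' : Subgroup.zpowers τ →* M₂ k := r.comp (Subgroup.zpowers τ).subtype
      obtain ⟨n, rfl | rfl⟩ := j.eq_nat_or_neg
      · rw [zpow_natCast, map_pow, h, one_pow]
      · rw [_root_.zpow_neg, zpow_natCast]
        have h5 : r (τ ^ n)⁻¹ * r (τ ^ n) = 1 := by rw [← map_mul, inv_mul_cancel, map_one]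
        rwa [map_pow, h, one_pow, mul_one] at h5
    rw [hj, h1]
  obtain ⟨m, hm⟩ := exists_solve_unipotent (U := r τ) (U' := r τ⁻¹)
    (by rw [← map_mul, mul_inv_cancel, map_one]) (huni τ hτ).1 (huni τ hτ).2 hτ1 (htr τ)
    (htrc τ hτ)
  refine ⟨m, fun σ hσ => ?_⟩
  -- the cocycle `c - dm` vanishes on powers of `τ`
  have hsub : ∀ j : ℤ, c (τ ^ j) = r (τ ^ j) * m * r (τ ^ j)⁻¹ - m := by
    have hnat : ∀ n : ℕ, c (τ ^ n) = r (τ ^ n) * m * r (τ ^ n)⁻¹ - m := by
      intro n
      induction n with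
      | zero => rw [pow_zero, hc1, inv_one, map_one]; simp
      | succ n ih =>
        rw [pow_succ, hc, ih, hm, _root_.mul_inv_rev, map_mul, map_mul]
        noncomm_ring
    intro j
    obtain ⟨n, rfl | rfl⟩ := j.eq_nat_or_neg
    · rw [zpow_natCast]; exact hnat n
    · rw [_root_.zpow_neg, zpow_natCast, inv_inv]
      have h6 := hc (τ ^ n)⁻¹ (τ ^ n)
      rw [inv_mul_cancel, hc1, inv_inv, hnat] at h6
      have h7 : r (τ ^ n)⁻¹ * r (τ ^ n) = 1 := by rw [← map_mul, inv_mul_cancel, map_one]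
      have h8 : r (τ ^ n)⁻¹ * (r (τ ^ n) * m * r (τ ^ n)⁻¹ - m) * r (τ ^ n) =
          m - r (τ ^ n)⁻¹ * m * r (τ ^ n) := by
        rw [mul_sub, sub_mul]
        have : r (τ ^ n)⁻¹ * (r (τ ^ n) * m * r (τ ^ n)⁻¹) * r (τ ^ n) =
            (r (τ ^ n)⁻¹ * r (τ ^ n)) * m * (r (τ ^ n)⁻¹ * r (τ ^ n)) := by
          noncomm_ring
        rw [this, h7, one_mul, mul_one]
      rw [h8] at h6
      have := eq_neg_of_add_eq_zero_left h6.symm
      rw [this]; abel
  obtain ⟨j, hj1, hj2⟩ := hred σ hσ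
  have hj3 : r σ⁻¹ = r (τ ^ j)⁻¹ := by
    have h1 : r σ⁻¹ * r σ = 1 := by rw [← map_mul, inv_mul_cancel, map_one]
    have h2 : r (τ ^ j) * r (τ ^ j)⁻¹ = 1 := by rw [← map_mul, mul_inv_cancel, map_one]
    calc r σ⁻¹ = r σ⁻¹ * (r (τ ^ j) * r (τ ^ j)⁻¹) := by rw [h2, mul_one]
      _ = r σ⁻¹ * r σ * r (τ ^ j)⁻¹ := by rw [hj1, mul_assoc]
      _ = r (τ ^ j)⁻¹ := by rw [h1, one_mul]
  rw [hj2, hj1, hj3, hsub]

end Unip

end Fermat.Agent.TW
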