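import Fermat.Agent.TW.Unipotent
import Mathlib.LinearAlgebra.Basis.VectorSpace
import Mathlib.LinearAlgebra.Dual.Lemmas
import Mathlib.Algebra.CharP.Lemmas
import Mathlib.LinearAlgebra.Matrix.CharP

/-!
# Cocycles vanishing on semisimple elements are coboundaries
-/

set_option autoImplicit false

namespace Fermat.Agent.TW

open Matrix

local notation "M₂" => Matrix (Fin 2) (Fin 2)

variable {k : Type*} [Field k] {G : Type*} [Group G]
variable {ρ : G →* M₂ k} {χ : G →* k} {ψ : G → M₂ k} {H : Subgroup G}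

/-- the square of an element of trace `±2` is unipotent -/
theorem sq_unip {ρ : G →* M₂ k} {h : G} (hd : (ρ h).det = 1) (ht2 : (ρ h).trace ^ 2 = 4) :
    ∃ N : M₂ k, ρ (h * h) = 1 + N ∧ N * N = 0 := by
  set t := (ρ h).trace with ht
  have hsq : ρ h * ρ h = t • ρ h - (1 : M₂ k) := by
    rw [mul_self_eq, hd, one_smul]
  refine ⟨t • ρ h - (2 : k) • (1 : M₂ k), ?_, ?_⟩
  · rw [map_mul, hsq]
    have : (2 : k) • (1 : M₂ k) = 1 + 1 := by rw [two_smul]
    rw [this]; abel
  · have e1 : (t • ρ h - (2 : k) • (1 : M₂ k)) * (t • ρ h - (2 : k) • (1 : M₂ k)) =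
        (t ^ 2) • (ρ h * ρ h) - (4 * t) • ρ h + (4 : k) • (1 : M₂ k) := by
      rw [sub_mul, mul_sub, mul_sub]
      simp only [smul_mul_assoc, mul_smul_comm, smul_smul, mul_one, one_mul]
      rw [show (4 * t) • ρ h = (t * 2) • ρ h + (2 * t) • ρ h by rw [← add_smul]; congr 1; ring,
        show t ^ 2 = t * t by ring, show (4 : k) = 2 * 2 by norm_num]
      abel
    rw [e1, ht2, hsq, smul_sub, smul_smul]
    abel

theorem comm_sub_smul {A X : M₂ k} (c : k) (h : A * X = X * A) :
    (A - c • (1 : M₂ k)) * X = X * (A - c • (1 : M₂ k)) := by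
  rw [sub_mul, mul_sub, h, smul_mul_assoc, mul_smul_comm, one_mul, mul_one]

/-- a derivation of `M₂(k)` is inner -/
theorem inner_of_derivation (D : M₂ k →ₗ[k] M₂ k)
    (hD : ∀ X Y, D (X * Y) = D X * Y + X * D Y) : ∃ m : M₂ k, ∀ X, D X = m * X - X * m := by
  refine ⟨∑ i, D (Matrix.single i 0 1) * Matrix.single 0 i 1, fun X => ?_⟩
  rw [Finset.sum_mul, Finset.mul_sum]
  have h1 : ∀ i, X * (D (Matrix.single i 0 1) * Matrix.single 0 i 1) =
      D (X * Matrix.single i 0 1) * Matrix.single 0 i 1 - D X * Matrix.single i i 1 := by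
    intro i
    rw [hD, add_mul, mul_assoc (D X), Matrix.single_mul_single_same, mul_one, mul_assoc X]
    abel
  simp only [h1]
  have h2 : ∀ i, X * Matrix.single i 0 (1 : k) =
      ∑ j, X j i • (Matrix.single j 0 (1 : k) : M₂ k) := by
    intro i
    ext a b
    fin_cases a <;> fin_cases b <;> fin_cases i <;>
      simp [Matrix.mul_apply, Fin.sum_univ_two, Matrix.single]
  have h3 : ∀ i, D (X * Matrix.single i 0 (1 : k)) * Matrix.single 0 i (1 : k) =
      ∑ j, X j i • (D (Matrix.single j 0 (1 : k)) * Matrix.single 0 i (1 : k)) := by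
    intro i
    rw [h2, map_sum, Finset.sum_mul]
    refine Finset.sum_congr rfl fun j _ => ?_
    rw [map_smul, smul_mul_assoc]
  have h4 : ∀ j, D (Matrix.single j 0 (1 : k)) * Matrix.single 0 j (1 : k) * X =
      ∑ i, X j i • (D (Matrix.single j 0 (1 : k)) * Matrix.single 0 i (1 : k)) := by
    intro j
    rw [mul_assoc]
    have : (Matrix.single 0 j (1 : k) : M₂ k) * X = ∑ i, X j i • Matrix.single 0 i (1 : k) := by
      ext a b
      fin_cases a <;> fin_cases b <;> fin_cases j <;>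
        simp [Matrix.mul_apply, Fin.sum_univ_two, Matrix.single]
    rw [this, Finset.mul_sum]
    refine Finset.sum_congr rfl fun i _ => ?_
    rw [mul_smul_comm]
  simp only [h3, h4, Finset.sum_sub_distrib]
  rw [Finset.sum_comm, ← Finset.mul_sum]
  have h5 : ∑ i, Matrix.single i i (1 : k) = (1 : M₂ k) := by
    ext a b
    fin_cases a <;> fin_cases b <;> simp [Fin.sum_univ_two, Matrix.single]
  rw [h5, mul_one]
  abel

theorem nilp_sq {N : M₂ k} {n : ℕ} (h : N ^ n = 0) : N * N = 0 := by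
  have hd : N.det = 0 := by
    have := congrArg Matrix.det h
    rw [Matrix.det_pow, Matrix.det_zero] at this
    exact pow_eq_zero_iff (by
      rintro rfl
      simp at this) |>.1 this
  have h2 := mul_self_eq N
  rw [hd, zero_smul, sub_zero] at h2
  by_cases ht : N.trace = 0
  · rw [h2, ht, zero_smul]
  · have h3 : ∀ m : ℕ, N ^ (m + 1) = N.trace ^ m • N := by
      intro m
      induction m with
      | zero => simp
      | succ m ih => rw [pow_succ, ih, smul_mul_assoc, h2, smul_smul, pow_succ]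
    cases n with
    | zero =>
      rw [pow_zero] at h
      have := congrFun (congrFun h 0) 0
      simp at this
    | succ m =>
      rw [h3] at h
      have : N = 0 := (smul_eq_zero.1 h).resolve_left (pow_ne_zero _ ht)
      rw [this, mul_zero]

namespace Std

variable (S : Std ρ χ ψ H)
include S

/-- **Step 4**: `T = 0` on `H`. -/
theorem TT_zero {p : ℕ} (hp : p.Prime) [CharP k p] (h5 : p = 5 → ∃ g, χ g = 2) {h : G}
    (hh : h ∈ H) : TT ρ ψ h = 0 := by
  by_cases ht : (ρ h).trace ^ 2 = 4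
  · obtain ⟨N, hN, hNN⟩ := sq_unip (S.hT.detH h hh) ht
    have h1 := S.TT_unip hp h5 (H.mul_mem hh hh) hN hNN
    have h2 := S.TT_add hh h
    rw [h1, inv_mul_cancel, S.coc.TT_one] at h2
    have h3 : 2 * ((ρ h).trace * TT ρ ψ h) = 0 := by linear_combination -h2
    have h4 := (mul_eq_zero.1 h3).resolve_left S.hT.two_ne
    refine (mul_eq_zero.1 h4).resolve_left ?_
    intro h0
    rw [h0] at ht
    have : (2 : k) * 2 = 0 := by linear_combination -ht
    exact S.hT.two_ne (mul_self_eq_zero.1 this)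
  · exact S.van h hh ht

/-- non-degeneracy -/
theorem nondeg {u : G} (hu : u ∈ H) {N : M₂ k} (hN : ρ u = 1 + N) (hN0 : N ≠ 0) (hNN : N * N = 0)
    {z : M₂ k} (hz : ∀ h ∈ H, (z * ρ h).trace = 0) : z = 0 := by
  obtain ⟨w, hw, hc⟩ := S.hT.exists_trace_ne hu hN hN0 hNN
  obtain ⟨htr, hdet⟩ := trace_zero_det_zero_of_sq hNN
  set W := ρ w with hW
  set c := (N * W).trace with hcdef
  set t := W.trace with htdef
  have hI : c • (1 : M₂ k) = N * W + W * N - t • N := by
    have := mul_add_mul_eq N W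
    rw [htr, zero_smul, zero_add, zero_mul, sub_zero] at this
    rw [this]; abel
  have hNu : N = ρ u - 1 := by rw [hN]; abel
  have q0 : (z * N).trace = 0 := by
    rw [hNu, mul_sub, mul_one, Matrix.trace_sub, hz u hu]
    have := hz 1 H.one_mem
    rw [map_one, mul_one] at this
    rw [this, sub_zero]
  have q1 : (z * (N * W)).trace = 0 := by
    have : N * W = ρ (u * w) - ρ w := by rw [map_mul, hN, add_mul, one_mul]; abel
    rw [this, mul_sub, Matrix.trace_sub, hz _ (H.mul_mem hu hw), hz _ hw, sub_zero]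
  have q2 : (z * (W * N)).trace = 0 := by
    have : W * N = ρ (w * u) - ρ w := by rw [map_mul, hN, mul_add, mul_one]; abel
    rw [this, mul_sub, Matrix.trace_sub, hz _ (H.mul_mem hw hu), hz _ hw, sub_zero]
  have q3 : (z * (W * N * W)).trace = 0 := by
    have : W * N * W = ρ (w * u * w) - ρ (w * w) := by
      rw [map_mul, map_mul, map_mul, hN, mul_add, mul_one, add_mul]; abel
    rw [this, mul_sub, Matrix.trace_sub, hz _ (H.mul_mem (H.mul_mem hw hu) hw),
      hz _ (H.mul_mem hw hw), sub_zero]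
  have r0 : N * z * N = 0 := by
    rw [mul_mul_self_of_det_zero hdet, Matrix.trace_mul_comm, q0, zero_smul]
  have r1 : N * (z * W) * N = 0 := by
    rw [mul_mul_self_of_det_zero hdet, Matrix.trace_mul_comm, mul_assoc, q2, zero_smul]
  have r2 : N * (W * z) * N = 0 := by
    rw [mul_mul_self_of_det_zero hdet, ← mul_assoc, Matrix.trace_mul_comm, q1, zero_smul]
  have r3 : N * (W * z * W) * N = 0 := by
    rw [mul_mul_self_of_det_zero hdet]
    have : (N * (W * z * W)).trace = (z * (W * N * W)).trace := by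
      rw [Matrix.trace_mul_comm]
      rw [show W * z * W * N = W * (z * (W * N)) by simp only [mul_assoc], Matrix.trace_mul_comm]
      simp only [mul_assoc]
    rw [this, q3, zero_smul]
  have s1 : N * z = 0 := by
    have : c • (N * z) = 0 := by
      have e : c • (N * z) = N * z * (c • (1 : M₂ k)) := by rw [mul_smul_comm, mul_one]
      rw [e, hI, mul_sub, mul_add, mul_smul_comm, r0]
      have e1 : N * z * (N * W) = (N * z * N) * W := by simp only [mul_assoc]
      have e2 : N * z * (W * N) = N * (z * W) * N := by simp only [mul_assoc]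
      rw [e1, e2, r0, r1]; simp
    exact (smul_eq_zero.1 this).resolve_left hc
  have s2 : N * W * z = 0 := by
    have : c • (N * W * z) = 0 := by
      have e : c • (N * W * z) = N * W * z * (c • (1 : M₂ k)) := by rw [mul_smul_comm, mul_one]
      rw [e, hI, mul_sub, mul_add, mul_smul_comm]
      have e1 : N * W * z * (N * W) = (N * (W * z) * N) * W := by simp only [mul_assoc]
      have e2 : N * W * z * (W * N) = N * (W * z * W) * N := by simp only [mul_assoc]
      have e3 : N * W * z * N = N * (W * z) * N := by simp only [mul_assoc]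
      rw [e1, e2, e3, r2, r3]; simp
    exact (smul_eq_zero.1 this).resolve_left hc
  have : c • z = 0 := by
    have e : c • z = c • (1 : M₂ k) * z := by rw [smul_mul_assoc, one_mul]
    rw [e, hI, sub_mul, add_mul, s2, smul_mul_assoc, s1, mul_assoc, s1]; simp
  exact (smul_eq_zero.1 this).resolve_left hc

/-- **Step 5A** -/
theorem cobound_A (hT0 : ∀ h ∈ H, TT ρ ψ h = 0)
    {u : G} (hu : u ∈ H) {N : M₂ k} (hN : ρ u = 1 + N) (hN0 : N ≠ 0) (hNN : N * N = 0) :
    ∃ m : M₂ k, ∀ h ∈ H, ψ h = ρ h * m * ρ h⁻¹ - m := by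
  classical
  let L : H → M₂ k := fun h => ψ h * ρ h
  have hLmul : ∀ h h' : H, L (h * h') = L h * ρ h' + ρ h * L h' := by
    intro h h'
    simp only [L]
    rw [Subgroup.coe_mul, S.coc.mul_of_chi (S.chiH h h.2), map_mul, add_mul]
    congr 1
    · rw [mul_assoc]
    · simp only [mul_assoc]
      rw [← mul_assoc (ρ (h : G)⁻¹), map_inv_mul, one_mul]
  have hLtr : ∀ h : H, (L h).trace = 0 := fun h => hT0 h h.2
  let Φ : (H →₀ k) →ₗ[k] M₂ k := Finsupp.linearCombination k (fun h : H => ρ h)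
  let Λ : (H →₀ k) →ₗ[k] M₂ k := Finsupp.linearCombination k L
  have hΦs : ∀ h : H, Φ (Finsupp.single h 1) = ρ h := by intro h; simp [Φ]
  have hΛs : ∀ h : H, Λ (Finsupp.single h 1) = L h := by intro h; simp [Λ]
  -- surjectivity
  have hsurj : LinearMap.range Φ = ⊤ := by
    by_contra hne
    obtain ⟨f, hf0, hf⟩ := Submodule.exists_le_ker_of_lt_top _ (lt_top_iff_ne_top.2 hne)
    let z : M₂ k := Matrix.of fun i j => f (Matrix.single j i 1)
    have hfz : ∀ X, f X = (z * X).trace := by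
      intro X
      have hX : X = X 0 0 • Matrix.single 0 0 (1 : k) + X 0 1 • Matrix.single 0 1 (1 : k) +
          X 1 0 • Matrix.single 1 0 (1 : k) + X 1 1 • Matrix.single 1 1 (1 : k) := by
        ext a b
        fin_cases a <;> fin_cases b <;> simp [Matrix.single]
      conv_lhs => rw [hX]
      rw [map_add, map_add, map_add, map_smul, map_smul, map_smul, map_smul]
      simp only [Matrix.trace_fin_two, Matrix.mul_apply, Fin.sum_univ_two, z, Matrix.of_apply,
        smul_eq_mul]
      ring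
    apply hf0
    have hz : z = 0 := by
      apply S.nondeg hu hN hN0 hNN
      intro h hh
      rw [← hfz]
      have : ρ h ∈ LinearMap.range Φ := ⟨Finsupp.single ⟨h, hh⟩ 1, hΦs ⟨h, hh⟩⟩
      exact hf this
    ext X
    rw [hfz, hz]; simp
  -- kernel inclusion
  have hker : ∀ x, Φ x = 0 → Λ x = 0 := by
    intro x hx
    apply S.nondeg hu hN hN0 hNN
    intro h' hh'
    have hlin : ∀ y : H →₀ k, (Λ y * ρ h').trace = - (Φ y * L ⟨h', hh'⟩).trace := by
      intro y
      induction y using Finsupp.induction_linear with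
      | zero => simp
      | add a b ha hb =>
        rw [map_add, map_add, add_mul, add_mul, Matrix.trace_add, Matrix.trace_add, ha, hb]; ring
      | single a b =>
        have e1 : Finsupp.single a b = b • Finsupp.single a (1 : k) := by simp
        rw [e1, map_smul, map_smul, hΦs, hΛs, smul_mul_assoc, smul_mul_assoc, Matrix.trace_smul,
          Matrix.trace_smul]
        have h1 := hLtr (a * ⟨h', hh'⟩)
        rw [hLmul, Matrix.trace_add] at h1
        have h2 : (L a * ρ h').trace = - (ρ a * L ⟨h', hh'⟩).trace := by linear_combination h1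
        rw [h2]; simp
    rw [hlin, hx]; simp
  obtain ⟨s, hs⟩ := Φ.exists_rightInverse_of_surjective hsurj
  let D : M₂ k →ₗ[k] M₂ k := Λ ∘ₗ s
  have hDΦ : ∀ x, D (Φ x) = Λ x := by
    intro x
    have h1 : Φ (s (Φ x)) = Φ x := by
      have := congrArg (fun f => f (Φ x)) hs
      simpa using this
    have h2 : Φ (s (Φ x) - x) = 0 := by rw [map_sub, h1, sub_self]
    have h3 := hker _ h2
    rw [map_sub, sub_eq_zero] at h3
    exact h3
  have hDρ : ∀ h : H, D (ρ h) = L h := by
    intro h; rw [← hΦs h, hDΦ, hΛs]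
  have hsur : ∀ X : M₂ k, ∃ x, Φ x = X := fun X => by
    have : X ∈ LinearMap.range Φ := by rw [hsurj]; trivial
    exact this
  have hD1 : ∀ (X : M₂ k) (h' : H), D (X * ρ h') = D X * ρ h' + X * L h' := by
    intro X h'
    obtain ⟨x, rfl⟩ := hsur X
    induction x using Finsupp.induction_linear with
    | zero => simp
    | add a b ha hb =>
      rw [map_add, add_mul, map_add, ha, hb, map_add, add_mul, add_mul]; abel
    | single a b =>
      have e1 : Finsupp.single a b = b • Finsupp.single a (1 : k) := by simp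
      rw [e1, map_smul, hΦs, smul_mul_assoc, map_smul, map_smul, ← map_mul, ← Subgroup.coe_mul,
        hDρ, hDρ, hLmul, smul_mul_assoc, smul_mul_assoc, smul_add]
  have hD2 : ∀ X Y, D (X * Y) = D X * Y + X * D Y := by
    intro X Y
    obtain ⟨y, rfl⟩ := hsur Y
    induction y using Finsupp.induction_linear with
    | zero => simp
    | add a b ha hb =>
      rw [map_add, mul_add, map_add, ha, hb, map_add, mul_add, mul_add]; abel
    | single a b =>
      have e1 : Finsupp.single a b = b • Finsupp.single a (1 : k) := by simp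
      rw [e1, map_smul, hΦs, mul_smul_comm, map_smul, map_smul, hD1, hDρ, mul_smul_comm,
        mul_smul_comm, smul_add]
  obtain ⟨m, hm⟩ := inner_of_derivation D hD2
  refine ⟨-m, fun h hh => ?_⟩
  have h1 : ψ h * ρ h = m * ρ h - ρ h * m := by
    have := hDρ ⟨h, hh⟩
    rw [hm] at this
    exact this.symm
  have h2 := congrArg (fun X => X * ρ h⁻¹) h1
  simp only [sub_mul, mul_assoc, map_mul_inv, mul_one] at h2
  rw [h2]
  simp only [mul_neg, neg_mul, mul_assoc]
  abel

/-- **Step 5B** -/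
theorem cobound_B [Finite k] {p : ℕ} (hp : p.Prime) [CharP k p]
    (hnu : ∀ u ∈ H, ∀ N : M₂ k, ρ u = 1 + N → N * N = 0 → N = 0) :
    ∃ m : M₂ k, ∀ h ∈ H, ψ h = ρ h * m * ρ h⁻¹ - m := by
  classical
  have : Fintype k := Fintype.ofFinite k
  have : Fact p.Prime := ⟨hp⟩
  let φ : H →* (M₂ k)ˣ := (ρ.comp H.subtype).toHomUnits
  have hφ : ∀ h : H, ((φ h : (M₂ k)ˣ) : M₂ k) = ρ h := fun h => rfl
  have hcard : ¬ p ∣ Nat.card φ.range := by
    intro hdvd
    obtain ⟨x, hx⟩ := exists_prime_orderOf_dvd_card' p hdvd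
    obtain ⟨h, hh⟩ := x.2
    have h1 : ρ h ^ p = 1 := by
      have h2 : (x : (M₂ k)ˣ) ^ p = 1 := by
        have := pow_orderOf_eq_one x
        rw [hx] at this
        exact_mod_cast congrArg Subtype.val this
      rw [← hh] at h2
      have h3 := congrArg (fun y : (M₂ k)ˣ => (y : M₂ k)) h2
      simpa [hφ] using h3
    have h4 : (ρ h - 1) ^ p = 0 := by
      rw [sub_pow_char_of_commute (p := p) (h := Commute.one_right (ρ (h : G))), h1, one_pow,
        sub_self]
    have h5 := nilp_sq h4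
    have h6 := hnu h h.2 (ρ h - 1) (by abel) h5
    have h7 : x = 1 := by
      apply Subtype.ext
      apply Units.ext
      rw [← hh, hφ, sub_eq_zero.1 h6]
      rfl
    rw [h7, orderOf_one] at hx
    exact hp.one_lt.ne hx
  -- sum over the range
  have hsec : ∀ q : φ.range, ∃ h : H, φ h = q := fun q => q.2
  choose sec hsec' using hsec
  let m0 : M₂ k := ∑ q : φ.range, ψ (sec q)
  have hm0 : ∀ g : H, m0 = (Nat.card φ.range : k) • ψ g + ρ g * m0 * ρ (g : G)⁻¹ := by
    intro g
    let e : φ.range ≃ φ.range := Equiv.mulLeft ⟨φ g, ⟨g, rfl⟩⟩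
    have h1 : m0 = ∑ q : φ.range, ψ (sec (e q)) := (Equiv.sum_comp e (fun q => ψ (sec q))).symm
    have h2 : ∀ q : φ.range, ψ (sec (e q)) = ψ g + ρ g * ψ (sec q) * ρ (g : G)⁻¹ := by
      intro q
      rw [← S.coc.mul_of_chi (S.chiH g g.2)]
      apply S.psi_congr (sec (e q)).2 (H.mul_mem g.2 (sec q).2)
      rw [← hφ, hsec', map_mul, ← hφ, ← hφ, hsec']
      rfl
    calc m0 = ∑ q : φ.range, ψ (sec (e q)) := h1
      _ = ∑ q : φ.range, (ψ g + ρ g * ψ (sec q) * ρ (g : G)⁻¹) := Finset.sum_congr rfl fun q _ => h2 q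
      _ = _ := by
        rw [Finset.sum_add_distrib, Finset.sum_const, Finset.card_univ, ← Nat.card_eq_fintype_card,
          ← Finset.sum_mul, ← Finset.mul_sum, Nat.cast_smul_eq_nsmul]
  have hc : (Nat.card φ.range : k) ≠ 0 := by
    intro h; exact hcard ((CharP.cast_eq_zero_iff k p _).1 h)
  refine ⟨-((Nat.card φ.range : k)⁻¹ • m0), fun h hh => ?_⟩
  have h1 := hm0 ⟨h, hh⟩
  have h2 : ψ h = (Nat.card φ.range : k)⁻¹ • (m0 - ρ h * m0 * ρ h⁻¹) := by
    have h3 : m0 - ρ h * m0 * ρ h⁻¹ = (Nat.card φ.range : k) • ψ h := sub_eq_iff_eq_add.2 h1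
    rw [h3, smul_smul, inv_mul_cancel₀ hc, one_smul]
  rw [h2]
  simp only [mul_neg, neg_mul, mul_smul_comm, smul_mul_assoc, smul_sub]
  abel

/-- **Step 6**: from `H` to `G`. -/
theorem cobound_G {m : M₂ k} (hm : ∀ h ∈ H, ψ h = ρ h * m * ρ h⁻¹ - m) :
    ∃ m : M₂ k, m.trace = 0 ∧ ∀ g, ψ g = χ g • (ρ g * m * ρ g⁻¹) - m := by
  have h2 := S.hT.two_ne
  -- make `m` trace free
  obtain ⟨m, hmtr, hm⟩ : ∃ m : M₂ k, m.trace = 0 ∧ ∀ h ∈ H, ψ h = ρ h * m * ρ h⁻¹ - m := by
    refine ⟨m - (m.trace / 2) • (1 : M₂ k), ?_, fun h hh => ?_⟩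
    · rw [Matrix.trace_sub, Matrix.trace_smul, Matrix.trace_one, Fintype.card_fin, smul_eq_mul]
      push_cast
      field_simp
      ring
    · rw [hm h hh, mul_sub, sub_mul, mul_smul_comm, mul_one, smul_mul_assoc, map_mul_inv]
      abel
  refine ⟨m, hmtr, ?_⟩
  obtain ⟨σ0, hσ0, hss⟩ := S.hT.exists_semisimple
  set c := (ρ σ0).trace / 2 with hc
  set a0 : M₂ k := ρ σ0 - c • (1 : M₂ k) with ha0
  have ha0tr : a0.trace = 0 := by
    rw [ha0, Matrix.trace_sub, Matrix.trace_smul, Matrix.trace_one, Fintype.card_fin, smul_eq_mul,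
      hc]
    push_cast
    field_simp
    ring
  have ha00 : a0 ≠ 0 := by
    intro h0
    apply hss
    have h1 : ρ σ0 = c • (1 : M₂ k) := sub_eq_zero.1 h0
    have h3 := S.hT.detH σ0 hσ0
    rw [h1, Matrix.det_smul, Matrix.det_one, Fintype.card_fin, mul_one] at h3
    have h4 : (ρ σ0).trace = 2 * c := by rw [hc]; field_simp
    rw [h4]; linear_combination 4 * h3
  -- the modified cocycle
  let ψ' : G → M₂ k := fun g => ψ g - (χ g • (ρ g * m * ρ g⁻¹) - m)
  have hψ'mul : ∀ g h, ψ' (g * h) = ψ' g + χ g • (ρ g * ψ' h * ρ g⁻¹) := by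
    intro g h
    simp only [ψ']
    rw [S.coc.mul, map_mul, map_mul, _root_.mul_inv_rev, map_mul, mul_sub, mul_sub, sub_mul, sub_mul,
      smul_sub, smul_sub, mul_smul_comm, smul_mul_assoc, smul_smul]
    simp only [mul_assoc]
    abel
  have hψ'H : ∀ h ∈ H, ψ' h = 0 := by
    intro h hh
    simp only [ψ']
    rw [hm h hh, S.chiH h hh, one_smul, sub_self]
  have hψ'tr : ∀ g, (ψ' g).trace = 0 := by
    intro g
    simp only [ψ']
    rw [Matrix.trace_sub, Matrix.trace_sub, Matrix.trace_smul, Matrix.trace_mul_comm, ← mul_assoc,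
      map_inv_mul, one_mul, hmtr, S.coc.tr]
    simp
  have hcomm : ∀ g, ∀ h ∈ H, ρ h * ψ' g = ψ' g * ρ h := by
    intro g h hh
    have e1 : ψ' (h * g) = ρ h * ψ' g * ρ h⁻¹ := by
      rw [hψ'mul, hψ'H h hh, S.chiH h hh, one_smul, zero_add]
    have e2 : ψ' (h * g) = ψ' g := by
      have h3 : h * g = g * (g⁻¹ * h * g) := by group
      have h4 : g⁻¹ * h * g ∈ H := by
        have := S.hT.conj_mem g⁻¹ hh
        rwa [inv_inv] at this
      rw [h3, hψ'mul, hψ'H _ h4, mul_zero, zero_mul, smul_zero, add_zero]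
    have e3 := e1.symm.trans e2
    have e4 := congrArg (fun X => X * ρ h) e3
    simp only [mul_assoc, map_inv_mul, mul_one] at e4
    exact e4
  intro g
  have hz : ψ' g = 0 := by
    by_contra hz
    set z := ψ' g with hzdef
    -- a0 is a multiple of z
    have hz0 : z * a0 = a0 * z := (comm_sub_smul c (hcomm g σ0 hσ0)).symm
    obtain ⟨l, hl⟩ := exists_smul_of_comm h2 (hψ'tr g) ha0tr hz hz0
    have hl0 : l ≠ 0 := by
      intro h0; rw [h0, zero_smul] at hl; exact ha00 hl
    have hline : ∀ x, ∃ e : k, ρ x * z = e • (z * ρ x) := by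
      intro x
      have hc1 : ∀ h ∈ H, ρ h * (ρ x * z * ρ x⁻¹) = (ρ x * z * ρ x⁻¹) * ρ h := by
        intro h hh
        have h4 : x⁻¹ * h * x ∈ H := by
          have := S.hT.conj_mem x⁻¹ hh
          rwa [inv_inv] at this
        have h5 := hcomm g _ h4
        rw [map_mul, map_mul] at h5
        have h6 := congrArg (fun X => ρ x * X * ρ x⁻¹) h5
        simp only [mul_assoc, map_mul_inv, mul_one] at h6
        rw [← mul_assoc (ρ x) (ρ x⁻¹), map_mul_inv, one_mul] at h6
        simp only [mul_assoc]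
        exact h6
      have hc2 : z * (ρ x * z * ρ x⁻¹) = (ρ x * z * ρ x⁻¹) * z := by
        have h7 : z = l⁻¹ • a0 := by rw [hl, smul_smul, inv_mul_cancel₀ hl0, one_smul]
        have h8 : a0 * (ρ x * z * ρ x⁻¹) = (ρ x * z * ρ x⁻¹) * a0 := comm_sub_smul c (hc1 σ0 hσ0)
        conv_lhs => lhs; rw [h7]
        conv_rhs => rhs; rw [h7]
        rw [smul_mul_assoc, mul_smul_comm, h8]
      have htr : (ρ x * z * ρ x⁻¹).trace = 0 := by
        rw [Matrix.trace_mul_comm, ← mul_assoc, map_inv_mul, one_mul]; exact hψ'tr g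
      obtain ⟨e, he⟩ := exists_smul_of_comm h2 (hψ'tr g) htr hz hc2
      refine ⟨e, ?_⟩
      have h9 := congrArg (fun X => X * ρ x) he
      simp only [mul_assoc, map_inv_mul, mul_one, smul_mul_assoc] at h9
      exact h9
    choose e he using hline
    exact S.hT.no_line hz (hψ'tr g) e he
  have := sub_eq_zero.1 hz
  exact this

end Std

/-- **Existence of Taylor-Wiles elements** (group-theoretic form). Either there is `σ ∈ H` with
`ρ(σ)` semisimple non-scalar and non-zero infinitesimal trace, or `ψ` is a coboundary. -/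
theorem exists_tw_element [Finite k] {p : ℕ} (hp : p.Prime) [CharP k p]
    (hT : TWHyp ρ H) (hψ : IsCoc ρ χ ψ) (hχ : ∀ h ∈ H, χ h = 1) (h5 : p = 5 → ∃ g, χ g = 2) :
    (∃ σ ∈ H, (ρ σ).trace ^ 2 ≠ 4 ∧ (ψ σ * ρ σ).trace ≠ 0) ∨
      ∃ m : M₂ k, m.trace = 0 ∧ ∀ g, ψ g = χ g • (ρ g * m * ρ g⁻¹) - m := by
  by_cases hex : ∃ σ ∈ H, (ρ σ).trace ^ 2 ≠ 4 ∧ (ψ σ * ρ σ).trace ≠ 0
  · exact Or.inl hex
  · right
    push Not at hex
    have S : Std ρ χ ψ H := ⟨hT, hψ, hχ, hex⟩
    by_cases hu : ∃ u ∈ H, ∃ N : M₂ k, ρ u = 1 + N ∧ N * N = 0 ∧ N ≠ 0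
    · obtain ⟨u, hu, N, hN, hNN, hN0⟩ := hu
      obtain ⟨m, hm⟩ := S.cobound_A (fun h hh => S.TT_zero hp h5 hh) hu hN hN0 hNN
      exact S.cobound_G hm
    · push Not at hu
      obtain ⟨m, hm⟩ := S.cobound_B hp (fun u hu' N hN hNN => hu u hu' N hN hNN)
      exact S.cobound_G hm

end Fermat.Agent.TW
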