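import Mathlib
import Fermat.Agent.TW.Interface
import Fermat.Agent.TW.Coboundary

/-!
# The representations `ad⁰(χ)` over `F_p` and their duality
-/

set_option autoImplicit false

namespace Fermat.Agent.TW

open Fermat.Agent.CFT Module Matrix

local notation "GQ" => (AlgebraicClosure ℚ ≃ₐ[ℚ] AlgebraicClosure ℚ)
local notation "M₂" => Matrix (Fin 2) (Fin 2)

/-- trace zero matrices -/
def sl (k : Type*) [CommRing k] : Submodule k (Matrix (Fin 2) (Fin 2) k) :=
  LinearMap.ker (Matrix.traceLinearMap (Fin 2) k k)

section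

variable {k : Type*} [CommRing k]

theorem mem_sl {m : M₂ k} : m ∈ sl k ↔ m.trace = 0 := by
  simp [sl, LinearMap.mem_ker]

theorem trace_conj {G : Type*} [Group G] (ρ : G →* M₂ k) (g : G) (m : M₂ k) :
    (ρ g * m * ρ g⁻¹).trace = m.trace := by
  rw [Matrix.trace_mul_comm, ← mul_assoc, ← map_mul, inv_mul_cancel, map_one, one_mul]

end

section

variable {p : ℕ} [Fact p.Prime] {k : Type*} [Field k] [Algebra (ZMod p) k]
variable {G : Type*} [Group G]

/-- the representation `ad⁰ ρ ⊗ χ` over `F_p` -/
def adRep (r : G →* M₂ k) (χ : G →* (ZMod p)ˣ) : Representation (ZMod p) G (sl k) where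
  toFun g :=
    { toFun := fun m => ⟨(χ g : ZMod p) • (r g * m * r g⁻¹), by
        rw [mem_sl, Matrix.trace_smul, trace_conj, mem_sl.1 m.2, smul_zero]⟩
      map_add' := fun m m' => by
        ext1
        simp only [Submodule.coe_add, mul_add, add_mul, smul_add]
      map_smul' := fun c m => by
        ext1
        simp only [Submodule.coe_smul_of_tower, RingHom.id_apply, mul_smul_comm, smul_mul_assoc]
        rw [smul_comm] }
  map_one' := by
    ext1 m; ext1
    simp
  map_mul' g h := by
    ext1 m; ext1
    simp only [map_mul, Units.val_mul, _root_.mul_inv_rev, LinearMap.coe_mk, AddHom.coe_mk,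
      Module.End.mul_apply, mul_smul_comm, smul_mul_assoc, smul_smul, mul_assoc]

theorem adRep_apply (r : G →* M₂ k) (χ : G →* (ZMod p)ˣ) (g : G) (m : sl k) :
    ((adRep r χ g m : sl k) : M₂ k) = (χ g : ZMod p) • (r g * m * r g⁻¹) := rfl

theorem adRep_one_apply (r : G →* M₂ k) (g : G) (m : sl k) :
    ((adRep (p := p) r 1 g m : sl k) : M₂ k) = r g * m * r g⁻¹ := by
  rw [adRep_apply]; simp

/-- the trace form, as a map to the dual -/
noncomputable def trForm (p : ℕ) [Fact p.Prime] (k : Type*) [Field k] [Algebra (ZMod p) k] :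
    sl k →ₗ[ZMod p] Dual (ZMod p) (sl k) where
  toFun m :=
    { toFun := fun m' => Algebra.trace (ZMod p) k ((m : M₂ k) * m').trace
      map_add' := fun a b => by
        simp only [Submodule.coe_add, mul_add, Matrix.trace_add, map_add]
      map_smul' := fun c a => by
        simp only [Submodule.coe_smul_of_tower, mul_smul_comm, Matrix.trace_smul, map_smul, RingHom.id_apply] }
  map_add' a b := by
    ext1 x
    simp only [Submodule.coe_add, add_mul, Matrix.trace_add, map_add, LinearMap.coe_mk,
      AddHom.coe_mk, LinearMap.add_apply]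
  map_smul' c a := by
    ext1 x
    simp only [Submodule.coe_smul_of_tower, smul_mul_assoc, Matrix.trace_smul, map_smul, RingHom.id_apply,
      LinearMap.coe_mk, AddHom.coe_mk, LinearMap.smul_apply]

@[simp] theorem trForm_apply (m m' : sl k) :
    trForm p k m m' = Algebra.trace (ZMod p) k ((m : M₂ k) * m').trace := rfl

theorem trForm_injective [Finite k] (h2 : (2 : k) ≠ 0) : Function.Injective (trForm p k) := by
  have : FiniteDimensional (ZMod p) k := Module.finite_iff_finite.2 inferInstance
  rw [← LinearMap.ker_eq_bot, LinearMap.ker_eq_bot']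
  intro m hm
  have key : ∀ m' : sl k, ((m : M₂ k) * m').trace = 0 := by
    intro m'
    have hnd := traceForm_nondegenerate (ZMod p) k
    apply hnd.1
    intro c
    rw [Algebra.traceForm_apply]
    have h := LinearMap.congr_fun hm (c • m')
    rw [trForm_apply] at h
    rw [mul_comm, ← smul_eq_mul, ← Matrix.trace_smul]
    have e : ((c • m' : sl k) : M₂ k) = c • (m' : M₂ k) := rfl
    rw [e, mul_smul_comm] at h
    exact h
  have h1 := key ⟨!![0, 1; 0, 0], by rw [mem_sl]; simp [Matrix.trace_fin_two]⟩
  have h2' := key ⟨!![0, 0; 1, 0], by rw [mem_sl]; simp [Matrix.trace_fin_two]⟩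
  have h3 := key ⟨!![1, 0; 0, -1], by rw [mem_sl]; simp [Matrix.trace_fin_two]⟩
  have ht := mem_sl.1 m.2
  simp only [Matrix.trace_fin_two, Matrix.mul_apply, Fin.sum_univ_two, Matrix.of_apply,
    Matrix.cons_val', Matrix.cons_val_zero, Matrix.cons_val_one, Matrix.cons_val_fin_one] at h1 h2' h3 ht
  have e10 : (m : M₂ k) 1 0 = 0 := by linear_combination h1
  have e01 : (m : M₂ k) 0 1 = 0 := by linear_combination h2'
  have e00 : (m : M₂ k) 0 0 = 0 := by
    apply mul_left_cancel₀ h2
    linear_combination h3 + ht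
  have e11 : (m : M₂ k) 1 1 = 0 := by linear_combination ht - e00
  ext i j
  fin_cases i <;> fin_cases j <;> simp [e00, e01, e10, e11]

theorem finiteDimensional_sl [Finite k] : FiniteDimensional (ZMod p) (sl k) := by
  have : Finite (sl k) := inferInstance
  exact Module.finite_iff_finite.2 inferInstance

/-- the trace form as an isomorphism -/
noncomputable def trEquiv [Finite k] (h2 : (2 : k) ≠ 0) : sl k ≃ₗ[ZMod p] Dual (ZMod p) (sl k) :=
  haveI := finiteDimensional_sl (p := p) (k := k)
  LinearEquiv.ofInjectiveOfFinrankEq (trForm p k) (trForm_injective h2)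
    (Subspace.dual_finrank_eq).symm

@[simp] theorem trEquiv_apply [Finite k] (h2 : (2 : k) ≠ 0) (m : sl k) :
    trEquiv (p := p) h2 m = trForm p k m := rfl

end

section

variable {p : ℕ} [Fact p.Prime] {k : Type} [Field k] [Algebra (ZMod p) k]

theorem trForm_equivariant (r : GQ →* M₂ k) (g : GQ) (m : sl k) :
    trForm p k (adRep r (ExtCitation.cycloChar p) g m) =
      cartier p (adRep r 1) g (trForm p k m) := by
  ext m'
  rw [trForm_apply, adRep_apply]
  have h : cartier p (adRep r 1) g (trForm p k m) m' =
    (ExtCitation.cycloChar p g : ZMod p) • trForm p k m (adRep (p := p) r 1 g⁻¹ m') := rfl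
  rw [h, trForm_apply, adRep_one_apply, inv_inv, smul_mul_assoc, Matrix.trace_smul, map_smul]
  congr 2
  rw [mul_assoc, mul_assoc, Matrix.trace_mul_comm, mul_assoc, mul_assoc]

end

end Fermat.Agent.TW
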