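import Mathlib
import Fermat.Agent.TW.Coboundary
import Fermat.Agent.DefRing.Rep
import Fermat.Agent.CycChar.Basic
import Fermat.Agent.Frob.Basic
import Fermat.Prelude.Def_GaloisRep_LocalConditions

/-!
# The hypotheses `TWHyp` for the residual representation
-/

set_option autoImplicit false

namespace Fermat.Agent.TW

open Matrix Module Fermat.Agent.DefRing Fermat.Agent

local notation "M₂" => Matrix (Fin 2) (Fin 2)

section

variable {K : Type*} [Field K]

/-- the kernel of a nonzero singular `2 × 2` matrix is a line -/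
theorem exists_smul_of_mulVec_eq_zero {B : M₂ K} (hB : B ≠ 0) {v u : Fin 2 → K} (hv : v ≠ 0)
    (h1 : B *ᵥ v = 0) (h2 : B *ᵥ u = 0) : ∃ c : K, u = c • v := by
  have hdet : u 0 * v 1 = u 1 * v 0 := by
    by_contra hne
    apply hB
    have e1 := congrFun h1 0
    have e2 := congrFun h1 1
    have f1 := congrFun h2 0
    have f2 := congrFun h2 1
    simp only [Matrix.mulVec, dotProduct, Fin.sum_univ_two, Pi.zero_apply] at e1 e2 f1 f2
    have hne' : u 0 * v 1 - u 1 * v 0 ≠ 0 := sub_ne_zero.2 hne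
    ext i j
    fin_cases i <;> fin_cases j
    · show B 0 0 = 0
      apply mul_left_cancel₀ hne'
      linear_combination (v 1) * f1 - (u 1) * e1
    · show B 0 1 = 0
      apply mul_left_cancel₀ hne'
      linear_combination (u 0) * e1 - (v 0) * f1
    · show B 1 0 = 0
      apply mul_left_cancel₀ hne'
      linear_combination (v 1) * f2 - (u 1) * e2
    · show B 1 1 = 0
      apply mul_left_cancel₀ hne'
      linear_combination (u 0) * e2 - (v 0) * f2
  by_cases h0 : v 0 = 0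
  · have h1' : v 1 ≠ 0 := by
      intro h; apply hv; ext i; fin_cases i <;> simp [h0, h]
    refine ⟨u 1 / v 1, ?_⟩
    ext i; fin_cases i
    · show u 0 = u 1 / v 1 * v 0
      rw [h0, mul_zero] at hdet
      rw [h0, mul_zero]
      exact (mul_eq_zero.1 hdet).resolve_right h1'
    · show u 1 = u 1 / v 1 * v 1
      field_simp
  · refine ⟨u 0 / v 0, ?_⟩
    ext i; fin_cases i
    · show u 0 = u 0 / v 0 * v 0
      field_simp
    · show u 1 = u 0 / v 0 * v 1
      field_simp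
      exact hdet.symm

end

section

variable {k : Type} [Field k] {ρbar : ResidualGaloisRep k}

/-- no eigenline for a set of elements, from irreducibility over `K` -/
theorem no_eigenline {K : Type} [Field K] [Algebra k K] {X : Set Γ}
    (hirr : ∀ V : Submodule K (ρbar.baseChange K).V,
      (∀ σ ∈ X, ∀ x ∈ V, (ρbar.baseChange K).ρ σ x ∈ V) → V = ⊥ ∨ V = ⊤)
    {r : Γ → M₂ k} (hr : RealizesRes ρbar r) {v : Fin 2 → K} (hv : v ≠ 0)
    (h : ∀ σ ∈ X, ∃ c : K, (r σ).map (algebraMap k K) *ᵥ v = c • v) : False := by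
  obtain ⟨b, hb⟩ := hr.baseChange K
  set e := b.equivFun with he
  let w := e.symm v
  have hw : w ≠ 0 := by
    intro h0
    apply hv
    rw [← e.apply_symm_apply v]
    show e w = 0
    rw [h0, map_zero]
  have hact : ∀ σ, e ((ρbar.baseChange K).ρ σ w) = (r σ).map (algebraMap k K) *ᵥ v := by
    intro σ
    have hbσ : LinearMap.toMatrix b b ((ρbar.baseChange K).ρ σ) = (r σ).map (algebraMap k K) := hb σ
    rw [← hbσ]
    have h1 := LinearMap.toMatrix_mulVec_repr b b ((ρbar.baseChange K).ρ σ) w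
    have h2 : (b.repr w : Fin 2 → K) = v := by
      show e w = v
      exact e.apply_symm_apply v
    rw [h2] at h1
    rw [h1]
    rfl
  have hst : ∀ σ ∈ X, ∀ x ∈ Submodule.span K {w}, (ρbar.baseChange K).ρ σ x ∈ Submodule.span K {w} := by
    intro σ hσ x hx
    obtain ⟨a, rfl⟩ := Submodule.mem_span_singleton.1 hx
    obtain ⟨c, hc⟩ := h σ hσ
    rw [_root_.map_smul]
    refine Submodule.smul_mem _ _ ?_
    have : (ρbar.baseChange K).ρ σ w = c • w := by
      apply e.injective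
      rw [hact, hc, _root_.map_smul]
      show c • v = c • e (e.symm v)
      rw [e.apply_symm_apply]
    rw [this]
    exact Submodule.smul_mem _ _ (Submodule.mem_span_singleton_self w)
  rcases hirr _ hst with h0 | h0
  · exact hw (Submodule.span_singleton_eq_bot.1 h0)
  · have h1 := finrank_span_singleton (K := K) hw
    rw [h0, finrank_top, (ρbar.baseChange K).finrank_eq] at h1
    omega

theorem comm_scalar {X : Set Γ}
    (hirr : ∀ V : Submodule (AlgebraicClosure k) (ρbar.baseChange (AlgebraicClosure k)).V,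
      (∀ σ ∈ X, ∀ x ∈ V, (ρbar.baseChange (AlgebraicClosure k)).ρ σ x ∈ V) → V = ⊥ ∨ V = ⊤)
    {r : Γ → M₂ k} (hr : RealizesRes ρbar r) {m : M₂ k} (hm : ∀ σ ∈ X, r σ * m = m * r σ) :
    ∃ c : k, m = c • (1 : M₂ k) := by
  let K := AlgebraicClosure k
  let f := algebraMap k K
  let mK := m.map f
  obtain ⟨lam, hlam⟩ := IsAlgClosed.exists_root mK.charpoly (by
    rw [Matrix.charpoly_degree_eq_dim]; decide)
  have hdet : (mK - lam • (1 : M₂ K)).det = 0 := by
    have h1 : (Matrix.scalar (Fin 2) lam - mK).det = 0 := by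
      rw [← Matrix.eval_charpoly]; exact hlam
    have h2 : mK - lam • (1 : M₂ K) = -(Matrix.scalar (Fin 2) lam - mK) := by
      rw [neg_sub, Matrix.scalar_apply, Matrix.smul_one_eq_diagonal]
    rw [h2, Matrix.det_neg, h1, mul_zero]
  obtain ⟨v, hv, hv0⟩ := Matrix.exists_mulVec_eq_zero_iff.2 hdet
  by_cases hB : mK - lam • (1 : M₂ K) = 0
  · rw [sub_eq_zero] at hB
    refine ⟨m 0 0, ?_⟩
    have e : ∀ i j, f (m i j) = (lam • (1 : M₂ K)) i j := fun i j => congrFun (congrFun hB i) j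
    have hinj : Function.Injective f := f.injective
    ext i j
    apply hinj
    fin_cases i <;> fin_cases j
    · simp
    · have := e 0 1; simp at this; simp [this]
    · have := e 1 0; simp at this; simp [this]
    · have h1 := e 1 1; have h0 := e 0 0
      simp at h1 h0
      simp [h1, h0]
  · exfalso
    refine no_eigenline hirr hr hv fun σ hσ => ?_
    refine exists_smul_of_mulVec_eq_zero hB hv hv0 ?_
    have hc : (r σ).map f * mK = mK * (r σ).map f := by
      rw [← Matrix.map_mul, hm σ hσ, Matrix.map_mul]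
    have hc' : (mK - lam • (1 : M₂ K)) * (r σ).map f = (r σ).map f * (mK - lam • (1 : M₂ K)) := by
      rw [sub_mul, mul_sub, hc]; simp
    rw [Matrix.mulVec_mulVec, hc', ← Matrix.mulVec_mulVec, hv0, Matrix.mulVec_zero]

theorem irr_nilp {K : Type} [Field K] [Algebra k K]
    (hirr : ∀ V : Submodule K (ρbar.baseChange K).V,
      (∀ σ ∈ (Set.univ : Set Γ), ∀ x ∈ V, (ρbar.baseChange K).ρ σ x ∈ V) → V = ⊥ ∨ V = ⊤)
    {r : Γ → M₂ k} (hr : RealizesRes ρbar r) {N : M₂ k} (hN : N ≠ 0) (hNN : N * N = 0) :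
    ∃ g, N * r g * N ≠ 0 := by
  by_contra hcon
  push Not at hcon
  obtain ⟨w, hw⟩ : ∃ w, N *ᵥ w ≠ 0 := by
    by_contra h; push Not at h
    apply hN
    ext i j
    have := congrFun (h (Pi.single j 1)) i
    simpa using this
  have hNv : N *ᵥ (N *ᵥ w) = 0 := by rw [Matrix.mulVec_mulVec, hNN, Matrix.zero_mulVec]
  let f := algebraMap k K
  refine no_eigenline (v := fun i => f ((N *ᵥ w) i)) (X := Set.univ) hirr hr ?_ fun σ _ => ?_
  · intro h
    apply hw
    ext i
    have := congrFun h i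
    exact f.injective (by simpa using this)
  · obtain ⟨c, hc⟩ := exists_smul_of_mulVec_eq_zero (u := r σ *ᵥ (N *ᵥ w)) hN hw hNv (by
      rw [Matrix.mulVec_mulVec, Matrix.mulVec_mulVec, hcon σ, Matrix.zero_mulVec])
    refine ⟨f c, ?_⟩
    ext i
    have := congrArg f (congrFun hc i)
    simp only [Pi.smul_apply, smul_eq_mul, map_mul] at this
    rw [Pi.smul_apply, smul_eq_mul, ← this]
    simp only [Matrix.mulVec, dotProduct, map_sum, map_mul, Matrix.map_apply, f]

end

/-- The subgroup fixing the `m`-th roots of unity. -/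
def muSub (m : ℕ) : Subgroup Γ where
  carrier := {σ | ∀ ζ : AlgebraicClosure ℚ, ζ ^ m = 1 → σ ζ = ζ}
  one_mem' := fun _ _ => rfl
  mul_mem' := fun {a b} ha hb ζ hζ => by
    show a (b ζ) = ζ
    rw [hb ζ hζ, ha ζ hζ]
  inv_mem' := fun {a} ha ζ hζ => by
    have h1 := ha ζ hζ
    have h2 : a⁻¹ (a ζ) = ζ := inv_smul_smul a ζ
    rwa [h1] at h2

theorem mem_muSub {m : ℕ} {σ : Γ} :
    σ ∈ muSub m ↔ ∀ ζ : AlgebraicClosure ℚ, ζ ^ m = 1 → σ ζ = ζ := Iff.rfl

theorem muSub_normal (m : ℕ) : (muSub m).Normal := by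
  refine ⟨fun σ hσ g ζ hζ => ?_⟩
  have h1 : (g⁻¹ ζ) ^ m = 1 := by rw [← map_pow, hζ, map_one]
  show g (σ (g⁻¹ ζ)) = ζ
  rw [hσ _ h1]
  exact smul_inv_smul g ζ

theorem exists_pow_apply {m : ℕ} (hm : m ≠ 0) (σ : Γ) :
    ∃ a : ℕ, ∀ ζ : AlgebraicClosure ℚ, ζ ^ m = 1 → σ ζ = ζ ^ a := by
  have : NeZero m := ⟨hm⟩
  obtain ⟨z, hz⟩ := HasEnoughRootsOfUnity.exists_primitiveRoot (AlgebraicClosure ℚ) m
  have h1 : (σ z) ^ m = 1 := by rw [← map_pow, hz.pow_eq_one, map_one]
  obtain ⟨a, -, ha⟩ := hz.eq_pow_of_pow_eq_one h1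
  refine ⟨a, fun ζ hζ => ?_⟩
  obtain ⟨i, -, rfl⟩ := hz.eq_pow_of_pow_eq_one hζ
  rw [map_pow, ← ha, ← pow_mul, ← pow_mul, mul_comm]

theorem commutator_mem_muSub {m : ℕ} (hm : m ≠ 0) (a b : Γ) : a * b * a⁻¹ * b⁻¹ ∈ muSub m := by
  intro ζ hζ
  obtain ⟨i, hi⟩ := exists_pow_apply hm a
  obtain ⟨j, hj⟩ := exists_pow_apply hm b
  have hcomm : ∀ ζ : AlgebraicClosure ℚ, ζ ^ m = 1 → a (b ζ) = b (a ζ) := by
    intro ζ hζ
    rw [hi ζ hζ, hj ζ hζ, map_pow, map_pow, hi ζ hζ, hj ζ hζ, ← pow_mul, ← pow_mul, mul_comm]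
  have h1 : (a⁻¹ (b⁻¹ ζ)) ^ m = 1 := by rw [← map_pow, ← map_pow, hζ, map_one, map_one]
  show a (b (a⁻¹ (b⁻¹ ζ))) = ζ
  rw [hcomm _ h1]
  have h2 : a (a⁻¹ (b⁻¹ ζ)) = b⁻¹ ζ := smul_inv_smul a _
  rw [h2]
  exact smul_inv_smul b ζ

section

variable {k : Type} [Field k] {ρbar : ResidualGaloisRep k}

/-- determinants of the residual representation -/
theorem det_eq_of_detIsCyclotomic {p : ℕ} [Fact p.Prime]
    (hdet : (GaloisRepAdic.ofResidualGaloisRep ρbar).DetIsCyclotomic p) {r : Γ → M₂ k}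
    (hr : RealizesRes ρbar r) [Algebra (ZMod p) k] (σ : Γ) :
    (r σ).det = algebraMap (ZMod p) k (ExtCitation.cycloChar p σ : ZMod p) := by
  obtain ⟨b, hb⟩ := hr
  have h0 : (p : k) = 0 := by
    have := map_natCast (algebraMap (ZMod p) k) p
    rw [ZMod.natCast_self, map_zero] at this
    exact this.symm
  have h1 := hdet.2 1 σ ((ExtCitation.cycloChar p σ : (ZMod p)ˣ) : ZMod p).val (fun μ hμ =>
    CycChar.apply_eq_pow_cycloChar p σ (by simpa using hμ))
  rw [pow_one, h0, Ideal.span_singleton_eq_bot.2 rfl, Ideal.mem_bot, sub_eq_zero] at h1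
  rw [← hb σ, LinearMap.det_toMatrix]
  refine h1.trans ?_
  rw [← map_natCast (algebraMap (ZMod p) k), ZMod.natCast_val, ZMod.cast_id]

theorem cycloChar_of_mem_muSub {p : ℕ} [Fact p.Prime] {n : ℕ} {σ : Γ}
    (hσ : σ ∈ muSub (p ^ (n + 1))) : ExtCitation.cycloChar p σ = 1 := by
  ext
  rw [CycChar.cycloChar_eq_of_forall p (a := 1) fun ζ hζ => by
    rw [pow_one]
    exact hσ ζ (by rw [pow_succ', pow_mul, hζ, one_pow])]
  simp

/-- the matrices of a residual representation, as a homomorphism -/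
def rHom {r : Γ → M₂ k} (hr : RealizesRes ρbar r) : Γ →* M₂ k where
  toFun := r
  map_one' := hr.map_one
  map_mul' := hr.map_mul

@[simp] theorem rHom_apply {r : Γ → M₂ k} (hr : RealizesRes ρbar r) (σ : Γ) :
    rHom hr σ = r σ := rfl

theorem twHyp {p : ℕ} [Fact p.Prime] (hp2 : p ≠ 2) [Algebra (ZMod p) k]
    (habs : ρbar.IsAbsolutelyIrreducible)
    (hdet : (GaloisRepAdic.ofResidualGaloisRep ρbar).DetIsCyclotomic p)
    (hTW : ∀ (K : Type) [Field K] [Algebra k K]
      (G : Subgroup (AlgebraicClosure ℚ ≃ₐ[ℚ] AlgebraicClosure ℚ)), G.index = 2 →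
      ∀ V : Submodule K (ρbar.baseChange K).V,
        (∀ σ ∈ G, ∀ x ∈ V, (ρbar.baseChange K).ρ σ x ∈ V) → V = ⊥ ∨ V = ⊤)
    {r : Γ → M₂ k} (hr : RealizesRes ρbar r) (n : ℕ) :
    TWHyp (rHom hr) (muSub (p ^ (n + 1))) where
  two_ne := by
    have hinj : Function.Injective (algebraMap (ZMod p) k) := (algebraMap (ZMod p) k).injective
    intro h
    have h1 : algebraMap (ZMod p) k (2 : ℕ) = 0 := by rw [map_natCast]; exact_mod_cast h
    rw [map_eq_zero_iff _ hinj, ZMod.natCast_eq_zero_iff] at h1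
    exact hp2 ((Nat.prime_dvd_prime_iff_eq Fact.out Nat.prime_two).1 h1)
  irr := fun N hN hNN => irr_nilp (K := AlgebraicClosure k)
    (fun V hV => habs V fun σ x hx => hV σ (Set.mem_univ _) x hx) hr hN hNN
  comm2 := by
    rintro G' (rfl | hG') m hm
    · exact comm_scalar (X := Set.univ)
        (fun V hV => habs V fun σ x hx => hV σ (Set.mem_univ _) x hx) hr
        (fun σ _ => hm σ (Subgroup.mem_top σ))
    · exact comm_scalar (X := (G' : Set Γ)) (fun V hV => hTW _ G' hG' V hV) hr hm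
  normal := muSub_normal _
  detH := fun σ hσ => by
    rw [rHom_apply, det_eq_of_detIsCyclotomic hdet hr, cycloChar_of_mem_muSub hσ]
    simp
  commG := fun a b => commutator_mem_muSub (pow_ne_zero _ (Fact.out : p.Prime).ne_zero) a b

theorem exists_cyclo_two (p : ℕ) [Fact p.Prime] (hp2 : p ≠ 2) : ∃ g : Γ,
    (ExtCitation.cycloChar p g : ZMod p) = 2 := by
  obtain ⟨A, hA⟩ := Frob.exists_liesOverPrime (AlgebraicClosure ℚ) Nat.prime_two
  obtain ⟨φ, hφ⟩ := Frob.exists_isFrobeniusAt A Nat.prime_two hA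
  exact ⟨φ, by rw [CycChar.cycloChar_frobenius p Nat.prime_two hp2.symm hA hφ]; rfl⟩

end

end Fermat.Agent.TW
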