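import Mathlib
import Fermat.Agent.TW.Hyp
import Fermat.Agent.TW.Ad
import Fermat.Agent.Cheb.Bridge
import Fermat.Agent.CFT.Loc.Decomp

/-!
# Taylor-Wiles primes
-/

set_option autoImplicit false
set_option linter.style.haveILetI false

namespace Fermat.Agent.TW

open Matrix Module Fermat.Agent.DefRing Fermat.Agent Fermat.Agent.CFT

local notation "M₂" => Matrix (Fin 2) (Fin 2)

section

variable {k : Type} [Field k]

/-- `q` is a Taylor-Wiles prime of level `n`. -/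
structure IsTWPrime (p n : ℕ) (r : Γ →* M₂ k) (q : ℕ) : Prop where
  prime : q.Prime
  dvd : p ^ (n + 1) ∣ q - 1
  unr : ∀ A : ValuationSubring (AlgebraicClosure ℚ), A.LiesOverPrime q →
    ∀ σ ∈ A.inertiaSubgroupIn ℚ, r σ = 1
  frob : ∀ A : ValuationSubring (AlgebraicClosure ℚ), A.LiesOverPrime q →
    ∀ φ : Γ, A.IsFrobeniusAt φ q → (r φ).trace ^ 2 ≠ 4 ∧ (r φ).det = 1

/-- powers of `±` unipotent matrices -/
theorem trace_pow_sq {A : M₂ k} (hdet : A.det = 1) (htr : A.trace ^ 2 = 4) (j : ℕ) :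
    (A ^ j).trace ^ 2 = 4 := by
  obtain ⟨s, hs, hA⟩ : ∃ s : k, s ^ 2 = 1 ∧ A.trace = 2 * s := by
    by_cases h2 : (2 : k) = 0
    · refine ⟨1, by simp, ?_⟩
      have : A.trace ^ 2 = 0 := by rw [htr]; linear_combination (2 : k) * h2
      rw [pow_eq_zero_iff (by norm_num)] at this
      rw [this, h2]; simp
    · refine ⟨A.trace / 2, ?_, by field_simp⟩
      field_simp
      rw [htr]; ring
  -- A = s(1 + N), N² = 0
  set N : M₂ k := s • A - 1 with hN
  have hcay := mul_self_eq A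
  rw [hdet, hA] at hcay
  have hNN : N * N = 0 := by
    have : N * N = (s ^ 2) • (A * A) - (2 * s) • A + (1 : M₂ k) := by
      rw [hN, sub_mul, mul_sub, mul_sub, smul_mul_smul_comm, ← pow_two, mul_one, one_mul, mul_one,
        two_mul, add_smul]
      abel
    rw [this, hcay, hs, one_smul]
    simp
  have hAN : A = s • (1 + N) := by
    rw [hN, add_sub_cancel, smul_smul, ← pow_two, hs, one_smul]
  have hpow : ∀ j : ℕ, (1 + N) ^ j = 1 + (j : k) • N := by
    intro j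
    induction j with
    | zero => simp
    | succ j ih =>
      rw [pow_succ, ih, add_mul, one_mul, smul_mul_assoc, mul_add, mul_one, hNN, add_zero,
        Nat.cast_succ, add_smul, one_smul]
      abel
  have htN : N.trace = 0 := (trace_zero_det_zero_of_sq hNN).1
  rw [hAN, _root_.smul_pow, hpow, Matrix.trace_smul, Matrix.trace_add, Matrix.trace_smul, htN,
    Matrix.trace_one, smul_zero, add_zero, smul_eq_mul, mul_pow, ← pow_mul, mul_comm j 2, pow_mul, hs,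
    one_pow, one_mul]
  simp
  norm_num

end

section

variable {k : Type} [Field k] {p : ℕ} [Fact p.Prime] {n : ℕ}

theorem dvd_of_fix {q : ℕ} (hq : q.Prime) {m : ℕ} (hm : m.Coprime q)
    {A : ValuationSubring (AlgebraicClosure ℚ)} (hA : A.LiesOverPrime q) {φ : Γ}
    (hφ : A.IsFrobeniusAt φ q) (hφm : φ ∈ muSub m) : m ∣ q - 1 := by
  have hm0 : m ≠ 0 := by
    rintro rfl
    rw [Nat.coprime_zero_left] at hm
    exact hq.one_lt.ne' hm
  have : NeZero m := ⟨hm0⟩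
  obtain ⟨z, hz⟩ := HasEnoughRootsOfUnity.exists_primitiveRoot (AlgebraicClosure ℚ) m
  have h1 := hφm z hz.pow_eq_one
  rw [CycChar.frobenius_apply_eq hA hm hφ hz.pow_eq_one] at h1
  have hz0 : z ≠ 0 := hz.ne_zero hm0
  have h2 : z ^ (q - 1) = 1 := by
    apply mul_left_cancel₀ hz0
    rw [mul_one, ← pow_succ', Nat.sub_add_cancel hq.one_lt.le, h1]
  exact hz.dvd_of_pow_eq_one _ h2

/-- From an element of `Gal(ℚ̄/ℚ(μ_{p^{n+1}}))` to a Taylor-Wiles prime. -/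
theorem exists_twPrime_of_mem (r : Γ →* M₂ k)
    (hr : ∃ L : IntermediateField ℚ (AlgebraicClosure ℚ), FiniteDimensional ℚ L ∧
      ∀ σ : Γ, (∀ x ∈ L, σ x = x) → r σ = 1)
    (hdetH : ∀ σ ∈ muSub (p ^ (n + 1)), (r σ).det = 1)
    {σ : Γ} (hσ : σ ∈ muSub (p ^ (n + 1))) (htr : (r σ).trace ^ 2 ≠ 4)
    (F : IntermediateField ℚ (AlgebraicClosure ℚ)) [FiniteDimensional ℚ F] (X : Finset ℕ) :
    ∃ q : ℕ, IsTWPrime p n r q ∧ q ∉ X ∧
      (∀ A : ValuationSubring (AlgebraicClosure ℚ), A.LiesOverPrime q →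
        ∀ τ ∈ A.inertiaSubgroupIn ℚ, ∀ x ∈ F, τ x = x) ∧
      ∃ A : ValuationSubring (AlgebraicClosure ℚ), A.LiesOverPrime q ∧
        ∃ φ : Γ, A.IsFrobeniusAt φ q ∧ φ ∈ muSub (p ^ (n + 1)) ∧
          (∃ j : ℕ, ∀ x ∈ F, σ x = (φ ^ j) x ∧ r σ = r φ ^ j) := by
  have hp0 : p ^ (n + 1) ≠ 0 := pow_ne_zero _ (Fact.out : p.Prime).ne_zero
  obtain ⟨L, hL, hLr⟩ := hr
  obtain ⟨E, hE, hEμ⟩ := CycChar.exists_finite_level_rootsOfUnity hp0
  haveI := hL
  haveI := hE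
  haveI : FiniteDimensional ℚ (L ⊔ E : IntermediateField ℚ (AlgebraicClosure ℚ)) :=
    IntermediateField.finiteDimensional_sup L E
  haveI : FiniteDimensional ℚ (F ⊔ (L ⊔ E) : IntermediateField ℚ (AlgebraicClosure ℚ)) :=
    IntermediateField.finiteDimensional_sup F _
  have hF1 : F ≤ F ⊔ (L ⊔ E) := le_sup_left
  have hL1 : L ≤ F ⊔ (L ⊔ E) := le_sup_left.trans le_sup_right
  have hE1 : E ≤ F ⊔ (L ⊔ E) := le_sup_right.trans le_sup_right
  obtain ⟨q, hq, hqX, hI, A, hA, φ, hφ, ⟨j, hj⟩, ⟨i, hi⟩⟩ :=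
    Cheb.exists_frobenius (F ⊔ (L ⊔ E)) σ (insert p X)
  have hqp : q ≠ p := fun h => hqX (by rw [h]; exact Finset.mem_insert_self _ _)
  have hqX' : q ∉ X := fun h => hqX (Finset.mem_insert_of_mem h)
  have hφμ : φ ∈ muSub (p ^ (n + 1)) := by
    intro ζ hζ
    rw [hi ζ (hE1 (hEμ ζ hζ))]
    exact (Subgroup.pow_mem _ hσ i) ζ hζ
  have hcop : (p ^ (n + 1)).Coprime q :=
    Nat.Coprime.pow_left _ ((Nat.coprime_primes Fact.out hq).2 hqp.symm)
  have hrσ : r σ = r φ ^ j := by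
    have h1 : r ((φ ^ j)⁻¹ * σ) = 1 := hLr _ fun x hx => by
      change (φ ^ j)⁻¹ (σ x) = x
      rw [hj x (hL1 hx)]
      exact inv_smul_smul (φ ^ j) x
    have h2 : σ = φ ^ j * ((φ ^ j)⁻¹ * σ) := by group
    rw [h2, map_mul, h1, mul_one, map_pow]
  have hunr : ∀ A : ValuationSubring (AlgebraicClosure ℚ), A.LiesOverPrime q →
      ∀ σ ∈ A.inertiaSubgroupIn ℚ, r σ = 1 := fun A' hA' τ hτ =>
    hLr τ fun x hx => hI A' hA' τ hτ x (hL1 hx)
  have hφtr : (r φ).trace ^ 2 ≠ 4 := fun h => by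
    apply htr
    rw [hrσ]
    exact trace_pow_sq (hdetH φ hφμ) h j
  refine ⟨q, ⟨hq, dvd_of_fix hq hcop hA hφ hφμ, hunr, ?_⟩, hqX',
    fun A' hA' τ hτ x hx => hI A' hA' τ hτ x (hF1 hx), A, hA, φ, hφ, hφμ, j,
    fun x hx => ⟨hj x (hF1 hx), hrσ⟩⟩
  intro A' hA' φ' hφ'
  obtain ⟨g, rfl⟩ := Frob.exists_smul_eq hq hA hA'
  have h1 := (Frob.isFrobeniusAt_smul_iff A φ' g q).1 hφ'
  have h2 := hunr A hA _ (Frob.IsFrobeniusAt.mul_inv_mem_inertia h1 hφ)
  have h3 : r φ' = r g * r φ * r g⁻¹ := by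
    have e : φ' = g * ((g⁻¹ * φ' * g) * φ⁻¹ * φ) * g⁻¹ := by group
    conv_lhs => rw [e]
    rw [map_mul, map_mul, map_mul, h2, one_mul]
  have htr' : (r φ').trace = (r φ).trace := by rw [h3, trace_conj]
  have hdet' : (r φ').det = (r φ).det := by
    rw [h3, Matrix.det_mul, Matrix.det_mul, mul_right_comm, ← Matrix.det_mul, ← map_mul,
      mul_inv_cancel, map_one, Matrix.det_one, one_mul]
  rw [htr', hdet']
  exact ⟨hφtr, hdetH φ hφμ⟩

end

section

variable {p : ℕ} [Fact p.Prime] {k : Type} [Field k] [Algebra (ZMod p) k]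

/-- conjugating a local coboundary condition -/
theorem exists_coboundary_smul {V : Type*} [AddCommGroup V] {R : Type*} [CommRing R] [Module R V]
    {G : Type*} [Group G] (ρ : Representation R G V) {c : G → V}
    (hc : ∀ g h, c (g * h) = ρ g (c h) + c g) {D : Subgroup G} {m : V}
    (hm : ∀ σ ∈ D, c σ = ρ σ m - m) (g : G) :
    ∃ m', ∀ σ, g⁻¹ * σ * g ∈ D → c σ = ρ σ m' - m' := by
  refine ⟨ρ g m - c g, fun σ hσ => ?_⟩
  have h1 := hm _ hσ
  have h0 : c (g * (g⁻¹ * σ * g)) = c (σ * g) := by congr 1; group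
  have e2 : ρ g (ρ (g⁻¹ * σ * g) m) = ρ σ (ρ g m) := by
    rw [← Module.End.mul_apply, ← Module.End.mul_apply, ← map_mul, ← map_mul]; congr 2; group
  rw [hc g, hc σ g, h1, map_sub, e2] at h0
  have h6 : c σ = ρ σ (ρ g m) - ρ g m + c g - ρ σ (c g) := by
    rw [h0]; abel
  rw [h6, map_sub]
  abel

theorem trace_coboundary (r : Γ →* M₂ k) (σ : Γ) (m : M₂ k) :
    ((r σ * m * r σ⁻¹ - m) * r σ).trace = 0 := by
  rw [sub_mul, mul_assoc, ← map_mul r, inv_mul_cancel, map_one, mul_one, Matrix.trace_sub,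
    Matrix.trace_mul_comm, sub_self]

theorem coc_pow {r : Γ →* M₂ k} {χ : Γ →* (ZMod p)ˣ} {c : Γ → sl k}
    (hc : ∀ g h, c (g * h) = adRep r χ g (c h) + c g) {φ : Γ} {m : sl k}
    (h : c φ = adRep r χ φ m - m) (j : ℕ) : c (φ ^ j) = adRep r χ (φ ^ j) m - m := by
  induction j with
  | zero =>
    have := hc 1 1
    rw [mul_one, map_one, Module.End.one_apply] at this
    rw [pow_zero, map_one, Module.End.one_apply, sub_self]
    exact left_eq_add.1 this
  | succ j ih =>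
    rw [pow_succ, hc, ih, h, map_sub, map_mul, Module.End.mul_apply]
    abel

/-- For every nontrivial class in `H¹(ad⁰(1))` there are Taylor-Wiles primes where the
class is locally non trivial. -/
theorem exists_twPrime_ne {r : Γ →* M₂ k} {n : ℕ} [Finite k] (hp2 : p ≠ 2)
    (hr : ∃ L : IntermediateField ℚ (AlgebraicClosure ℚ), FiniteDimensional ℚ L ∧
      ∀ σ : Γ, (∀ x ∈ L, σ x = x) → r σ = 1)
    (hT : TWHyp r (muSub (p ^ (n + 1)))) {S : Finset Nat.Primes}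
    (c : ↥(Z1 (sLevels S) (adRep r (ExtCitation.cycloChar p))))
    (hc : (c : Γ → sl k) ∉ B1 (adRep r (ExtCitation.cycloChar p))) (X : Finset ℕ) :
    ∃ v : Nat.Primes, IsTWPrime p n r (v : ℕ) ∧ (v : ℕ) ∉ X ∧
      resv S (adRep r (ExtCitation.cycloChar p)) v
        (H1.mk (sLevels S) (adRep r (ExtCitation.cycloChar p)) c) ≠ 0 := by
  classical
  haveI : CharP k p := by
    have := charP_of_injective_algebraMap (algebraMap (ZMod p) k).injective p
    exact this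
  obtain ⟨⟨H0, hH0, hlc⟩, hcoc⟩ := mem_Z1.1 c.2
  let χ : Γ →* k := (algebraMap (ZMod p) k : ZMod p →* k).comp
    ((Units.coeHom (ZMod p)).comp (ExtCitation.cycloChar p))
  have hχ : ∀ g, χ g = algebraMap (ZMod p) k (ExtCitation.cycloChar p g : ZMod p) := fun g => rfl
  let ψ : Γ → M₂ k := fun g => (c.1 g : M₂ k)
  have hψ : IsCoc r χ ψ := by
    refine ⟨fun g => mem_sl.1 (c.1 g).2, fun g h => ?_⟩
    show ((c.1 (g * h) : sl k) : M₂ k) = _
    rw [hcoc g h, Submodule.coe_add, adRep_apply, add_comm, hχ, algebraMap_smul]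
  have hχH : ∀ h ∈ muSub (p ^ (n + 1)), χ h = 1 := fun h hh => by
    rw [hχ, cycloChar_of_mem_muSub hh]; simp
  rcases exists_tw_element (Fact.out : p.Prime) hT hψ hχH (fun _ => by
    obtain ⟨g, hg⟩ := exists_cyclo_two p hp2
    exact ⟨g, by rw [hχ, hg, map_ofNat]⟩) with h | ⟨m, hm, hcob⟩
  · obtain ⟨σ, hσ, htr, hne⟩ := h
    -- finite level of `c`
    obtain ⟨F, hF, hFH⟩ := mem_galLevels.1 (sLevels_le_galLevels hH0)
    haveI := hF
    obtain ⟨q, hq, hqX, hI, A, hA, φ, hφ, hφμ, j, hj⟩ :=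
      exists_twPrime_of_mem r hr hT.detH hσ htr F X
    haveI := Fact.mk hq.prime
    refine ⟨⟨q, hq.prime⟩, hq, hqX, fun h0 => ?_⟩
    have h1 := H1.mk_eq_zero.1 h0
    obtain ⟨m, hm⟩ := mem_B1.1 h1
    -- translate to the decomposition group
    have hm' : ∀ σ ∈ (padicPlace q).decompositionSubgroup ℚ,
        c.1 σ = adRep r (ExtCitation.cycloChar p) σ m - m := by
      intro σ hσ
      rw [← CFT.Loc.range_localGaloisToGlobal] at hσ
      obtain ⟨τ, rfl⟩ := hσ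
      exact hm τ
    obtain ⟨g, hg⟩ := Frob.exists_smul_eq hq.prime (CFT.Loc.padicPlace_liesOverPrime q) hA
    obtain ⟨m', hm''⟩ := exists_coboundary_smul (adRep r (ExtCitation.cycloChar p))
      (c := c.1) hcoc hm' g
    have hφD : φ ∈ A.decompositionSubgroup ℚ := ((Frob.isFrobeniusAt_iff _ _ _).1 hφ).1
    have h2 : c.1 φ = adRep r (ExtCitation.cycloChar p) φ m' - m' := by
      apply hm''
      rw [hg] at hφD
      exact (Frob.mem_decompositionSubgroup_smul_iff _ _ _).1 hφD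
    have h3 := coc_pow hcoc h2 j
    obtain ⟨-, hrσ⟩ := hj 0 (zero_mem F)
    have h4 : c.1 σ = c.1 (φ ^ j) := by
      have e : σ = φ ^ j * ((φ ^ j)⁻¹ * σ) := by group
      have hs : (φ ^ j)⁻¹ * σ ∈ H0 := hFH (by
        rw [IntermediateField.mem_fixingSubgroup_iff]
        intro x hx
        change (φ ^ j)⁻¹ (σ x) = x
        rw [(hj x hx).1]
        exact inv_smul_smul (φ ^ j) x)
      rw [e]
      exact hlc _ _ hs
    apply hne
    show ((c.1 σ : M₂ k) * r σ).trace = 0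
    have h5 : (c.1 σ : M₂ k) = r σ * m' * r σ⁻¹ - m' := by
      rw [h4, h3, AddSubgroupClass.coe_sub, adRep_apply,
        cycloChar_of_mem_muSub (Subgroup.pow_mem _ hφμ j)]
      have h6 : r (φ ^ j) = r σ := by rw [map_pow, hrσ]
      have h7 : r (φ ^ j)⁻¹ = r σ⁻¹ := by
        have e1 : r (φ ^ j)⁻¹ * r (φ ^ j) = 1 := map_inv_mul r _
        have e2 : r σ * r σ⁻¹ = 1 := map_mul_inv r _
        rw [h6] at e1
        calc r (φ ^ j)⁻¹ = r (φ ^ j)⁻¹ * (r σ * r σ⁻¹) := by rw [e2, mul_one]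
          _ = r σ⁻¹ := by rw [← mul_assoc, e1, one_mul]
      rw [h6, h7]
      simp
    rw [h5]
    exact trace_coboundary r σ m'
  · exfalso
    apply hc
    refine mem_B1.2 ⟨⟨m, mem_sl.2 hm⟩, fun g => ?_⟩
    apply Subtype.ext
    rw [AddSubgroupClass.coe_sub, adRep_apply]
    have := hcob g
    rw [hχ, algebraMap_smul] at this
    exact this

omit [Algebra (ZMod p) k] in
/-- Taylor-Wiles primes exist. -/
theorem exists_twPrime {r : Γ →* M₂ k} {n : ℕ}
    (hr : ∃ L : IntermediateField ℚ (AlgebraicClosure ℚ), FiniteDimensional ℚ L ∧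
      ∀ σ : Γ, (∀ x ∈ L, σ x = x) → r σ = 1)
    (hT : TWHyp r (muSub (p ^ (n + 1)))) (X : Finset ℕ) :
    ∃ v : Nat.Primes, IsTWPrime p n r (v : ℕ) ∧ (v : ℕ) ∉ X := by
  obtain ⟨σ, hσ, htr⟩ := hT.exists_semisimple
  obtain ⟨q, hq, hqX, -⟩ := exists_twPrime_of_mem r hr hT.detH hσ htr ⊥ X
  exact ⟨⟨q, hq.prime⟩, hq, hqX⟩

end

end Fermat.Agent.TW
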