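import Mathlib
import Fermat.Agent.TW.Prime

/-!
# Killing the dual Selmer group with Taylor-Wiles primes
-/

set_option autoImplicit false
set_option linter.style.haveILetI false

namespace Fermat.Agent.TW

open Matrix Module Fermat.Agent.DefRing Fermat.Agent Fermat.Agent.CFT

local notation "M₂" => Matrix (Fin 2) (Fin 2)

section Descend

variable {k : Type} [CommRing k] {V : Type} [AddCommGroup V] [Module k V]

/-- A cocycle which vanishes on all inertia groups outside `S` is unramified outside `S`. -/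
theorem mem_Z1_sLevels {S : Finset Nat.Primes} {ρ : Representation k Γ V}
    [Module.Finite k V] (hs : Smooth (sLevels S) ρ) {c : Γ → V}
    (hlc : ∃ H ∈ galLevels ℚ (AlgebraicClosure ℚ), ∀ s ∈ H, c s = 0)
    (hcoc : ∀ g h, c (g * h) = ρ g (c h) + c g)
    (hI : ∀ q : Nat.Primes, q ∉ S → ∀ A : ValuationSubring (AlgebraicClosure ℚ),
      A.LiesOverPrime (q : ℕ) → ∀ s ∈ A.inertiaSubgroupIn ℚ, c s = 0) :
    c ∈ Z1 (sLevels S) ρ := by
  classical
  -- a level acting trivially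
  obtain ⟨N, hN, hNtriv⟩ : ∃ N ∈ sLevels S, ∀ s ∈ N, ∀ v : V, ρ s v = v := by
    obtain ⟨t, ht⟩ := Module.Finite.fg_top (R := k) (M := V)
    choose H hH hH' using hs
    refine ⟨⨅ v : t, H v, Levels.iInf_mem fun v => hH v, fun s hs v => ?_⟩
    have hv : v ∈ Submodule.span k (t : Set V) := by rw [ht]; trivial
    induction hv using Submodule.span_induction with
    | mem x hx => exact hH' x s ((Subgroup.mem_iInf.1 hs) ⟨x, hx⟩)
    | zero => exact map_zero _
    | add x y _ _ hx hy => rw [map_add, hx, hy]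
    | smul a x _ hx => rw [map_smul, hx]
  obtain ⟨H, hH, hHc⟩ := hlc
  have hc1 : c 1 = 0 := by
    have := hcoc 1 1
    rw [mul_one, map_one, Module.End.one_apply] at this
    exact left_eq_add.1 this
  let J : Subgroup Γ :=
    { carrier := {s | (∀ v : V, ρ s v = v) ∧ c s = 0}
      one_mem' := ⟨fun v => by rw [map_one]; rfl, hc1⟩
      mul_mem' := fun {a b} ha hb => ⟨fun v => by
        rw [map_mul, Module.End.mul_apply, hb.1, ha.1], by rw [hcoc, ha.2, hb.2, map_zero, add_zero]⟩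
      inv_mem' := fun {a} ha => by
        have h1 : ∀ v : V, ρ a⁻¹ v = v := fun v => by
          conv_lhs => rw [← ha.1 v]
          rw [← Module.End.mul_apply, ← map_mul, inv_mul_cancel, map_one]; rfl
        refine ⟨h1, ?_⟩
        have h2 := hcoc a⁻¹ a
        rw [inv_mul_cancel, hc1, ha.2, map_zero, zero_add] at h2
        exact h2.symm }
  have hJ : J ∈ sLevels S := by
    refine mem_sLevels_iff.2 ⟨?_, fun q hq A hA s hs => ⟨?_, hI q hq A hA s hs⟩⟩
    · refine Levels.up_mem (Levels.inf_mem (sLevels_le_galLevels hN) hH) ?_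
      intro s hs
      exact ⟨hNtriv s hs.1, hHc s hs.2⟩
    · exact hNtriv s (inertia_le_of_mem_sLevels hN hq hA hs)
  refine ⟨⟨J, hJ, fun g s hs => ?_⟩, hcoc⟩
  rw [hcoc, hs.2, map_zero, zero_add]

/-- vanishing on one inertia group implies vanishing on its conjugates -/
theorem eq_zero_on_inertia {ρ : Representation k Γ V} {c : Γ → V}
    (hcoc : ∀ g h, c (g * h) = ρ g (c h) + c g) {q : ℕ} (hq : q.Prime)
    {A₀ : ValuationSubring (AlgebraicClosure ℚ)} (hA₀ : A₀.LiesOverPrime q)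
    (htriv : ∀ s ∈ A₀.inertiaSubgroupIn ℚ, ∀ v, ρ s v = v)
    (hI : ∀ s ∈ A₀.inertiaSubgroupIn ℚ, c s = 0)
    {A : ValuationSubring (AlgebraicClosure ℚ)} (hA : A.LiesOverPrime q) {s : Γ}
    (hs : s ∈ A.inertiaSubgroupIn ℚ) : c s = 0 := by
  obtain ⟨g, rfl⟩ := Frob.exists_smul_eq hq hA₀ hA
  have h1 := (Frob.mem_inertiaSubgroupIn_smul_iff _ _ _).1 hs
  have hc1 : c 1 = 0 := by
    have := hcoc 1 1
    rw [mul_one, map_one, Module.End.one_apply] at this
    exact left_eq_add.1 this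
  have e : s = g * ((g⁻¹ * s * g) * g⁻¹) := by group
  have h2 : c s = c (g * g⁻¹) := by
    conv_lhs => rw [e]
    rw [hcoc g, hcoc (g⁻¹ * s * g), hI _ h1, add_zero, htriv _ h1, ← hcoc]
  rw [h2, mul_inv_cancel, hc1]

end Descend

section

variable {p : ℕ} [Fact p.Prime] {k : Type} [Field k] [Algebra (ZMod p) k] [Finite k]
variable {r : Γ →* M₂ k}

instance finite_sl : Module.Finite (ZMod p) (sl k) := finiteDimensional_sl

/-- the subspace of the dual Selmer group of classes which vanish at `Q` -/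
noncomputable def Wsub (S : Finset Nat.Primes) {V : Type} [AddCommGroup V] [Module (ZMod p) V]
    (ρ : Representation (ZMod p) Γ V) (M : ∀ v : Nat.Primes, Submodule (ZMod p) (H1loc ρ v))
    (Q : Finset Nat.Primes) : Submodule (ZMod p) (H1 (sLevels S) ρ) :=
  Sel S ρ M ⊓ ⨅ q ∈ Q, LinearMap.ker (resv S ρ q)

theorem mem_Wsub {S : Finset Nat.Primes} {V : Type} [AddCommGroup V] [Module (ZMod p) V]
    {ρ : Representation (ZMod p) Γ V} {M : ∀ v : Nat.Primes, Submodule (ZMod p) (H1loc ρ v)}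
    {Q : Finset Nat.Primes} {x : H1 (sLevels S) ρ} :
    x ∈ Wsub S ρ M Q ↔ x ∈ Sel S ρ M ∧ ∀ q ∈ Q, resv S ρ q x = 0 := by
  simp [Wsub, Submodule.mem_iInf]

theorem exists_kill (hp2 : p ≠ 2)
    (hr : ∃ L : IntermediateField ℚ (AlgebraicClosure ℚ), FiniteDimensional ℚ L ∧
      ∀ σ : Γ, (∀ x ∈ L, σ x = x) → r σ = 1) {n : ℕ}
    (hT : TWHyp r (muSub (p ^ (n + 1)))) {S : Finset Nat.Primes}
    {M : ∀ v : Nat.Primes, Submodule (ZMod p) (H1loc (cartier p (adRep r 1)) v)}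
    {Q : Finset Nat.Primes} (hW : Wsub S (cartier p (adRep r 1)) M Q ≠ ⊥) (X : Finset ℕ) :
    ∃ v : Nat.Primes, IsTWPrime p n r (v : ℕ) ∧ (v : ℕ) ∉ X ∧
      Wsub S (cartier p (adRep r 1)) M (insert v Q) < Wsub S (cartier p (adRep r 1)) M Q := by
  classical
  obtain ⟨x, hx, hx0⟩ := (Submodule.ne_bot_iff _).1 hW
  obtain ⟨c, rfl⟩ := H1.mk_surjective _ _ x
  let e := trEquiv (p := p) hT.two_ne
  have he : ∀ g m, e (adRep r (ExtCitation.cycloChar p) g m) = cartier p (adRep r 1) g (e m) :=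
    fun g m => trForm_equivariant r g m
  have he' : ∀ g f, e.symm (cartier p (adRep r 1) g f) =
      adRep r (ExtCitation.cycloChar p) g (e.symm f) := by
    intro g f
    apply e.injective
    rw [he, e.apply_symm_apply, e.apply_symm_apply]
  have hc' : (fun g => e.symm (c.1 g)) ∈ Z1 (sLevels S) (adRep r (ExtCitation.cycloChar p)) := by
    obtain ⟨h1, h2⟩ := mem_Z1.1 c.2
    refine ⟨h1.comp e.symm, fun g h => ?_⟩
    show e.symm (c.1 (g * h)) = _
    rw [h2, map_add, he']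
  have hnc : (fun g => e.symm (c.1 g)) ∉ B1 (adRep r (ExtCitation.cycloChar p)) := by
    intro h
    apply hx0
    obtain ⟨m, hm⟩ := mem_B1.1 h
    refine H1.mk_eq_zero.2 (mem_B1.2 ⟨e m, fun g => ?_⟩)
    rw [← he, ← map_sub, ← hm g]
    exact (e.apply_symm_apply _).symm
  obtain ⟨v, hv, hvX, hne⟩ := exists_twPrime_ne hp2 hr hT ⟨_, hc'⟩ hnc X
  refine ⟨v, hv, hvX, ?_⟩
  have hres : resv S (cartier p (adRep r 1)) v
      (H1.mk (sLevels S) (cartier p (adRep r 1)) c) ≠ 0 := by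
    intro h0
    apply hne
    obtain ⟨m, hm⟩ := mem_B1.1 (H1.mk_eq_zero.1 h0)
    refine H1.mk_eq_zero.2 (mem_B1.2 ⟨e.symm m, fun τ => ?_⟩)
    have h1 : (c.1 (localGaloisToGlobal v τ)) =
      cartier p (adRep r 1) (localGaloisToGlobal v τ) m - m := hm τ
    show e.symm (c.1 (localGaloisToGlobal v τ)) =
      adRep r (ExtCitation.cycloChar p) (localGaloisToGlobal v τ) (e.symm m) - e.symm m
    rw [h1, map_sub, he']
  refine lt_of_le_of_ne ?_ ?_
  · intro y hy
    rw [mem_Wsub] at hy ⊢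
    exact ⟨hy.1, fun q hq => hy.2 q (Finset.mem_insert_of_mem hq)⟩
  · intro h
    rw [← h] at hx
    exact hres ((mem_Wsub.1 hx).2 v (Finset.mem_insert_self _ _))

/-- pure linear algebra: killing a finite dimensional space step by step -/
theorem kill_induction {ι K E : Type*} [DecidableEq ι] [Field K] [AddCommGroup E] [Module K E]
    [FiniteDimensional K E] (W : Finset ι → Submodule K E) (P : ι → Prop)
    (hmono : ∀ Q v, W (insert v Q) ≤ W Q) (hex : ∀ Q : Finset ι, ∃ v ∉ Q, P v)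
    (hkill : ∀ Q, W Q ≠ ⊥ → ∃ v ∉ Q, P v ∧ W (insert v Q) < W Q) {R : ℕ}
    (hR : finrank K (W ∅) ≤ R) :
    ∃ Q : Finset ι, Q.card = R ∧ (∀ v ∈ Q, P v) ∧ W Q = ⊥ := by
  have key : ∀ j : ℕ, j ≤ R → ∃ Q : Finset ι, Q.card = j ∧ (∀ v ∈ Q, P v) ∧
      finrank K (W Q) ≤ R - j := by
    intro j
    induction j with
    | zero =>
      intro _
      exact ⟨∅, rfl, by simp, by rw [Nat.sub_zero]; exact hR⟩
    | succ j ih =>
      intro hj
      obtain ⟨Q, hQ, hQ', hQ''⟩ := ih (by omega)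
      by_cases hW : W Q = ⊥
      · obtain ⟨v, hvQ, hv⟩ := hex Q
        refine ⟨insert v Q, by rw [Finset.card_insert_of_notMem hvQ, hQ], ?_, ?_⟩
        · intro w hw
          rcases Finset.mem_insert.1 hw with rfl | hw
          · exact hv
          · exact hQ' w hw
        · have hle := hmono Q v
          rw [hW, le_bot_iff] at hle
          rw [hle, finrank_bot]
          exact Nat.zero_le _
      · obtain ⟨v, hvQ, hv, hlt⟩ := hkill Q hW
        refine ⟨insert v Q, by rw [Finset.card_insert_of_notMem hvQ, hQ], ?_, ?_⟩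
        · intro w hw
          rcases Finset.mem_insert.1 hw with rfl | hw
          · exact hv
          · exact hQ' w hw
        · have := Submodule.finrank_lt_finrank_of_lt hlt
          omega
  obtain ⟨Q, h1, h2, h3⟩ := key R le_rfl
  refine ⟨Q, h1, h2, ?_⟩
  rw [Nat.sub_self, Nat.le_zero] at h3
  exact Submodule.finrank_eq_zero.1 h3

theorem Wsub_insert_le {S : Finset Nat.Primes} {V : Type} [AddCommGroup V] [Module (ZMod p) V]
    {ρ : Representation (ZMod p) Γ V} {M : ∀ v : Nat.Primes, Submodule (ZMod p) (H1loc ρ v)}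
    [DecidableEq Nat.Primes]
    (Q : Finset Nat.Primes) (v : Nat.Primes) : Wsub S ρ M (insert v Q) ≤ Wsub S ρ M Q := by
  intro y hy
  rw [mem_Wsub] at hy ⊢
  exact ⟨hy.1, fun q hq => hy.2 q (Finset.mem_insert_of_mem hq)⟩

theorem exists_kill_all (hp2 : p ≠ 2)
    (hr : ∃ L : IntermediateField ℚ (AlgebraicClosure ℚ), FiniteDimensional ℚ L ∧
      ∀ σ : Γ, (∀ x ∈ L, σ x = x) → r σ = 1) {n : ℕ}
    (hT : TWHyp r (muSub (p ^ (n + 1)))) {S : Finset Nat.Primes}
    {M : ∀ v : Nat.Primes, Submodule (ZMod p) (H1loc (cartier p (adRep r 1)) v)}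
    (hfin : FiniteDimensional (ZMod p) (H1 (sLevels S) (cartier p (adRep r 1))))
    {R : ℕ} (hR : finrank (ZMod p) (Sel S (cartier p (adRep r 1)) M) ≤ R) (X : Finset ℕ) :
    ∃ Q : Finset Nat.Primes, Q.card = R ∧
      (∀ v ∈ Q, IsTWPrime p n r (v : ℕ) ∧ (v : ℕ) ∉ X) ∧
      Wsub S (cartier p (adRep r 1)) M Q = ⊥ := by
  classical
  refine kill_induction (Wsub S (cartier p (adRep r 1)) M)
    (fun v => IsTWPrime p n r (v : ℕ) ∧ (v : ℕ) ∉ X) Wsub_insert_le ?_ ?_
    ((Submodule.finrank_mono inf_le_left).trans hR)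
  · intro Q
    obtain ⟨v, hv, hvX⟩ := exists_twPrime hr hT
      (X ∪ Finset.image (fun q : Nat.Primes => (q : ℕ)) Q)
    exact ⟨v, fun h => hvX (Finset.mem_union_right _
      (Finset.mem_image_of_mem (fun q : Nat.Primes => (q : ℕ)) h)), hv,
      fun h => hvX (Finset.mem_union_left _ h)⟩
  · intro Q hW
    obtain ⟨v, hv, hvX, hlt⟩ := exists_kill hp2 hr hT hW
      (X ∪ Finset.image (fun q : Nat.Primes => (q : ℕ)) Q)
    exact ⟨v, fun h => hvX (Finset.mem_union_right _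
      (Finset.mem_image_of_mem (fun q : Nat.Primes => (q : ℕ)) h)),
      ⟨hv, fun h => hvX (Finset.mem_union_left _ h)⟩, hlt⟩

/-- If `W_Q = 0` then the dual Selmer group of level `S ∪ Q` vanishes. -/
theorem sel_union_eq_bot [DecidableEq Nat.Primes]
    {V : Type} [AddCommGroup V] [Module (ZMod p) V] [Module.Finite (ZMod p) V]
    {ρ : Representation (ZMod p) Γ V} {S Q : Finset Nat.Primes}
    (hs : Smooth (sLevels S) ρ)
    {M : ∀ v : Nat.Primes, Submodule (ZMod p) (H1loc ρ v)}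
    (hM : ∀ v, v ∉ S → M v = ⊥)
    (hQS : ∀ v ∈ Q, v ∉ S)
    (hW : Wsub S ρ M Q = ⊥) : Sel (S ∪ Q) ρ M = ⊥ := by
  rw [eq_bot_iff]
  intro x hx
  rw [mem_Sel] at hx
  obtain ⟨c, rfl⟩ := H1.mk_surjective _ _ x
  obtain ⟨⟨H0, hH0, hlc⟩, hcoc⟩ := mem_Z1.1 c.2
  have hc1 : c.1 1 = 0 := Z1.map_one c.2
  have htriv : ∀ q : Nat.Primes, q ∉ S → ∀ A : ValuationSubring (AlgebraicClosure ℚ),
      A.LiesOverPrime (q : ℕ) → ∀ s ∈ A.inertiaSubgroupIn ℚ, ∀ v, ρ s v = v := by
    intro q hq A hA s hs' v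
    obtain ⟨H, hH, hH'⟩ := hs v
    exact hH' s (inertia_le_of_mem_sLevels hH hq hA hs')
  have hI : ∀ q : Nat.Primes, q ∉ S → ∀ A : ValuationSubring (AlgebraicClosure ℚ),
      A.LiesOverPrime (q : ℕ) → ∀ s ∈ A.inertiaSubgroupIn ℚ, c.1 s = 0 := by
    intro q hq A hA s hs'
    by_cases hqQ : q ∈ Q
    · have h1 := hx q (Finset.mem_union_right _ hqQ)
      rw [hM q hq, Submodule.mem_bot] at h1
      obtain ⟨m, hm⟩ := mem_B1.1 (H1.mk_eq_zero.1 h1)
      refine eq_zero_on_inertia (ρ := ρ) hcoc q.2 (CFT.Loc.padicPlace_liesOverPrime (q : ℕ))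
        (htriv q hq _ (CFT.Loc.padicPlace_liesOverPrime (q : ℕ))) ?_ hA hs'
      intro s hs
      rw [← CFT.Loc.map_inertiaLoc] at hs
      obtain ⟨τ, hτ, rfl⟩ := hs
      have h2 : c.1 (localGaloisToGlobal q τ) = ρ (localGaloisToGlobal q τ) m - m := hm τ
      rw [h2, htriv q hq _ (CFT.Loc.padicPlace_liesOverPrime (q : ℕ)) _
        ((CFT.Loc.localGaloisToGlobal_mem_inertia_iff _ _).2 hτ), sub_self]
    · have hq' : q ∉ S ∪ Q := by
        rw [Finset.mem_union]; tauto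
      have h1 := inertia_le_of_mem_sLevels hH0 hq' hA hs'
      have h2 := hlc 1 s h1
      rw [one_mul, hc1] at h2
      exact h2
  have hcS : c.1 ∈ Z1 (sLevels S) ρ := by
    refine mem_Z1_sLevels hs ⟨H0, sLevels_le_galLevels hH0, fun s hs => ?_⟩ hcoc hI
    have h2 := hlc 1 s hs
    rw [one_mul, hc1] at h2
    exact h2
  have h0 : H1.mk (sLevels S) ρ ⟨c.1, hcS⟩ ∈ Wsub S ρ M Q := by
    rw [mem_Wsub]
    refine ⟨mem_Sel.2 fun v hv => hx v (Finset.mem_union_left _ hv), fun q hq => ?_⟩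
    have := hx q (Finset.mem_union_right _ hq)
    rw [hM q (hQS q hq), Submodule.mem_bot] at this
    exact this
  rw [hW, Submodule.mem_bot] at h0
  rw [Submodule.mem_bot]
  have h1 : c.1 ∈ B1 ρ := (H1.mk_eq_zero (f := (⟨c.1, hcS⟩ : ↥(Z1 (sLevels S) ρ)))).1 h0
  exact H1.mk_eq_zero.2 h1

end

end Fermat.Agent.TW
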