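import Mathlib
import Fermat.Agent.TW.Kill

/-!
# The numerical bound for the Selmer group
-/

set_option autoImplicit false
set_option linter.style.haveILetI false

namespace Fermat.Agent.TW

open Matrix Module Fermat.Agent.DefRing Fermat.Agent Fermat.Agent.CFT

local notation "M₂" => Matrix (Fin 2) (Fin 2)

section

variable {p : ℕ} [Fact p.Prime] {k : Type} [Field k] [Algebra (ZMod p) k] [Finite k]
variable {r : Γ →* M₂ k}

theorem finrank_le_of_forall_smul {A : M₂ k} (W : Submodule (ZMod p) (sl k))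
    (hW : ∀ m ∈ W, ∃ c : k, (m : M₂ k) = c • A) : finrank (ZMod p) W ≤ finrank (ZMod p) k := by
  have hk : FiniteDimensional (ZMod p) k := Module.finite_iff_finite.2 inferInstance
  -- `m ↦ m` is in the image of `c ↦ c • A`
  let f : k →ₗ[ZMod p] M₂ k :=
    { toFun := fun c => c • A
      map_add' := fun a b => add_smul _ _ _
      map_smul' := fun a b => by rw [RingHom.id_apply, smul_assoc] }
  let g : W →ₗ[ZMod p] M₂ k :=
    { toFun := fun m => ((m : sl k) : M₂ k)
      map_add' := fun a b => rfl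
      map_smul' := fun a b => rfl }
  have hg : Function.Injective g := fun a b h => Subtype.ext (Subtype.ext h)
  have h1 : LinearMap.range g ≤ LinearMap.range f := by
    rintro _ ⟨m, rfl⟩
    obtain ⟨c, hc⟩ := hW m m.2
    exact ⟨c, hc.symm⟩
  calc finrank (ZMod p) W = finrank (ZMod p) (LinearMap.range g) :=
        (LinearMap.finrank_range_of_inj hg).symm
    _ ≤ finrank (ZMod p) (LinearMap.range f) := Submodule.finrank_mono h1
    _ ≤ finrank (ZMod p) k := LinearMap.finrank_range_le f

/-- local invariants of `ad⁰(1)` at a Taylor-Wiles prime -/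
theorem h0loc_cartier_le (h2 : (2 : k) ≠ 0) {n : ℕ} {v : Nat.Primes}
    (hv : IsTWPrime p n r (v : ℕ)) :
    h0loc (cartier p (adRep r 1)) v ≤ finrank (ZMod p) k := by
  have hA := CFT.Loc.padicPlace_liesOverPrime (v : ℕ)
  obtain ⟨φ, hφ⟩ := Frob.exists_isFrobeniusAt (padicPlace (v : ℕ)) v.2 hA
  have hvp : (v : ℕ) ≠ p := by
    intro h
    have h1 := hv.dvd
    rw [h] at h1
    have h2 : p ∣ p - 1 := (dvd_pow_self p (Nat.succ_ne_zero n)).trans h1
    have h3 := Nat.le_of_dvd (Nat.sub_pos_of_lt (Fact.out : p.Prime).one_lt) h2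
    have := (Fact.out : p.Prime).pos
    omega
  have hχ : (ExtCitation.cycloChar p φ : ZMod p) = 1 := by
    rw [CycChar.cycloChar_frobenius p v.2 hvp hA hφ]
    have h1 : p ∣ (v : ℕ) - 1 := (dvd_pow_self p (Nat.succ_ne_zero n)).trans hv.dvd
    have h2 : ((((v : ℕ) - 1 : ℕ)) : ZMod p) = 0 := (ZMod.natCast_eq_zero_iff _ _).2 h1
    rw [Nat.cast_sub v.2.one_lt.le, sub_eq_zero] at h2
    simpa using h2
  obtain ⟨htr, hdet⟩ := hv.frob _ hA φ hφ
  have hφD : φ ∈ (padicPlace (v : ℕ)).decompositionSubgroup ℚ :=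
    ((Frob.isFrobeniusAt_iff _ _ _).1 hφ).1
  rw [← CFT.Loc.range_localGaloisToGlobal] at hφD
  -- the traceless part of `r φ`
  set A : M₂ k := r φ - ((r φ).trace / 2) • (1 : M₂ k) with hAdef
  have hAtr : A.trace = 0 := by
    rw [hAdef, Matrix.trace_sub, Matrix.trace_smul, Matrix.trace_one]
    simp
    field_simp
    ring
  have hA0 : A ≠ 0 := by
    intro h
    rw [hAdef, sub_eq_zero] at h
    apply htr
    have hd := hdet
    rw [h, Matrix.det_smul, Matrix.det_one] at hd
    rw [Fintype.card_fin, mul_one, div_pow, div_eq_one_iff_eq (pow_ne_zero 2 h2)] at hd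
    rw [hd]; norm_num
  -- transport by the trace form
  let e := trEquiv (p := p) h2
  let W : Submodule (ZMod p) (sl k) :=
    (invOn (cartier p (adRep r 1)) (Set.range (localGaloisToGlobal (v : ℕ)))).comap
      (e : sl k →ₗ[ZMod p] Dual (ZMod p) (sl k))
  have hWe : finrank (ZMod p) W = h0loc (cartier p (adRep r 1)) v := by
    have : W = (invOn (cartier p (adRep r 1)) (Set.range (localGaloisToGlobal (v : ℕ)))).map
        (e.symm : Dual (ZMod p) (sl k) →ₗ[ZMod p] sl k) :=
      Submodule.comap_equiv_eq_map_symm e _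
    rw [this, h0loc]
    exact LinearEquiv.finrank_map_eq e.symm _
  rw [← hWe]
  refine finrank_le_of_forall_smul (A := A) W fun m hm => ?_
  have h3 : cartier p (adRep r 1) φ (e m) = e m := hm φ hφD
  have h4 : adRep r (ExtCitation.cycloChar p) φ m = m := by
    apply e.injective
    rw [← h3]
    exact trForm_equivariant r φ m
  have h5 : r φ * (m : M₂ k) = m * r φ := by
    have h6 := congrArg (fun x : sl k => (x : M₂ k)) h4
    simp only [adRep_apply, hχ, one_smul] at h6
    calc r φ * (m : M₂ k) = r φ * (m : M₂ k) * r φ⁻¹ * r φ := by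
          rw [mul_assoc _ (r φ⁻¹), ← map_mul r φ⁻¹, inv_mul_cancel, map_one, mul_one]
      _ = m * r φ := by rw [h6]
  have h7 : A * (m : M₂ k) = m * A := by
    rw [hAdef, sub_mul, mul_sub, h5]; simp
  exact exists_smul_of_comm h2 hAtr (mem_sl.1 m.2) hA0 h7

theorem cycloChar_complexConjugation (p : ℕ) [Fact p.Prime] :
    (ExtCitation.cycloChar p complexConjugation : ZMod p) = -1 := by
  have hp := (Fact.out : p.Prime)
  have h := CycChar.cycloChar_eq_of_forall p (σ := complexConjugation) (a := p - 1) (by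
    intro ζ hζ
    apply complexEmbedding.toRingHom.injective
    show complexEmbedding _ = complexEmbedding _
    rw [complexEmbedding_complexConjugation, map_pow]
    have h1 : (complexEmbedding ζ) ^ p = 1 := by rw [← map_pow, hζ, map_one]
    have h2 : ‖complexEmbedding ζ‖ = 1 := Complex.norm_eq_one_of_pow_eq_one h1 hp.ne_zero
    have h3 : (starRingEnd ℂ) (complexEmbedding ζ) = (complexEmbedding ζ)⁻¹ := by
      rw [Complex.inv_def, Complex.normSq_eq_norm_sq, h2]; simp
    rw [h3]
    have h0 : complexEmbedding ζ ≠ 0 := by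
      intro h; rw [h, norm_zero] at h2; exact zero_ne_one h2
    rw [inv_eq_of_mul_eq_one_right]
    rw [← pow_succ', Nat.sub_add_cancel hp.one_lt.le, h1])
  rw [h, Nat.cast_sub hp.one_lt.le]
  simp

/-- the invariants of complex conjugation on `ad⁰` -/
theorem le_finrank_invOn_conj
    (hdet : ∀ σ, (r σ).det = algebraMap (ZMod p) k (ExtCitation.cycloChar p σ : ZMod p)) :
    finrank (ZMod p) k ≤ finrank (ZMod p) (invOn (adRep (p := p) r 1) {complexConjugation}) := by
  set c := complexConjugation with hc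
  set A := r c with hA
  have hAA : A * A = 1 := by rw [hA, ← map_mul, complexConjugation_mul_self, map_one]
  have hAinv : r c⁻¹ = A := by rw [hc, complexConjugation_inv]
  have hd : A.det = -1 := by rw [hA, hdet, hc, cycloChar_complexConjugation]; simp
  have htr : A.trace = 0 := by
    have h1 := mul_self_eq A
    rw [hAA, hd, neg_smul, one_smul, sub_neg_eq_add, eq_comm, add_eq_right] at h1
    by_contra h
    rcases smul_eq_zero.1 h1 with h3 | h3
    · exact h h3
    · rw [h3] at h; simp at h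
  have hA0 : A ≠ 0 := by
    intro h; rw [h] at hAA; simp at hAA
  let f : k →ₗ[ZMod p] (invOn (adRep (p := p) r 1) {complexConjugation}) :=
    { toFun := fun a => ⟨⟨a • A, by rw [mem_sl, Matrix.trace_smul, htr, smul_zero]⟩, by
        intro g hg
        rw [Set.mem_singleton_iff] at hg
        subst hg
        apply Subtype.ext
        rw [adRep_one_apply, mul_smul_comm, smul_mul_assoc, ← hc, ← hA, hAinv, hAA, one_mul]⟩
      map_add' := fun a b => Subtype.ext (Subtype.ext (add_smul a b A))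
      map_smul' := fun a b => Subtype.ext (Subtype.ext (by
        show (a • b) • A = a • (b • A)
        rw [smul_assoc])) }
  have hf : Function.Injective f := by
    rw [← LinearMap.ker_eq_bot, LinearMap.ker_eq_bot']
    intro a ha
    have h1 : a • A = 0 := congrArg (fun x => ((x : sl k) : M₂ k)) (congrArg Subtype.val ha)
    exact (smul_eq_zero.1 h1).resolve_right hA0
  exact LinearMap.finrank_le_finrank_of_injective hf

omit [Finite k] in
/-- no global invariants -/
theorem invOn_univ_eq_bot {n : ℕ} (hT : TWHyp r (muSub (p ^ (n + 1)))) :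
    invOn (adRep (p := p) r 1) Set.univ = ⊥ := by
  rw [eq_bot_iff]
  intro m hm
  rw [Submodule.mem_bot]
  obtain ⟨c, hc⟩ := hT.comm2 ⊤ (Or.inl rfl) (m : M₂ k) (fun g _ => by
    have h1 := congrArg (fun x : sl k => (x : M₂ k)) (hm g (Set.mem_univ g))
    simp only [adRep_one_apply] at h1
    calc r g * (m : M₂ k) = r g * (m : M₂ k) * r g⁻¹ * r g := by
          rw [mul_assoc _ (r g⁻¹), ← map_mul r g⁻¹, inv_mul_cancel, map_one, mul_one]
      _ = m * r g := by rw [h1])
  have h2 := mem_sl.1 m.2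
  rw [hc, Matrix.trace_smul, Matrix.trace_one] at h2
  simp only [Fintype.card_fin, Nat.cast_ofNat, smul_eq_mul, mul_eq_zero] at h2
  rcases h2 with h2 | h2
  · apply Subtype.ext
    rw [hc, h2, zero_smul]; rfl
  · exact absurd h2 hT.two_ne

/-- **The bound for the Selmer group.** -/
theorem finrank_sel_le [DecidableEq Nat.Primes] (G : GWData p (adRep (p := p) r 1)) {n : ℕ}
    {e : ℕ}
    (hT : TWHyp r (muSub (p ^ (n + 1))))
    (hdet : ∀ σ, (r σ).det = algebraMap (ZMod p) k (ExtCitation.cycloChar p σ : ZMod p))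
    {S Q : Finset Nat.Primes} (hpS : ExtCitation.pPrime p ∈ S)
    (hs : Smooth (sLevels S) (adRep (p := p) r 1))
    {L : ∀ v : Nat.Primes, Submodule (ZMod p) (H1loc (adRep (p := p) r 1) v)}
    (hloc : ∑ v ∈ S, finrank (ZMod p) (L v) + e ≤
      ∑ v ∈ S, h0loc (adRep (p := p) r 1) v + finrank (ZMod p) k)
    (hQS : Disjoint S Q)
    (hQ : ∀ v ∈ Q, IsTWPrime p n r (v : ℕ))
    (hdual : Sel (S ∪ Q) (cartier p (adRep (p := p) r 1))
      (fun v => (L v).dualAnnihilator.comap (G.B v).flip) = ⊥) :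
    finrank (ZMod p) (Sel (S ∪ Q) (adRep (p := p) r 1) L) + e ≤ Q.card * finrank (ZMod p) k := by
  have hs' : Smooth (sLevels (S ∪ Q)) (adRep (p := p) r 1) := fun v => by
    obtain ⟨H, hH, h⟩ := hs v
    exact ⟨H, sLevels_mono Finset.subset_union_left hH, h⟩
  have hgw := G.gw (S ∪ Q) (Finset.mem_union_left _ hpS) hs' L
  rw [hdual, finrank_bot, invOn_univ_eq_bot hT, finrank_bot, Finset.sum_union hQS,
    Finset.sum_union hQS] at hgw
  have h1 := le_finrank_invOn_conj (p := p) (r := r) hdet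
  have h2 : ∑ v ∈ Q, finrank (ZMod p) (L v) ≤
      ∑ v ∈ Q, h0loc (adRep (p := p) r 1) v + Q.card * finrank (ZMod p) k := by
    rw [← smul_eq_mul, ← Finset.sum_const, ← Finset.sum_add_distrib]
    refine Finset.sum_le_sum fun v hv => ?_
    have hvp : v ≠ ExtCitation.pPrime p := by
      rintro rfl
      exact (Finset.disjoint_left.1 hQS) hpS hv
    have := G.finite_loc v
    exact ((Submodule.finrank_le (L v)).trans (G.euler v hvp)).trans
      (Nat.add_le_add_left (h0loc_cartier_le hT.two_ne (hQ v hv)) _)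
  omega

/-- orthogonal conditions -/
noncomputable def perp {V : Type} [AddCommGroup V] [Module (ZMod p) V]
    {ρ : Representation (ZMod p) Γ V} (G : GWData p ρ)
    (L : ∀ v : Nat.Primes, Submodule (ZMod p) (H1loc ρ v)) (v : Nat.Primes) :
    Submodule (ZMod p) (H1loc (cartier p ρ) v) :=
  (L v).dualAnnihilator.comap (G.B v).flip

theorem perp_eq_bot {V : Type} [AddCommGroup V] [Module (ZMod p) V]
    {ρ : Representation (ZMod p) Γ V} (G : GWData p ρ)
    {L : ∀ v : Nat.Primes, Submodule (ZMod p) (H1loc ρ v)} {v : Nat.Primes} (h : L v = ⊤) :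
    perp G L v = ⊥ := by
  rw [perp, h, eq_bot_iff]
  intro y hy
  rw [Submodule.mem_bot]
  refine G.nondeg v y fun x => ?_
  rw [Submodule.mem_comap, Submodule.mem_dualAnnihilator] at hy
  exact hy x trivial

theorem sel_perp_eq_bot [DecidableEq Nat.Primes]
    {V : Type} [AddCommGroup V] [Module (ZMod p) V] [Module.Finite (ZMod p) V]
    {ρ : Representation (ZMod p) Γ V} (G : GWData p ρ) {S Q : Finset Nat.Primes}
    (hs' : Smooth (sLevels S) (cartier p ρ))
    {L : ∀ v : Nat.Primes, Submodule (ZMod p) (H1loc ρ v)}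
    (hL : ∀ v, v ∉ S → L v = ⊤) (hdisj : Disjoint S Q)
    (hW : Wsub S (cartier p ρ) (perp G L) Q = ⊥) :
    Sel (S ∪ Q) (cartier p ρ) (perp G L) = ⊥ :=
  sel_union_eq_bot hs' (fun v hv => perp_eq_bot G (hL v hv))
    (fun _ hv hvS => Finset.disjoint_left.1 hdisj hvS hv) hW

/-- **Summary**: Taylor-Wiles primes making the Selmer group small. -/
theorem exists_twPrimes_sel [DecidableEq Nat.Primes] (G : GWData p (adRep (p := p) r 1))
    (hp2 : p ≠ 2)
    (hr : ∃ L : IntermediateField ℚ (AlgebraicClosure ℚ), FiniteDimensional ℚ L ∧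
      ∀ σ : Γ, (∀ x ∈ L, σ x = x) → r σ = 1)
    (hT : ∀ n, TWHyp r (muSub (p ^ (n + 1))))
    (hdet : ∀ σ, (r σ).det = algebraMap (ZMod p) k (ExtCitation.cycloChar p σ : ZMod p))
    {S : Finset Nat.Primes} (hpS : ExtCitation.pPrime p ∈ S)
    (hs : Smooth (sLevels S) (adRep (p := p) r 1))
    (hs' : Smooth (sLevels S) (cartier p (adRep (p := p) r 1)))
    {L : ∀ v : Nat.Primes, Submodule (ZMod p) (H1loc (adRep (p := p) r 1) v)}
    (hL : ∀ v, v ∉ S → L v = ⊤) {e : ℕ}
    (hloc : ∑ v ∈ S, finrank (ZMod p) (L v) + e ≤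
      ∑ v ∈ S, h0loc (adRep (p := p) r 1) v + finrank (ZMod p) k) :
    ∃ R : ℕ, ∀ (n : ℕ) (X : Finset ℕ), ∃ Q : Finset Nat.Primes, Q.card = R ∧
      (∀ v ∈ Q, IsTWPrime p n r (v : ℕ) ∧ (v : ℕ) ∉ X) ∧
      finrank (ZMod p) (Sel (S ∪ Q) (adRep (p := p) r 1) L) + e ≤ R * finrank (ZMod p) k := by
  refine ⟨finrank (ZMod p) (Sel S (cartier p (adRep (p := p) r 1)) (perp G L)), fun n X => ?_⟩
  obtain ⟨Q, hQR, hQ, hW⟩ := exists_kill_all (S := S) (n := n)
    (M := perp G L) hp2 hr (hT n)
    (G.finite' S hpS hs) le_rfl (X ∪ S.image (fun v : Nat.Primes => (v : ℕ)))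
  have hdisj : Disjoint S Q := by
    rw [Finset.disjoint_left]
    intro v hv hvQ
    exact (hQ v hvQ).2 (Finset.mem_union_right _
      (Finset.mem_image_of_mem (fun v : Nat.Primes => (v : ℕ)) hv))
  have hbot := sel_perp_eq_bot G hs' hL hdisj hW
  refine ⟨Q, hQR, fun v hv => ⟨(hQ v hv).1, fun h => (hQ v hv).2 (Finset.mem_union_left _ h)⟩, ?_⟩
  have := finrank_sel_le G (hT n) hdet hpS hs hloc hdisj (fun v hv => (hQ v hv).1) hbot
  rw [hQR] at this
  exact this

end

end Fermat.Agent.TW
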