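import Mathlib
import Fermat.Agent.DefRing.Rep
import Fermat.Agent.Frob.Basic
import Fermat.Prelude.Def_GaloisRep_StrictOrdinary
import Fermat.Prelude.Def_GaloisRep_Flat

/-!
# Matrix form of the local deformation conditions and their stability under base change
-/

set_option autoImplicit false
set_option linter.style.haveILetI false
set_option linter.unusedSectionVars false

namespace Fermat.Agent.TW

open Matrix IsLocalRing Fermat.Agent.DefRing

local notation "M₂" => Matrix (Fin 2) (Fin 2)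

section

variable {A : Type} [CommRing A] [IsLocalRing A] {ρ : GaloisRepAdic A} {r : Γ → M₂ A}

theorem realizes_det (h : Realizes ρ r) (σ : Γ) : LinearMap.det (ρ.ρ σ) = (r σ).det := by
  obtain ⟨b, hb⟩ := h
  rw [← hb, LinearMap.det_toMatrix]

theorem realizes_charpoly (h : Realizes ρ r) (σ : Γ) :
    LinearMap.charpoly (ρ.ρ σ) = (r σ).charpoly := by
  obtain ⟨b, hb⟩ := h
  rw [← hb, LinearMap.charpoly_toMatrix]

theorem realizes_eq_one_iff (h : Realizes ρ r) (σ : Γ) : ρ.ρ σ = 1 ↔ r σ = 1 := by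
  obtain ⟨b, hb⟩ := h
  rw [← hb]
  constructor
  · intro h; rw [h]; exact LinearMap.toMatrix_one b
  · intro h
    apply (LinearMap.toMatrix b b).injective
    rw [h]; exact (LinearMap.toMatrix_one b).symm

theorem realizes_isUnramifiedAt_iff (h : Realizes ρ r) (q : ℕ) :
    ρ.IsUnramifiedAt q ↔ ∀ P : ValuationSubring (AlgebraicClosure ℚ), P.LiesOverPrime q →
      ∀ σ ∈ P.inertiaSubgroupIn ℚ, r σ = 1 := by
  unfold GaloisRepAdic.IsUnramifiedAt
  simp only [realizes_eq_one_iff h]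

theorem realizes_detIsCyclotomic_iff (h : Realizes ρ r) (p : ℕ) :
    ρ.DetIsCyclotomic p ↔ (p : A) ∈ maximalIdeal A ∧
      ∀ (n : ℕ) (σ : Γ) (a : ℕ), (∀ μ : AlgebraicClosure ℚ, μ ^ p ^ n = 1 → σ μ = μ ^ a) →
        (r σ).det - (a : A) ∈ Ideal.span {((p ^ n : ℕ) : A)} := by
  unfold GaloisRepAdic.DetIsCyclotomic
  simp only [realizes_det h]

theorem realizes_isUnipotent_iff (h : Realizes ρ r) (q : ℕ) :
    ρ.IsUnipotentOnInertiaAt q ↔ ∀ P : ValuationSubring (AlgebraicClosure ℚ),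
      P.LiesOverPrime q → ∀ σ ∈ P.inertiaSubgroupIn ℚ,
        (r σ).charpoly = (Polynomial.X - 1) ^ 2 := by
  unfold GaloisRepAdic.IsUnipotentOnInertiaAt
  simp only [realizes_charpoly h]

/-- matrix form of the strict ordinary condition at one place -/
structure OrdMat (p : ℕ) (P : ValuationSubring (AlgebraicClosure ℚ)) (r : Γ → M₂ A) : Prop where
  dec : ∀ σ ∈ P.decompositionSubgroup ℚ, r σ 1 0 = 0
  ine : ∀ σ ∈ P.inertiaSubgroupIn ℚ, r σ 1 1 = 1
  cyc : ∀ σ ∈ P.decompositionSubgroup ℚ, ∀ (n a : ℕ),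
    (∀ μ : AlgebraicClosure ℚ, μ ^ p ^ n = 1 → σ μ = μ ^ a) →
      r σ 0 0 - (a : A) * r σ 1 1 ∈ Ideal.span {((p ^ n : ℕ) : A)}

theorem isStrictOrdinaryAt_iff (ρ : GaloisRepAdic A) (p : ℕ) :
    ρ.IsStrictOrdinaryAt p ↔ (p : A) ∈ maximalIdeal A ∧
      ∀ P : ValuationSubring (AlgebraicClosure ℚ), P.LiesOverPrime p →
        ∃ r, Realizes ρ r ∧ OrdMat p P r := by
  constructor
  · rintro ⟨hp, h⟩
    refine ⟨hp, fun P hP => ?_⟩
    obtain ⟨L, ⟨b, rfl⟩, hD, hI, hc⟩ := h P hP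
    have hb0 : b 0 ∈ A ∙ b 0 := Submodule.mem_span_singleton_self _
    have hmem : ∀ v : ρ.V, v ∈ (A ∙ b 0) ↔ b.repr v 1 = 0 := by
      intro v
      constructor
      · intro hv
        obtain ⟨a, rfl⟩ := Submodule.mem_span_singleton.1 hv
        simp
      · intro hv
        have h1 := b.sum_repr v
        rw [Fin.sum_univ_two, hv, zero_smul, add_zero] at h1
        rw [← h1]
        exact Submodule.smul_mem _ _ hb0
    refine ⟨fun σ => LinearMap.toMatrix b b (ρ.ρ σ), ⟨b, fun _ => rfl⟩, ?_, ?_, ?_⟩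
    · intro σ hσ
      rw [LinearMap.toMatrix_apply]
      exact (hmem _).1 (hD σ hσ _ hb0)
    · intro σ hσ
      rw [LinearMap.toMatrix_apply]
      have h1 := (hmem _).1 (hI σ hσ (b 1))
      rw [map_sub, Finsupp.sub_apply, Module.Basis.repr_self, Finsupp.single_eq_same,
        sub_eq_zero] at h1
      exact h1
    · intro σ hσ n a ha
      obtain ⟨x, z, hx, hz, hxz⟩ := hc σ hσ
      have h0 : LinearMap.toMatrix b b (ρ.ρ σ) 0 0 = x := by
        rw [LinearMap.toMatrix_apply, hx _ hb0]; simp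
      have h1 : LinearMap.toMatrix b b (ρ.ρ σ) 1 1 = z := by
        rw [LinearMap.toMatrix_apply]
        have h2 := (hmem _).1 (hz (b 1))
        rw [map_sub, Finsupp.sub_apply, map_smul, Finsupp.smul_apply, Module.Basis.repr_self,
          Finsupp.single_eq_same, smul_eq_mul, mul_one, sub_eq_zero] at h2
        exact h2
      rw [h0, h1]
      exact hxz n a ha
  · rintro ⟨hp, h⟩
    refine ⟨hp, fun P hP => ?_⟩
    obtain ⟨r, ⟨b, hb⟩, h1, h2, h3⟩ := h P hP
    have hb0 : b 0 ∈ A ∙ b 0 := Submodule.mem_span_singleton_self _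
    have hact0 : ∀ σ, r σ 1 0 = 0 → ρ.ρ σ (b 0) = r σ 0 0 • b 0 := by
      intro σ hσ
      have e := b.sum_repr (ρ.ρ σ (b 0))
      rw [Fin.sum_univ_two] at e
      rw [← LinearMap.toMatrix_apply b b, ← LinearMap.toMatrix_apply b b, hb, hσ, zero_smul,
        add_zero] at e
      exact e.symm
    have hact1 : ∀ σ, ρ.ρ σ (b 1) = r σ 0 1 • b 0 + r σ 1 1 • b 1 := by
      intro σ
      have e := b.sum_repr (ρ.ρ σ (b 1))
      rw [Fin.sum_univ_two] at e
      rw [← LinearMap.toMatrix_apply b b, ← LinearMap.toMatrix_apply b b, hb] at e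
      exact e.symm
    refine ⟨A ∙ b 0, ⟨b, rfl⟩, ?_, ?_, ?_⟩
    · intro σ hσ v hv
      obtain ⟨a, rfl⟩ := Submodule.mem_span_singleton.1 hv
      rw [map_smul, hact0 σ (h1 σ hσ)]
      exact Submodule.smul_mem _ _ (Submodule.smul_mem _ _ hb0)
    · intro σ hσ v
      have hσD : σ ∈ P.decompositionSubgroup ℚ :=
        ((Fermat.Agent.Frob.mem_inertiaSubgroupIn_iff _ _).1 hσ).1
      have e := b.sum_repr v
      rw [Fin.sum_univ_two] at e
      rw [← e, map_add, map_smul, map_smul, hact0 σ (h1 σ hσD), hact1 σ, h2 σ hσ, one_smul,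
        smul_add]
      have : (b.repr v) 0 • r σ 0 0 • b 0 + ((b.repr v) 1 • r σ 0 1 • b 0 + (b.repr v) 1 • b 1) -
          ((b.repr v) 0 • b 0 + (b.repr v) 1 • b 1) =
          (b.repr v) 0 • r σ 0 0 • b 0 + (b.repr v) 1 • r σ 0 1 • b 0 - (b.repr v) 0 • b 0 := by
        abel
      rw [this]
      exact Submodule.sub_mem _ (Submodule.add_mem _
        (Submodule.smul_mem _ _ (Submodule.smul_mem _ _ hb0))
        (Submodule.smul_mem _ _ (Submodule.smul_mem _ _ hb0))) (Submodule.smul_mem _ _ hb0)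
    · intro σ hσ
      refine ⟨r σ 0 0, r σ 1 1, ?_, ?_, h3 σ hσ⟩
      · intro w hw
        obtain ⟨a, rfl⟩ := Submodule.mem_span_singleton.1 hw
        rw [map_smul, hact0 σ (h1 σ hσ), smul_comm]
      · intro v
        have e := b.sum_repr v
        rw [Fin.sum_univ_two] at e
        rw [← e, map_add, map_smul, map_smul, hact0 σ (h1 σ hσ), hact1 σ, smul_add, smul_add]
        have : (b.repr v) 0 • r σ 0 0 • b 0 + ((b.repr v) 1 • r σ 0 1 • b 0 +
            (b.repr v) 1 • r σ 1 1 • b 1) -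
            (r σ 1 1 • (b.repr v) 0 • b 0 + r σ 1 1 • (b.repr v) 1 • b 1) =
            (b.repr v) 0 • r σ 0 0 • b 0 + (b.repr v) 1 • r σ 0 1 • b 0 -
              r σ 1 1 • (b.repr v) 0 • b 0 := by
          rw [smul_comm (r σ 1 1) ((b.repr v) 1)]
          abel
        rw [this]
        exact Submodule.sub_mem _ (Submodule.add_mem _
          (Submodule.smul_mem _ _ (Submodule.smul_mem _ _ hb0))
          (Submodule.smul_mem _ _ (Submodule.smul_mem _ _ hb0)))
          (Submodule.smul_mem _ _ (Submodule.smul_mem _ _ hb0))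

end

section BaseChange

variable {A B : Type} [CommRing A] [IsLocalRing A] [CommRing B] [IsLocalRing B]
  (φ : A →+* B) (hφ : IsLocalHom φ) {ρ : GaloisRepAdic A}

theorem map_mem_span_pow {p n : ℕ} {x : A} (hx : x ∈ Ideal.span {((p ^ n : ℕ) : A)}) :
    φ x ∈ Ideal.span {((p ^ n : ℕ) : B)} := by
  rw [Ideal.mem_span_singleton] at hx ⊢
  obtain ⟨y, rfl⟩ := hx
  exact ⟨φ y, by rw [map_mul, map_natCast]⟩

include φ hφ in
theorem natCast_mem_of_local {p : ℕ} (h : (p : A) ∈ maximalIdeal A) :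
    (p : B) ∈ maximalIdeal B := by
  rw [← map_natCast φ]
  haveI := hφ
  exact map_nonunit φ _ h

theorem detIsCyclotomic_baseChange {p : ℕ} (h : ρ.DetIsCyclotomic p) :
    (ρ.baseChangeAlong φ hφ).DetIsCyclotomic p := by
  obtain ⟨r, hr⟩ := exists_realizes ρ
  rw [realizes_detIsCyclotomic_iff hr] at h
  rw [realizes_detIsCyclotomic_iff (hr.baseChange φ hφ)]
  refine ⟨natCast_mem_of_local φ hφ h.1, fun n σ a ha => ?_⟩
  have h1 := map_mem_span_pow φ (h.2 n σ a ha)
  have h2 : ((r σ).map φ).det = φ (r σ).det := by rw [RingHom.map_det]; rfl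
  rw [h2]
  rwa [map_sub, map_natCast] at h1

theorem isUnramifiedAt_baseChange {q : ℕ} (h : ρ.IsUnramifiedAt q) :
    (ρ.baseChangeAlong φ hφ).IsUnramifiedAt q := by
  obtain ⟨r, hr⟩ := exists_realizes ρ
  rw [realizes_isUnramifiedAt_iff hr] at h
  rw [realizes_isUnramifiedAt_iff (hr.baseChange φ hφ)]
  intro P hP σ hσ
  show (r σ).map φ = 1
  rw [h P hP σ hσ]
  exact Matrix.map_one _ (map_zero _) (map_one _)

theorem isUnipotent_baseChange {q : ℕ} (h : ρ.IsUnipotentOnInertiaAt q) :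
    (ρ.baseChangeAlong φ hφ).IsUnipotentOnInertiaAt q := by
  obtain ⟨r, hr⟩ := exists_realizes ρ
  rw [realizes_isUnipotent_iff hr] at h
  rw [realizes_isUnipotent_iff (hr.baseChange φ hφ)]
  intro P hP σ hσ
  rw [Matrix.charpoly_map, h P hP σ hσ]
  simp

theorem OrdMat.map {p : ℕ} {P : ValuationSubring (AlgebraicClosure ℚ)} {r : Γ → M₂ A}
    (h : OrdMat p P r) : OrdMat p P (fun σ => (r σ).map φ) where
  dec σ hσ := by rw [Matrix.map_apply, h.dec σ hσ, map_zero]
  ine σ hσ := by rw [Matrix.map_apply, h.ine σ hσ, map_one]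
  cyc σ hσ n a ha := by
    have := map_mem_span_pow φ (h.cyc σ hσ n a ha)
    rwa [map_sub, map_mul, map_natCast] at this

theorem isStrictOrdinaryAt_baseChange {p : ℕ} (h : ρ.IsStrictOrdinaryAt p) :
    (ρ.baseChangeAlong φ hφ).IsStrictOrdinaryAt p := by
  rw [isStrictOrdinaryAt_iff] at h ⊢
  refine ⟨natCast_mem_of_local φ hφ h.1, fun P hP => ?_⟩
  obtain ⟨r, hr, hr'⟩ := h.2 P hP
  exact ⟨_, hr.baseChange φ hφ, hr'.map φ⟩

end BaseChange

end Fermat.Agent.TW
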