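import Mathlib
import Fermat.Agent.Flat.Global
import Fermat.Agent.TW.Closure

/-!
# The flat condition is stable under surjective base change
-/

set_option autoImplicit false
set_option linter.style.haveILetI false

namespace Fermat.Agent.TW

open IsLocalRing GaloisRep
open scoped TensorProduct

variable {A B : Type} [CommRing A] [IsLocalRing A] [CommRing B] [IsLocalRing B]

theorem isFlatAt_baseChange (φ : A →+* B) (hφ : IsLocalHom φ) (hs : Function.Surjective φ)
    {ρ : GaloisRepAdic A} {p : ℕ} (h : ρ.IsFlatAt p) :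
    (ρ.baseChangeAlong φ hφ).IsFlatAt p := by
  rw [Flat.isFlatAt_iff] at h ⊢
  obtain ⟨h1, h2⟩ := h
  refine ⟨?_, fun I hI => ?_⟩
  · haveI := hφ
    refine Finite.of_surjective (ResidueField.map φ) ?_
    intro x
    obtain ⟨y, rfl⟩ := residue_surjective x
    obtain ⟨z, rfl⟩ := hs y
    exact ⟨residue A z, ResidueField.map_residue φ z⟩
  · have hJfin : Finite (A ⧸ I.comap φ) := by
      refine Finite.of_injective (Ideal.quotientMap I φ le_rfl) ?_
      exact Ideal.quotientMap_injective
    have hfl := h2 (I.comap φ) hJfin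
    haveI := Flat.finite_level ρ (I.comap φ)
    letI : Algebra A B := φ.toAlgebra
    have hker : (I.comap φ) • (⊤ : Submodule A ρ.V) ≤
        LinearMap.ker (((Submodule.mkQ (I • (⊤ : Submodule B (B ⊗[A] ρ.V)))).restrictScalars A).comp
          (TensorProduct.mk A B ρ.V 1)) := by
      rw [Submodule.smul_le]
      intro a ha v _
      rw [LinearMap.mem_ker, LinearMap.comp_apply, TensorProduct.mk_apply,
        LinearMap.restrictScalars_apply, Submodule.mkQ_apply, Submodule.Quotient.mk_eq_zero,
        ← TensorProduct.smul_tmul, Algebra.smul_def, ← smul_eq_mul, ← TensorProduct.smul_tmul']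
      exact Submodule.smul_mem_smul ha trivial
    let q : (ρ.V ⧸ ((I.comap φ) • (⊤ : Submodule A ρ.V))) →ₗ[A]
        ((B ⊗[A] ρ.V) ⧸ (I • (⊤ : Submodule B (B ⊗[A] ρ.V)))) :=
      Submodule.liftQ _ _ hker
    have hq : Function.Surjective q := by
      intro x
      obtain ⟨y, rfl⟩ := Submodule.mkQ_surjective _ x
      induction y using TensorProduct.induction_on with
      | zero => exact ⟨0, by rw [map_zero, map_zero]⟩
      | tmul b v =>
        obtain ⟨a, rfl⟩ := hs b
        refine ⟨Submodule.mkQ _ (a • v), ?_⟩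
        show Submodule.mkQ _ ((1 : B) ⊗ₜ[A] (a • v)) = Submodule.mkQ _ (φ a ⊗ₜ[A] v)
        rw [← TensorProduct.smul_tmul, Algebra.smul_def, mul_one]
        rfl
      | add y z hy hz =>
        obtain ⟨y', hy'⟩ := hy
        obtain ⟨z', hz'⟩ := hz
        exact ⟨y' + z', by rw [map_add, hy', hz', map_add]⟩
    refine Flat.IsFlat.of_surjective hfl (q.toAddMonoidHom) hq ?_
    · intro σ x
      obtain ⟨v, rfl⟩ := Submodule.mkQ_surjective _ x
      show Submodule.mkQ _ ((1 : B) ⊗ₜ[A] (ρ.ρ σ v)) =
        Submodule.mkQ _ ((ρ.ρ σ).baseChange B ((1 : B) ⊗ₜ[A] v))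
      rw [LinearMap.baseChange_tmul]

end Fermat.Agent.TW
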