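import Mathlib
import Fermat.Agent.TW.Ad
import Fermat.Agent.DefRing.Rep
import Fermat.Prelude.Def_GaloisRep_Flat

/-!
# Interface for the local flat condition (helper12)
-/

set_option autoImplicit false

namespace Fermat.Agent.TW

open Matrix Fermat.Agent.DefRing Fermat.Agent.CFT

local notation "M₂" => Matrix (Fin 2) (Fin 2)

/-- the first order deformation `(1 + ε c) r` as a matrix valued function -/
noncomputable def defMat {k : Type} [Field k] (r : Γ →* M₂ k) (c : Γ → M₂ k) (σ : Γ) : M₂ (DualNumber k) :=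
  (r σ).map TrivSqZeroExt.inl + (c σ * r σ).map TrivSqZeroExt.inr

/-- The bound for the local flat condition at `p`. -/
def FlatLocalBound (p : ℕ) [Fact p.Prime] {k : Type} [Field k] [Algebra (ZMod p) k]
    (r : Γ →* M₂ k) : Prop :=
  ∃ L : Submodule (ZMod p) (H1loc (adRep (p := p) r 1) (ExtCitation.pPrime p)),
    Module.finrank (ZMod p) L ≤ h0loc (adRep (p := p) r 1) (ExtCitation.pPrime p) +
      Module.finrank (ZMod p) k ∧
    ∀ (ρ : GaloisRepAdic (DualNumber k)) (S : Finset Nat.Primes)
      (c : ↥(Z1 (sLevels S) (adRep (p := p) r 1))),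
      Realizes ρ (defMat r (fun σ => (c.1 σ : M₂ k))) → ρ.IsFlatAt p →
      resv S (adRep (p := p) r 1) (ExtCitation.pPrime p)
        (H1.mk (sLevels S) (adRep (p := p) r 1) c) ∈ L

end Fermat.Agent.TW
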