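import Mathlib
import Fermat.Agent.CFT.LocNonzero
import Fermat.Agent.CFT.Loc.ValueGroup
import Fermat.Agent.CFT.Loc.UnrGlob

/-!
# The mod `p` cyclotomic character on the Galois group of `ℚ_p`, `p` odd
-/

set_option autoImplicit false
set_option linter.style.haveILetI false

namespace Fermat.Agent.TW

open Fermat.Agent.CFT Fermat.Agent.CFT.Loc Fermat.Agent Fermat.Agent.LocalF Module ExtCitation

variable (p : ℕ) [Fact p.Prime]

/-- local mod `p` cyclotomic character -/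
noncomputable abbrev locχ : GalLoc p →* (ZMod p)ˣ := (cycloChar p).comp (localGaloisToGlobal p)

variable {p}

theorem apply_zeta {ζ : AlgebraicClosure ℚ} (hζ : IsPrimitiveRoot ζ p) (g : GalLoc p) :
    g (padicEmbedding p ζ) = (padicEmbedding p ζ) ^ (locχ p g : ZMod p).val := by
  rw [← padicEmbedding_localGaloisToGlobal, CycChar.apply_eq_pow_cycloChar p _ hζ.pow_eq_one,
    map_pow]
  rfl

theorem norm_one_sub_zeta {ζ : PadicAlgCl p} (hζ : IsPrimitiveRoot ζ p) :
    ‖1 - ζ‖ ^ (p - 1) = (p : ℝ)⁻¹ := by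
  have hp : p.Prime := Fact.out
  haveI : NeZero p := ⟨hp.ne_zero⟩
  have hle : ∀ (μ : PadicAlgCl p), μ ^ p = 1 → ∀ i : ℕ, ‖1 - μ ^ i‖ ≤ ‖1 - μ‖ := by
    intro μ hμ i
    have h1 : 1 - μ ^ i = (∑ j ∈ Finset.range i, μ ^ j) * (1 - μ) := (geom_sum_mul_neg μ i).symm
    rw [h1, norm_mul]
    refine mul_le_of_le_one_left (norm_nonneg _) ?_
    have h2 : ‖μ‖ = 1 := by
      have h3 : ‖μ‖ ^ p = 1 := by rw [← norm_pow, hμ, norm_one]
      exact (pow_eq_one_iff_of_nonneg (norm_nonneg _) hp.ne_zero).1 h3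
    refine IsUltrametricDist.norm_sum_le_of_forall_le_of_nonneg zero_le_one fun j _ => ?_
    rw [norm_pow, h2, one_pow]
  have heq : ∀ μ ∈ primitiveRoots p (PadicAlgCl p), ‖1 - μ‖ = ‖1 - ζ‖ := by
    intro μ hμ
    have hμ' := (mem_primitiveRoots hp.pos).1 hμ
    obtain ⟨i, -, hi⟩ := hζ.eq_pow_of_pow_eq_one hμ'.pow_eq_one
    obtain ⟨j, -, hj⟩ := hμ'.eq_pow_of_pow_eq_one hζ.pow_eq_one
    apply le_antisymm
    · rw [← hi]; exact hle ζ hζ.pow_eq_one i
    · rw [← hj]; exact hle μ hμ'.pow_eq_one j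
  have h1 := Polynomial.cyclotomic_eq_prod_X_sub_primitiveRoots hζ
  have h2 := congrArg (Polynomial.eval (1 : PadicAlgCl p)) h1
  rw [Polynomial.eval_one_cyclotomic_prime, Polynomial.eval_prod] at h2
  simp only [Polynomial.eval_sub, Polynomial.eval_X, Polynomial.eval_C] at h2
  have h3 := congrArg norm h2
  rw [norm_prod, Finset.prod_congr rfl heq, Finset.prod_const, hζ.card_primitiveRoots,
    Nat.totient_prime hp, norm_natCast_l] at h3
  exact h3.symm

/-- The mod `p` cyclotomic character is nontrivial on inertia at `p` if `p` is odd. -/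
theorem exists_inertia_cyclo_ne (hp2 : p ≠ 2) :
    ∃ σ ∈ inertiaLoc p, (locχ p σ : ZMod p) ≠ 1 := by
  have hp : p.Prime := Fact.out
  by_contra hcon
  push Not at hcon
  obtain ⟨ζ, hζ⟩ := exists_zeta p
  have hζ' := isPrimitiveRoot_padicEmbedding p hζ
  set z := padicEmbedding p ζ with hz
  have hfix : ∀ g ∈ inertiaLoc p, g z = z := by
    intro g hg
    rw [hz, apply_zeta hζ, hcon g hg, ZMod.val_one'' hp.one_lt.ne', pow_one]
  have hy : (1 : PadicAlgCl p) - z ≠ 0 := by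
    rw [sub_ne_zero]
    exact (hζ'.ne_one hp.one_lt).symm
  obtain ⟨w, hw, hwn⟩ := exists_norm_eq_of_inertia (K := ⊥) hy (fun g hg _ => by
    rw [map_sub, map_one, hfix g hg])
  obtain ⟨x, rfl⟩ := IntermediateField.mem_bot.1 hw
  have h1 := norm_one_sub_zeta hζ'
  rw [← hwn] at h1
  have hx0 : x ≠ 0 := by
    rintro rfl
    rw [map_zero, norm_zero] at hwn
    exact hy (norm_eq_zero.1 hwn.symm)
  have h2 : ‖algebraMap ℚ_[p] (PadicAlgCl p) x‖ = ‖x‖ := norm_algebraMap' _ _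
  rw [h2, Padic.norm_eq_zpow_neg_valuation hx0, ← zpow_natCast, ← zpow_mul] at h1
  have h3 : (p : ℝ)⁻¹ = (p : ℝ) ^ (-1 : ℤ) := by rw [zpow_neg_one]
  rw [h3] at h1
  have hp1 : (1 : ℝ) < p := by exact_mod_cast hp.one_lt
  have h4 := (zpow_right_strictMono₀ hp1).injective h1
  have h5 : x.valuation * ((p - 1 : ℕ) : ℤ) = 1 := by linarith
  have h6 := Int.eq_one_or_neg_one_of_mul_eq_one' h5
  have h7 := hp.two_le
  rcases h6 with h | h <;> omega

/-- `Z¹(ℚ_p, μ_p)` has at most `p³` elements. -/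
theorem card_Z1_locχ_le (hp2 : p ≠ 2) :
    Finite (Z1 (locLevels p) (charRep (locχ p))) ∧
      Nat.card (Z1 (locLevels p) (charRep (locχ p))) ≤ p ^ 3 := by
  classical
  have hp : p.Prime := Fact.out
  haveI : NeZero p := ⟨hp.ne_zero⟩
  obtain ⟨ζ₀, hζ₀⟩ := exists_zeta p
  have hζ := isPrimitiveRoot_padicEmbedding p hζ₀
  have hact : ∀ g : GalLoc p, g • (padicEmbedding p ζ₀) =
      (padicEmbedding p ζ₀) ^ (locχ p g : ZMod p).val := apply_zeta hζ₀
  set ζ := padicEmbedding p ζ₀ with hζdef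
  have hmod : ∀ a b : ℕ, ζ ^ a = ζ ^ b ↔ (a : ZMod p) = b := by
    intro a b
    have h0 : ζ ≠ 0 := hζ.ne_zero hp.ne_zero
    rw [← zpow_natCast, ← zpow_natCast, ← div_eq_one_iff_eq (zpow_ne_zero _ h0),
      ← zpow_sub₀ h0, hζ.zpow_eq_one_iff_dvd, ← ZMod.intCast_zmod_eq_zero_iff_dvd]
    push_cast
    rw [sub_eq_zero]
  -- Hilbert 90
  have hG : IsGal (locLevels p) (PadicAlgCl p) := by
    rw [locLevels_eq]; exact (locGal_top p).isGal
  have hchoice : ∀ c : Z1 (locLevels p) (charRep (locχ p)), ∃ b : PadicAlgCl p, b ≠ 0 ∧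
      (∀ g : GalLoc p, g b = ζ ^ (c.1 g).val * b) := by
    intro c
    let u : (ZMod p) → (PadicAlgCl p)ˣ := fun a =>
      Units.mk0 (ζ ^ a.val) (pow_ne_zero _ (hζ.ne_zero hp.ne_zero))
    have hmem : (fun g => Additive.ofMul (u (c.1 g))) ∈ Z1 (locLevels p)
        (uRep (GalLoc p) (PadicAlgCl p)) := by
      refine ⟨c.2.1.comp (fun a => Additive.ofMul (u a)), fun g h => ?_⟩
      apply uRep_ext
      show ζ ^ (c.1 (g * h)).val = (g • (ζ ^ (c.1 h).val)) * ζ ^ (c.1 g).val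
      rw [smul_pow', hact, ← pow_mul, ← pow_add]
      rw [hmod, c.2.2]
      simp
    obtain ⟨b, hb⟩ := mem_B1.1 (hilbert90 hG hmem)
    refine ⟨(b.toMul : (PadicAlgCl p)ˣ), Units.ne_zero _, fun g => ?_⟩
    have h1 := hb g
    have h2 : Additive.ofMul (u (c.1 g)) + b = uRep (GalLoc p) (PadicAlgCl p) g b := by
      rw [h1]; abel
    have h3 := congrArg (fun x : Additive (PadicAlgCl p)ˣ => ((x.toMul : (PadicAlgCl p)ˣ) :
      PadicAlgCl p)) h2
    exact h3.symm
  choose b hb0 hb using hchoice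
  have hK : ∀ c, ∃ x : ℚ_[p]ˣ, algebraMap ℚ_[p] (PadicAlgCl p) x = b c ^ p := by
    intro c
    have h1 : b c ^ p ∈ (⊥ : IntermediateField ℚ_[p] (PadicAlgCl p)) := by
      apply mem_of_forall_apply_eq
      intro g _
      rw [map_pow, hb, mul_pow, pow_right_comm, hζ.pow_eq_one, one_pow, one_mul]
    obtain ⟨x, hx⟩ := IntermediateField.mem_bot.1 h1
    refine ⟨Units.mk0 x ?_, hx⟩
    rintro rfl
    rw [map_zero] at hx
    exact pow_ne_zero p (hb0 c) hx.symm
  choose x hx using hK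
  let P := (powMonoidHom p : ℚ_[p]ˣ →* ℚ_[p]ˣ).range
  -- the key property
  have key : ∀ c c', (x c : ℚ_[p]ˣ ⧸ P) = x c' → ∃ i : ZMod p, ∀ g,
      c.1 g = c'.1 g + ((locχ p g : ZMod p) * i - i) := by
    intro c c' h
    rw [QuotientGroup.eq] at h
    obtain ⟨y, hy⟩ := h
    have h1 : (x c') = x c * y ^ p := by
      rw [powMonoidHom_apply] at hy; rw [hy]; group
    have h2 : b c' ^ p = b c ^ p * (algebraMap ℚ_[p] (PadicAlgCl p) y) ^ p := by
      rw [← hx, ← hx, h1, Units.val_mul, Units.val_pow_eq_pow_val, map_mul, map_pow]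
    set yy := algebraMap ℚ_[p] (PadicAlgCl p) y with hyy
    have hyy0 : yy ≠ 0 := by
      rw [hyy, Ne, FaithfulSMul.algebraMap_eq_zero_iff]; exact y.ne_zero
    have h3 : (b c' / (b c * yy)) ^ p = 1 := by
      rw [div_pow, mul_pow, h2, div_self]
      exact mul_ne_zero (pow_ne_zero _ (hb0 c)) (pow_ne_zero _ hyy0)
    obtain ⟨i, -, hi⟩ := hζ.eq_pow_of_pow_eq_one h3
    have h4 : b c' = ζ ^ i * (b c * yy) := by
      rw [hi]; exact (div_mul_cancel₀ _ (mul_ne_zero (hb0 c) hyy0)).symm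
    refine ⟨-(i : ZMod p), fun g => ?_⟩
    have h5 := hb c' g
    rw [h4, map_mul, map_pow, map_mul, hb c] at h5
    have h6 : g yy = yy := by rw [hyy]; exact g.commutes _
    have h7 : g ζ = ζ ^ (locχ p g : ZMod p).val := hact g
    rw [h6, h7, ← pow_mul] at h5
    have h8 : ζ ^ ((locχ p g : ZMod p).val * i + (c.1 g).val) * (b c * yy) =
        ζ ^ ((c'.1 g).val + i) * (b c * yy) := by
      rw [pow_add, pow_add]
      calc _ = ζ ^ ((locχ p g : ZMod p).val * i) * (ζ ^ (c.1 g).val * b c * yy) := by ring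
        _ = _ := by rw [h5]; ring
    have h9 := mul_right_cancel₀ (mul_ne_zero (hb0 c) hyy0) h8
    have h10 : (((locχ p g : ZMod p).val * i + (c.1 g).val : ℕ) : ZMod p) =
        (((c'.1 g).val + i : ℕ) : ZMod p) := (hmod _ _).1 h9
    push_cast at h10
    rw [ZMod.natCast_zmod_val, ZMod.natCast_zmod_val, ZMod.natCast_zmod_val] at h10
    linear_combination h10
  -- choose representatives
  let q : Z1 (locLevels p) (charRep (locχ p)) → ℚ_[p]ˣ ⧸ P := fun c => (x c : ℚ_[p]ˣ ⧸ P)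
  let s : ℚ_[p]ˣ ⧸ P → Z1 (locLevels p) (charRep (locχ p)) := Function.invFun q
  have hs : ∀ c, q (s (q c)) = q c := fun c => Function.invFun_eq ⟨c, rfl⟩
  choose i hi using fun c => key c (s (q c)) (hs c).symm
  have hinjF : Function.Injective (fun c => (q c, i c)) := by
    intro c c' h
    simp only [Prod.mk.injEq] at h
    apply Subtype.ext
    funext g
    rw [hi c, hi c', h.1, h.2]
  -- count
  have hidx := index_range_pow p ℚ_[p] hp
  rw [if_pos rfl, finrank_self, pow_one] at hidx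
  have hker : Nat.card (powMonoidHom p : ℚ_[p]ˣ →* ℚ_[p]ˣ).ker = 1 := by
    rw [Nat.card_eq_one_iff_unique]
    refine ⟨⟨?_⟩, ⟨1⟩⟩
    suffices H : ∀ a : (powMonoidHom p : ℚ_[p]ˣ →* ℚ_[p]ˣ).ker, a = 1 by
      intro a b; rw [H a, H b]
    rintro ⟨a, ha⟩
    apply Subtype.ext
    by_contra hne
    have ha' : a ^ p = 1 := ha
    obtain ⟨σ, -, hσ⟩ := exists_inertia_cyclo_ne (p := p) hp2
    have h1 : (algebraMap ℚ_[p] (PadicAlgCl p) a) ^ p = 1 := by
      rw [← map_pow, ← Units.val_pow_eq_pow_val, ha', Units.val_one, map_one]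
    obtain ⟨j, hj, hj'⟩ := hζ.eq_pow_of_pow_eq_one h1
    have h2 : σ (algebraMap ℚ_[p] (PadicAlgCl p) a) = algebraMap ℚ_[p] (PadicAlgCl p) a :=
      σ.commutes _
    have h7 : σ ζ = ζ ^ (locχ p σ : ZMod p).val := hact σ
    rw [← hj', map_pow, h7, ← pow_mul] at h2
    have h3 : (((locχ p σ : ZMod p).val * j : ℕ) : ZMod p) = ((j : ℕ) : ZMod p) :=
      (hmod _ _).1 h2
    push_cast at h3
    rw [ZMod.natCast_zmod_val] at h3
    have h4 : ((locχ p σ : ZMod p) - 1) * (j : ZMod p) = 0 := by linear_combination h3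
    rcases mul_eq_zero.1 h4 with h5 | h5
    · exact hσ (sub_eq_zero.1 h5)
    · rw [ZMod.natCast_eq_zero_iff] at h5
      have h6 : j = 0 := Nat.eq_zero_of_dvd_of_lt h5 hj
      rw [h6, pow_zero] at hj'
      apply hne
      apply Units.ext
      apply (algebraMap ℚ_[p] (PadicAlgCl p)).injective
      rw [← hj']; simp
  rw [hker, mul_one] at hidx
  have hfin : Finite (ℚ_[p]ˣ ⧸ P) := by
    haveI : P.FiniteIndex := ⟨by rw [hidx]; exact mul_ne_zero hp.ne_zero hp.ne_zero⟩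
    exact Subgroup.finite_quotient_of_finiteIndex
  have hF : Finite (Z1 (locLevels p) (charRep (locχ p))) := Finite.of_injective _ hinjF
  refine ⟨hF, ?_⟩
  have h1 := Nat.card_le_card_of_injective _ hinjF
  rw [Nat.card_prod, Nat.card_zmod, ← Subgroup.index_eq_card, hidx] at h1
  calc _ ≤ p * p * p := h1
    _ = p ^ 3 := by ring

end Fermat.Agent.TW
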