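import Mathlib
import Fermat.Agent.TW.Cyc
import Fermat.Agent.TW.Ad

/-!
# The ordinary local condition at `p`
-/

set_option autoImplicit false
set_option linter.style.haveILetI false
set_option linter.unusedSectionVars false

namespace Fermat.Agent.TW

open Fermat.Agent.CFT Fermat.Agent.CFT.Loc Fermat.Agent Module Matrix ExtCitation

local notation "M₂" => Matrix (Fin 2) (Fin 2)

section Ord

variable {p : ℕ} [Fact p.Prime] {k : Type} [Field k] [Algebra (ZMod p) k]
  (ρ : Representation (ZMod p) (GalLoc p) (sl k))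

/-- cocycles with strictly upper triangular values -/
def ZN : Submodule (ZMod p) (GalLoc p → sl k) where
  carrier := {c | c ∈ Z1 (locLevels p) ρ ∧ ∀ g, (c g : M₂ k) 0 0 = 0 ∧ (c g : M₂ k) 1 0 = 0}
  add_mem' := fun {a b} ha hb => ⟨add_mem ha.1 hb.1, fun g => by
    constructor
    · show (a g : M₂ k) 0 0 + (b g : M₂ k) 0 0 = 0
      rw [(ha.2 g).1, (hb.2 g).1, add_zero]
    · show (a g : M₂ k) 1 0 + (b g : M₂ k) 1 0 = 0
      rw [(ha.2 g).2, (hb.2 g).2, add_zero]⟩
  zero_mem' := ⟨zero_mem _, fun _ => ⟨rfl, rfl⟩⟩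
  smul_mem' := fun c a ha => ⟨Submodule.smul_mem _ _ ha.1, fun g => by
    constructor
    · show c • (a g : M₂ k) 0 0 = 0
      rw [(ha.2 g).1, smul_zero]
    · show c • (a g : M₂ k) 1 0 = 0
      rw [(ha.2 g).2, smul_zero]⟩

/-- the class map on `ZN` -/
noncomputable def ZN.q : ZN ρ →ₗ[ZMod p] H1 (locLevels p) ρ :=
  (H1.mk (locLevels p) ρ).comp (Submodule.inclusion (fun _ h => h.1))

/-- ordinary classes -/
noncomputable def ordCls : Submodule (ZMod p) (H1 (locLevels p) ρ) := LinearMap.range (ZN.q ρ)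

variable {ρ}

theorem mk_mem_ordCls {c : Z1 (locLevels p) ρ} (v : sl k) (hs : Smooth (locLevels p) ρ)
    (h : ∀ g, ((c.1 g - (ρ g v - v) : sl k) : M₂ k) 0 0 = 0 ∧
      ((c.1 g - (ρ g v - v) : sl k) : M₂ k) 1 0 = 0) :
    H1.mk (locLevels p) ρ c ∈ ordCls ρ := by
  have hd : d0 ρ v ∈ Z1 (locLevels p) ρ := B1_le_Z1 hs ⟨v, rfl⟩
  refine ⟨⟨c.1 - d0 ρ v, sub_mem c.2 hd, fun g => h g⟩, ?_⟩
  show H1.mk (locLevels p) ρ ⟨c.1 - d0 ρ v, _⟩ = _
  rw [H1.mk_eq_mk]
  refine ⟨-v, ?_⟩
  rw [map_neg]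
  show - d0 ρ v = c.1 - d0 ρ v - c.1
  abel

variable {s : GalLoc p →* M₂ k} (hρ : ∀ g m, ((ρ g m : sl k) : M₂ k) * s g = s g * m)
  (hs10 : ∀ g, s g 1 0 = 0) (hs00 : ∀ g, s g 0 0 = (locχ p g : ZMod p) • s g 1 1)

include hs10 in
theorem diag_ne_zero (g : GalLoc p) : s g 0 0 ≠ 0 ∧ s g 1 1 ≠ 0 := by
  have h1 : (s g * s g⁻¹).det = 1 := by rw [← map_mul, mul_inv_cancel, map_one, det_one]
  rw [det_mul, det_fin_two, hs10, mul_zero, sub_zero] at h1
  constructor
  · intro h; rw [h] at h1; simp at h1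
  · intro h; rw [h] at h1; simp at h1

include hρ hs10 in
theorem rho_upper (g : GalLoc p) (m : sl k) (hm : (m : M₂ k) 1 0 = 0) :
    ((ρ g m : sl k) : M₂ k) 1 0 = 0 ∧ ((ρ g m : sl k) : M₂ k) 0 0 = (m : M₂ k) 0 0 := by
  obtain ⟨h0, h1⟩ := diag_ne_zero hs10 g
  have h := hρ g m
  have h10 := congrFun (congrFun h 1) 0
  have h00 := congrFun (congrFun h 0) 0
  simp only [mul_apply, Fin.sum_univ_two, hs10, hm, mul_zero, add_zero, zero_mul] at h10 h00
  refine ⟨(mul_eq_zero.1 h10).resolve_right h0, ?_⟩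
  rw [mul_comm] at h00
  exact mul_left_cancel₀ h0 h00

include hρ hs10 hs00 in
theorem rho_nilp (g : GalLoc p) (m : sl k) (hm0 : (m : M₂ k) 0 0 = 0) (hm : (m : M₂ k) 1 0 = 0) :
    ((ρ g m : sl k) : M₂ k) 0 1 = (locχ p g : ZMod p) • (m : M₂ k) 0 1 := by
  obtain ⟨h0, h1⟩ := diag_ne_zero hs10 g
  obtain ⟨h2, h3⟩ := rho_upper hρ hs10 g m hm
  have h := congrFun (congrFun (hρ g m) 0) 1
  have hm11 : (m : M₂ k) 1 1 = 0 := by
    have := mem_sl.1 m.2
    rw [trace_fin_two, hm0, zero_add] at this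
    exact this
  simp only [mul_apply, Fin.sum_univ_two, h3, hm0, zero_mul, hm11, mul_zero, zero_add,
    add_zero, hs00] at h
  rw [smul_mul_assoc, mul_comm (s g 1 1), ← smul_mul_assoc] at h
  exact mul_right_cancel₀ h1 h

include hρ hs10 hs00 in
theorem finrank_ZN_le [Finite k] (hp2 : p ≠ 2) : FiniteDimensional (ZMod p) (ZN ρ) ∧
    finrank (ZMod p) (ZN ρ) ≤ 3 * finrank (ZMod p) k := by
  haveI : FiniteDimensional (ZMod p) k := Module.finite_iff_finite.2 inferInstance
  obtain ⟨hfin, hcard⟩ := card_Z1_locχ_le (p := p) hp2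
  haveI : Module.Finite (ZMod p) (Z1 (locLevels p) (charRep (locχ p))) :=
    Module.finite_iff_finite.2 hfin
  have h3 : finrank (ZMod p) (Z1 (locLevels p) (charRep (locχ p))) ≤ 3 := by
    rw [Module.natCard_eq_pow_finrank (K := ZMod p), Nat.card_zmod] at hcard
    exact (Nat.pow_le_pow_iff_right (Fact.out : p.Prime).one_lt).1 hcard
  let b := Module.finBasis (ZMod p) k
  let F : ZN ρ →ₗ[ZMod p] (Fin (finrank (ZMod p) k) →
      ↥(Z1 (locLevels p) (charRep (locχ p)))) :=
    { toFun := fun c i => ⟨fun g => b.coord i ((c.1 g : M₂ k) 0 1), by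
        refine ⟨c.2.1.1.comp (fun x : sl k => b.coord i ((x : M₂ k) 0 1)), fun g h => ?_⟩
        rw [charRep_apply]
        have h1 : c.1 (g * h) = ρ g (c.1 h) + c.1 g := c.2.1.2 g h
        show b.coord i ((c.1 (g * h) : M₂ k) 0 1) =
          (locχ p g : ZMod p) * b.coord i ((c.1 h : M₂ k) 0 1) + b.coord i ((c.1 g : M₂ k) 0 1)
        rw [h1]
        have h2 : ((ρ g (c.1 h) + c.1 g : sl k) : M₂ k) 0 1 =
          ((ρ g (c.1 h) : sl k) : M₂ k) 0 1 + (c.1 g : M₂ k) 0 1 := rfl
        rw [h2, map_add, rho_nilp hρ hs10 hs00 g _ (c.2.2 h).1 (c.2.2 h).2, map_smul,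
          smul_eq_mul]⟩
      map_add' := fun c c' => by
        funext i
        apply Subtype.ext
        funext g
        exact map_add (b.coord i) _ _
      map_smul' := fun a c => by
        funext i
        apply Subtype.ext
        funext g
        exact map_smul (b.coord i) _ _ }
  have hF : Function.Injective F := by
    rw [injective_iff_map_eq_zero]
    intro c hc
    apply Subtype.ext
    funext g
    apply Subtype.ext
    have h01 : (c.1 g : M₂ k) 0 1 = 0 := by
      apply b.ext_elem_iff.2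
      intro i
      have h1 := congrFun hc i
      have h2 : b.coord i ((c.1 g : M₂ k) 0 1) = 0 := congrFun (congrArg Subtype.val h1) g
      rw [← b.coord_apply, h2, map_zero]; rfl
    have h00 := (c.2.2 g).1
    have h10 := (c.2.2 g).2
    have h11 : (c.1 g : M₂ k) 1 1 = 0 := by
      have := mem_sl.1 (c.1 g).2
      rw [trace_fin_two, h00, zero_add] at this
      exact this
    show (c.1 g : M₂ k) = 0
    ext i j
    fin_cases i <;> fin_cases j <;> simp [h00, h01, h10, h11]
  refine ⟨FiniteDimensional.of_injective F hF, ?_⟩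
  have h4 := LinearMap.finrank_le_finrank_of_injective hF
  rw [Module.finrank_pi_fintype] at h4
  simp only [Finset.sum_const, Finset.card_univ, Fintype.card_fin, smul_eq_mul] at h4
  calc _ ≤ finrank (ZMod p) k * finrank (ZMod p) (Z1 (locLevels p) (charRep (locχ p))) := h4
    _ ≤ finrank (ZMod p) k * 3 := Nat.mul_le_mul_left _ h3
    _ = _ := mul_comm _ _

include hρ hs10 hs00 in
/-- **dimension of the space of ordinary classes** -/
theorem finrank_ordCls_le [Finite k] (hp2 : p ≠ 2) (hs : Smooth (locLevels p) ρ)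
    (W : Submodule (ZMod p) (sl k)) (hW : ∀ v, v ∈ W ↔ ∀ g, ρ g v = v) :
    finrank (ZMod p) (ordCls ρ) ≤ finrank (ZMod p) W + finrank (ZMod p) k := by
  haveI : FiniteDimensional (ZMod p) k := Module.finite_iff_finite.2 inferInstance
  haveI : Module.Finite (ZMod p) (sl k) := Module.finite_iff_finite.2 inferInstance
  obtain ⟨hfd, hZN⟩ := finrank_ZN_le hρ hs10 hs00 hp2
  let U : Submodule (ZMod p) (sl k) :=
    { carrier := {m | (m : M₂ k) 1 0 = 0}
      add_mem' := fun {a b} ha hb => by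
        show (a : M₂ k) 1 0 + (b : M₂ k) 1 0 = 0
        rw [Set.mem_ofPred_eq] at ha hb
        rw [ha, hb, add_zero]
      zero_mem' := rfl
      smul_mem' := fun c a ha => by
        show c • (a : M₂ k) 1 0 = 0
        rw [Set.mem_ofPred_eq] at ha
        rw [ha, smul_zero] }
  have hU : 2 * finrank (ZMod p) k ≤ finrank (ZMod p) U := by
    let E : (k × k) →ₗ[ZMod p] U :=
      { toFun := fun x => ⟨⟨!![x.1, x.2; 0, -x.1], by rw [mem_sl]; simp [trace_fin_two]⟩, rfl⟩
        map_add' := fun x y => by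
          apply Subtype.ext; apply Subtype.ext
          show !![(x + y).1, (x + y).2; 0, -(x + y).1] =
            !![x.1, x.2; 0, -x.1] + !![y.1, y.2; 0, -y.1]
          ext i j
          fin_cases i <;> fin_cases j <;> simp [add_comm]
        map_smul' := fun c x => by
          apply Subtype.ext; apply Subtype.ext
          show !![(c • x).1, (c • x).2; 0, -(c • x).1] = c • !![x.1, x.2; 0, -x.1]
          ext i j
          fin_cases i <;> fin_cases j <;> simp }
    have hE : Function.Injective E := by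
      intro x y hxy
      have h1 : (!![x.1, x.2; 0, -x.1] : M₂ k) = !![y.1, y.2; 0, -y.1] :=
        congrArg (fun z => ((z : sl k) : M₂ k)) (congrArg Subtype.val hxy)
      have h00 := congrFun (congrFun h1 0) 0
      have h01 := congrFun (congrFun h1 0) 1
      simp at h00 h01
      exact Prod.ext h00 h01
    have := LinearMap.finrank_le_finrank_of_injective hE
    rw [Module.finrank_prod] at this
    omega
  let D : U →ₗ[ZMod p] ZN ρ :=
    { toFun := fun v => ⟨d0 ρ v, B1_le_Z1 hs ⟨v, rfl⟩, fun g => by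
        obtain ⟨h1, h2⟩ := rho_upper hρ hs10 g v.1 v.2
        constructor
        · show ((ρ g v.1 : sl k) : M₂ k) 0 0 - (v.1 : M₂ k) 0 0 = 0
          rw [h2, sub_self]
        · show ((ρ g v.1 : sl k) : M₂ k) 1 0 - (v.1 : M₂ k) 1 0 = 0
          have h3 : (v.1 : M₂ k) 1 0 = 0 := v.2
          rw [h1, h3, sub_self]⟩
      map_add' := fun a b => Subtype.ext (map_add _ _ _)
      map_smul' := fun a b => Subtype.ext (map_smul _ _ _) }
  have h1 : LinearMap.range D ≤ LinearMap.ker (ZN.q ρ) := by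
    rintro _ ⟨v, rfl⟩
    rw [LinearMap.mem_ker]
    exact H1.mk_eq_zero.2 ⟨v, rfl⟩
  have h2 := LinearMap.finrank_range_add_finrank_ker (ZN.q ρ)
  have h3 := LinearMap.finrank_range_add_finrank_ker D
  have h4 := Submodule.finrank_mono h1
  have h6 : finrank (ZMod p) (LinearMap.ker D) ≤ finrank (ZMod p) W := by
    let e : LinearMap.ker D →ₗ[ZMod p] W :=
      { toFun := fun v => ⟨v.1.1, (hW _).2 fun g => by
          have h7 : D v.1 = 0 := v.2
          have h8 : d0 ρ v.1.1 g = 0 := congrFun (congrArg (fun x => x.1) h7) g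
          exact sub_eq_zero.1 h8⟩
        map_add' := fun _ _ => rfl
        map_smul' := fun _ _ => rfl }
    refine LinearMap.finrank_le_finrank_of_injective (f := e) ?_
    intro a b hab
    have h9 : (e a : sl k) = e b := congrArg Subtype.val hab
    exact Subtype.ext (Subtype.ext h9)
  rw [ordCls]
  omega

end Ord

end Fermat.Agent.TW
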