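import Mathlib
import Fermat.Agent.DefRing.PowerSeriesComplete

/-!
# Surjections from power series rings onto complete local algebras
-/

set_option autoImplicit false

namespace Fermat.Agent.TW

open IsLocalRing MvPowerSeries

theorem exists_surjective_of_generators' {𝒪 R : Type*} [CommRing 𝒪] [IsNoetherianRing 𝒪]
    [IsLocalRing 𝒪] [IsAdicComplete (maximalIdeal 𝒪) 𝒪] [CommRing R] [IsLocalRing R]
    [IsNoetherianRing R] [IsAdicComplete (maximalIdeal R) R] [Algebra 𝒪 R]
    [IsLocalHom (algebraMap 𝒪 R)]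
    (hres : Function.Surjective (residue R ∘ algebraMap 𝒪 R)) {ι : Type*} [Finite ι] (x : ι → R)
    (hx : ∀ i, x i ∈ maximalIdeal R)
    (hgen : maximalIdeal R ≤ (maximalIdeal 𝒪).map (algebraMap 𝒪 R) ⊔ Ideal.span (Set.range x) ⊔
      maximalIdeal R ^ 2) :
    ∃ γ : MvPowerSeries ι 𝒪 →ₐ[𝒪] R, Function.Surjective γ ∧ ∀ i, γ (X i) = x i := by
  classical
  set ψ : MvPolynomial (ι) 𝒪 →ₐ[𝒪] R := MvPolynomial.aeval x with hψ
  have hvars : ∀ n, (MvPolynomial.idealOfVars (ι) 𝒪) ^ n ≤ (maximalIdeal R ^ n).comap ψ := by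
    intro n
    have h1 : MvPolynomial.idealOfVars (ι) 𝒪 ≤ (maximalIdeal R).comap ψ := by
      rw [MvPolynomial.idealOfVars, Ideal.span_le]
      rintro _ ⟨i, rfl⟩
      show ψ (MvPolynomial.X i) ∈ maximalIdeal R
      rw [hψ, MvPolynomial.aeval_X]
      exact hx i
    calc (MvPolynomial.idealOfVars (ι) 𝒪) ^ n ≤ ((maximalIdeal R).comap ψ) ^ n :=
          Ideal.pow_right_mono h1 n
      _ ≤ (maximalIdeal R ^ n).comap ψ := Ideal.le_comap_pow ψ n
  let S := MvPowerSeries (ι) 𝒪
  let π : ∀ n, S →ₐ[𝒪] R ⧸ maximalIdeal R ^ n := fun n =>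
    (Ideal.quotientMapₐ (maximalIdeal R ^ n) ψ (hvars n)).comp
      ((truncTotalAlgHom (ι) 𝒪 n).restrictScalars 𝒪)
  have hπ : ∀ n s, π n s = Ideal.Quotient.mk (maximalIdeal R ^ n) (ψ (truncTotal n s)) :=
    fun n s => rfl
  have hcompat : ∀ {m n : ℕ} (hmn : m ≤ n),
      (Ideal.Quotient.factorₐ 𝒪 (Ideal.pow_le_pow_right hmn)).comp (π n) = π m := by
    intro m n hmn
    ext s
    simp only [AlgHom.comp_apply]
    rw [hπ, hπ]
    show Ideal.Quotient.mk (maximalIdeal R ^ m) (ψ (truncTotal n s)) = _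
    rw [Ideal.Quotient.eq, ← map_sub, ← Ideal.mem_comap]
    apply hvars m
    have h2 := truncTotal_sub_truncTotal_mem_pow_idealOfVars (le_refl m) hmn s
    rw [← neg_mem_iff]
    simpa using h2
  let γ : S →ₐ[𝒪] R := IsAdicComplete.liftAlgHom (R := 𝒪) (maximalIdeal R) π hcompat
  have hγ : ∀ n s, Ideal.Quotient.mk (maximalIdeal R ^ n) (γ s) = π n s := fun n s =>
    IsAdicComplete.mk_liftAlgHom _ _ hcompat n s
  have heq : ∀ a b : R, (∀ n, Ideal.Quotient.mk (maximalIdeal R ^ n) a =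
      Ideal.Quotient.mk (maximalIdeal R ^ n) b) → a = b := by
    intro a b h
    rw [← sub_eq_zero]
    refine IsHausdorff.haus (I := maximalIdeal R) inferInstance _ (fun n => ?_)
    rw [SModEq.zero, smul_eq_mul, Ideal.mul_top, ← Ideal.Quotient.eq]
    exact h n
  have hγq : ∀ q : MvPolynomial (ι) 𝒪, γ (q : MvPowerSeries (ι) 𝒪) = ψ q := by
    intro q
    apply heq
    intro n
    rw [hγ, hπ, Ideal.Quotient.eq, ← map_sub, ← Ideal.mem_comap]
    apply hvars n
    rw [MvPolynomial.mem_pow_idealOfVars_iff']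
    intro e he
    rw [MvPolynomial.coeff_sub, coeff_truncTotal _ he, MvPolynomial.coeff_coe, sub_self]
  have hγX : ∀ i, γ (X i) = x i := by
    intro i
    have h1 := hγq (MvPolynomial.X i)
    rw [MvPolynomial.coe_X] at h1
    rw [h1, hψ, MvPolynomial.aeval_X]
  have hγC : ∀ c : 𝒪, γ (C c) = algebraMap 𝒪 R c := by
    intro c
    exact γ.commutes c
  have hOR : ∀ c ∈ maximalIdeal 𝒪, algebraMap 𝒪 R c ∈ maximalIdeal R := by
    intro c hc
    exact map_nonunit (algebraMap 𝒪 R) c hc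
  have hγloc : ∀ s ∈ maximalIdeal S, γ s ∈ maximalIdeal R := by
    intro s hs
    have hc : constantCoeff s ∈ maximalIdeal 𝒪 := by
      rw [mem_maximalIdeal, mem_nonunits_iff] at hs ⊢
      rw [isUnit_iff_constantCoeff] at hs
      exact hs
    have h1 : γ s = γ (C (constantCoeff s)) + γ (s - C (constantCoeff s)) := by
      rw [← map_add]; congr 1; ring
    rw [h1, hγC]
    refine Ideal.add_mem _ (hOR _ hc) ?_
    have h2 := hγ 1 (s - C (constantCoeff s))
    have h3 : truncTotal 1 (s - C (constantCoeff s)) = 0 := by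
      ext e
      rw [coeff_truncTotal_eq_ite]
      split_ifs with he
      · have : e = 0 := (Finsupp.degree_eq_zero_iff e).mp (by omega)
        subst this
        simp
      · simp
    rw [hπ, h3, map_zero, map_zero, Ideal.Quotient.eq_zero_iff_mem, pow_one] at h2
    exact h2
  have hmap : (maximalIdeal S).map (γ : S →+* R) = maximalIdeal R := by
    apply le_antisymm
    · rw [Ideal.map_le_iff_le_comap]
      exact fun s hs => hγloc s hs
    · refine Submodule.le_of_le_smul_of_le_jacobson_bot (I := maximalIdeal R)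
        (IsNoetherian.noetherian _) (by rw [IsLocalRing.jacobson_eq_maximalIdeal _ bot_ne_top]) ?_
      refine hgen.trans (sup_le (sup_le ?_ ?_) ?_)
      · refine le_trans ?_ le_sup_left
        rw [Ideal.map_le_iff_le_comap]
        intro c hc
        rw [Ideal.mem_comap, ← hγC]
        apply Ideal.mem_map_of_mem (γ : S →+* R)
        rw [mem_maximalIdeal, mem_nonunits_iff, isUnit_iff_constantCoeff, constantCoeff_C]
        exact hc
      · refine le_trans ?_ le_sup_left
        rw [Ideal.span_le]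
        rintro _ ⟨i, rfl⟩
        rw [← hγX i]
        apply Ideal.mem_map_of_mem (γ : S →+* R)
        rw [mem_maximalIdeal, mem_nonunits_iff, isUnit_iff_constantCoeff, constantCoeff_X]
        exact not_isUnit_zero
      · refine le_trans ?_ le_sup_right
        rw [sq]; rfl
  refine ⟨γ, ?_, hγX⟩
  have hH : IsHausdorff ((maximalIdeal S).map (γ : S →+* R)) R := by
    rw [hmap]; infer_instance
  apply surjective_of_mk_map_comp_surjective (I := maximalIdeal S) (γ : S →+* R)
  intro y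
  obtain ⟨b, rfl⟩ := Ideal.Quotient.mk_surjective y
  obtain ⟨a, ha⟩ := hres (residue R b)
  refine ⟨C a, ?_⟩
  rw [RingHom.comp_apply, Ideal.Quotient.eq, hmap, RingHom.coe_coe, hγC, ← residue_eq_zero_iff,
    map_sub, sub_eq_zero]
  exact ha

theorem exists_surjective_of_generators {𝒪 R : Type*} [CommRing 𝒪] [IsNoetherianRing 𝒪]
    [IsLocalRing 𝒪] [IsAdicComplete (maximalIdeal 𝒪) 𝒪] [CommRing R] [IsLocalRing R]
    [IsNoetherianRing R] [IsAdicComplete (maximalIdeal R) R] [Algebra 𝒪 R]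
    [IsLocalHom (algebraMap 𝒪 R)]
    (hres : Function.Surjective (residue R ∘ algebraMap 𝒪 R)) {r : ℕ} (x : Fin r → R)
    (hx : ∀ i, x i ∈ maximalIdeal R)
    (hgen : maximalIdeal R ≤ (maximalIdeal 𝒪).map (algebraMap 𝒪 R) ⊔ Ideal.span (Set.range x) ⊔
      maximalIdeal R ^ 2) :
    ∃ γ : MvPowerSeries (Fin r) 𝒪 →ₐ[𝒪] R, Function.Surjective γ := by
  obtain ⟨γ, h, -⟩ := exists_surjective_of_generators' hres x hx hgen
  exact ⟨γ, h⟩

end Fermat.Agent.TW
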