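import Mathlib
import Fermat.Agent.TW.PowerSeriesSurj

/-!
# The relative tangent space of a complete local algebra

`relTangent 𝒪 R` is the space of functionals on the cotangent space of `R` killing the maximal
ideal of `𝒪`; a bound for its dimension bounds the number of generators of `R`. Every element
gives a hom `R → F[ε]`.
-/

set_option autoImplicit false
set_option linter.unusedSectionVars false

namespace Fermat.Agent.TW

open IsLocalRing

section

variable (𝒪 R : Type*) [CommRing 𝒪] [IsLocalRing 𝒪] [CommRing R] [IsLocalRing R] [Algebra 𝒪 R]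
  [IsLocalHom (algebraMap 𝒪 R)]

/-- image of the maximal ideal of `𝒪` in the maximal ideal of `R` -/
def mapMax (o : maximalIdeal 𝒪) : maximalIdeal R :=
  ⟨algebraMap 𝒪 R o, map_nonunit (algebraMap 𝒪 R) (o : 𝒪) o.2⟩

/-- span of the image of `𝔪_𝒪` in the cotangent space -/
noncomputable def baseSpan : Submodule (ResidueField R) (CotangentSpace R) :=
  Submodule.span (ResidueField R)
    (Set.range fun o : maximalIdeal 𝒪 => (maximalIdeal R).toCotangent (mapMax 𝒪 R o))

/-- relative tangent space -/
noncomputable def relTangent : Submodule (ResidueField R) (Module.Dual (ResidueField R) (CotangentSpace R)) :=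
  (baseSpan 𝒪 R).dualAnnihilator

variable {𝒪 R}

theorem relTangent_apply_mapMax {l : Module.Dual (ResidueField R) (CotangentSpace R)}
    (hl : l ∈ relTangent 𝒪 R) (o : maximalIdeal 𝒪) :
    l ((maximalIdeal R).toCotangent (mapMax 𝒪 R o)) = 0 :=
  (Submodule.mem_dualAnnihilator l).1 hl _ (Submodule.subset_span ⟨o, rfl⟩)

theorem exists_surjective_of_finrank_le [IsNoetherianRing 𝒪] [IsNoetherianRing R]
    [IsAdicComplete (maximalIdeal 𝒪) 𝒪] [IsAdicComplete (maximalIdeal R) R]
    (hres : Function.Surjective (residue R ∘ algebraMap 𝒪 R)) {r : ℕ}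
    (h : Module.finrank (ResidueField R) (relTangent 𝒪 R) ≤ r) :
    ∃ γ : MvPowerSeries (Fin r) 𝒪 →ₐ[𝒪] R, Function.Surjective γ := by
  classical
  let F := ResidueField R
  let U := baseSpan 𝒪 R
  have h1 : Module.finrank F (CotangentSpace R ⧸ U) ≤ r := by
    have e := Subspace.finrank_add_finrank_dualAnnihilator_eq (baseSpan 𝒪 R)
    have e2 := Submodule.finrank_quotient_add_finrank (baseSpan 𝒪 R)
    have h' : Module.finrank (ResidueField R) (baseSpan 𝒪 R).dualAnnihilator ≤ r := h
    show Module.finrank (ResidueField R) (CotangentSpace R ⧸ baseSpan 𝒪 R) ≤ r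
    omega
  -- choose generators
  let b := Module.finBasis F (CotangentSpace R ⧸ U)
  have hlift : ∀ i, ∃ y : maximalIdeal R, U.mkQ ((maximalIdeal R).toCotangent y) = b i := by
    intro i
    obtain ⟨z, hz⟩ := Submodule.mkQ_surjective U (b i)
    obtain ⟨y, hy⟩ := Ideal.toCotangent_surjective _ z
    exact ⟨y, by rw [hy, hz]⟩
  choose y hy using hlift
  let x : Fin r → maximalIdeal R := fun i =>
    if hi : (i : ℕ) < Module.finrank F (CotangentSpace R ⧸ U) then y ⟨i, hi⟩ else 0
  have hxy : ∀ j : Fin (Module.finrank F (CotangentSpace R ⧸ U)), ∃ i : Fin r, x i = y j := by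
    intro j
    refine ⟨⟨j, lt_of_lt_of_le j.2 h1⟩, ?_⟩
    simp only [x]
    rw [dif_pos j.2]
  let s : Set (maximalIdeal R) := Set.range x ∪ Set.range (mapMax 𝒪 R)
  have hs : Submodule.span F ((maximalIdeal R).toCotangent '' s) = ⊤ := by
    rw [eq_top_iff]
    intro z _
    have hU : U ≤ Submodule.span F ((maximalIdeal R).toCotangent '' s) := by
      apply Submodule.span_mono
      rintro _ ⟨o, rfl⟩
      exact ⟨mapMax 𝒪 R o, Or.inr ⟨o, rfl⟩, rfl⟩
    have hz := b.sum_repr (U.mkQ z)
    have hz2 : z - ∑ j, b.repr (U.mkQ z) j • (maximalIdeal R).toCotangent (y j) ∈ U := by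
      have hz1 : U.mkQ (z - ∑ j, b.repr (U.mkQ z) j • (maximalIdeal R).toCotangent (y j)) = 0 := by
        rw [map_sub, map_sum]
        simp only [map_smul, hy]
        rw [hz, sub_self]
      exact (Submodule.Quotient.mk_eq_zero U).1 hz1
    have hz3 := hU hz2
    have hz4 : ∑ j, b.repr (U.mkQ z) j • (maximalIdeal R).toCotangent (y j) ∈
        Submodule.span F ((maximalIdeal R).toCotangent '' s) := by
      refine Submodule.sum_mem _ fun j _ => Submodule.smul_mem _ _ (Submodule.subset_span ?_)
      obtain ⟨i, hi⟩ := hxy j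
      exact ⟨x i, Or.inl ⟨i, rfl⟩, by rw [hi]⟩
    have := Submodule.add_mem _ hz3 hz4
    simpa using this
  rw [CotangentSpace.span_image_eq_top_iff] at hs
  refine exists_surjective_of_generators hres (fun i => (x i : R)) (fun i => (x i).2) ?_
  intro a ha
  have ha1 : (⟨a, ha⟩ : maximalIdeal R) ∈ Submodule.span R s := by rw [hs]; trivial
  have hle : Submodule.map (maximalIdeal R).subtype (Submodule.span R s) ≤
      (maximalIdeal 𝒪).map (algebraMap 𝒪 R) ⊔ Ideal.span (Set.range fun i => (x i : R)) := by
    rw [Submodule.map_span, Submodule.span_le]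
    rintro _ ⟨w, (⟨i, rfl⟩ | ⟨o, rfl⟩), rfl⟩
    · apply Submodule.mem_sup_right
      exact Ideal.subset_span ⟨i, rfl⟩
    · apply Submodule.mem_sup_left
      exact Ideal.mem_map_of_mem _ o.2
  apply Submodule.mem_sup_left
  exact hle ⟨_, ha1, rfl⟩

/-- a representative in `𝒪` of the residue class of `a` -/
noncomputable def rep (hres : Function.Surjective (residue R ∘ algebraMap 𝒪 R)) (a : R) : 𝒪 :=
  (hres (residue R a)).choose

theorem rep_spec (hres : Function.Surjective (residue R ∘ algebraMap 𝒪 R)) (a : R) :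
    residue R (algebraMap 𝒪 R (rep hres a)) = residue R a :=
  (hres (residue R a)).choose_spec

theorem sub_rep_mem (hres : Function.Surjective (residue R ∘ algebraMap 𝒪 R)) (a : R) :
    a - algebraMap 𝒪 R (rep hres a) ∈ maximalIdeal R := by
  rw [← residue_eq_zero_iff, map_sub, rep_spec, sub_self]

/-- the derivation attached to a tangent vector -/
noncomputable def der (hres : Function.Surjective (residue R ∘ algebraMap 𝒪 R))
    (l : Module.Dual (ResidueField R) (CotangentSpace R)) (a : R) : ResidueField R :=
  l ((maximalIdeal R).toCotangent ⟨_, sub_rep_mem hres a⟩)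

/-- `der` may be computed with any representative -/
theorem der_eq (hres : Function.Surjective (residue R ∘ algebraMap 𝒪 R))
    {l : Module.Dual (ResidueField R) (CotangentSpace R)} (hl : l ∈ relTangent 𝒪 R) (a : R) (o : 𝒪)
    (h : a - algebraMap 𝒪 R o ∈ maximalIdeal R) :
    der hres l a = l ((maximalIdeal R).toCotangent ⟨_, h⟩) := by
  unfold der
  rw [← sub_eq_zero, ← map_sub, ← map_sub]
  have h1 : algebraMap 𝒪 R (o - rep hres a) ∈ maximalIdeal R := by
    have := Ideal.sub_mem _ (sub_rep_mem hres a) h
    rw [map_sub]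
    convert this using 1
    ring
  have h2 : o - rep hres a ∈ maximalIdeal 𝒪 := by
    rw [mem_maximalIdeal, mem_nonunits_iff] at h1 ⊢
    intro hu
    exact h1 (hu.map (algebraMap 𝒪 R))
  have h3 : (⟨a - algebraMap 𝒪 R (rep hres a), sub_rep_mem hres a⟩ : maximalIdeal R) -
      ⟨a - algebraMap 𝒪 R o, h⟩ = mapMax 𝒪 R ⟨_, h2⟩ := by
    apply Subtype.ext
    simp only [mapMax, AddSubgroupClass.coe_sub, map_sub]
    ring
  rw [h3]
  exact relTangent_apply_mapMax hl _

theorem der_algebraMap (hres : Function.Surjective (residue R ∘ algebraMap 𝒪 R))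
    {l : Module.Dual (ResidueField R) (CotangentSpace R)} (hl : l ∈ relTangent 𝒪 R) (o : 𝒪) :
    der hres l (algebraMap 𝒪 R o) = 0 := by
  have h0 : algebraMap 𝒪 R o - algebraMap 𝒪 R o ∈ maximalIdeal R := by rw [sub_self]; simp
  rw [der_eq hres hl _ o h0]
  have : (⟨algebraMap 𝒪 R o - algebraMap 𝒪 R o, h0⟩ : maximalIdeal R) = 0 := by
    apply Subtype.ext; simp
  rw [this, map_zero, map_zero]

theorem der_add (hres : Function.Surjective (residue R ∘ algebraMap 𝒪 R))
    {l : Module.Dual (ResidueField R) (CotangentSpace R)} (hl : l ∈ relTangent 𝒪 R) (a b : R) :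
    der hres l (a + b) = der hres l a + der hres l b := by
  have h1 := sub_rep_mem hres a
  have h2 := sub_rep_mem hres b
  have h3 : a + b - algebraMap 𝒪 R (rep hres a + rep hres b) ∈ maximalIdeal R := by
    have := Ideal.add_mem _ h1 h2
    rw [map_add]; convert this using 1; ring
  rw [der_eq hres hl _ _ h3]
  unfold der
  rw [← map_add, ← map_add]
  congr 2
  apply Subtype.ext
  simp only [map_add, Submodule.coe_add]
  ring

theorem der_mul (hres : Function.Surjective (residue R ∘ algebraMap 𝒪 R))
    {l : Module.Dual (ResidueField R) (CotangentSpace R)} (hl : l ∈ relTangent 𝒪 R) (a b : R) :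
    der hres l (a * b) = residue R a * der hres l b + residue R b * der hres l a := by
  have h1 := sub_rep_mem hres a
  have h2 := sub_rep_mem hres b
  set a0 := rep hres a with ha0
  set b0 := rep hres b with hb0
  have h3 : a * b - algebraMap 𝒪 R (a0 * b0) ∈ maximalIdeal R := by
    have := Ideal.add_mem _ (Ideal.mul_mem_left _ a h2) (Ideal.mul_mem_left _ (algebraMap 𝒪 R b0) h1)
    rw [map_mul]; convert this using 1; ring
  rw [der_eq hres hl _ _ h3, der_eq hres hl b b0 h2, der_eq hres hl a a0 h1]
  have h4 : (⟨a * b - algebraMap 𝒪 R (a0 * b0), h3⟩ : maximalIdeal R) =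
      a • ⟨b - algebraMap 𝒪 R b0, h2⟩ + algebraMap 𝒪 R b0 • ⟨a - algebraMap 𝒪 R a0, h1⟩ := by
    apply Subtype.ext
    simp only [map_mul, Submodule.coe_add, SetLike.val_smul, smul_eq_mul]
    ring
  rw [h4, map_add, map_smul, map_smul, map_add]
  have h5 : ∀ (c : R) (z : CotangentSpace R), l (c • z) = residue R c * l z := by
    intro c z
    have : c • z = (residue R c) • z := by
      rw [← IsLocalRing.ResidueField.algebraMap_eq, algebraMap_smul]
    rw [this, map_smul, smul_eq_mul]
  rw [h5, h5]
  have h6 : residue R (algebraMap 𝒪 R b0) = residue R b := rep_spec hres b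
  rw [h6]

theorem der_of_mem (hres : Function.Surjective (residue R ∘ algebraMap 𝒪 R))
    {l : Module.Dual (ResidueField R) (CotangentSpace R)} (hl : l ∈ relTangent 𝒪 R)
    {a : R} (ha : a ∈ maximalIdeal R) :
    der hres l a = l ((maximalIdeal R).toCotangent ⟨a, ha⟩) := by
  have h : a - algebraMap 𝒪 R 0 ∈ maximalIdeal R := by rw [map_zero, sub_zero]; exact ha
  rw [der_eq hres hl a 0 h]
  congr 2
  apply Subtype.ext; simp

theorem der_add_left (hres : Function.Surjective (residue R ∘ algebraMap 𝒪 R))
    (l l' : Module.Dual (ResidueField R) (CotangentSpace R)) (a : R) :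
    der hres (l + l') a = der hres l a + der hres l' a := rfl

theorem der_smul_left (hres : Function.Surjective (residue R ∘ algebraMap 𝒪 R)) (c : ResidueField R)
    (l : Module.Dual (ResidueField R) (CotangentSpace R)) (a : R) :
    der hres (c • l) a = c * der hres l a := rfl

open scoped DualNumber

/-- the hom `R → F[ε]` attached to a tangent vector -/
noncomputable def dualHom (hres : Function.Surjective (residue R ∘ algebraMap 𝒪 R))
    {l : Module.Dual (ResidueField R) (CotangentSpace R)} (hl : l ∈ relTangent 𝒪 R) :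
    R →ₐ[𝒪] DualNumber (ResidueField R) where
  toFun a := TrivSqZeroExt.inl (residue R a) + TrivSqZeroExt.inr (der hres l a)
  map_one' := by
    have : der hres l (1 : R) = 0 := by
      rw [← map_one (algebraMap 𝒪 R)]; exact der_algebraMap hres hl 1
    rw [this]; simp
  map_mul' a b := by
    rw [der_mul hres hl]
    ext <;> simp [mul_comm]
  map_zero' := by
    have : der hres l (0 : R) = 0 := by
      rw [← map_zero (algebraMap 𝒪 R)]; exact der_algebraMap hres hl 0
    rw [this]; simp
  map_add' a b := by
    rw [der_add hres hl]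
    ext <;> simp
  commutes' o := by
    rw [der_algebraMap hres hl]
    simp
    rfl

end

end Fermat.Agent.TW
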