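import Mathlib
import Fermat.Agent.TW.Cotangent
import Fermat.Agent.DefRing.Rep

/-!
# Tangent vectors of a universal deformation ring give cocycles, injectively modulo coboundaries
-/

set_option autoImplicit false
set_option linter.unusedSectionVars false

namespace Fermat.Agent.TW

open IsLocalRing Fermat.Agent.DefRing
open scoped DualNumber

theorem isAdicComplete_of_sq_eq_bot {A : Type*} [CommRing A] {I : Ideal A} (hI : I ^ 2 = ⊥) :
    IsAdicComplete I A where
  haus' x hx := by
    have h := hx 2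
    rw [SModEq.zero, hI, smul_eq_mul, Ideal.mul_top] at h
    exact h
  prec' f hf := by
    refine ⟨f 2, fun n => ?_⟩
    rcases le_or_gt n 2 with h | h
    · exact hf h
    · have h1 := hf h.le
      rw [hI, SModEq.sub_mem, smul_eq_mul, Ideal.mul_top, Ideal.mem_bot, sub_eq_zero] at h1
      rw [h1]

theorem dual_maximalIdeal_sq {K : Type*} [Field K] : (maximalIdeal K[ε]) ^ 2 = ⊥ := by
  rw [DualNumber.maximalIdeal_eq_span_singleton_eps, Ideal.span_singleton_pow, sq,
    DualNumber.eps_mul_eps, Ideal.span_singleton_eq_bot]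

instance isAdicComplete_dual {K : Type*} [Field K] : IsAdicComplete (maximalIdeal K[ε]) K[ε] :=
  isAdicComplete_of_sq_eq_bot dual_maximalIdeal_sq

section

variable {𝒪 R : Type*} [CommRing 𝒪] [IsLocalRing 𝒪] [CommRing R] [IsLocalRing R] [Algebra 𝒪 R]
  [IsLocalHom (algebraMap 𝒪 R)]

theorem dual_mem_maximalIdeal {K : Type*} [Field K] (x : K[ε]) :
    x ∈ maximalIdeal K[ε] ↔ TrivSqZeroExt.fst x = 0 := by
  rw [DualNumber.maximalIdeal_eq_span_singleton_eps, Ideal.mem_span_singleton,
    DualNumber.fst_eq_zero_iff_eps_dvd]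

instance isLocalHom_dual : IsLocalHom (algebraMap 𝒪 (DualNumber (ResidueField R))) := by
  constructor
  intro a ha
  have h1 := ha.map (TrivSqZeroExt.fstHom (ResidueField R) (ResidueField R) (ResidueField R))
  have h2 : TrivSqZeroExt.fst (algebraMap 𝒪 (DualNumber (ResidueField R)) a) =
      residue R (algebraMap 𝒪 R a) := rfl
  rw [TrivSqZeroExt.fstHom_apply, h2] at h1
  exact isUnit_of_map_unit (algebraMap 𝒪 R) _ (isUnit_of_map_unit (residue R) _ h1)

theorem dual_residue_surjective (hres : Function.Surjective (residue R ∘ algebraMap 𝒪 R)) :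
    Function.Surjective (residue (DualNumber (ResidueField R)) ∘
      algebraMap 𝒪 (DualNumber (ResidueField R))) := by
  intro x
  obtain ⟨y, rfl⟩ := residue_surjective x
  obtain ⟨a, ha⟩ := hres (TrivSqZeroExt.fst y)
  refine ⟨a, ?_⟩
  rw [Function.comp_apply, ← sub_eq_zero, ← map_sub, residue_eq_zero_iff, dual_mem_maximalIdeal]
  have h2 : TrivSqZeroExt.fst (algebraMap 𝒪 (DualNumber (ResidueField R)) a) =
      residue R (algebraMap 𝒪 R a) := rfl
  rw [TrivSqZeroExt.fst_sub, h2]
  have h3 : residue R (algebraMap 𝒪 R a) = TrivSqZeroExt.fst y := ha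
  rw [h3, sub_self]

theorem isLocalHom_dualHom (hres : Function.Surjective (residue R ∘ algebraMap 𝒪 R))
    {l : Module.Dual (ResidueField R) (CotangentSpace R)} (hl : l ∈ relTangent 𝒪 R) :
    IsLocalHom (dualHom hres hl : R →+* DualNumber (ResidueField R)) := by
  constructor
  intro a ha
  have h1 := ha.map (TrivSqZeroExt.fstHom (ResidueField R) (ResidueField R) (ResidueField R))
  have h2 : TrivSqZeroExt.fst (dualHom hres hl a) = residue R a := by
    show TrivSqZeroExt.fst (TrivSqZeroExt.inl (residue R a) +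
      TrivSqZeroExt.inr (der hres l a) : DualNumber (ResidueField R)) = _
    simp
  rw [TrivSqZeroExt.fstHom_apply] at h1
  change IsUnit (TrivSqZeroExt.fst (dualHom hres hl a)) at h1
  rw [h2] at h1
  exact isUnit_of_map_unit (residue R) _ h1

theorem dualHom_surjective (hres : Function.Surjective (residue R ∘ algebraMap 𝒪 R))
    {l : Module.Dual (ResidueField R) (CotangentSpace R)} (hl : l ∈ relTangent 𝒪 R) (h0 : l ≠ 0) :
    Function.Surjective (dualHom hres hl) := by
  obtain ⟨z, hz⟩ : ∃ z, l z ≠ 0 := by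
    by_contra h; push Not at h; exact h0 (LinearMap.ext h)
  obtain ⟨y, rfl⟩ := Ideal.toCotangent_surjective _ z
  intro x
  obtain ⟨a0, ha0⟩ := residue_surjective (TrivSqZeroExt.fst x)
  obtain ⟨c, hc⟩ := residue_surjective ((TrivSqZeroExt.snd x - der hres l a0) /
    l ((maximalIdeal R).toCotangent y))
  have hy : residue R (y : R) = 0 := (residue_eq_zero_iff _).2 y.2
  have hdy : der hres l (y : R) = l ((maximalIdeal R).toCotangent y) := der_of_mem hres hl y.2
  refine ⟨a0 + c * y, ?_⟩
  show (TrivSqZeroExt.inl (residue R (a0 + c * y)) + TrivSqZeroExt.inr (der hres l (a0 + c * y)) :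
    DualNumber (ResidueField R)) = x
  ext
  · simp [hy, ha0]
  · rw [der_add hres hl, der_mul hres hl, hy, hdy, hc]
    simp
    field_simp
    ring

end

section DQ

variable {𝒪 : Type} [CommRing 𝒪] [IsDomain 𝒪] [IsDiscreteValuationRing 𝒪]
  [IsAdicComplete (maximalIdeal 𝒪) 𝒪]
  {ρbar : ResidualGaloisRep (ResidueField 𝒪)}
  {𝒟 : ∀ ⦃A : Type⦄ [CommRing A] [IsLocalRing A] [Algebra 𝒪 A], GaloisRepAdic A → Prop}
  (DQ : GaloisRep.DeformationRingData 𝒪 ρbar 𝒟)

/-- the cocycle attached to a tangent vector and a matrix realisation -/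
noncomputable def tcoc (r : Γ → Matrix (Fin 2) (Fin 2) DQ.R)
    (l : Module.Dual (ResidueField DQ.R) (CotangentSpace DQ.R)) (σ : Γ) :
    Matrix (Fin 2) (Fin 2) (ResidueField DQ.R) :=
  (r σ).map (der DQ.residue_surjective l) * (r σ⁻¹).map (residue DQ.R)

variable {DQ} {r : Γ → Matrix (Fin 2) (Fin 2) DQ.R} (hr : Realizes DQ.ρ r)

theorem map_der_mul {l : Module.Dual (ResidueField DQ.R) (CotangentSpace DQ.R)}
    (hl : l ∈ relTangent 𝒪 DQ.R) (A B : Matrix (Fin 2) (Fin 2) DQ.R) :
    (A * B).map (der DQ.residue_surjective l) =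
      A.map (der DQ.residue_surjective l) * B.map (residue DQ.R) +
        A.map (residue DQ.R) * B.map (der DQ.residue_surjective l) := by
  ext i j
  simp only [Matrix.map_apply, Matrix.mul_apply, Fin.sum_univ_two, Matrix.add_apply]
  rw [der_add DQ.residue_surjective hl, der_mul DQ.residue_surjective hl,
    der_mul DQ.residue_surjective hl]
  ring

include hr in
theorem tcoc_mul_self {l : Module.Dual (ResidueField DQ.R) (CotangentSpace DQ.R)} (σ : Γ) :
    tcoc DQ r l σ * (r σ).map (residue DQ.R) = (r σ).map (der DQ.residue_surjective l) := by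
  unfold tcoc
  rw [mul_assoc, ← Matrix.map_mul, ← hr.map_mul, inv_mul_cancel, hr.map_one,
    Matrix.map_one _ (map_zero _) (map_one _), mul_one]

include hr in
theorem tcoc_mul {l : Module.Dual (ResidueField DQ.R) (CotangentSpace DQ.R)}
    (hl : l ∈ relTangent 𝒪 DQ.R) (σ τ : Γ) :
    tcoc DQ r l (σ * τ) = tcoc DQ r l σ +
      (r σ).map (residue DQ.R) * tcoc DQ r l τ * (r σ⁻¹).map (residue DQ.R) := by
  have h1 : (r (σ * τ)⁻¹).map (residue DQ.R) =
      (r τ⁻¹).map (residue DQ.R) * (r σ⁻¹).map (residue DQ.R) := by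
    rw [_root_.mul_inv_rev, hr.map_mul, Matrix.map_mul]
  unfold tcoc
  rw [h1, hr.map_mul, map_der_mul hl, add_mul]
  congr 1
  · rw [mul_assoc, ← mul_assoc ((r τ).map (residue DQ.R)), ← Matrix.map_mul, ← hr.map_mul,
      mul_inv_cancel, hr.map_one, Matrix.map_one _ (map_zero _) (map_one _), one_mul]
  · simp only [mul_assoc]

include hr in
/-- the residual representation of a base change -/
theorem residual_baseChange_isEquiv {B : Type} [CommRing B] [IsLocalRing B] [Algebra 𝒪 B]
    [IsLocalHom (algebraMap 𝒪 B)] (φ : DQ.R →ₐ[𝒪] B) (hφ : IsLocalHom (φ : DQ.R →+* B)) :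
    (DQ.ρ.baseChangeAlong (φ : DQ.R →+* B) hφ).residual.IsEquiv
      (ρbar.baseChangeAlong (ResidueField.map (algebraMap 𝒪 B))) := by
  obtain ⟨rb, hrb⟩ := exists_realizesRes ρbar
  obtain ⟨P, hP, hPc⟩ := RealizesRes.exists_conj
    (hr.residual.of_isEquiv DQ.residual_isEquiv) (hrb.baseChangeAlong _)
  let f : ResidueField DQ.R →+* ResidueField B := ResidueField.map (φ : DQ.R →+* B)
  have hf : f.comp (ResidueField.map (algebraMap 𝒪 DQ.R)) = ResidueField.map (algebraMap 𝒪 B) := by
    ext x
    obtain ⟨a, rfl⟩ := residue_surjective x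
    rw [RingHom.comp_apply, ResidueField.map_residue, ResidueField.map_residue,
      ResidueField.map_residue]
    congr 1
    exact φ.commutes a
  have R1 := (hr.baseChange (φ : DQ.R →+* B) hφ).residual
  have R2 : RealizesRes (ρbar.baseChangeAlong (ResidueField.map (algebraMap 𝒪 B)))
      (fun σ => (rb σ).map (ResidueField.map (algebraMap 𝒪 B))) := hrb.baseChangeAlong _
  let P' := P.map f
  have hP' : IsUnit P'.det := by
    have : P'.det = f P.det := by rw [RingHom.map_det]; rfl
    rw [this]; exact hP.map f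
  have hQ : IsUnit (P'⁻¹).det := by
    rw [Matrix.isUnit_nonsing_inv_det_iff]; exact hP'
  have R3 := (Realizes.ofResidual R2).conj P'⁻¹ hQ
  have h3 : (fun σ => (P'⁻¹)⁻¹ * (rb σ).map (ResidueField.map (algebraMap 𝒪 B)) * P'⁻¹) =
      (fun σ => ((r σ).map (φ : DQ.R →+* B)).map (residue B)) := by
    funext σ
    rw [Matrix.nonsing_inv_nonsing_inv _ hP']
    have h4 := congrArg (fun X : Matrix (Fin 2) (Fin 2) (ResidueField DQ.R) => X.map f) (hPc σ)
    simp only [Matrix.map_mul] at h4
    have h5 : (((rb σ).map (ResidueField.map (algebraMap 𝒪 DQ.R))).map f) =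
        (rb σ).map (ResidueField.map (algebraMap 𝒪 B)) := by
      rw [Matrix.map_map, ← RingHom.coe_comp, hf]
    have h6 : (((r σ).map (residue DQ.R)).map f) = ((r σ).map (φ : DQ.R →+* B)).map (residue B) := by
      rw [Matrix.map_map, Matrix.map_map]
      rfl
    rw [h5, h6] at h4
    rw [h4, mul_assoc, Matrix.mul_nonsing_inv _ hP', mul_one]
  rw [h3] at R3
  exact R1.isEquiv R3

include hr in
/-- **Injectivity**: if the cocycle of `l` is a coboundary then `l = 0`. -/
theorem eq_zero_of_coboundary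
    (h𝒟 : ∀ (φ : DQ.R →ₐ[𝒪] DualNumber (ResidueField DQ.R))
      (hφ : IsLocalHom (φ : DQ.R →+* DualNumber (ResidueField DQ.R))), Function.Surjective φ →
      𝒟 (DQ.ρ.baseChangeAlong (φ : DQ.R →+* DualNumber (ResidueField DQ.R)) hφ))
    {l : Module.Dual (ResidueField DQ.R) (CotangentSpace DQ.R)} (hl : l ∈ relTangent 𝒪 DQ.R)
    (m : Matrix (Fin 2) (Fin 2) (ResidueField DQ.R))
    (hm : ∀ σ, tcoc DQ r l σ = (r σ).map (residue DQ.R) * m * (r σ⁻¹).map (residue DQ.R) - m) :
    l = 0 := by
  by_contra h0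
  have hres := DQ.residue_surjective
  have hl0 : (0 : Module.Dual (ResidueField DQ.R) (CotangentSpace DQ.R)) ∈ relTangent 𝒪 DQ.R :=
    Submodule.zero_mem _
  set φ := dualHom hres hl with hφ
  set φ0 := dualHom hres hl0 with hφ0
  have hloc : IsLocalHom (φ : DQ.R →+* DualNumber (ResidueField DQ.R)) := isLocalHom_dualHom hres hl
  have hloc0 : IsLocalHom (φ0 : DQ.R →+* DualNumber (ResidueField DQ.R)) :=
    isLocalHom_dualHom hres hl0
  set ρφ := DQ.ρ.baseChangeAlong (φ : DQ.R →+* DualNumber (ResidueField DQ.R)) hloc with hρφ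
  set ρφ0 := DQ.ρ.baseChangeAlong (φ0 : DQ.R →+* DualNumber (ResidueField DQ.R)) hloc0 with hρφ0
  -- matrices of the two base changes
  have R1 : Realizes ρφ (fun σ => (r σ).map φ) := hr.baseChange _ hloc
  have R0 : Realizes ρφ0 (fun σ => (r σ).map φ0) := hr.baseChange _ hloc0
  have hequiv : ρφ0.IsEquiv ρφ := by
    -- conjugate by 1 + ε m
    let P : Matrix (Fin 2) (Fin 2) (DualNumber (ResidueField DQ.R)) :=
      1 - m.map TrivSqZeroExt.inr
    let P' : Matrix (Fin 2) (Fin 2) (DualNumber (ResidueField DQ.R)) :=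
      1 + m.map TrivSqZeroExt.inr
    have hmm : (m.map TrivSqZeroExt.inr : Matrix (Fin 2) (Fin 2) (DualNumber (ResidueField DQ.R))) *
        m.map TrivSqZeroExt.inr = 0 := by
      ext i j
      · simp [Matrix.mul_apply]
      · simp [Matrix.mul_apply]
    have hPP' : P' * P = 1 := by
      show (1 + m.map TrivSqZeroExt.inr) * (1 - m.map TrivSqZeroExt.inr) = 1
      rw [mul_sub, mul_one, add_mul, one_mul, hmm]
      abel
    have hPdet : IsUnit P.det := by
      have := congrArg Matrix.det hPP'
      rw [Matrix.det_mul, Matrix.det_one] at this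
      exact IsUnit.of_mul_eq_one _ (by rw [mul_comm]; exact this)
    have hPinv : P⁻¹ = P' := Matrix.inv_eq_left_inv hPP'
    have R2 := R1.conj P hPdet
    have h2 : (fun σ => P⁻¹ * (r σ).map φ * P) = (fun σ => (r σ).map φ0) := by
      funext σ
      rw [hPinv]
      have e1 : (r σ).map φ = ((r σ).map (residue DQ.R)).map TrivSqZeroExt.inl +
          ((r σ).map (der hres l)).map TrivSqZeroExt.inr := by
        ext i j <;> rfl
      have e0 : (r σ).map φ0 = ((r σ).map (residue DQ.R)).map TrivSqZeroExt.inl := by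
        ext i j
        · show TrivSqZeroExt.fst (TrivSqZeroExt.inl (residue DQ.R (r σ i j)) +
            TrivSqZeroExt.inr (der hres 0 (r σ i j)) : DualNumber (ResidueField DQ.R)) = _
          simp
        · show TrivSqZeroExt.snd (TrivSqZeroExt.inl (residue DQ.R (r σ i j)) +
            TrivSqZeroExt.inr (der hres 0 (r σ i j)) : DualNumber (ResidueField DQ.R)) = _
          have : der hres (0 : Module.Dual (ResidueField DQ.R) (CotangentSpace DQ.R)) (r σ i j) = 0 :=
            rfl
          simp [this]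
      rw [e0, e1]
      have h3 := tcoc_mul_self hr (l := l) σ
      rw [hm σ, sub_mul, mul_assoc, ← Matrix.map_mul, ← hr.map_mul, inv_mul_cancel, hr.map_one,
        Matrix.map_one _ (map_zero _) (map_one _), mul_one] at h3
      set X := (r σ).map (residue DQ.R) with hX
      rw [← h3]
      ext i j
      · simp [P, P', Matrix.mul_apply, Matrix.add_apply, Matrix.sub_apply, Matrix.one_apply]
        fin_cases i <;> fin_cases j <;> simp
      · fin_cases i <;> fin_cases j <;>
          simp [P, P', Matrix.mul_apply, Matrix.add_apply, Matrix.sub_apply, Matrix.one_apply,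
            Fin.sum_univ_two] <;> ring
    rw [h2] at R2
    exact R0.isEquiv R2
  -- universality
  have hresid : ρφ.residual.IsEquiv (ρbar.baseChangeAlong
      (ResidueField.map (algebraMap 𝒪 (DualNumber (ResidueField DQ.R))))) := by
    exact residual_baseChange_isEquiv hr φ hloc
  obtain ⟨ψ, -, huniq⟩ := DQ.universal (DualNumber (ResidueField DQ.R))
    (dual_residue_surjective hres) ρφ (h𝒟 φ hloc (dualHom_surjective hres hl h0)) hresid
  have e1 : φ = ψ := huniq φ ⟨hloc, ⟨GaloisRepAdic.Equiv.refl _⟩⟩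
  have e0 : φ0 = ψ := huniq φ0 ⟨hloc0, hequiv⟩
  apply h0
  have e : φ = φ0 := e1.trans e0.symm
  ext z
  obtain ⟨y, rfl⟩ := Ideal.toCotangent_surjective _ z
  have h1 : TrivSqZeroExt.snd (φ y) = TrivSqZeroExt.snd (φ0 y) := by rw [e]
  have h2 : TrivSqZeroExt.snd (φ y) = der hres l y := by
    show TrivSqZeroExt.snd (TrivSqZeroExt.inl (residue DQ.R (y : DQ.R)) +
      TrivSqZeroExt.inr (der hres l (y : DQ.R)) : DualNumber (ResidueField DQ.R)) = _
    simp
  have h3 : TrivSqZeroExt.snd (φ0 y) = 0 := by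
    show TrivSqZeroExt.snd (TrivSqZeroExt.inl (residue DQ.R (y : DQ.R)) +
      TrivSqZeroExt.inr (der hres 0 (y : DQ.R)) : DualNumber (ResidueField DQ.R)) = _
    have : der hres (0 : Module.Dual (ResidueField DQ.R) (CotangentSpace DQ.R)) (y : DQ.R) = 0 := rfl
    simp [this]
  rw [h2, h3, der_of_mem hres hl y.2] at h1
  exact h1

end DQ

end Fermat.Agent.TW
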