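import Mathlib
import Fermat.Agent.TW.Univ
import Fermat.Agent.TW.Kill

/-!
# From tangent vectors of a universal deformation ring to Selmer classes
-/

set_option autoImplicit false
set_option linter.style.haveILetI false
set_option linter.unusedSectionVars false

namespace Fermat.Agent.TW

open Matrix IsLocalRing Fermat.Agent.DefRing Fermat.Agent Fermat.Agent.CFT

local notation "M₂" => Matrix (Fin 2) (Fin 2)

section

variable {𝒪 : Type} [CommRing 𝒪] [IsDomain 𝒪] [IsDiscreteValuationRing 𝒪]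
  [IsAdicComplete (maximalIdeal 𝒪) 𝒪]
  {ρbar : ResidualGaloisRep (ResidueField 𝒪)}
  {𝒟 : ∀ ⦃A : Type⦄ [CommRing A] [IsLocalRing A] [Algebra 𝒪 A], GaloisRepAdic A → Prop}
  (DQ : GaloisRep.DeformationRingData 𝒪 ρbar 𝒟)

/-- the residue field of the universal ring is the residue field of `𝒪` -/
noncomputable def iota : ResidueField 𝒪 ≃+* ResidueField DQ.R :=
  RingEquiv.ofBijective (ResidueField.map (algebraMap 𝒪 DQ.R))
    ⟨RingHom.injective _, fun x => by
      obtain ⟨y, hy⟩ := residue_surjective x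
      obtain ⟨a, ha⟩ := DQ.residue_surjective x
      exact ⟨residue 𝒪 a, by rw [ResidueField.map_residue]; exact ha⟩⟩

/-- the cocycle of a tangent vector, with values in the residue field of `𝒪` -/
noncomputable def kcoc (r : Γ → M₂ DQ.R)
    (l : Module.Dual (ResidueField DQ.R) (CotangentSpace DQ.R)) (σ : Γ) : M₂ (ResidueField 𝒪) :=
  (tcoc DQ r l σ).map (iota DQ).symm

variable {DQ}

/-- normalised realisation of the universal deformation -/
structure NormReal (DQ : GaloisRep.DeformationRingData 𝒪 ρbar 𝒟) (rb : Γ →* M₂ (ResidueField 𝒪))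
    (r : Γ → M₂ DQ.R) : Prop where
  real : Realizes DQ.ρ r
  red : ∀ σ, (r σ).map (residue DQ.R) = (rb σ).map (iota DQ)

theorem exists_normReal {rb : Γ → M₂ (ResidueField 𝒪)} (hrb : RealizesRes ρbar rb) :
    ∃ r, NormReal DQ (rHom hrb) r := by
  obtain ⟨r, hr, hr'⟩ := exists_realizes_of_residual_isEquiv DQ.ρ (hrb.baseChangeAlong _)
    DQ.residual_isEquiv
  exact ⟨r, hr, fun σ => hr' σ⟩

variable {rb : Γ →* M₂ (ResidueField 𝒪)} {r : Γ → M₂ DQ.R}
  {l : Module.Dual (ResidueField DQ.R) (CotangentSpace DQ.R)}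

theorem NormReal.red' (hr : NormReal DQ rb r) (σ : Γ) :
    ((r σ).map (residue DQ.R)).map (iota DQ).symm = rb σ := by
  rw [hr.red]
  ext i j
  simp

theorem map_mul_symm (A B : M₂ (ResidueField DQ.R)) :
    (A * B).map (iota DQ).symm = A.map (iota DQ).symm * B.map (iota DQ).symm :=
  Matrix.map_mul

theorem kcoc_mul (hr : NormReal DQ rb r) (hl : l ∈ relTangent 𝒪 DQ.R) (σ τ : Γ) :
    kcoc DQ r l (σ * τ) = kcoc DQ r l σ + rb σ * kcoc DQ r l τ * rb σ⁻¹ := by
  unfold kcoc
  rw [tcoc_mul hr.real hl, Matrix.map_add _ (map_add _), map_mul_symm, map_mul_symm, hr.red' σ,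
    hr.red' σ⁻¹]

theorem kcoc_mul_self (hr : NormReal DQ rb r) (σ : Γ) :
    kcoc DQ r l σ * rb σ = ((r σ).map (der DQ.residue_surjective l)).map (iota DQ).symm := by
  unfold kcoc
  rw [← tcoc_mul_self hr.real, map_mul_symm, hr.red' σ]

theorem kcoc_add (r : Γ → M₂ DQ.R)
    (l l' : Module.Dual (ResidueField DQ.R) (CotangentSpace DQ.R)) (σ : Γ) :
    kcoc DQ r (l + l') σ = kcoc DQ r l σ + kcoc DQ r l' σ := by
  have h1 : tcoc DQ r (l + l') σ = tcoc DQ r l σ + tcoc DQ r l' σ := by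
    unfold tcoc
    rw [← add_mul]
    congr 1
  unfold kcoc
  rw [h1, Matrix.map_add _ (map_add _)]

theorem der_zero_of_eq_one (hl : l ∈ relTangent 𝒪 DQ.R) :
    ((1 : M₂ DQ.R).map (der DQ.residue_surjective l)) = 0 := by
  ext i j
  have h0 : der DQ.residue_surjective l (0 : DQ.R) = 0 := by
    rw [← map_zero (algebraMap 𝒪 DQ.R)]; exact der_algebraMap DQ.residue_surjective hl 0
  have h1 : der DQ.residue_surjective l (1 : DQ.R) = 0 := by
    rw [← map_one (algebraMap 𝒪 DQ.R)]; exact der_algebraMap DQ.residue_surjective hl 1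
  rw [Matrix.map_apply, Matrix.one_apply]
  split_ifs
  · exact h1
  · exact h0

theorem kcoc_eq_zero_of_one (hl : l ∈ relTangent 𝒪 DQ.R) {σ : Γ}
    (h : r σ = 1) : kcoc DQ r l σ = 0 := by
  unfold kcoc tcoc
  rw [h, der_zero_of_eq_one hl, zero_mul]
  ext i j; simp

/-- `der` vanishes on the square of the maximal ideal -/
theorem der_eq_zero_of_mem_sq (hl : l ∈ relTangent 𝒪 DQ.R) {a : DQ.R}
    (ha : a ∈ maximalIdeal DQ.R ^ 2) : der DQ.residue_surjective l a = 0 := by
  have h1 : a ∈ maximalIdeal DQ.R := Ideal.pow_le_self two_ne_zero ha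
  rw [der_of_mem DQ.residue_surjective hl h1]
  have h2 : (maximalIdeal DQ.R).toCotangent ⟨a, h1⟩ = 0 := (Ideal.toCotangent_eq_zero _ _).2 ha
  rw [h2, map_zero]

theorem exists_level_kcoc (hr : NormReal DQ rb r) (hl : l ∈ relTangent 𝒪 DQ.R) :
    ∃ H ∈ galLevels ℚ (AlgebraicClosure ℚ), ∀ s ∈ H, kcoc DQ r l s = 0 := by
  obtain ⟨L, hL, h⟩ := hr.real.matCont 2
  refine ⟨L.fixingSubgroup, fixingSubgroup_mem_galLevels L, fun s hs => ?_⟩
  rw [IntermediateField.mem_fixingSubgroup_iff] at hs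
  have h1 := h s hs
  have h2 : (r s).map (der DQ.residue_surjective l) = 0 := by
    ext i j
    have e : r s i j = (1 : M₂ DQ.R) i j + (r s - 1) i j := by
      rw [Matrix.sub_apply]; ring
    rw [Matrix.map_apply, e, der_add DQ.residue_surjective hl,
      der_eq_zero_of_mem_sq hl (h1 i j), add_zero]
    exact congrFun (congrFun (der_zero_of_eq_one hl) i) j
  unfold kcoc tcoc
  rw [h2, zero_mul]
  ext i j; simp

/-- trace zero, from the determinant condition -/
theorem kcoc_trace {p : ℕ} [Fact p.Prime] (hp𝒪 : (p : 𝒪) ∈ maximalIdeal 𝒪)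
    (hdet : DQ.ρ.DetIsCyclotomic p) (hr : NormReal DQ rb r) (hl : l ∈ relTangent 𝒪 DQ.R)
    (hrb : ∀ σ, (rb σ).det ≠ 0) (σ : Γ) : (kcoc DQ r l σ).trace = 0 := by
  have hres := DQ.residue_surjective
  obtain ⟨a, ha⟩ := exists_pow_apply (m := p) (Fact.out : p.Prime).ne_zero σ
  have h1 := hdet.2 1 σ a (by simpa using ha)
  rw [pow_one] at h1
  obtain ⟨b, hb⟩ := hr.real
  rw [← LinearMap.det_toMatrix b, hb, Ideal.mem_span_singleton] at h1
  obtain ⟨x, hx⟩ := h1
  have hpR : residue DQ.R (p : DQ.R) = 0 := by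
    rw [residue_eq_zero_iff, ← map_natCast (algebraMap 𝒪 DQ.R)]
    exact map_nonunit (algebraMap 𝒪 DQ.R) _ hp𝒪
  have hdp : der hres l (p : DQ.R) = 0 := by
    rw [← map_natCast (algebraMap 𝒪 DQ.R)]; exact der_algebraMap hres hl _
  have hd : der hres l (r σ).det = 0 := by
    have e : (r σ).det = (a : DQ.R) + (p : DQ.R) * x := by rw [← hx]; ring
    rw [e, der_add hres hl, der_mul hres hl, hpR, hdp, ← map_natCast (algebraMap 𝒪 DQ.R),
      der_algebraMap hres hl]
    simp
  -- derivative of the determinant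
  have hneg : ∀ z : DQ.R, der hres l (-z) = -der hres l z := by
    intro z
    have h0 : der hres l (0 : DQ.R) = 0 := by
      rw [← map_zero (algebraMap 𝒪 DQ.R)]; exact der_algebraMap hres hl 0
    have := der_add hres hl z (-z)
    rw [add_neg_cancel, h0] at this
    exact eq_neg_of_add_eq_zero_right this.symm
  set M : M₂ (ResidueField DQ.R) := (r σ).map (residue DQ.R) with hM
  set T := tcoc DQ r l σ with hT
  have hTM : T * M = (r σ).map (der hres l) := tcoc_mul_self hr.real σ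
  have hdd : der hres l (r σ).det = T.trace * M.det := by
    rw [Matrix.det_fin_two, sub_eq_add_neg, der_add hres hl, hneg, der_mul hres hl,
      der_mul hres hl]
    have e : ∀ i j, der hres l (r σ i j) = (T * M) i j := fun i j => by rw [hTM]; rfl
    have e' : ∀ i j, residue DQ.R (r σ i j) = M i j := fun i j => rfl
    rw [e, e, e, e, e', e', e', e', Matrix.trace_fin_two, Matrix.det_fin_two]
    simp only [Matrix.mul_apply, Fin.sum_univ_two]
    ring
  rw [hd] at hdd
  have hMdet : M.det ≠ 0 := by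
    rw [hM, hr.red]
    have e : ((rb σ).map (iota DQ)).det = iota DQ (rb σ).det := by
      rw [RingEquiv.map_det]; rfl
    rw [e]
    exact (map_ne_zero (iota DQ)).2 (hrb σ)
  have hT0 : T.trace = 0 := (mul_eq_zero.1 hdd.symm).resolve_right hMdet
  have : (kcoc DQ r l σ).trace = (iota DQ).symm T.trace := by
    rw [Matrix.trace_fin_two, Matrix.trace_fin_two, map_add]; rfl
  rw [this, hT0, map_zero]

/-- injectivity modulo coboundaries -/
theorem eq_zero_of_kcoc_coboundary (hr : NormReal DQ rb r)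
    (h𝒟 : ∀ (φ : DQ.R →ₐ[𝒪] DualNumber (ResidueField DQ.R))
      (hφ : IsLocalHom (φ : DQ.R →+* DualNumber (ResidueField DQ.R))), Function.Surjective φ →
      𝒟 (DQ.ρ.baseChangeAlong (φ : DQ.R →+* DualNumber (ResidueField DQ.R)) hφ))
    (hl : l ∈ relTangent 𝒪 DQ.R) (m : M₂ (ResidueField 𝒪))
    (hm : ∀ σ, kcoc DQ r l σ = rb σ * m * rb σ⁻¹ - m) : l = 0 := by
  refine eq_zero_of_coboundary hr.real h𝒟 hl (m.map (iota DQ)) fun σ => ?_
  have h1 : (kcoc DQ r l σ).map (iota DQ) = tcoc DQ r l σ := by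
    ext i j
    simp [kcoc]
  rw [← h1, hm σ, hr.red, hr.red]
  ext i j
  simp [Matrix.mul_apply, Matrix.sub_apply, Fin.sum_univ_two]

end

theorem finrank_le_of_injective_card {p : ℕ} [Fact p.Prime] {F T E k : Type*} [Field F] [Finite F]
    [AddCommGroup T] [Module F T] [Module.Finite F T] [AddCommGroup E] [Module (ZMod p) E]
    [Module.Finite (ZMod p) E] (W : Submodule (ZMod p) E) [Field k] [Algebra (ZMod p) k]
    [Finite k] (e : k ≃ F) {R : ℕ}
    (hR : Module.finrank (ZMod p) W ≤ R * Module.finrank (ZMod p) k) (f : T → E)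
    (hf : Function.Injective f) (hfW : ∀ t, f t ∈ W) : Module.finrank F T ≤ R := by
  haveI : Finite T := Module.finite_of_finite F
  haveI : Finite E := Module.finite_of_finite (ZMod p)
  haveI : FiniteDimensional (ZMod p) k := Module.finite_iff_finite.2 inferInstance
  let g : T → W := fun t => ⟨f t, hfW t⟩
  have hg : Function.Injective g := fun a b hab => hf (congrArg Subtype.val hab)
  have h1 := Nat.card_le_card_of_injective g hg
  have hp := (Fact.out : p.Prime)
  rw [Module.natCard_eq_pow_finrank (K := F),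
    Module.natCard_eq_pow_finrank (K := ZMod p) (V := W),
    Nat.card_congr e.symm, Module.natCard_eq_pow_finrank (K := ZMod p) (V := k), Nat.card_zmod,
    ← pow_mul] at h1
  have h2 := (Nat.pow_le_pow_iff_right hp.one_lt).1 h1
  have hf0 : 0 < Module.finrank (ZMod p) k := Module.finrank_pos
  have h3 := h2.trans hR
  rw [mul_comm] at h3
  exact Nat.le_of_mul_le_mul_right h3 hf0

section Selmer

variable {p : ℕ} [Fact p.Prime]
variable {𝒪 : Type} [CommRing 𝒪] [IsDomain 𝒪] [IsDiscreteValuationRing 𝒪]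
  [IsAdicComplete (maximalIdeal 𝒪) 𝒪] [Finite (ResidueField 𝒪)] [Algebra (ZMod p) (ResidueField 𝒪)]
  {ρbar : ResidualGaloisRep (ResidueField 𝒪)}
  {𝒟 : ∀ ⦃A : Type⦄ [CommRing A] [IsLocalRing A] [Algebra 𝒪 A], GaloisRepAdic A → Prop}
  {DQ : GaloisRep.DeformationRingData 𝒪 ρbar 𝒟}
  {rb : Γ →* M₂ (ResidueField 𝒪)} {r : Γ → M₂ DQ.R}

/-- data needed to view tangent vectors as cocycles unramified outside `S` -/
structure TanHyp (DQ : GaloisRep.DeformationRingData 𝒪 ρbar 𝒟)
    (rb : Γ →* M₂ (ResidueField 𝒪)) (r : Γ → M₂ DQ.R) (S : Finset Nat.Primes) : Prop where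
  norm : NormReal DQ rb r
  detne : ∀ σ, (rb σ).det ≠ 0
  pmem : (p : 𝒪) ∈ maximalIdeal 𝒪
  det : DQ.ρ.DetIsCyclotomic p
  unr : ∀ q : Nat.Primes, q ∉ S → DQ.ρ.IsUnramifiedAt (q : ℕ)
  smooth : Smooth (sLevels S) (adRep (p := p) rb 1)

theorem TanHyp.r_eq_one {S : Finset Nat.Primes} (h : TanHyp (p := p) DQ rb r S) {q : Nat.Primes}
    (hq : q ∉ S) {A : ValuationSubring (AlgebraicClosure ℚ)} (hA : A.LiesOverPrime (q : ℕ))
    {s : Γ} (hs : s ∈ A.inertiaSubgroupIn ℚ) : r s = 1 := by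
  obtain ⟨b, hb⟩ := h.norm.real
  rw [← hb, h.unr q hq A hA s hs]
  exact LinearMap.toMatrix_one b

/-- the cocycle of a tangent vector -/
noncomputable def TanHyp.coc {S : Finset Nat.Primes} (h : TanHyp (p := p) DQ rb r S)
    (l : relTangent 𝒪 DQ.R) : ↥(Z1 (sLevels S) (adRep (p := p) rb 1)) :=
  ⟨fun σ => ⟨kcoc DQ r l σ, mem_sl.2 (kcoc_trace h.pmem h.det h.norm l.2 h.detne σ)⟩, by
    refine mem_Z1_sLevels h.smooth ?_ ?_ ?_
    · obtain ⟨H, hH, hH'⟩ := exists_level_kcoc h.norm l.2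
      exact ⟨H, hH, fun s hs => Subtype.ext (hH' s hs)⟩
    · intro σ τ
      apply Subtype.ext
      rw [Submodule.coe_add, adRep_one_apply]
      exact (kcoc_mul h.norm l.2 σ τ).trans (add_comm _ _)
    · intro q hq A hA s hs
      exact Subtype.ext (kcoc_eq_zero_of_one l.2 (h.r_eq_one hq hA hs))⟩

theorem TanHyp.coc_apply {S : Finset Nat.Primes} (h : TanHyp (p := p) DQ rb r S)
    (l : relTangent 𝒪 DQ.R) (σ : Γ) : ((h.coc l).1 σ : M₂ (ResidueField 𝒪)) = kcoc DQ r l σ := rfl

/-- the class of a tangent vector -/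
noncomputable def TanHyp.cls {S : Finset Nat.Primes} (h : TanHyp (p := p) DQ rb r S) :
    relTangent 𝒪 DQ.R →+ H1 (sLevels S) (adRep (p := p) rb 1) where
  toFun l := H1.mk (sLevels S) (adRep (p := p) rb 1) (h.coc l)
  map_zero' := by
    have : h.coc 0 = 0 := by
      apply Subtype.ext
      funext σ
      apply Subtype.ext
      have h1 := kcoc_add (DQ := DQ) r 0 0 σ
      rw [add_zero] at h1
      exact left_eq_add.1 h1
    rw [this, map_zero]
  map_add' l l' := by
    have : h.coc (l + l') = h.coc l + h.coc l' := by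
      apply Subtype.ext
      funext σ
      apply Subtype.ext
      exact kcoc_add r _ _ σ
    rw [this, map_add]

theorem TanHyp.cls_injective {S : Finset Nat.Primes} (h : TanHyp (p := p) DQ rb r S)
    (h𝒟 : ∀ (φ : DQ.R →ₐ[𝒪] DualNumber (ResidueField DQ.R))
      (hφ : IsLocalHom (φ : DQ.R →+* DualNumber (ResidueField DQ.R))), Function.Surjective φ →
      𝒟 (DQ.ρ.baseChangeAlong (φ : DQ.R →+* DualNumber (ResidueField DQ.R)) hφ)) :
    Function.Injective h.cls := by
  rw [injective_iff_map_eq_zero]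
  intro l hl
  obtain ⟨m, hm⟩ := mem_B1.1 ((H1.mk_eq_zero (f := h.coc l)).1 hl)
  apply Subtype.ext
  refine eq_zero_of_kcoc_coboundary h.norm h𝒟 l.2 (m : M₂ (ResidueField 𝒪)) fun σ => ?_
  have := congrArg (fun x : sl (ResidueField 𝒪) => (x : M₂ (ResidueField 𝒪))) (hm σ)
  simp only [AddSubgroupClass.coe_sub, adRep_one_apply] at this
  exact this

set_option synthInstance.maxHeartbeats 400000 in
set_option maxHeartbeats 1000000 in
theorem finrank_relTangent_le {S : Finset Nat.Primes} (h : TanHyp (p := p) DQ rb r S)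
    (h𝒟 : ∀ (φ : DQ.R →ₐ[𝒪] DualNumber (ResidueField DQ.R))
      (hφ : IsLocalHom (φ : DQ.R →+* DualNumber (ResidueField DQ.R))), Function.Surjective φ →
      𝒟 (DQ.ρ.baseChangeAlong (φ : DQ.R →+* DualNumber (ResidueField DQ.R)) hφ))
    {L : ∀ v : Nat.Primes, Submodule (ZMod p) (H1loc (adRep (p := p) rb 1) v)}
    (hL : ∀ l, ∀ v ∈ S, resv S (adRep (p := p) rb 1) v (h.cls l) ∈ L v)
    (hfin : Module.Finite (ZMod p) (H1 (sLevels S) (adRep (p := p) rb 1))) {R : ℕ}
    (hR : Module.finrank (ZMod p) (Sel S (adRep (p := p) rb 1) L) ≤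
      R * Module.finrank (ZMod p) (ResidueField 𝒪)) :
    Module.finrank (ResidueField DQ.R) (relTangent 𝒪 DQ.R) ≤ R := by
  haveI : Finite (ResidueField DQ.R) := Finite.of_equiv _ (iota DQ).toEquiv
  exact finrank_le_of_injective_card (p := p) (Sel S (adRep (p := p) rb 1) L)
    (iota DQ).toEquiv hR h.cls (h.cls_injective h𝒟) (fun l => mem_Sel.2 (hL l))

end Selmer

end Fermat.Agent.TW
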