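import Mathlib
import Fermat.Agent.TW.Tangent
import Fermat.Agent.TW.Closure
import Fermat.Agent.TW.LocalOrd
import Fermat.Agent.TW.LocalUr

/-!
# Tangent vectors at ordinary and unipotent primes
-/

set_option autoImplicit false
set_option linter.style.haveILetI false
set_option linter.unusedSectionVars false

namespace Fermat.Agent.TW

open Matrix IsLocalRing Fermat.Agent.DefRing Fermat.Agent Fermat.Agent.CFT Fermat.Agent.CFT.Loc

local notation "M₂" => Matrix (Fin 2) (Fin 2)

theorem conj_upper {K : Type*} [Field K] {X X' T : M₂ K} (hX : X * X' = 1) (hX10 : X 1 0 = 0)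
    (h00 : T 0 0 = 0) (h10 : T 1 0 = 0) (h11 : T 1 1 = 0) :
    (X * T * X') 0 0 = 0 ∧ (X * T * X') 1 0 = 0 := by
  have hd : X.det * X'.det = 1 := by rw [← det_mul, hX, det_one]
  have h11X : X 1 1 ≠ 0 := by
    intro h
    rw [det_fin_two X, h, hX10, mul_zero, mul_zero, sub_zero, zero_mul] at hd
    exact zero_ne_one hd
  have hX'10 : X' 1 0 = 0 := by
    have := congrFun (congrFun hX 1) 0
    simp only [mul_apply, Fin.sum_univ_two, hX10, zero_mul, zero_add] at this
    have h2 : X 1 1 * X' 1 0 = 0 := by simpa using this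
    exact (mul_eq_zero.1 h2).resolve_left h11X
  constructor <;> simp [mul_apply, Fin.sum_univ_two, h00, h10, h11, hX'10, hX10]

section

variable {𝒪 : Type} [CommRing 𝒪] [IsDomain 𝒪] [IsDiscreteValuationRing 𝒪]
  [IsAdicComplete (maximalIdeal 𝒪) 𝒪]
  {ρbar : ResidualGaloisRep (ResidueField 𝒪)}
  {𝒟 : ∀ ⦃A : Type⦄ [CommRing A] [IsLocalRing A] [Algebra 𝒪 A], GaloisRepAdic A → Prop}
  {DQ : GaloisRep.DeformationRingData 𝒪 ρbar 𝒟}
  {rb : Γ →* M₂ (ResidueField 𝒪)} {r r' : Γ → M₂ DQ.R}
  {l : Module.Dual (ResidueField DQ.R) (CotangentSpace DQ.R)}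

/-- comparing the cocycles of two realisations -/
theorem tcoc_compare (hr : Realizes DQ.ρ r) (hr' : Realizes DQ.ρ r') (hl : l ∈ relTangent 𝒪 DQ.R) :
    ∃ X X' Z : M₂ (ResidueField DQ.R), X * X' = 1 ∧ X' * X = 1 ∧
      (∀ σ, X * (r' σ).map (residue DQ.R) = (r σ).map (residue DQ.R) * X) ∧
      ∀ σ, tcoc DQ r l σ = ((r σ).map (residue DQ.R) * Z * (r σ⁻¹).map (residue DQ.R) - Z) +
        X * tcoc DQ r' l σ * X' := by
  obtain ⟨P, hP, hPr⟩ := hr.exists_conj hr'
  set X := P.map (residue DQ.R) with hX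
  set dP := P.map (der DQ.residue_surjective l) with hdP
  set X' := (P⁻¹).map (residue DQ.R) with hX'
  have h1 : X * X' = 1 := by
    rw [hX, hX', ← Matrix.map_mul, Matrix.mul_nonsing_inv _ hP]
    exact Matrix.map_one _ (map_zero _) (map_one _)
  have h2 : X' * X = 1 := by
    rw [hX, hX', ← Matrix.map_mul, Matrix.nonsing_inv_mul _ hP]
    exact Matrix.map_one _ (map_zero _) (map_one _)
  have h3 : ∀ σ, X * (r' σ).map (residue DQ.R) = (r σ).map (residue DQ.R) * X := by
    intro σ
    rw [hX, ← Matrix.map_mul, ← Matrix.map_mul, hPr]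
  refine ⟨X, X', -(dP * X'), h1, h2, h3, fun σ => ?_⟩
  have h4 : dP * (r' σ).map (residue DQ.R) + X * (r' σ).map (der DQ.residue_surjective l) =
      (r σ).map (der DQ.residue_surjective l) * X + (r σ).map (residue DQ.R) * dP := by
    rw [hdP, hX, ← map_der_mul hl, ← map_der_mul hl, hPr]
  -- inverses
  have hinv : ∀ {r₁ : Γ → M₂ DQ.R}, Realizes DQ.ρ r₁ → ∀ σ,
      (r₁ σ).map (residue DQ.R) * (r₁ σ⁻¹).map (residue DQ.R) = 1 := by
    intro r₁ hr₁ σ
    rw [← Matrix.map_mul, ← hr₁.map_mul, mul_inv_cancel, hr₁.map_one]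
    exact Matrix.map_one _ (map_zero _) (map_one _)
  set R := (r σ).map (residue DQ.R) with hR
  set Ri := (r σ⁻¹).map (residue DQ.R) with hRi
  set R' := (r' σ).map (residue DQ.R) with hR'
  set Ri' := (r' σ⁻¹).map (residue DQ.R) with hRi'
  have hRRi : R * Ri = 1 := hinv hr σ
  have hRRi' : R' * Ri' = 1 := hinv hr' σ
  have h5 : X * Ri' = Ri * X := h3 σ⁻¹
  have h6 : X * R' = R * X := h3 σ
  unfold tcoc
  rw [← hRi, ← hRi']
  set D := (r σ).map (der DQ.residue_surjective l) with hD
  set D' := (r' σ).map (der DQ.residue_surjective l) with hD'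
  -- `D X = dP R' + X D' - R dP`
  have h7 : D * X = dP * R' + X * D' - R * dP := by rw [h4]; abel
  have h8 : D = (dP * R' + X * D' - R * dP) * X' := by
    rw [← h7, mul_assoc, h1, mul_one]
  -- `R' X' = X' R`, `X' Ri = Ri' X'`
  have h9 : R' * X' = X' * R := by
    calc R' * X' = (X' * X) * R' * X' := by rw [h2, one_mul]
      _ = X' * (X * R') * X' := by simp only [mul_assoc]
      _ = X' * R * (X * X') := by rw [h6]; simp only [mul_assoc]
      _ = X' * R := by rw [h1, mul_one]
  have h10 : X' * Ri = Ri' * X' := by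
    calc X' * Ri = X' * Ri * (X * X') := by rw [h1, mul_one]
      _ = X' * (Ri * X) * X' := by simp only [mul_assoc]
      _ = (X' * X) * Ri' * X' := by rw [← h5]; simp only [mul_assoc]
      _ = Ri' * X' := by rw [h2, one_mul]
  calc D * Ri = (dP * R' + X * D' - R * dP) * X' * Ri := by rw [← h8]
    _ = dP * (R' * X') * Ri + X * D' * (X' * Ri) - R * dP * X' * Ri := by noncomm_ring
    _ = dP * (X' * R) * Ri + X * D' * (Ri' * X') - R * dP * X' * Ri := by rw [h9, h10]
    _ = dP * X' * (R * Ri) + X * D' * (Ri' * X') - R * dP * X' * Ri := by noncomm_ring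
    _ = _ := by rw [hRRi]; noncomm_ring

theorem trace_tcoc (σ : Γ) (h : (kcoc DQ r l σ).trace = 0) : (tcoc DQ r l σ).trace = 0 := by
  have : (kcoc DQ r l σ).trace = (iota DQ).symm (tcoc DQ r l σ).trace := by
    rw [Matrix.trace_fin_two, Matrix.trace_fin_two, map_add]; rfl
  rw [this] at h
  exact (map_eq_zero (iota DQ).symm).1 h

/-- **Tangent vectors at an ordinary prime.** -/
theorem exists_coboundary_ord {p : ℕ} [Fact p.Prime] (hp2 : p ≠ 2)
    (hpm : (p : 𝒪) ∈ maximalIdeal 𝒪) [CharP (ResidueField 𝒪) p]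
    (hr : NormReal DQ rb r) (hr' : Realizes DQ.ρ r')
    (hord : OrdMat p (padicPlace p) r') (hordb : OrdMat p (padicPlace p) rb)
    (hl : l ∈ relTangent 𝒪 DQ.R) (htr : ∀ σ, (kcoc DQ r l σ).trace = 0) :
    ∃ Z : M₂ (ResidueField 𝒪), ∀ τ : GalLoc p,
      (kcoc DQ r l (localGaloisToGlobal p τ) -
        (rb (localGaloisToGlobal p τ) * Z * rb (localGaloisToGlobal p τ)⁻¹ - Z)) 0 0 = 0 ∧
      (kcoc DQ r l (localGaloisToGlobal p τ) -
        (rb (localGaloisToGlobal p τ) * Z * rb (localGaloisToGlobal p τ)⁻¹ - Z)) 1 0 = 0 := by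
  have hp : p.Prime := Fact.out
  obtain ⟨X, X', Z, hXX', hX'X, hconj, hcoc⟩ := tcoc_compare hr.real hr' hl
  have hmemD : ∀ τ : GalLoc p, localGaloisToGlobal p τ ∈
      (padicPlace p).decompositionSubgroup ℚ := fun τ => by
    rw [← range_localGaloisToGlobal]; exact ⟨τ, rfl⟩
  -- characteristic
  haveI : CharP (ResidueField DQ.R) p := charP_of_injective_ringHom (iota DQ).injective p
  have h2 : (2 : ResidueField DQ.R) ≠ 0 := by
    intro h
    have h3 : ((2 : ℕ) : ResidueField DQ.R) = 0 := by exact_mod_cast h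
    rw [CharP.cast_eq_zero_iff (ResidueField DQ.R) p] at h3
    exact hp2 ((Nat.prime_dvd_prime_iff_eq hp Nat.prime_two).1 h3)
  -- the cyclotomic exponent
  have hcyc : ∀ τ : GalLoc p, ∃ a : ℕ, (∀ μ : AlgebraicClosure ℚ, μ ^ p ^ 1 = 1 →
      localGaloisToGlobal p τ μ = μ ^ a) ∧ (a : ZMod p) = locχ p τ := by
    intro τ
    refine ⟨(locχ p τ : ZMod p).val, fun μ hμ => ?_, ZMod.natCast_zmod_val _⟩
    rw [pow_one] at hμ
    exact CycChar.apply_eq_pow_cycloChar p _ hμ
  have hpR : residue DQ.R (p : DQ.R) = 0 := by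
    rw [residue_eq_zero_iff, ← map_natCast (algebraMap 𝒪 DQ.R)]
    exact map_nonunit (algebraMap 𝒪 DQ.R) _ hpm
  have hdp : der DQ.residue_surjective l (p : DQ.R) = 0 := by
    rw [← map_natCast (algebraMap 𝒪 DQ.R)]; exact der_algebraMap DQ.residue_surjective hl _
  -- shape of `r'` modulo the maximal ideal
  have hshape : ∀ τ : GalLoc p, ∀ a : ℕ, (∀ μ : AlgebraicClosure ℚ, μ ^ p ^ 1 = 1 →
      localGaloisToGlobal p τ μ = μ ^ a) →
      residue DQ.R (r' (localGaloisToGlobal p τ) 0 0) =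
        (a : ResidueField DQ.R) * residue DQ.R (r' (localGaloisToGlobal p τ) 1 1) ∧
      der DQ.residue_surjective l (r' (localGaloisToGlobal p τ) 0 0) =
        (a : ResidueField DQ.R) *
          der DQ.residue_surjective l (r' (localGaloisToGlobal p τ) 1 1) := by
    intro τ a ha
    have h3 := hord.cyc _ (hmemD τ) 1 a ha
    rw [pow_one, Ideal.mem_span_singleton] at h3
    obtain ⟨x, hx⟩ := h3
    have h4 : r' (localGaloisToGlobal p τ) 0 0 =
        (a : DQ.R) * r' (localGaloisToGlobal p τ) 1 1 + (p : DQ.R) * x := by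
      rw [← hx]; ring
    constructor
    · rw [h4, map_add, _root_.map_mul, _root_.map_mul, hpR, zero_mul, add_zero, map_natCast]
    · rw [h4, der_add DQ.residue_surjective hl, der_mul DQ.residue_surjective hl,
        der_mul DQ.residue_surjective hl, hpR, hdp, map_natCast,
        ← map_natCast (algebraMap 𝒪 DQ.R), der_algebraMap DQ.residue_surjective hl]
      simp
  -- `X` is upper triangular
  have hX10 : X 1 0 = 0 := by
    obtain ⟨τ, hτ, hτχ⟩ := exists_inertia_cyclo_ne (p := p) hp2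
    obtain ⟨a, ha, haχ⟩ := hcyc τ
    set σ := localGaloisToGlobal p τ with hσ
    have hσI : σ ∈ (padicPlace p).inertiaSubgroupIn ℚ :=
      (localGaloisToGlobal_mem_inertia_iff p τ).2 hτ
    have h3 := congrFun (congrFun (hconj σ) 1) 0
    rw [hr.red] at h3
    have e1 : (r' σ).map (residue DQ.R) 1 0 = 0 := by
      rw [Matrix.map_apply, hord.dec σ (hmemD τ), map_zero]
    have e2 : (r' σ).map (residue DQ.R) 0 0 = (a : ResidueField DQ.R) := by
      rw [Matrix.map_apply, (hshape τ a ha).1, hord.ine σ hσI, _root_.map_one, mul_one]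
    have e3 : (rb σ).map (iota DQ) 1 0 = 0 := by
      rw [Matrix.map_apply, hordb.dec σ (hmemD τ), map_zero]
    have e4 : (rb σ).map (iota DQ) 1 1 = 1 := by
      rw [Matrix.map_apply, hordb.ine σ hσI, _root_.map_one]
    simp only [mul_apply, Fin.sum_univ_two, e1, e2, e3, e4, mul_zero, add_zero, zero_mul,
      zero_add, one_mul] at h3
    have h5 : X 1 0 * ((a : ResidueField DQ.R) - 1) = 0 := by rw [mul_sub, h3]; ring
    refine (mul_eq_zero.1 h5).resolve_right ?_
    intro h6
    apply hτχ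
    rw [← haχ]
    have h7 : ((a : ℕ) : ResidueField DQ.R) = ((1 : ℕ) : ResidueField DQ.R) := by
      rw [Nat.cast_one]; exact sub_eq_zero.1 h6
    rw [CharP.natCast_eq_natCast (ResidueField DQ.R) p] at h7
    rw [← Nat.cast_one, ZMod.natCast_eq_natCast_iff]
    exact h7
  refine ⟨Z.map (iota DQ).symm, fun τ => ?_⟩
  obtain ⟨a, ha, haχ⟩ := hcyc τ
  set σ := localGaloisToGlobal p τ with hσ
  have ha0 : (a : ResidueField DQ.R) ≠ 0 := by
    intro h
    rw [CharP.cast_eq_zero_iff (ResidueField DQ.R) p, ← ZMod.natCast_eq_zero_iff, haχ] at h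
    exact (Units.ne_zero _) h
  -- the cocycle of `r'` is strictly upper triangular
  have hinv : (r' σ).map (residue DQ.R) * (r' σ⁻¹).map (residue DQ.R) = 1 := by
    rw [← Matrix.map_mul, ← hr'.map_mul, mul_inv_cancel, hr'.map_one]
    exact Matrix.map_one _ (map_zero _) (_root_.map_one _)
  have hinv10 : (r' σ⁻¹).map (residue DQ.R) 1 0 = 0 := by
    have : σ⁻¹ = localGaloisToGlobal p τ⁻¹ := by rw [hσ, map_inv]
    rw [Matrix.map_apply, this, hord.dec _ (hmemD τ⁻¹), map_zero]
  have hd10 : (r' σ).map (der DQ.residue_surjective l) 1 0 = 0 := by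
    rw [Matrix.map_apply, hord.dec σ (hmemD τ), ← map_zero (algebraMap 𝒪 DQ.R)]
    exact der_algebraMap DQ.residue_surjective hl 0
  set T := tcoc DQ r' l σ with hT
  have hT10 : T 1 0 = 0 := by
    rw [hT]; unfold tcoc
    rw [mul_apply, Fin.sum_univ_two, hd10, hinv10, zero_mul, mul_zero, add_zero]
  have hTtr : T.trace = 0 := by
    have h3 := trace_tcoc σ (htr σ)
    rw [hcoc σ, Matrix.trace_add, Matrix.trace_sub] at h3
    have h4 : ((r σ).map (residue DQ.R) * Z * (r σ⁻¹).map (residue DQ.R)).trace = Z.trace := by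
      rw [Matrix.trace_mul_comm, ← mul_assoc, ← Matrix.map_mul, ← hr.real.map_mul,
        inv_mul_cancel, hr.real.map_one, Matrix.map_one _ (map_zero _) (_root_.map_one _), one_mul]
    have h5 : (X * tcoc DQ r' l σ * X').trace = T.trace := by
      rw [Matrix.trace_mul_comm, ← mul_assoc, hX'X, one_mul]
    rw [h4, sub_self, zero_add, h5] at h3
    exact h3
  have hTr : T * (r' σ).map (residue DQ.R) = (r' σ).map (der DQ.residue_surjective l) :=
    tcoc_mul_self hr' σ
  have hr'10 : (r' σ).map (residue DQ.R) 1 0 = 0 := by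
    rw [Matrix.map_apply, hord.dec σ (hmemD τ), map_zero]
  obtain ⟨hs1, hs2⟩ := hshape τ a ha
  have h00 := congrFun (congrFun hTr 0) 0
  have h11 := congrFun (congrFun hTr 1) 1
  rw [mul_apply, Fin.sum_univ_two, hr'10, mul_zero, add_zero, Matrix.map_apply, Matrix.map_apply,
    hs1, hs2] at h00
  rw [mul_apply, Fin.sum_univ_two, hT10, zero_mul, zero_add, Matrix.map_apply,
    Matrix.map_apply] at h11
  have hd11 : residue DQ.R (r' σ 1 1) ≠ 0 := by
    intro h
    have h3 := congrFun (congrFun hinv 1) 1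
    rw [mul_apply, Fin.sum_univ_two, hr'10, zero_mul, zero_add, Matrix.map_apply, h,
      zero_mul] at h3
    simp at h3
  have hT1 : T 0 0 = T 1 1 := by
    rw [← h11] at h00
    have h3 : (T 0 0 - T 1 1) * ((a : ResidueField DQ.R) * residue DQ.R (r' σ 1 1)) = 0 := by
      linear_combination h00
    exact sub_eq_zero.1 ((mul_eq_zero.1 h3).resolve_right (mul_ne_zero ha0 hd11))
  have hT00 : T 0 0 = 0 := by
    rw [trace_fin_two, ← hT1, ← two_mul] at hTtr
    exact (mul_eq_zero.1 hTtr).resolve_left h2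
  have hT11 : T 1 1 = 0 := by rw [← hT1, hT00]
  obtain ⟨c1, c2⟩ := conj_upper hXX' hX10 hT00 hT10 hT11
  -- conclusion
  have hfin : kcoc DQ r l σ - (rb σ * Z.map (iota DQ).symm * rb σ⁻¹ - Z.map (iota DQ).symm) =
      (X * T * X').map (iota DQ).symm := by
    have h3 : X * T * X' = tcoc DQ r l σ -
        ((r σ).map (residue DQ.R) * Z * (r σ⁻¹).map (residue DQ.R) - Z) := by
      rw [hcoc σ]; abel
    rw [h3, Matrix.map_sub _ (map_sub _), Matrix.map_sub _ (map_sub _), map_mul_symm,
      map_mul_symm, hr.red' σ, hr.red' σ⁻¹]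
    rfl
  rw [hfin, Matrix.map_apply, Matrix.map_apply, c1, c2]
  simp

/-- **Tangent vectors at a prime with unipotent inertia.** -/
theorem trace_kcoc_mul_of_unipotent {q : ℕ} (hr : NormReal DQ rb r)
    (huni : DQ.ρ.IsUnipotentOnInertiaAt q) (hl : l ∈ relTangent 𝒪 DQ.R)
    {P : ValuationSubring (AlgebraicClosure ℚ)} (hP : P.LiesOverPrime q)
    {σ : Γ} (hσ : σ ∈ P.inertiaSubgroupIn ℚ) :
    (kcoc DQ r l σ * rb σ).trace = 0 ∧ (rb σ).trace = 2 ∧ (rb σ).det = 1 := by
  have h1 := (realizes_isUnipotent_iff hr.real q).1 huni P hP σ hσ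
  rw [Matrix.charpoly_fin_two, show ((Polynomial.X - 1 : Polynomial DQ.R) ^ 2) =
    Polynomial.X ^ 2 - Polynomial.C 2 * Polynomial.X + Polynomial.C 1 by
      rw [Polynomial.C_ofNat, Polynomial.C_1]; ring] at h1
  have htr : (r σ).trace = 2 := by
    have h2 := congrArg (fun f => Polynomial.coeff f 1) h1
    simp [Polynomial.coeff_one, -Polynomial.map_ofNat] at h2
    exact h2
  have hdet : (r σ).det = 1 := by
    have h2 := congrArg (fun f => Polynomial.coeff f 0) h1
    simpa [Polynomial.coeff_X, Polynomial.coeff_C, -Polynomial.map_ofNat] using h2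
  have hres := DQ.residue_surjective
  refine ⟨?_, ?_, ?_⟩
  · rw [kcoc_mul_self hr, trace_fin_two, Matrix.map_apply, Matrix.map_apply, Matrix.map_apply,
      Matrix.map_apply, ← map_add, ← der_add hres hl, ← trace_fin_two, htr,
      show (2 : DQ.R) = algebraMap 𝒪 DQ.R 2 by rw [map_ofNat], der_algebraMap hres hl, map_zero]
  · have h3 : ((rb σ).map (iota DQ)).trace = 2 := by
      rw [← hr.red, trace_fin_two, Matrix.map_apply, Matrix.map_apply, ← map_add,
        ← trace_fin_two, htr, map_ofNat]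
    have h4 : ((rb σ).map (iota DQ)).trace = iota DQ (rb σ).trace := by
      rw [trace_fin_two, trace_fin_two, map_add]; rfl
    rw [h4, ← map_ofNat (iota DQ) 2] at h3
    exact (iota DQ).injective h3
  · have h3 : ((rb σ).map (iota DQ)).det = 1 := by
      rw [← hr.red]
      have : ((r σ).map (residue DQ.R)).det = residue DQ.R (r σ).det := by
        rw [RingHom.map_det]; rfl
      rw [this, hdet, _root_.map_one]
    have h4 : ((rb σ).map (iota DQ)).det = iota DQ (rb σ).det := by
      rw [RingEquiv.map_det]; rfl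
    rw [h4, ← _root_.map_one (iota DQ)] at h3
    exact (iota DQ).injective h3

end

end Fermat.Agent.TW
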