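import Mathlib
import Fermat.Agent.TW.Kill

/-!
# Smoothness of `ad⁰` and of its Cartier dual
-/

set_option autoImplicit false
set_option linter.style.haveILetI false

namespace Fermat.Agent.TW

open Matrix Module Fermat.Agent.DefRing Fermat.Agent Fermat.Agent.CFT

local notation "M₂" => Matrix (Fin 2) (Fin 2)

theorem ker_mem_sLevels {S : Finset Nat.Primes} {M : Type*} [Monoid M] (f : Γ →* M)
    (hlev : ∃ L : IntermediateField ℚ (AlgebraicClosure ℚ), FiniteDimensional ℚ L ∧
      ∀ σ : Γ, (∀ x ∈ L, σ x = x) → f σ = 1)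
    (hunr : ∀ q : Nat.Primes, q ∉ S → ∀ A : ValuationSubring (AlgebraicClosure ℚ),
      A.LiesOverPrime (q : ℕ) → ∀ σ ∈ A.inertiaSubgroupIn ℚ, f σ = 1) :
    f.ker ∈ sLevels S := by
  refine mem_sLevels_iff.2 ⟨?_, fun q hq A hA σ hσ => ?_⟩
  · obtain ⟨L, hL, h⟩ := hlev
    refine mem_galLevels.2 ⟨L, hL, fun σ hσ => ?_⟩
    rw [MonoidHom.mem_ker]
    exact h σ ((IntermediateField.mem_fixingSubgroup_iff _ _).1 hσ)
  · rw [MonoidHom.mem_ker]
    exact hunr q hq A hA σ hσ

section

variable {p : ℕ} [Fact p.Prime] {k : Type} [Field k] [Algebra (ZMod p) k]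
variable {r : Γ →* M₂ k}

theorem adRep_apply_of_eq_one {χ : Γ →* (ZMod p)ˣ} {s : Γ} (hs : r s = 1) (hχ : χ s = 1) (m : sl k) :
    adRep r χ s m = m := by
  have hs' : r s⁻¹ = 1 := by
    have h1 : r s⁻¹ * r s = 1 := by rw [← map_mul, inv_mul_cancel, map_one]
    rwa [hs, mul_one] at h1
  apply Subtype.ext
  rw [adRep_apply, hs, hs', hχ, Units.val_one, one_smul, one_mul, mul_one]

theorem smooth_adRep {S : Finset Nat.Primes} (hker : r.ker ∈ sLevels S) :
    Smooth (sLevels S) (adRep (p := p) r 1) := fun m =>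
  ⟨_, hker, fun _ hs => adRep_apply_of_eq_one hs rfl m⟩

theorem ker_cycloChar_mem {S : Finset Nat.Primes} (hp : ExtCitation.pPrime p ∈ S) :
    (ExtCitation.cycloChar p).ker ∈ sLevels S := by
  refine ker_mem_sLevels _ (CycChar.exists_finite_level_cycloChar p) fun q hq A hA σ hσ => ?_
  refine CycChar.cycloChar_inertia p q.2 ?_ hA hσ
  intro h
  apply hq
  have : q = ExtCitation.pPrime p := Subtype.ext h
  rw [this]; exact hp

theorem smooth_cartier {S : Finset Nat.Primes} (hp : ExtCitation.pPrime p ∈ S)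
    (hker : r.ker ∈ sLevels S) :
    Smooth (sLevels S) (cartier p (adRep (p := p) r 1)) := fun m => by
  refine ⟨_, Levels.inf_mem hker (ker_cycloChar_mem hp), fun s hs => ?_⟩
  ext x
  have h : cartier p (adRep r 1) s m x =
    (ExtCitation.cycloChar p s : ZMod p) • m (adRep (p := p) r 1 s⁻¹ x) := rfl
  have hs' : r s⁻¹ = 1 := by
    have h1 : r s⁻¹ * r s = 1 := by rw [← map_mul, inv_mul_cancel, map_one]
    rwa [show r s = 1 from hs.1, mul_one] at h1
  rw [h, show ExtCitation.cycloChar p s = 1 from hs.2, Units.val_one, one_smul,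
    adRep_apply_of_eq_one hs' rfl]

/-- smoothness of the local representations -/
theorem smooth_locRep {V : Type} [AddCommGroup V] [Module (ZMod p) V]
    {ρ : Representation (ZMod p) Γ V} {S : Finset Nat.Primes} (hs : Smooth (sLevels S) ρ)
    (v : Nat.Primes) : Smooth (locLevels (v : ℕ)) (locRep ρ v) := fun x => by
  obtain ⟨H, hH, h⟩ := hs x
  exact ⟨_, cont_loc S v H hH, fun s hs => h _ hs⟩

theorem smooth_mono {V : Type} [AddCommGroup V] [Module (ZMod p) V]
    {ρ : Representation (ZMod p) Γ V} {S S' : Finset Nat.Primes} (hS : S ⊆ S')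
    (hs : Smooth (sLevels S) ρ) : Smooth (sLevels S') ρ := fun x => by
  obtain ⟨H, hH, h⟩ := hs x
  exact ⟨H, sLevels_mono hS hH, h⟩

end

end Fermat.Agent.TW
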