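import Mathlib
import Fermat.Agent.TW.OrdTangent
import Fermat.Agent.TW.SmoothAd
import Fermat.Agent.TW.FlatInterface
import Fermat.Agent.TW.FlatClosure

/-!
# Tangent classes satisfy the local conditions
-/

set_option autoImplicit false
set_option linter.style.haveILetI false
set_option linter.unusedSectionVars false
set_option synthInstance.maxHeartbeats 400000
set_option maxHeartbeats 1000000

namespace Fermat.Agent.TW

open Matrix IsLocalRing Fermat.Agent.DefRing Fermat.Agent Fermat.Agent.CFT Fermat.Agent.CFT.Loc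

local notation "M₂" => Matrix (Fin 2) (Fin 2)

section Gen

variable {k : Type} [CommRing k] {V : Type} [AddCommGroup V] [Module k V]

theorem resv_mk (S : Finset Nat.Primes) (ρ : Representation k Γ V) (v : Nat.Primes)
    (c : ↥(Z1 (sLevels S) ρ)) :
    ∃ h, resv S ρ v (H1.mk (sLevels S) ρ c) = H1.mk (locLevels (v : ℕ)) (locRep ρ v)
      ⟨fun g => c.1 (localGaloisToGlobal v g), h⟩ := ⟨_, rfl⟩

end Gen

section

variable {k : Type} [Field k]

/-- a coboundary can be taken with trace zero -/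
theorem exists_traceless (h2 : (2 : k) ≠ 0) {X : Type*} {G : Type*} [Group G] (r : G →* M₂ k)
    (f : X → G) (m : M₂ k) : ∃ m' : sl k, ∀ x, r (f x) * (m' : M₂ k) * r (f x)⁻¹ - m' =
      r (f x) * m * r (f x)⁻¹ - m := by
  refine ⟨⟨m - (m.trace / 2) • (1 : M₂ k), ?_⟩, fun x => ?_⟩
  · rw [mem_sl, trace_sub, trace_smul, trace_one]
    simp
    field_simp
    ring
  · have h1 : r (f x) * r (f x)⁻¹ = 1 := by rw [← map_mul, mul_inv_cancel, map_one]
    show r (f x) * (m - (m.trace / 2) • (1 : M₂ k)) * r (f x)⁻¹ - (m - (m.trace / 2) • (1 : M₂ k)) = _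
    rw [mul_sub, sub_mul, mul_smul_comm, mul_one, smul_mul_assoc, h1]
    abel

end

section

variable {p : ℕ} [Fact p.Prime]
variable {𝒪 : Type} [CommRing 𝒪] [IsDomain 𝒪] [IsDiscreteValuationRing 𝒪]
  [IsAdicComplete (maximalIdeal 𝒪) 𝒪] [Finite (ResidueField 𝒪)] [Algebra (ZMod p) (ResidueField 𝒪)]
  {ρbar : ResidualGaloisRep (ResidueField 𝒪)}
  {𝒟 : ∀ ⦃A : Type⦄ [CommRing A] [IsLocalRing A] [Algebra 𝒪 A], GaloisRepAdic A → Prop}
  {DQ : GaloisRep.DeformationRingData 𝒪 ρbar 𝒟}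
  {rb : Γ →* M₂ (ResidueField 𝒪)} {r : Γ → M₂ DQ.R}

theorem charP_res (p : ℕ) [Fact p.Prime] [Algebra (ZMod p) (ResidueField 𝒪)] :
    CharP (ResidueField 𝒪) p :=
  charP_of_injective_algebraMap (algebraMap (ZMod p) (ResidueField 𝒪)).injective p

theorem two_ne_res (hp2 : p ≠ 2) : (2 : ResidueField 𝒪) ≠ 0 := by
  haveI := charP_res (𝒪 := 𝒪) p
  intro h
  have h3 : ((2 : ℕ) : ResidueField 𝒪) = 0 := by exact_mod_cast h
  rw [CharP.cast_eq_zero_iff (ResidueField 𝒪) p] at h3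
  exact hp2 ((Nat.prime_dvd_prime_iff_eq Fact.out Nat.prime_two).1 h3)

/-- **at primes with unipotent ramification** tangent classes are locally unramified -/
theorem resv_mem_urCls {S : Finset Nat.Primes} (h : TanHyp (p := p) DQ rb r S)
    (l : relTangent 𝒪 DQ.R) (hp2 : p ≠ 2) {v : Nat.Primes} (hvp : (v : ℕ) ≠ p)
    (huni : DQ.ρ.IsUnipotentOnInertiaAt (v : ℕ))
    (hlev : ∃ L : IntermediateField ℚ (AlgebraicClosure ℚ), FiniteDimensional ℚ L ∧
      ∀ σ : Γ, (∀ x ∈ L, σ x = x) → rb σ = 1)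
    (hram : ∃ A : ValuationSubring (AlgebraicClosure ℚ), A.LiesOverPrime (v : ℕ) ∧
      ∃ σ ∈ A.inertiaSubgroupIn ℚ, rb σ ≠ 1) :
    resv S (adRep (p := p) rb 1) v (h.cls l) ∈ urCls (locRep (adRep (p := p) rb 1) v) := by
  haveI := charP_res (𝒪 := 𝒪) p
  obtain ⟨hZ, hres⟩ := resv_mk S (adRep (p := p) rb 1) v (h.coc l)
  have e : resv S (adRep (p := p) rb 1) v (h.cls l) = _ := hres
  rw [e]
  have hP := padicPlace_liesOverPrime (v : ℕ)
  -- a coboundary on inertia
  obtain ⟨m, hm⟩ := exists_coboundary_inertia (p := p) (l := (v : ℕ)) hvp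
    (r := rb.comp (localGaloisToGlobal v))
    (c := fun g => kcoc DQ r l (localGaloisToGlobal v g))
    (by
      obtain ⟨L, hL, hL'⟩ := hlev
      obtain ⟨H, hH, hH'⟩ := exists_level_kcoc h.norm l.2
      have h1 : L.fixingSubgroup ⊓ H ∈ galLevels ℚ (AlgebraicClosure ℚ) :=
        Levels.inf_mem (fixingSubgroup_mem_galLevels L) hH
      refine ⟨_, Levels.cont_comap (𝓛 := galLevels ℚ (AlgebraicClosure ℚ)) _ _ h1, fun s hs => ?_⟩
      exact ⟨hL' _ ((IntermediateField.mem_fixingSubgroup_iff _ _).1 hs.1), hH' _ hs.2⟩)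
    (fun σ τ => by
      show kcoc DQ r l (localGaloisToGlobal v (σ * τ)) = _
      rw [_root_.map_mul, kcoc_mul h.norm l.2]
      simp only [MonoidHom.comp_apply, map_inv])
    (fun σ => kcoc_trace h.pmem h.det h.norm l.2 h.detne _)
    (fun σ hσ => by
      obtain ⟨-, h2, h3⟩ := trace_kcoc_mul_of_unipotent h.norm huni l.2 hP
        ((localGaloisToGlobal_mem_inertia_iff (v : ℕ) σ).2 hσ)
      exact ⟨h2, h3⟩)
    (fun σ hσ => (trace_kcoc_mul_of_unipotent h.norm huni l.2 hP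
        ((localGaloisToGlobal_mem_inertia_iff (v : ℕ) σ).2 hσ)).1)
    (by
      obtain ⟨A, hA, σ, hσ, hσ1⟩ := hram
      obtain ⟨g, rfl⟩ := Frob.exists_smul_eq v.2 hP hA
      have h1 := (Frob.mem_inertiaSubgroupIn_smul_iff _ _ _).1 hσ
      have h2 : g⁻¹ * σ * g ∈ (padicPlace (v : ℕ)).decompositionSubgroup ℚ :=
        ((Frob.mem_inertiaSubgroupIn_iff _ _).1 h1).1
      rw [← range_localGaloisToGlobal] at h2
      obtain ⟨τ, hτ⟩ := h2
      refine ⟨τ, ?_, ?_⟩
      · rw [← localGaloisToGlobal_mem_inertia_iff, hτ]; exact h1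
      · rw [MonoidHom.comp_apply, hτ]
        intro h3
        apply hσ1
        have h4 : σ = g * (g⁻¹ * σ * g) * g⁻¹ := by group
        rw [h4, _root_.map_mul, _root_.map_mul, h3, mul_one, ← _root_.map_mul, mul_inv_cancel,
          _root_.map_one])
  obtain ⟨m', hm'⟩ := exists_traceless (two_ne_res (p := p) hp2) rb
    (fun τ : GalLoc (v : ℕ) => localGaloisToGlobal v τ) m
  refine mk_mem_urCls m' (fun t ht => ?_) (smooth_locRep h.smooth v)
  apply Subtype.ext
  show kcoc DQ r l (localGaloisToGlobal v t) = _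
  rw [hm t ht]
  have h5 : ((locRep (adRep (p := p) rb 1) v t m' - m' : sl (ResidueField 𝒪)) :
      M₂ (ResidueField 𝒪)) = rb (localGaloisToGlobal v t) * (m' : M₂ (ResidueField 𝒪)) *
        rb (localGaloisToGlobal v t)⁻¹ - m' := by
    rw [AddSubgroupClass.coe_sub]
    exact congrArg (· - (m' : M₂ (ResidueField 𝒪))) (adRep_one_apply rb _ m')
  rw [h5, hm' t]
  simp only [MonoidHom.comp_apply, map_inv]

/-- **at `p`, ordinary case** -/
theorem resv_mem_ordCls {S : Finset Nat.Primes} (h : TanHyp (p := p) DQ rb r S)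
    (l : relTangent 𝒪 DQ.R) (hp2 : p ≠ 2) (hord : DQ.ρ.IsStrictOrdinaryAt p)
    (hordb : OrdMat p (padicPlace p) rb) :
    resv S (adRep (p := p) rb 1) (ExtCitation.pPrime p) (h.cls l) ∈
      ordCls (p := p) (locRep (adRep (p := p) rb 1) (ExtCitation.pPrime p)) := by
  haveI := charP_res (𝒪 := 𝒪) p
  obtain ⟨hZ, hres⟩ := resv_mk S (adRep (p := p) rb 1) (ExtCitation.pPrime p) (h.coc l)
  have e : resv S (adRep (p := p) rb 1) (ExtCitation.pPrime p) (h.cls l) = _ := hres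
  rw [e]
  obtain ⟨r', hr', hr'ord⟩ := ((isStrictOrdinaryAt_iff DQ.ρ p).1 hord).2 (padicPlace p)
    (padicPlace_liesOverPrime p)
  obtain ⟨Z, hZ'⟩ := exists_coboundary_ord hp2 h.pmem h.norm hr' hr'ord hordb l.2
    (fun σ => kcoc_trace h.pmem h.det h.norm l.2 h.detne σ)
  obtain ⟨m', hm'⟩ := exists_traceless (two_ne_res (p := p) hp2) rb
    (fun τ : GalLoc p => localGaloisToGlobal p τ) Z
  refine mk_mem_ordCls (p := p) m' (smooth_locRep h.smooth (ExtCitation.pPrime p)) (fun g => ?_)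
  have h5 : ((((h.coc l).1 (localGaloisToGlobal p g)) -
      (locRep (adRep (p := p) rb 1) (ExtCitation.pPrime p) g m' - m') : sl (ResidueField 𝒪)) :
      M₂ (ResidueField 𝒪)) = kcoc DQ r l (localGaloisToGlobal p g) -
        (rb (localGaloisToGlobal p g) * Z * rb (localGaloisToGlobal p g)⁻¹ - Z) := by
    rw [← hm' g, AddSubgroupClass.coe_sub, AddSubgroupClass.coe_sub]
    exact congrArg (fun x => kcoc DQ r l (localGaloisToGlobal p g) -
      (x - (m' : M₂ (ResidueField 𝒪)))) (adRep_one_apply rb _ m')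
  show ((((h.coc l).1 (localGaloisToGlobal p g)) -
      (locRep (adRep (p := p) rb 1) (ExtCitation.pPrime p) g m' - m') : sl (ResidueField 𝒪)) :
      M₂ (ResidueField 𝒪)) 0 0 = 0 ∧ ((((h.coc l).1 (localGaloisToGlobal p g)) -
      (locRep (adRep (p := p) rb 1) (ExtCitation.pPrime p) g m' - m') : sl (ResidueField 𝒪)) :
      M₂ (ResidueField 𝒪)) 1 0 = 0
  rw [h5]
  exact hZ' g

end

end Fermat.Agent.TW
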