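import Mathlib
import Fermat.Agent.TW.LocConds

/-!
# Tangent classes in the flat case
-/

set_option autoImplicit false
set_option linter.style.haveILetI false
set_option linter.unusedSectionVars false
set_option synthInstance.maxHeartbeats 400000
set_option maxHeartbeats 1000000

namespace Fermat.Agent.TW

open Matrix IsLocalRing Fermat.Agent.DefRing Fermat.Agent Fermat.Agent.CFT Fermat.Agent.CFT.Loc

local notation "M₂" => Matrix (Fin 2) (Fin 2)

section

variable {𝒪 : Type} [CommRing 𝒪] [IsDomain 𝒪] [IsDiscreteValuationRing 𝒪]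
  [IsAdicComplete (maximalIdeal 𝒪) 𝒪]
  {ρbar : ResidualGaloisRep (ResidueField 𝒪)}
  {𝒟 : ∀ ⦃A : Type⦄ [CommRing A] [IsLocalRing A] [Algebra 𝒪 A], GaloisRepAdic A → Prop}
  {DQ : GaloisRep.DeformationRingData 𝒪 ρbar 𝒟}
  {rb : Γ →* M₂ (ResidueField 𝒪)} {r : Γ → M₂ DQ.R}
  {l : Module.Dual (ResidueField DQ.R) (CotangentSpace DQ.R)}

/-- the homomorphism to the dual numbers over the residue field of `𝒪` -/
noncomputable def theta (hl : l ∈ relTangent 𝒪 DQ.R) :
    DQ.R →+* DualNumber (ResidueField 𝒪) where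
  toFun a := TrivSqZeroExt.inl ((iota DQ).symm (residue DQ.R a)) +
    TrivSqZeroExt.inr ((iota DQ).symm (der DQ.residue_surjective l a))
  map_one' := by
    have h1 : der DQ.residue_surjective l (1 : DQ.R) = 0 := by
      rw [← map_one (algebraMap 𝒪 DQ.R)]; exact der_algebraMap DQ.residue_surjective hl 1
    rw [h1, _root_.map_one, _root_.map_one, map_zero]
    simp
  map_zero' := by
    have h1 : der DQ.residue_surjective l (0 : DQ.R) = 0 := by
      rw [← map_zero (algebraMap 𝒪 DQ.R)]; exact der_algebraMap DQ.residue_surjective hl 0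
    rw [h1, map_zero, map_zero]
    simp
  map_add' a b := by
    rw [der_add DQ.residue_surjective hl, map_add, map_add, map_add]
    ext
    · simp
    · simp
  map_mul' a b := by
    rw [der_mul DQ.residue_surjective hl, _root_.map_mul, map_add, _root_.map_mul,
      _root_.map_mul, _root_.map_mul]
    ext
    · simp
    · simp
      try ring

theorem theta_apply (hl : l ∈ relTangent 𝒪 DQ.R) (a : DQ.R) :
    theta hl a = TrivSqZeroExt.inl ((iota DQ).symm (residue DQ.R a)) +
    TrivSqZeroExt.inr ((iota DQ).symm (der DQ.residue_surjective l a)) := rfl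

theorem theta_local (hl : l ∈ relTangent 𝒪 DQ.R) : IsLocalHom (theta hl) := by
  constructor
  intro a ha
  have h1 := ha.map (TrivSqZeroExt.fstHom (ResidueField 𝒪) (ResidueField 𝒪) (ResidueField 𝒪))
  have h2 : TrivSqZeroExt.fst (theta hl a) = (iota DQ).symm (residue DQ.R a) := by
    rw [theta_apply]; simp
  rw [TrivSqZeroExt.fstHom_apply, h2] at h1
  have h3 : residue DQ.R a ≠ 0 := by
    intro h
    rw [h, map_zero] at h1
    exact not_isUnit_zero h1
  by_contra h4
  exact h3 ((residue_eq_zero_iff a).2 ((mem_maximalIdeal a).2 h4))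

theorem theta_surjective (hl : l ∈ relTangent 𝒪 DQ.R) (h0 : l ≠ 0) :
    Function.Surjective (theta hl) := by
  intro x
  obtain ⟨a, ha⟩ := dualHom_surjective DQ.residue_surjective hl h0
    (TrivSqZeroExt.inl (iota DQ (TrivSqZeroExt.fst x)) +
      TrivSqZeroExt.inr (iota DQ (TrivSqZeroExt.snd x)))
  have ha' : (TrivSqZeroExt.inl (residue DQ.R a) +
      TrivSqZeroExt.inr (der DQ.residue_surjective l a) : DualNumber (ResidueField DQ.R)) =
      TrivSqZeroExt.inl (iota DQ (TrivSqZeroExt.fst x)) +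
      TrivSqZeroExt.inr (iota DQ (TrivSqZeroExt.snd x)) := ha
  have h1 := congrArg TrivSqZeroExt.fst ha'
  have h2 := congrArg TrivSqZeroExt.snd ha'
  simp only [TrivSqZeroExt.fst_add, TrivSqZeroExt.fst_inl, TrivSqZeroExt.fst_inr, add_zero,
    TrivSqZeroExt.snd_add, TrivSqZeroExt.snd_inl, TrivSqZeroExt.snd_inr, zero_add] at h1 h2
  refine ⟨a, ?_⟩
  rw [theta_apply, h1, h2, RingEquiv.symm_apply_apply, RingEquiv.symm_apply_apply]
  exact TrivSqZeroExt.inl_fst_add_inr_snd_eq x

theorem map_theta (hr : NormReal DQ rb r) (hl : l ∈ relTangent 𝒪 DQ.R) (σ : Γ) :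
    (r σ).map (theta hl) = defMat rb (kcoc DQ r l) σ := by
  have h1 := hr.red' σ
  have h2 := kcoc_mul_self (l := l) hr σ
  unfold defMat
  rw [h2]
  ext1 i j
  have h3 : (iota DQ).symm (residue DQ.R (r σ i j)) = rb σ i j :=
    congrFun (congrFun h1 i) j
  rw [Matrix.add_apply, Matrix.map_apply, Matrix.map_apply, Matrix.map_apply, Matrix.map_apply,
    Matrix.map_apply, theta_apply, h3]

variable {p : ℕ} [Fact p.Prime] [Finite (ResidueField 𝒪)] [Algebra (ZMod p) (ResidueField 𝒪)]

/-- **at `p`, flat case** -/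
theorem resv_mem_flat {S : Finset Nat.Primes} (h : TanHyp (p := p) DQ rb r S)
    (l : relTangent 𝒪 DQ.R) (hflat : DQ.ρ.IsFlatAt p)
    {L : Submodule (ZMod p) (H1loc (adRep (p := p) rb 1) (ExtCitation.pPrime p))}
    (hL : ∀ (ρ : GaloisRepAdic (DualNumber (ResidueField 𝒪))) (S : Finset Nat.Primes)
      (c : ↥(Z1 (sLevels S) (adRep (p := p) rb 1))),
      Realizes ρ (defMat rb (fun σ => (c.1 σ : M₂ (ResidueField 𝒪)))) → ρ.IsFlatAt p →
      resv S (adRep (p := p) rb 1) (ExtCitation.pPrime p)
        (H1.mk (sLevels S) (adRep (p := p) rb 1) c) ∈ L) :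
    resv S (adRep (p := p) rb 1) (ExtCitation.pPrime p) (h.cls l) ∈ L := by
  by_cases h0 : (l : Module.Dual (ResidueField DQ.R) (CotangentSpace DQ.R)) = 0
  · have : l = 0 := Subtype.ext h0
    rw [this, map_zero, map_zero]
    exact zero_mem _
  · refine hL (DQ.ρ.baseChangeAlong (theta l.2) (theta_local l.2)) S (h.coc l) ?_
      (isFlatAt_baseChange _ _ (theta_surjective l.2 h0) hflat)
    have h1 := h.norm.real.baseChange (theta l.2) (theta_local l.2)
    have h2 : (fun σ => (r σ).map (theta l.2)) = defMat rb (kcoc DQ r l) :=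
      funext (map_theta h.norm l.2)
    rw [h2] at h1
    exact h1

end

end Fermat.Agent.TW
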