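import Mathlib
import Fermat.Agent.TW.FlatTangent
import Fermat.Agent.TW.Bound

/-!
# Assembly of the Taylor-Wiles primes theorem, for a general local condition at `p`
-/

set_option autoImplicit false
set_option linter.style.haveILetI false
set_option linter.unusedSectionVars false
set_option synthInstance.maxHeartbeats 400000
set_option maxHeartbeats 1000000

namespace Fermat.Agent.TW

open Matrix IsLocalRing Module Fermat.Agent.DefRing Fermat.Agent Fermat.Agent.CFT Fermat.Agent.CFT.Loc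

local notation "M₂" => Matrix (Fin 2) (Fin 2)

/-- type of local conditions -/
abbrev LCond := ∀ ⦃A : Type⦄ [CommRing A] [IsLocalRing A], GaloisRepAdic A → Prop

/-- The deformation condition attached to a local condition `P`. -/
def CondType (𝒪 : Type) [CommRing 𝒪] (p : ℕ) (Smin : Finset ℕ) (P : LCond) (Q : Finset ℕ) :
    ∀ ⦃A : Type⦄ [CommRing A] [IsLocalRing A] [Algebra 𝒪 A], GaloisRepAdic A → Prop :=
  fun _A _ _ _ ρ => (ρ.DetIsCyclotomic p ∧ P ρ ∧
    ∀ q : ℕ, q.Prime → q ∉ Smin ∪ Q → ρ.IsUnramifiedAt q) ∧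
    ∀ q ∈ Smin, q.Prime → q ≠ p → ρ.IsUnipotentOnInertiaAt q

section Loc

variable {p : ℕ} [Fact p.Prime] {k : Type} [Field k] [Finite k] [Algebra (ZMod p) k]
variable {r : Γ →* M₂ k}

/-- the local conditions -/
noncomputable def locCond [DecidableEq Nat.Primes] (S : Finset Nat.Primes)
    (Lp : Submodule (ZMod p) (H1loc (adRep (p := p) r 1) (ExtCitation.pPrime p))) :
    ∀ v : Nat.Primes, Submodule (ZMod p) (H1loc (adRep (p := p) r 1) v) :=
  Function.update (fun v => if v ∈ S then urCls (locRep (adRep (p := p) r 1) v) else ⊤)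
    (ExtCitation.pPrime p) Lp

theorem locCond_p [DecidableEq Nat.Primes] (S : Finset Nat.Primes)
    (Lp : Submodule (ZMod p) (H1loc (adRep (p := p) r 1) (ExtCitation.pPrime p))) :
    locCond S Lp (ExtCitation.pPrime p) = Lp := Function.update_self _ _ _

theorem locCond_ne [DecidableEq Nat.Primes] (S : Finset Nat.Primes)
    (Lp : Submodule (ZMod p) (H1loc (adRep (p := p) r 1) (ExtCitation.pPrime p)))
    {v : Nat.Primes} (hv : v ≠ ExtCitation.pPrime p) :
    locCond S Lp v = if v ∈ S then urCls (locRep (adRep (p := p) r 1) v) else ⊤ :=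
  Function.update_of_ne hv _ _

theorem finrank_urCls_locRep_le {S : Finset Nat.Primes}
    (hs : Smooth (sLevels S) (adRep (p := p) r 1)) (v : Nat.Primes) :
    finrank (ZMod p) (urCls (locRep (adRep (p := p) r 1) v)) ≤ h0loc (adRep (p := p) r 1) v := by
  refine finrank_urCls_le (smooth_locRep hs v) _ fun x => ?_
  constructor
  · intro h g
    exact h _ ⟨g, rfl⟩
  · rintro h _ ⟨g, rfl⟩
    exact h g

theorem sum_locCond_le [DecidableEq Nat.Primes] {S : Finset Nat.Primes}
    (hpS : ExtCitation.pPrime p ∈ S)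
    (hs : Smooth (sLevels S) (adRep (p := p) r 1))
    {Lp : Submodule (ZMod p) (H1loc (adRep (p := p) r 1) (ExtCitation.pPrime p))}
    (hLp : finrank (ZMod p) Lp ≤ h0loc (adRep (p := p) r 1) (ExtCitation.pPrime p) +
      finrank (ZMod p) k) :
    ∑ v ∈ S, finrank (ZMod p) (locCond S Lp v) + 0 ≤
      ∑ v ∈ S, h0loc (adRep (p := p) r 1) v + finrank (ZMod p) k := by
  rw [← Finset.add_sum_erase S _ hpS, ← Finset.add_sum_erase S _ hpS, locCond_p]
  have h1 : ∑ v ∈ S.erase (ExtCitation.pPrime p), finrank (ZMod p) (locCond S Lp v) ≤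
      ∑ v ∈ S.erase (ExtCitation.pPrime p), h0loc (adRep (p := p) r 1) v := by
    refine Finset.sum_le_sum fun v hv => ?_
    rw [locCond_ne S Lp (Finset.ne_of_mem_erase hv), if_pos (Finset.mem_of_mem_erase hv)]
    exact finrank_urCls_locRep_le hs v
  omega

end Loc

section

variable {p : ℕ} [Fact p.Prime]
variable {𝒪 : Type} [CommRing 𝒪] [IsDomain 𝒪] [IsDiscreteValuationRing 𝒪]
  [IsAdicComplete (maximalIdeal 𝒪) 𝒪] [Finite (ResidueField 𝒪)] [Algebra (ZMod p) (ResidueField 𝒪)]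
  {ρbar : ResidualGaloisRep (ResidueField 𝒪)}

theorem factors_rHom {k : Type} [Field k] {ρbar : ResidualGaloisRep k} {rb : Γ → M₂ k}
    (hrb : RealizesRes ρbar rb) :
    ∃ L : IntermediateField ℚ (AlgebraicClosure ℚ), FiniteDimensional ℚ L ∧
      ∀ σ : Γ, (∀ x ∈ L, σ x = x) → rHom hrb σ = 1 := by
  obtain ⟨L, hL, h⟩ := ρbar.factorsThroughFiniteLevel
  obtain ⟨b, hb⟩ := id hrb
  refine ⟨L, hL, fun σ hσ => ?_⟩
  rw [rHom_apply, ← hb, h σ hσ]
  exact LinearMap.toMatrix_one b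

theorem rho_eq_one_iff {k : Type} [Field k] {ρbar : ResidualGaloisRep k} {rb : Γ → M₂ k}
    (hrb : RealizesRes ρbar rb) (σ : Γ) : ρbar.ρ σ = 1 ↔ rHom hrb σ = 1 := by
  obtain ⟨b, hb⟩ := id hrb
  rw [rHom_apply, ← hb]
  constructor
  · intro h; rw [h]; exact LinearMap.toMatrix_one b
  · intro h
    apply (LinearMap.toMatrix b b).injective
    rw [h]; exact (LinearMap.toMatrix_one b).symm

/-- charpoly at Taylor-Wiles primes -/
theorem charpoly_of_isTWPrime {k : Type} [Field k] {ρbar : ResidualGaloisRep k} {rb : Γ → M₂ k}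
    (hrb : RealizesRes ρbar rb) {n q : ℕ} (h : IsTWPrime p n (rHom hrb) q)
    (hsplit : ∀ σ : Γ, ∃ α β : k, LinearMap.charpoly (ρbar.ρ σ) =
      (Polynomial.X - Polynomial.C α) * (Polynomial.X - Polynomial.C β))
    {P : ValuationSubring (AlgebraicClosure ℚ)} (hP : P.LiesOverPrime q) {φ : Γ}
    (hφ : P.IsFrobeniusAt φ q) : ∃ α β : k, α ≠ β ∧ LinearMap.charpoly (ρbar.ρ φ) =
      (Polynomial.X - Polynomial.C α) * (Polynomial.X - Polynomial.C β) := by
  obtain ⟨α, β, hαβ⟩ := hsplit φ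
  refine ⟨α, β, ?_, hαβ⟩
  obtain ⟨htr, hdet⟩ := h.frob P hP φ hφ
  obtain ⟨b, hb⟩ := id hrb
  have h1 : (rHom hrb φ).charpoly =
      (Polynomial.X - Polynomial.C α) * (Polynomial.X - Polynomial.C β) := by
    rw [← hαβ, rHom_apply, ← hb, LinearMap.charpoly_toMatrix]
  rw [Matrix.charpoly_fin_two] at h1
  have h0 := congrArg (fun f => Polynomial.eval 0 f) h1
  have h2 := congrArg (fun f => Polynomial.eval 1 f) h1
  rw [rHom_apply] at hdet htr
  simp at h0 h2
  rintro rfl
  apply htr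
  have h3 : (rb φ).trace = α + α := by
    rw [hdet] at h0 h2
    linear_combination -h2 + h0
  rw [h3]
  rw [hdet] at h0
  linear_combination (-4) * h0

theorem main_of_local (hp2 : p ≠ 2) (hp𝒪 : (p : 𝒪) ∈ maximalIdeal 𝒪)
    (habs : ρbar.IsAbsolutelyIrreducible)
    (hdet : (GaloisRepAdic.ofResidualGaloisRep ρbar).DetIsCyclotomic p)
    (hsplit : ∀ σ : AlgebraicClosure ℚ ≃ₐ[ℚ] AlgebraicClosure ℚ,
      ∃ α β : ResidueField 𝒪, LinearMap.charpoly (ρbar.ρ σ) =
        (Polynomial.X - Polynomial.C α) * (Polynomial.X - Polynomial.C β))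
    (hTW : ∀ (K : Type) [Field K] [Algebra (ResidueField 𝒪) K]
      (G : Subgroup (AlgebraicClosure ℚ ≃ₐ[ℚ] AlgebraicClosure ℚ)), G.index = 2 →
      ∀ V : Submodule K (ρbar.baseChange K).V,
        (∀ σ ∈ G, ∀ x ∈ V, (ρbar.baseChange K).ρ σ x ∈ V) → V = ⊥ ∨ V = ⊤)
    (S Smin : Finset ℕ) (hpSmin : p ∈ Smin) (_hSmin : Smin ⊆ S) (_hS : ∀ q ∈ S, q.Prime)
    (hmin : ∀ q : ℕ, q.Prime → q ≠ p → (q ∈ Smin ↔ ¬ ρbar.IsUnramifiedAt q))
    {rb : Γ → M₂ (ResidueField 𝒪)} (hrb : RealizesRes ρbar rb)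
    (G : GWData p (adRep (p := p) (rHom hrb) 1)) (P : LCond)
    (Lp : Submodule (ZMod p) (H1loc (adRep (p := p) (rHom hrb) 1) (ExtCitation.pPrime p)))
    (hLp : finrank (ZMod p) Lp ≤
      h0loc (adRep (p := p) (rHom hrb) 1) (ExtCitation.pPrime p) +
        finrank (ZMod p) (ResidueField 𝒪))
    (hclosed : ∀ {A B : Type} [CommRing A] [IsLocalRing A] [CommRing B] [IsLocalRing B]
      (φ : A →+* B) (hφ : IsLocalHom φ) (ρ : GaloisRepAdic A), Function.Surjective φ →
      P ρ → P (ρ.baseChangeAlong φ hφ))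
    (hloc : ∀ (Q : Finset ℕ) (DQ : GaloisRep.DeformationRingData 𝒪 ρbar (CondType 𝒪 p Smin P Q))
      (r : Γ → M₂ DQ.R) (T : Finset Nat.Primes) (h : TanHyp (p := p) DQ (rHom hrb) r T)
      (l : relTangent 𝒪 DQ.R), P DQ.ρ →
      resv T (adRep (p := p) (rHom hrb) 1) (ExtCitation.pPrime p) (h.cls l) ∈ Lp) :
    ∃ R : ℕ, ∀ n : ℕ, ∃ qv : Fin R → ℕ, Function.Injective qv ∧
      (∀ i, (qv i).Prime ∧ qv i ∉ S ∧ p ^ (n + 1) ∣ qv i - 1) ∧
      (∀ i, ∀ P : ValuationSubring (AlgebraicClosure ℚ), P.LiesOverPrime (qv i) →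
        ∀ φ : AlgebraicClosure ℚ ≃ₐ[ℚ] AlgebraicClosure ℚ, P.IsFrobeniusAt φ (qv i) →
          ∃ α β : ResidueField 𝒪, α ≠ β ∧ LinearMap.charpoly (ρbar.ρ φ) =
            (Polynomial.X - Polynomial.C α) * (Polynomial.X - Polynomial.C β)) ∧
      ∀ DQ : GaloisRep.DeformationRingData 𝒪 ρbar
          (CondType 𝒪 p Smin P (Finset.univ.image qv)),
        ∃ γ : MvPowerSeries (Fin R) 𝒪 →ₐ[𝒪] DQ.R, Function.Surjective γ := by
  classical
  -- the finite set of primes
  let S' : Finset Nat.Primes := Finset.subtype Nat.Prime Smin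
  have hmemS' : ∀ v : Nat.Primes, v ∈ S' ↔ (v : ℕ) ∈ Smin := fun v => Finset.mem_subtype
  have hpS' : ExtCitation.pPrime p ∈ S' := (hmemS' _).2 hpSmin
  have hlev := factors_rHom hrb
  have hT := fun n => twHyp hp2 habs hdet hTW hrb n
  have hdet' := fun σ => det_eq_of_detIsCyclotomic (p := p) hdet hrb σ
  have hker : (rHom hrb).ker ∈ sLevels S' := by
    refine ker_mem_sLevels _ hlev fun q hq A hA σ hσ => ?_
    have hqp : (q : ℕ) ≠ p := fun h => hq ((hmemS' q).2 (h ▸ hpSmin))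
    have h1 : ρbar.IsUnramifiedAt (q : ℕ) := by
      by_contra h
      exact hq ((hmemS' q).2 ((hmin q q.2 hqp).2 h))
    exact (rho_eq_one_iff hrb σ).1 (h1 A hA σ hσ)
  have hs := smooth_adRep (p := p) hker
  have hs' := smooth_cartier (p := p) hpS' hker
  obtain ⟨R, hR⟩ := exists_twPrimes_sel G hp2 hlev hT hdet' hpS' hs hs' (L := locCond S' Lp)
    (fun v hv => by
      have hvp : v ≠ ExtCitation.pPrime p := fun h => hv (h ▸ hpS')
      rw [locCond_ne S' Lp hvp, if_neg hv]) (e := 0) (sum_locCond_le hpS' hs hLp)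
  refine ⟨R, fun n => ?_⟩
  obtain ⟨Q, hQR, hQ, hsel⟩ := hR n S
  let e : Fin R ≃ Q := (Q.equivFinOfCardEq hQR).symm
  let qv : Fin R → ℕ := fun i => ((e i : Nat.Primes) : ℕ)
  have himg : ∀ q : Nat.Primes, (q : ℕ) ∈ Finset.univ.image qv ↔ q ∈ Q := by
    intro q
    rw [Finset.mem_image]
    constructor
    · rintro ⟨i, -, hi⟩
      have : ((e i : Nat.Primes)) = q := Subtype.ext hi
      rw [← this]; exact (e i).2
    · intro hq
      exact ⟨e.symm ⟨q, hq⟩, Finset.mem_univ _, by simp [qv]⟩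
  refine ⟨qv, ?_, ?_, ?_, ?_⟩
  · intro i j hij
    apply e.injective
    apply Subtype.ext
    exact Subtype.ext hij
  · intro i
    obtain ⟨h1, h2⟩ := hQ _ (e i).2
    exact ⟨h1.prime, h2, h1.dvd⟩
  · intro i P hP φ hφ
    obtain ⟨h1, h2⟩ := hQ _ (e i).2
    exact charpoly_of_isTWPrime hrb h1 hsplit hP hφ
  · intro DQ
    obtain ⟨r, hr⟩ := exists_normReal (DQ := DQ) hrb
    obtain ⟨⟨hdetQ, hPQ, hunrQ⟩, huniQ⟩ := DQ.isOfType
    have hTan : TanHyp (p := p) DQ (rHom hrb) r (S' ∪ Q) :=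
      { norm := hr
        detne := fun σ => by
          rw [rHom_apply, hdet' σ]
          exact (map_ne_zero _).2 (Units.ne_zero _)
        pmem := hp𝒪
        det := hdetQ
        unr := fun q hq => by
          rw [Finset.mem_union, not_or] at hq
          refine hunrQ q q.2 ?_
          rw [Finset.mem_union, not_or]
          exact ⟨fun h => hq.1 ((hmemS' q).2 h), fun h => hq.2 ((himg q).1 h)⟩
        smooth := smooth_mono Finset.subset_union_left hs }
    have hdim := finrank_relTangent_le hTan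
      (fun φ hφ hsurj => by
        refine ⟨⟨detIsCyclotomic_baseChange _ hφ hdetQ, hclosed _ hφ _ hsurj hPQ,
          fun q hq hqQ => isUnramifiedAt_baseChange _ hφ (hunrQ q hq hqQ)⟩,
          fun q hq hqp hqp' => isUnipotent_baseChange _ hφ (huniQ q hq hqp hqp')⟩)
      (L := locCond S' Lp)
      (fun l v hv => by
        by_cases hvp : v = ExtCitation.pPrime p
        · subst hvp
          rw [locCond_p]
          exact hloc _ DQ r _ hTan l hPQ
        · rw [locCond_ne S' Lp hvp]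
          split_ifs with hvS
          · have hvp' : (v : ℕ) ≠ p := fun h => hvp (Subtype.ext h)
            refine resv_mem_urCls hTan l hp2 hvp'
              (huniQ v ((hmemS' v).1 hvS) v.2 hvp') hlev ?_
            have h1 := (hmin v v.2 hvp').1 ((hmemS' v).1 hvS)
            unfold ResidualGaloisRep.IsUnramifiedAt at h1
            push Not at h1
            obtain ⟨A, hA, σ, hσ, hσ1⟩ := h1
            exact ⟨A, hA, σ, hσ, fun h => hσ1 ((rho_eq_one_iff hrb σ).2 h)⟩
          · trivial)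
      (G.finite (S' ∪ Q) (Finset.mem_union_left _ hpS') (smooth_mono Finset.subset_union_left hs))
      hsel
    exact exists_surjective_of_finrank_le DQ.residue_surjective hdim

end

end Fermat.Agent.TW
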