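import Mathlib
import Fermat.Agent.TW.Main

/-!
# S56 from class field theory (`GWData`) and the flat local bound
-/

set_option autoImplicit false
set_option linter.style.haveILetI false
set_option linter.unusedSectionVars false
set_option synthInstance.maxHeartbeats 400000
set_option maxHeartbeats 1000000

namespace Fermat.Agent.TW

open Matrix IsLocalRing Module Fermat.Agent.DefRing Fermat.Agent Fermat.Agent.CFT Fermat.Agent.CFT.Loc

local notation "M₂" => Matrix (Fin 2) (Fin 2)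

/-- Existence of the data of class field theory. -/
def GWExists (p : ℕ) [Fact p.Prime] : Prop :=
  ∀ {V : Type} [AddCommGroup V] [Module (ZMod p) V] [FiniteDimensional (ZMod p) V]
    (ρ : Representation (ZMod p) Γ V), (∃ S : Finset Nat.Primes, Smooth (sLevels S) ρ) →
    Nonempty (GWData p ρ)

/-- Existence of the flat local bound. -/
def FlatExists (p : ℕ) [Fact p.Prime] : Prop :=
  ∀ {k : Type} [Field k] [Finite k] [Algebra (ZMod p) k] (r : Γ →* M₂ k),
    (∃ L : IntermediateField ℚ (AlgebraicClosure ℚ), FiniteDimensional ℚ L ∧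
      ∀ σ : Γ, (∀ x ∈ L, σ x = x) → r σ = 1) →
    (∀ σ, (r σ).det = algebraMap (ZMod p) k (ExtCitation.cycloChar p σ : ZMod p)) →
    (∀ σ, ∃ α β : k, (r σ).charpoly =
      (Polynomial.X - Polynomial.C α) * (Polynomial.X - Polynomial.C β)) →
    FlatLocalBound p r

section

variable {p : ℕ} [Fact p.Prime]
variable {𝒪 : Type} [CommRing 𝒪] [IsDomain 𝒪] [IsDiscreteValuationRing 𝒪]
  [IsAdicComplete (maximalIdeal 𝒪) 𝒪]
  {ρbar : ResidualGaloisRep (ResidueField 𝒪)}
  {𝒟 : ∀ ⦃A : Type⦄ [CommRing A] [IsLocalRing A] [Algebra 𝒪 A], GaloisRepAdic A → Prop}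

/-- If there is an ordinary deformation then the residual representation has an ordinary
realisation. -/
theorem exists_ordMat_res (DQ : GaloisRep.DeformationRingData 𝒪 ρbar 𝒟)
    (hord : DQ.ρ.IsStrictOrdinaryAt p) :
    ∃ rb, RealizesRes ρbar rb ∧ OrdMat p (padicPlace p) rb := by
  obtain ⟨r', hr', hr'ord⟩ := ((isStrictOrdinaryAt_iff DQ.ρ p).1 hord).2 (padicPlace p)
    (padicPlace_liesOverPrime p)
  obtain ⟨r0, hr0⟩ := exists_realizesRes ρbar
  have h1 := hr'.residual.of_isEquiv DQ.residual_isEquiv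
  have h2 : RealizesRes (ρbar.baseChangeAlong (ResidueField.map (algebraMap 𝒪 DQ.R)))
    (fun σ => (r0 σ).map (iota DQ)) := hr0.baseChangeAlong _
  obtain ⟨P, hP, hPc⟩ := h2.exists_conj h1
  let P' : M₂ (ResidueField 𝒪) := P.map (iota DQ).symm
  have hP' : IsUnit P'.det := by
    have e : P'.det = (iota DQ).symm P.det := by
      rw [RingEquiv.map_det]; rfl
    rw [e]; exact hP.map _
  let rb : Γ → M₂ (ResidueField 𝒪) := fun σ =>
    ((r' σ).map (residue DQ.R)).map (iota DQ).symm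
  have h3 : ∀ σ, P' * rb σ = r0 σ * P' := by
    intro σ
    have h4 := congrArg (fun X : M₂ (ResidueField DQ.R) => X.map (iota DQ).symm) (hPc σ)
    simp only [map_mul_symm] at h4
    have h5 : ((r0 σ).map (iota DQ)).map (iota DQ).symm = r0 σ := by
      ext i j; simp
    rw [h5] at h4
    exact h4
  have h6 : (fun σ => P'⁻¹ * r0 σ * P') = rb := by
    funext σ
    rw [mul_assoc, ← h3 σ, ← mul_assoc, Matrix.nonsing_inv_mul _ hP', one_mul]
  have h7 : Realizes (GaloisRepAdic.ofResidualGaloisRep ρbar) (fun σ => P'⁻¹ * r0 σ * P') :=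
    (Realizes.ofResidual hr0).conj P' hP'
  rw [h6] at h7
  refine ⟨rb, h7, ?_⟩
  exact hr'ord.map (((iota DQ).symm : ResidueField DQ.R →+* ResidueField 𝒪).comp (residue DQ.R))

end

theorem s56_of {𝒪 : Type} [CommRing 𝒪] [IsDomain 𝒪] [IsDiscreteValuationRing 𝒪]
    [IsAdicComplete (maximalIdeal 𝒪) 𝒪] [Finite (ResidueField 𝒪)]
    (p : ℕ) [Fact p.Prime] (hGW : GWExists p) (hFlat : FlatExists p)
    (hp2 : p ≠ 2) (hp𝒪 : (p : 𝒪) ∈ maximalIdeal 𝒪)
    (ρbar : ResidualGaloisRep (ResidueField 𝒪))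
    (habs : ρbar.IsAbsolutelyIrreducible)
    (hdet : (GaloisRepAdic.ofResidualGaloisRep ρbar).DetIsCyclotomic p)
    (hsplit : ∀ σ : AlgebraicClosure ℚ ≃ₐ[ℚ] AlgebraicClosure ℚ,
      ∃ α β : ResidueField 𝒪, LinearMap.charpoly (ρbar.ρ σ) =
        (Polynomial.X - Polynomial.C α) * (Polynomial.X - Polynomial.C β))
    (hTW : ∀ (K : Type) [Field K] [Algebra (ResidueField 𝒪) K]
      (G : Subgroup (AlgebraicClosure ℚ ≃ₐ[ℚ] AlgebraicClosure ℚ)), G.index = 2 →
      ∀ V : Submodule K (ρbar.baseChange K).V,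
        (∀ σ ∈ G, ∀ x ∈ V, (ρbar.baseChange K).ρ σ x ∈ V) → V = ⊥ ∨ V = ⊤)
    (S Smin : Finset ℕ) (hpSmin : p ∈ Smin) (hSmin : Smin ⊆ S) (hS : ∀ q ∈ S, q.Prime)
    (hmin : ∀ q : ℕ, q.Prime → q ≠ p → (q ∈ Smin ↔ ¬ ρbar.IsUnramifiedAt q)) :
    (∃ r : ℕ, ∀ n : ℕ, ∃ qv : Fin r → ℕ, Function.Injective qv ∧
      (∀ i, (qv i).Prime ∧ qv i ∉ S ∧ p ^ (n + 1) ∣ qv i - 1) ∧
      (∀ i, ∀ P : ValuationSubring (AlgebraicClosure ℚ), P.LiesOverPrime (qv i) →
        ∀ φ : AlgebraicClosure ℚ ≃ₐ[ℚ] AlgebraicClosure ℚ, P.IsFrobeniusAt φ (qv i) →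
          ∃ α β : ResidueField 𝒪, α ≠ β ∧ LinearMap.charpoly (ρbar.ρ φ) =
            (Polynomial.X - Polynomial.C α) * (Polynomial.X - Polynomial.C β)) ∧
      ∀ DQ : GaloisRep.DeformationRingData 𝒪 ρbar (fun _A _ _ _ ρ =>
          GaloisRep.strictOrdinaryCondition 𝒪 p (Smin ∪ Finset.univ.image qv) ρ ∧
            ∀ q ∈ Smin, q.Prime → q ≠ p → ρ.IsUnipotentOnInertiaAt q),
        ∃ γ : MvPowerSeries (Fin r) 𝒪 →ₐ[𝒪] DQ.R, Function.Surjective γ) ∧
    (∃ r : ℕ, ∀ n : ℕ, ∃ qv : Fin r → ℕ, Function.Injective qv ∧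
      (∀ i, (qv i).Prime ∧ qv i ∉ S ∧ p ^ (n + 1) ∣ qv i - 1) ∧
      (∀ i, ∀ P : ValuationSubring (AlgebraicClosure ℚ), P.LiesOverPrime (qv i) →
        ∀ φ : AlgebraicClosure ℚ ≃ₐ[ℚ] AlgebraicClosure ℚ, P.IsFrobeniusAt φ (qv i) →
          ∃ α β : ResidueField 𝒪, α ≠ β ∧ LinearMap.charpoly (ρbar.ρ φ) =
            (Polynomial.X - Polynomial.C α) * (Polynomial.X - Polynomial.C β)) ∧
      ∀ DQ : GaloisRep.DeformationRingData 𝒪 ρbar (fun _A _ _ _ ρ =>
          GaloisRep.flatCondition 𝒪 p (Smin ∪ Finset.univ.image qv) ρ ∧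
            ∀ q ∈ Smin, q.Prime → q ≠ p → ρ.IsUnipotentOnInertiaAt q),
        ∃ γ : MvPowerSeries (Fin r) 𝒪 →ₐ[𝒪] DQ.R, Function.Surjective γ) := by
  classical
  -- the residue field is an `F_p`-algebra
  have hpk : (p : ResidueField 𝒪) = 0 := by
    rw [← map_natCast (residue 𝒪), residue_eq_zero_iff]; exact hp𝒪
  haveI hchar : CharP (ResidueField 𝒪) p :=
    (CharP.charP_iff_prime_eq_zero Fact.out).2 hpk
  letI : Algebra (ZMod p) (ResidueField 𝒪) := ZMod.algebra _ p
  have hk2 := two_ne_res (𝒪 := 𝒪) (p := p) hp2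
  -- smoothness for some `S`
  have hGWex : ∀ {rb : Γ → M₂ (ResidueField 𝒪)} (hrb : RealizesRes ρbar rb),
      Nonempty (GWData p (adRep (p := p) (rHom hrb) 1)) := by
    intro rb hrb
    refine hGW _ ⟨Finset.subtype Nat.Prime Smin, smooth_adRep (ker_mem_sLevels _
      (factors_rHom hrb) fun q hq A hA σ hσ => ?_)⟩
    have hqp : (q : ℕ) ≠ p := fun h => hq (Finset.mem_subtype.2 (h ▸ hpSmin))
    have h1 : ρbar.IsUnramifiedAt (q : ℕ) := by
      by_contra h
      exact hq (Finset.mem_subtype.2 ((hmin q q.2 hqp).2 h))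
    exact (rho_eq_one_iff hrb σ).1 (h1 A hA σ hσ)
  constructor
  · -- ordinary case
    by_cases hord : ∃ rb, RealizesRes ρbar rb ∧ OrdMat p (padicPlace p) rb
    · obtain ⟨rb, hrb, hrbord⟩ := hord
      obtain ⟨G⟩ := hGWex hrb
      have hlev := factors_rHom hrb
      refine main_of_local hp2 hp𝒪 habs hdet hsplit hTW S Smin hpSmin hSmin hS hmin hrb G
        (fun A _ _ ρ => ρ.IsStrictOrdinaryAt p)
        (ordCls (p := p) (locRep (adRep (p := p) (rHom hrb) 1) (ExtCitation.pPrime p)))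
        ?_ (fun φ hφ ρ _ h => isStrictOrdinaryAt_baseChange φ hφ h)
        (fun Q DQ r T h l hP => resv_mem_ordCls h l hp2 hP hrbord)
      -- dimension bound
      have hker : (rHom hrb).ker ∈ sLevels (Finset.subtype Nat.Prime Smin) := by
        refine ker_mem_sLevels _ hlev fun q hq A hA σ hσ => ?_
        have hqp : (q : ℕ) ≠ p := fun h => hq (Finset.mem_subtype.2 (h ▸ hpSmin))
        have h1 : ρbar.IsUnramifiedAt (q : ℕ) := by
          by_contra h
          exact hq (Finset.mem_subtype.2 ((hmin q q.2 hqp).2 h))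
        exact (rho_eq_one_iff hrb σ).1 (h1 A hA σ hσ)
      have hs := smooth_adRep (p := p) hker
      have hmemD : ∀ τ : GalLoc p, localGaloisToGlobal p τ ∈
          (padicPlace p).decompositionSubgroup ℚ := fun τ => by
        rw [← range_localGaloisToGlobal]; exact ⟨τ, rfl⟩
      refine finrank_ordCls_le (p := p) (k := ResidueField 𝒪)
        (s := (rHom hrb).comp (localGaloisToGlobal p)) ?_ ?_ ?_ hp2
        (smooth_locRep hs (ExtCitation.pPrime p)) _ ?_
      · intro g m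
        have h1 := adRep_one_apply (p := p) (rHom hrb) (localGaloisToGlobal p g) m
        show ((adRep (p := p) (rHom hrb) 1 (localGaloisToGlobal p g) m : sl (ResidueField 𝒪)) :
          M₂ (ResidueField 𝒪)) * rHom hrb (localGaloisToGlobal p g) =
          rHom hrb (localGaloisToGlobal p g) * m
        rw [h1, mul_assoc, ← _root_.map_mul, inv_mul_cancel, _root_.map_one, mul_one]
      · intro g
        exact hrbord.dec _ (hmemD g)
      · intro g
        have h1 := hrbord.cyc _ (hmemD g) 1 ((locχ p g : ZMod p).val) (fun μ hμ => by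
          rw [pow_one] at hμ
          exact CycChar.apply_eq_pow_cycloChar p _ hμ)
        rw [pow_one, hpk, Ideal.span_singleton_eq_bot.2 rfl, Ideal.mem_bot, sub_eq_zero] at h1
        show rb (localGaloisToGlobal p g) 0 0 = (locχ p g : ZMod p) •
          rb (localGaloisToGlobal p g) 1 1
        rw [h1, Algebra.smul_def]
        congr 1
        rw [← map_natCast (algebraMap (ZMod p) (ResidueField 𝒪)), ZMod.natCast_zmod_val]
      · intro x
        constructor
        · intro h g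
          exact h _ ⟨g, rfl⟩
        · rintro h _ ⟨g, rfl⟩
          exact h g
    · -- no ordinary deformations
      refine ⟨0, fun n => ⟨Fin.elim0, fun i => i.elim0, fun i => i.elim0, fun i => i.elim0,
        fun DQ => ?_⟩⟩
      exact absurd (exists_ordMat_res DQ DQ.isOfType.1.2.1) hord
  · -- flat case
    obtain ⟨rb, hrb⟩ := exists_realizesRes ρbar
    obtain ⟨G⟩ := hGWex hrb
    obtain ⟨L, hLdim, hL⟩ := hFlat (rHom hrb) (factors_rHom hrb)
      (fun σ => det_eq_of_detIsCyclotomic (p := p) hdet hrb σ) (fun σ => by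
        obtain ⟨α, β, h⟩ := hsplit σ
        refine ⟨α, β, ?_⟩
        obtain ⟨b, hb⟩ := id hrb
        rw [rHom_apply, ← hb, LinearMap.charpoly_toMatrix, h])
    exact main_of_local hp2 hp𝒪 habs hdet hsplit hTW S Smin hpSmin hSmin hS hmin hrb G
      (fun A _ _ ρ => ρ.IsFlatAt p) L hLdim
      (fun φ hφ ρ hs h => isFlatAt_baseChange φ hφ hs h)
      (fun Q DQ r T h l hP => resv_mem_flat h l hP hL)

end Fermat.Agent.TW
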