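import Mathlib
import Fermat.Agent.TW.Cotangent

/-!
# Generators of a complete local algebra, some of them prescribed
-/

set_option autoImplicit false

namespace Fermat.Agent.TW

open IsLocalRing

section

variable {𝒪 R : Type*} [CommRing 𝒪] [IsLocalRing 𝒪] [CommRing R] [IsLocalRing R] [Algebra 𝒪 R]
  [IsLocalHom (algebraMap 𝒪 R)]

variable (𝒪) in
/-- relative tangent vectors killing given elements of the maximal ideal -/
noncomputable def tanKill {J : Type*} (y : J → maximalIdeal R) :
    Submodule (ResidueField R) (Module.Dual (ResidueField R) (CotangentSpace R)) :=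
  (baseSpan 𝒪 R ⊔ Submodule.span (ResidueField R)
    (Set.range fun j => (maximalIdeal R).toCotangent (y j))).dualAnnihilator

theorem mem_tanKill {J : Type*} {y : J → maximalIdeal R}
    {l : Module.Dual (ResidueField R) (CotangentSpace R)} :
    l ∈ tanKill 𝒪 y ↔ l ∈ relTangent 𝒪 R ∧ ∀ j, l ((maximalIdeal R).toCotangent (y j)) = 0 := by
  unfold tanKill relTangent
  rw [Submodule.dualAnnihilator_sup_eq, Submodule.mem_inf]
  refine and_congr Iff.rfl ?_
  rw [Submodule.mem_dualAnnihilator]
  constructor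
  · intro h j
    exact h _ (Submodule.subset_span ⟨j, rfl⟩)
  · intro h w hw
    induction hw using Submodule.span_induction with
    | mem x hx => obtain ⟨j, rfl⟩ := hx; exact h j
    | zero => exact map_zero _
    | add x y _ _ hx hy => rw [map_add, hx, hy, add_zero]
    | smul a x _ hx => rw [map_smul, hx, smul_zero]

/-- generators of the maximal ideal modulo the base, some of them prescribed -/
theorem exists_generators_of_finrank_le' [IsNoetherianRing R]
    {J : Type*} (y₀ : J → maximalIdeal R) {r : ℕ}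
    (h : Module.finrank (ResidueField R) (tanKill 𝒪 y₀) ≤ r) :
    ∃ x : Fin r → maximalIdeal R, maximalIdeal R ≤
      (maximalIdeal 𝒪).map (algebraMap 𝒪 R) ⊔
        Ideal.span (Set.range fun i : J ⊕ Fin r => ((Sum.elim y₀ x i : maximalIdeal R) : R)) := by
  classical
  let F := ResidueField R
  let U := baseSpan 𝒪 R ⊔ Submodule.span (ResidueField R)
    (Set.range fun j => (maximalIdeal R).toCotangent (y₀ j))
  have h1 : Module.finrank F (CotangentSpace R ⧸ U) ≤ r := by
    have e := Subspace.finrank_add_finrank_dualAnnihilator_eq U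
    have e2 := Submodule.finrank_quotient_add_finrank U
    have h' : Module.finrank (ResidueField R) U.dualAnnihilator ≤ r := h
    show Module.finrank (ResidueField R) (CotangentSpace R ⧸ U) ≤ r
    omega
  -- choose generators
  let b := Module.finBasis F (CotangentSpace R ⧸ U)
  have hlift : ∀ i, ∃ y : maximalIdeal R, U.mkQ ((maximalIdeal R).toCotangent y) = b i := by
    intro i
    obtain ⟨z, hz⟩ := Submodule.mkQ_surjective U (b i)
    obtain ⟨y, hy⟩ := Ideal.toCotangent_surjective _ z
    exact ⟨y, by rw [hy, hz]⟩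
  choose y hy using hlift
  let x : Fin r → maximalIdeal R := fun i =>
    if hi : (i : ℕ) < Module.finrank F (CotangentSpace R ⧸ U) then y ⟨i, hi⟩ else 0
  have hxy : ∀ j : Fin (Module.finrank F (CotangentSpace R ⧸ U)), ∃ i : Fin r, x i = y j := by
    intro j
    refine ⟨⟨j, lt_of_lt_of_le j.2 h1⟩, ?_⟩
    simp only [x]
    rw [dif_pos j.2]
  let w : J ⊕ Fin r → maximalIdeal R := Sum.elim y₀ x
  let s : Set (maximalIdeal R) := Set.range w ∪ Set.range (mapMax 𝒪 R)
  have hs : Submodule.span F ((maximalIdeal R).toCotangent '' s) = ⊤ := by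
    rw [eq_top_iff]
    intro z _
    have hU : U ≤ Submodule.span F ((maximalIdeal R).toCotangent '' s) := by
      refine sup_le (Submodule.span_mono ?_) (Submodule.span_mono ?_)
      · rintro _ ⟨o, rfl⟩
        exact ⟨mapMax 𝒪 R o, Or.inr ⟨o, rfl⟩, rfl⟩
      · rintro _ ⟨j, rfl⟩
        exact ⟨y₀ j, Or.inl ⟨Sum.inl j, rfl⟩, rfl⟩
    have hz := b.sum_repr (U.mkQ z)
    have hz2 : z - ∑ j, b.repr (U.mkQ z) j • (maximalIdeal R).toCotangent (y j) ∈ U := by
      have hz1 : U.mkQ (z - ∑ j, b.repr (U.mkQ z) j • (maximalIdeal R).toCotangent (y j)) = 0 := by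
        rw [map_sub, map_sum]
        simp only [map_smul, hy]
        rw [hz, sub_self]
      exact (Submodule.Quotient.mk_eq_zero U).1 hz1
    have hz3 := hU hz2
    have hz4 : ∑ j, b.repr (U.mkQ z) j • (maximalIdeal R).toCotangent (y j) ∈
        Submodule.span F ((maximalIdeal R).toCotangent '' s) := by
      refine Submodule.sum_mem _ fun j _ => Submodule.smul_mem _ _ (Submodule.subset_span ?_)
      obtain ⟨i, hi⟩ := hxy j
      exact ⟨x i, Or.inl ⟨Sum.inr i, rfl⟩, by rw [hi]⟩
    have := Submodule.add_mem _ hz3 hz4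
    simpa using this
  rw [CotangentSpace.span_image_eq_top_iff] at hs
  refine ⟨x, fun a ha => ?_⟩
  have ha1 : (⟨a, ha⟩ : maximalIdeal R) ∈ Submodule.span R s := by rw [hs]; trivial
  have hle : Submodule.map (maximalIdeal R).subtype (Submodule.span R s) ≤
      (maximalIdeal 𝒪).map (algebraMap 𝒪 R) ⊔
        Ideal.span (Set.range fun i => (w i : R)) := by
    rw [Submodule.map_span, Submodule.span_le]
    rintro _ ⟨w', (⟨i, rfl⟩ | ⟨o, rfl⟩), rfl⟩
    · apply Submodule.mem_sup_right
      exact Ideal.subset_span ⟨i, rfl⟩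
    · apply Submodule.mem_sup_left
      exact Ideal.mem_map_of_mem _ o.2
  exact hle ⟨_, ha1, rfl⟩

theorem exists_surjective_of_finrank_le' [IsNoetherianRing 𝒪] [IsNoetherianRing R]
    [IsAdicComplete (maximalIdeal 𝒪) 𝒪] [IsAdicComplete (maximalIdeal R) R]
    (hres : Function.Surjective (residue R ∘ algebraMap 𝒪 R))
    {J : Type*} [Finite J] (y₀ : J → maximalIdeal R) {r : ℕ}
    (h : Module.finrank (ResidueField R) (tanKill 𝒪 y₀) ≤ r) :
    ∃ γ : MvPowerSeries (J ⊕ Fin r) 𝒪 →ₐ[𝒪] R, Function.Surjective γ ∧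
      ∀ j, γ (MvPowerSeries.X (Sum.inl j)) = y₀ j := by
  obtain ⟨x, hx⟩ := exists_generators_of_finrank_le' y₀ h
  obtain ⟨γ, hγ, hγX⟩ := exists_surjective_of_generators' hres
    (fun i => ((Sum.elim y₀ x i : maximalIdeal R) : R))
    (fun i => (Sum.elim y₀ x i).2) (fun a ha => Submodule.mem_sup_left (hx ha))
  exact ⟨γ, hγ, fun j => hγX (Sum.inl j)⟩

end

end Fermat.Agent.TW
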