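import Mathlib
import Fermat.Agent.TW.Tame
import Fermat.Agent.CFT.Loc.ValueGroup
import Fermat.Agent.CFT.Loc.UnrGlob
import Fermat.Agent.CFT.Loc.LocLevels

/-!
# Homomorphisms from the Galois group of `ℚ_l` to an `F_p`-vector space, `p ≠ l`
-/

set_option autoImplicit false
set_option linter.style.haveILetI false

namespace Fermat.Agent.TW

open Fermat.Agent.CFT Fermat.Agent.CFT.Loc Fermat.Agent

variable {l : ℕ} [Fact l.Prime] {p : ℕ} [Fact p.Prime]

/-- the extension `ℚ_l(l^{1/p})` is ramified -/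
theorem exists_inertia_apply_ne {ϖ : PadicAlgCl l} (hϖ : ϖ ^ p = (l : PadicAlgCl l)) :
    ∃ σ ∈ inertiaLoc l, σ ϖ ≠ ϖ := by
  have hp : p.Prime := Fact.out
  have hl : l.Prime := Fact.out
  by_contra hcon
  push Not at hcon
  have hϖ0 : ϖ ≠ 0 := by
    rintro rfl
    rw [zero_pow hp.ne_zero] at hϖ
    have h1 := norm_natCast_l l
    rw [← hϖ, norm_zero] at h1
    have : (0 : ℝ) < (l : ℝ)⁻¹ := by
      have : (0 : ℝ) < l := by exact_mod_cast hl.pos
      positivity
    rw [← h1] at this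
    exact lt_irrefl _ this
  obtain ⟨w, hw, hwn⟩ := exists_norm_eq_of_inertia (K := ⊥) hϖ0 (fun g hg _ => hcon g hg)
  obtain ⟨x, rfl⟩ := IntermediateField.mem_bot.1 hw
  have h1 : ‖ϖ‖ ^ p = (l : ℝ)⁻¹ := by rw [← norm_pow, hϖ, norm_natCast_l]
  rw [← hwn] at h1
  have hx0 : x ≠ 0 := by
    rintro rfl
    rw [map_zero, norm_zero] at hwn
    exact hϖ0 (norm_eq_zero.1 hwn.symm)
  have h2 : ‖algebraMap ℚ_[l] (PadicAlgCl l) x‖ = ‖x‖ := norm_algebraMap' _ _
  rw [h2, Padic.norm_eq_zpow_neg_valuation hx0, ← zpow_natCast, ← zpow_mul] at h1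
  have h3 : (l : ℝ)⁻¹ = (l : ℝ) ^ (-1 : ℤ) := by rw [zpow_neg_one]
  rw [h3] at h1
  have hl1 : (1 : ℝ) < l := by exact_mod_cast hl.one_lt
  have h4 := (zpow_right_strictMono₀ hl1).injective h1
  have h5 : x.valuation * (p : ℤ) = 1 := by linarith
  have h6 := Int.eq_one_or_neg_one_of_mul_eq_one' h5
  have h7 := hp.two_le
  rcases h6 with h | h <;> omega

variable {M : Type*} [AddCommGroup M] [Module (ZMod p) M]

/-- A homomorphism to an `F_p`-vector space which kills a Frobenius element and an element of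
inertia moving `l^{1/p}` vanishes. -/
theorem hom_eq_zero_of_frob_tame (hlp : l ≠ p) {c : GalLoc l → M}
    (hcont : ∃ H ∈ locLevels l, ∀ s ∈ H, c s = 0) (hadd : ∀ g h, c (g * h) = c g + c h)
    {φ : GalLoc l} (hφ : IsFrobLoc l ⊥ φ) (hcφ : c φ = 0) {σ : GalLoc l}
    (hσ : σ ∈ inertiaLoc l) {ϖ : PadicAlgCl l} (hϖ : ϖ ^ p = (l : PadicAlgCl l))
    (hσϖ : σ ϖ ≠ ϖ) (hcσ : c σ = 0) (g : GalLoc l) : c g = 0 := by
  have hp : p.Prime := Fact.out
  have hl : l.Prime := Fact.out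
  have hc1 : c 1 = 0 := by
    have := hadd 1 1
    rw [mul_one] at this
    exact left_eq_add.1 this
  have hpow : ∀ (x : GalLoc l) (n : ℕ), c (x ^ n) = (n : ZMod p) • c x := by
    intro x n
    induction n with
    | zero => rw [pow_zero, hc1]; simp
    | succ n ih => rw [pow_succ, hadd, ih, Nat.cast_add, Nat.cast_one, add_smul, one_smul]
  have hinv : ∀ x : GalLoc l, c x⁻¹ = - c x := by
    intro x
    have := hadd x⁻¹ x
    rw [inv_mul_cancel, hc1] at this
    exact eq_neg_of_add_eq_zero_left this.symm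
  have hzpow : ∀ (x : GalLoc l) (j : ℤ), c (x ^ j) = (j : ZMod p) • c x := by
    intro x j
    obtain ⟨n, rfl | rfl⟩ := j.eq_nat_or_neg
    · rw [zpow_natCast, hpow]; push_cast; rfl
    · rw [zpow_neg, zpow_natCast, hinv, hpow]; push_cast; rw [neg_smul]
  have hlne : ∀ a : ℕ, ((l ^ a : ℕ) : ZMod p) ≠ 0 := by
    intro a h
    rw [ZMod.natCast_eq_zero_iff] at h
    exact hlp ((Nat.prime_dvd_prime_iff_eq hp hl).1 (hp.dvd_of_dvd_pow h)).symm
  obtain ⟨H, hH, hHc⟩ := hcont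
  obtain ⟨E, hE, hEH⟩ := (mem_locLevels_iff l).1 hH
  have hint : IsIntegral ℚ_[l] ϖ := (Algebra.IsAlgebraic.isAlgebraic ϖ).isIntegral
  haveI : FiniteDimensional ℚ_[l] (IntermediateField.adjoin ℚ_[l] {ϖ}) :=
    IntermediateField.adjoin.finiteDimensional hint
  let E' : IntermediateField ℚ_[l] (PadicAlgCl l) := E ⊔ IntermediateField.adjoin ℚ_[l] {ϖ}
  haveI : FiniteDimensional ℚ_[l] E' := IntermediateField.finiteDimensional_sup _ _
  have hϖE' : ϖ ∈ E' := (le_sup_right : IntermediateField.adjoin ℚ_[l] {ϖ} ≤ E')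
    (IntermediateField.mem_adjoin_simple_self _ ϖ)
  have hE'H : E'.fixingSubgroup ≤ H :=
    (IntermediateField.fixingSubgroup_antitone le_sup_left).trans hEH
  obtain ⟨τ, hτ, hgen⟩ := exists_tame_gen E'
  -- on inertia `c` is determined by `c τ`
  have hred : ∀ x ∈ inertiaLoc l, ∃ j : ℤ, c x = (j : ZMod p) • c τ ∧
      ∃ a : ℕ, (x * (τ ^ j)⁻¹) ^ (l ^ a) ∈ E'.fixingSubgroup := by
    intro x hx
    obtain ⟨j, a, hja⟩ := hgen x hx
    refine ⟨j, ?_, a, hja⟩
    have h1 := hHc _ (hE'H hja)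
    rw [hpow] at h1
    have h2 := (smul_eq_zero.1 h1).resolve_left (hlne a)
    rw [hadd, hinv, hzpow] at h2
    exact add_neg_eq_zero.1 h2
  have hcτ : c τ = 0 := by
    obtain ⟨j, hj, a, hja⟩ := hred σ hσ
    rw [hcσ] at hj
    rcases smul_eq_zero.1 hj.symm with h | h
    · exfalso
      apply hσϖ
      -- `p ∣ j` implies that `σ` fixes `ϖ`
      have hϖ0 : ϖ ≠ 0 := by
        rintro rfl
        exact hσϖ (map_zero σ)
      have hfixl : ∀ x : GalLoc l, (x ϖ / ϖ) ^ p = 1 := by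
        intro x
        rw [div_pow, ← map_pow, hϖ, map_natCast, div_self]
        rw [← hϖ]; exact pow_ne_zero _ hϖ0
      have hmu : ∀ x ∈ inertiaLoc l, ∀ z : PadicAlgCl l, z ^ p = 1 → x z = z := by
        intro x hx z hz
        have hz1 : ‖z‖ = 1 := by
          have h3 : ‖z‖ ^ p = 1 := by rw [← norm_pow, hz, norm_one]
          exact (pow_eq_one_iff_of_nonneg (norm_nonneg _) hp.ne_zero).1 h3
        exact apply_eq_of_mem_inertia (K := ⊥) hp hlp.symm (z := 1) (one_mem _)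
          (by rw [hz]; exact one_mem _) (by rw [hz1, norm_one]) hx
          (by rw [IntermediateField.fixingSubgroup_bot]; trivial)
      have hκ : ∀ x ∈ inertiaLoc l, ∀ y ∈ inertiaLoc l, (x * y) ϖ / ϖ = (x ϖ / ϖ) * (y ϖ / ϖ) := by
        intro x hx y hy
        have h3 : x (y ϖ / ϖ) = y ϖ / ϖ := hmu x hx _ (hfixl y)
        have h4 : y ϖ = (y ϖ / ϖ) * ϖ := (div_mul_cancel₀ _ hϖ0).symm
        show x (y ϖ) / ϖ = _
        conv_lhs => rw [h4]
        rw [map_mul, h3]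
        field_simp
      have hκpow : ∀ x ∈ inertiaLoc l, ∀ n : ℕ, (x ^ n) ϖ / ϖ = (x ϖ / ϖ) ^ n := by
        intro x hx n
        induction n with
        | zero =>
          rw [pow_zero, pow_zero]
          exact div_self hϖ0
        | succ n ih => rw [pow_succ, hκ _ (pow_mem hx n) _ hx, ih, pow_succ]
      set w := σ * (τ ^ j)⁻¹ with hw
      have hwI : w ∈ inertiaLoc l := mul_mem hσ (inv_mem (zpow_mem hτ j))
      have hw1 : w ϖ = ϖ := by
        have h3 := hκpow w hwI (l ^ a)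
        have h4 : (w ^ l ^ a) ϖ = ϖ := (IntermediateField.mem_fixingSubgroup_iff _ _).1 hja ϖ hϖE'
        rw [h4, div_self hϖ0] at h3
        have h5 : (w ϖ / ϖ) ^ (Nat.gcd p (l ^ a)) = 1 := by
          exact pow_gcd_eq_one.2 ⟨hfixl w, h3.symm⟩
        have h6 : Nat.Coprime p (l ^ a) :=
          Nat.Coprime.pow_right a ((Nat.coprime_primes hp hl).2 hlp.symm)
        rw [h6, pow_one, div_eq_one_iff_eq hϖ0] at h5
        exact h5
      have hτj : (τ ^ j) ϖ = ϖ := by
        have h3 : (j : ZMod p) = 0 := h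
        rw [ZMod.intCast_zmod_eq_zero_iff_dvd] at h3
        obtain ⟨m, rfl⟩ := h3
        rw [mul_comm, zpow_mul, zpow_natCast]
        have h4 := hκpow (τ ^ m) (zpow_mem hτ m) p
        rw [hfixl, div_eq_one_iff_eq hϖ0] at h4
        exact h4
      have : σ = w * τ ^ j := by rw [hw]; group
      rw [this]
      show w ((τ ^ j) ϖ) = ϖ
      rw [hτj, hw1]
    · exact h
  have hI : ∀ x ∈ inertiaLoc l, c x = 0 := by
    intro x hx
    obtain ⟨j, hj, -⟩ := hred x hx
    rw [hj, hcτ, smul_zero]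
  obtain ⟨i, h, hh, t, ht, -, rfl⟩ := hφ.exists_eq_mul E' bot_le (g := g)
      (by rw [IntermediateField.fixingSubgroup_bot]; trivial)
  rw [hadd, hadd, hI t ht, hHc _ (hE'H hh), hpow, hcφ, smul_zero, add_zero, add_zero]

end Fermat.Agent.TW
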