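import Mathlib
import Fermat.Agent.TW.Main
import Fermat.Agent.TW.CotangentT
import Fermat.Agent.TW.TameHom

/-!
# Taylor-Wiles primes with an extra set `T` of primes where `ρbar` is scalar

The universal ring (no condition at `T`) is generated by elements describing `ρ` at `T` and by
`#Q - 3 #T` further elements.
-/

set_option autoImplicit false
set_option linter.style.haveILetI false
set_option linter.unusedSectionVars false
set_option synthInstance.maxHeartbeats 400000
set_option maxHeartbeats 1000000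

namespace Fermat.Agent.TW

open Matrix IsLocalRing Module Fermat.Agent.DefRing Fermat.Agent Fermat.Agent.CFT Fermat.Agent.CFT.Loc

local notation "M₂" => Matrix (Fin 2) (Fin 2)

/-- The deformation condition attached to a local condition `P` at `p`, unipotent at `Smin`, no
condition at `T ∪ Q`. -/
def CondTypeT (𝒪 : Type) [CommRing 𝒪] (p : ℕ) (Smin T : Finset ℕ) (P : LCond) (Q : Finset ℕ) :
    ∀ ⦃A : Type⦄ [CommRing A] [IsLocalRing A] [Algebra 𝒪 A], GaloisRepAdic A → Prop :=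
  fun _A _ _ _ ρ => (ρ.DetIsCyclotomic p ∧ P ρ ∧
    ∀ q : ℕ, q.Prime → q ∉ Smin ∪ T ∪ Q → ρ.IsUnramifiedAt q) ∧
    ∀ q ∈ Smin, q.Prime → q ≠ p → ρ.IsUnipotentOnInertiaAt q

section Loc

variable {p : ℕ} [Fact p.Prime] {k : Type} [Field k] [Finite k] [Algebra (ZMod p) k]
variable {r : Γ →* M₂ k}

/-- the local conditions, zero at `T` -/
noncomputable def locCondT [DecidableEq Nat.Primes] (S T : Finset Nat.Primes)
    (Lp : Submodule (ZMod p) (H1loc (adRep (p := p) r 1) (ExtCitation.pPrime p))) :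
    ∀ v : Nat.Primes, Submodule (ZMod p) (H1loc (adRep (p := p) r 1) v) :=
  Function.update (fun v => if v ∈ S then urCls (locRep (adRep (p := p) r 1) v) else
    if v ∈ T then ⊥ else ⊤) (ExtCitation.pPrime p) Lp

theorem locCondT_p [DecidableEq Nat.Primes] (S T : Finset Nat.Primes)
    (Lp : Submodule (ZMod p) (H1loc (adRep (p := p) r 1) (ExtCitation.pPrime p))) :
    locCondT S T Lp (ExtCitation.pPrime p) = Lp := Function.update_self _ _ _

theorem locCondT_ne [DecidableEq Nat.Primes] (S T : Finset Nat.Primes)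
    (Lp : Submodule (ZMod p) (H1loc (adRep (p := p) r 1) (ExtCitation.pPrime p)))
    {v : Nat.Primes} (hv : v ≠ ExtCitation.pPrime p) :
    locCondT S T Lp v = if v ∈ S then urCls (locRep (adRep (p := p) r 1) v) else
      if v ∈ T then ⊥ else ⊤ :=
  Function.update_of_ne hv _ _

theorem three_mul_le_finrank_sl : 3 * finrank (ZMod p) k ≤ finrank (ZMod p) (sl k) := by
  haveI : FiniteDimensional (ZMod p) k := Module.finite_iff_finite.2 inferInstance
  let E : (k × k × k) →ₗ[ZMod p] sl k :=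
    { toFun := fun x => ⟨!![x.1, x.2.1; x.2.2, -x.1], by rw [mem_sl]; simp [trace_fin_two]⟩
      map_add' := fun x y => by
        apply Subtype.ext
        show !![(x + y).1, (x + y).2.1; (x + y).2.2, -(x + y).1] =
          !![x.1, x.2.1; x.2.2, -x.1] + !![y.1, y.2.1; y.2.2, -y.1]
        ext i j
        fin_cases i <;> fin_cases j <;> simp [add_comm]
      map_smul' := fun c x => by
        apply Subtype.ext
        show !![(c • x).1, (c • x).2.1; (c • x).2.2, -(c • x).1] =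
          c • !![x.1, x.2.1; x.2.2, -x.1]
        ext i j
        fin_cases i <;> fin_cases j <;> simp }
  have hE : Function.Injective E := by
    intro x y hxy
    have h1 : (!![x.1, x.2.1; x.2.2, -x.1] : M₂ k) = !![y.1, y.2.1; y.2.2, -y.1] :=
      congrArg Subtype.val hxy
    have h00 := congrFun (congrFun h1 0) 0
    have h01 := congrFun (congrFun h1 0) 1
    have h10 := congrFun (congrFun h1 1) 0
    simp at h00 h01 h10
    exact Prod.ext h00 (Prod.ext h01 h10)
  have := LinearMap.finrank_le_finrank_of_injective hE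
  rw [Module.finrank_prod, Module.finrank_prod] at this
  omega

theorem h0loc_of_scalar {v : Nat.Primes}
    (hsc : ∀ τ : GalLoc (v : ℕ), ∃ c : k, r (localGaloisToGlobal v τ) = c • (1 : M₂ k)) :
    3 * finrank (ZMod p) k ≤ h0loc (adRep (p := p) r 1) v := by
  have h1 : invOn (adRep (p := p) r 1) (Set.range (localGaloisToGlobal (v : ℕ))) = ⊤ := by
    rw [eq_top_iff]
    rintro m - _ ⟨τ, rfl⟩
    apply Subtype.ext
    rw [adRep_one_apply]
    obtain ⟨c, hc⟩ := hsc τ
    have h2 : r (localGaloisToGlobal (v : ℕ) τ) * r (localGaloisToGlobal (v : ℕ) τ)⁻¹ = 1 := by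
      rw [← map_mul, mul_inv_cancel, map_one]
    calc r (localGaloisToGlobal (v : ℕ) τ) * (m : M₂ k) * r (localGaloisToGlobal (v : ℕ) τ)⁻¹
        = m * (r (localGaloisToGlobal (v : ℕ) τ) * r (localGaloisToGlobal (v : ℕ) τ)⁻¹) := by
          rw [hc, smul_mul_assoc, one_mul, smul_mul_assoc, smul_mul_assoc, one_mul,
            mul_smul_comm]
      _ = m := by rw [h2, mul_one]
  rw [h0loc, h1, finrank_top]
  exact three_mul_le_finrank_sl

theorem sum_locCondT_le [DecidableEq Nat.Primes] {S T : Finset Nat.Primes}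
    (hpS : ExtCitation.pPrime p ∈ S) (hST : Disjoint S T)
    (hs : Smooth (sLevels S) (adRep (p := p) r 1))
    (hsc : ∀ v ∈ T, ∀ τ : GalLoc (v : ℕ), ∃ c : k,
      r (localGaloisToGlobal v τ) = c • (1 : M₂ k))
    {Lp : Submodule (ZMod p) (H1loc (adRep (p := p) r 1) (ExtCitation.pPrime p))}
    (hLp : finrank (ZMod p) Lp ≤ h0loc (adRep (p := p) r 1) (ExtCitation.pPrime p) +
      finrank (ZMod p) k) :
    ∑ v ∈ S ∪ T, finrank (ZMod p) (locCondT S T Lp v) + 3 * T.card * finrank (ZMod p) k ≤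
      ∑ v ∈ S ∪ T, h0loc (adRep (p := p) r 1) v + finrank (ZMod p) k := by
  rw [Finset.sum_union hST, Finset.sum_union hST, ← Finset.add_sum_erase S _ hpS,
    ← Finset.add_sum_erase S _ hpS, locCondT_p]
  have h1 : ∑ v ∈ S.erase (ExtCitation.pPrime p), finrank (ZMod p) (locCondT S T Lp v) ≤
      ∑ v ∈ S.erase (ExtCitation.pPrime p), h0loc (adRep (p := p) r 1) v := by
    refine Finset.sum_le_sum fun v hv => ?_
    rw [locCondT_ne S T Lp (Finset.ne_of_mem_erase hv), if_pos (Finset.mem_of_mem_erase hv)]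
    exact finrank_urCls_locRep_le hs v
  have h2 : ∑ v ∈ T, finrank (ZMod p) (locCondT S T Lp v) = 0 := by
    refine Finset.sum_eq_zero fun v hv => ?_
    have hvp : v ≠ ExtCitation.pPrime p := by
      rintro rfl
      exact (Finset.disjoint_left.1 hST) hpS hv
    rw [locCondT_ne S T Lp hvp, if_neg (fun h => (Finset.disjoint_left.1 hST) h hv), if_pos hv,
      finrank_bot]
  have h3 : 3 * T.card * finrank (ZMod p) k ≤ ∑ v ∈ T, h0loc (adRep (p := p) r 1) v := by
    calc 3 * T.card * finrank (ZMod p) k = ∑ _v ∈ T, 3 * finrank (ZMod p) k := by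
          rw [Finset.sum_const, smul_eq_mul]; ring
      _ ≤ _ := Finset.sum_le_sum fun v hv => h0loc_of_scalar (hsc v hv)
  omega

end Loc

section Tan

variable {p : ℕ} [Fact p.Prime]
variable {𝒪 : Type} [CommRing 𝒪] [IsDomain 𝒪] [IsDiscreteValuationRing 𝒪]
  [IsAdicComplete (maximalIdeal 𝒪) 𝒪] [Finite (ResidueField 𝒪)] [Algebra (ZMod p) (ResidueField 𝒪)]
  {ρbar : ResidualGaloisRep (ResidueField 𝒪)}
  {𝒟 : ∀ ⦃A : Type⦄ [CommRing A] [IsLocalRing A] [Algebra 𝒪 A], GaloisRepAdic A → Prop}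
  {DQ : GaloisRep.DeformationRingData 𝒪 ρbar 𝒟}
  {rb : Γ →* M₂ (ResidueField 𝒪)} {r r' : Γ → M₂ DQ.R}
  {l : Module.Dual (ResidueField DQ.R) (CotangentSpace DQ.R)}

theorem finrank_tanKill_le {S : Finset Nat.Primes} (h : TanHyp (p := p) DQ rb r S)
    (h𝒟 : ∀ (φ : DQ.R →ₐ[𝒪] DualNumber (ResidueField DQ.R))
      (hφ : IsLocalHom (φ : DQ.R →+* DualNumber (ResidueField DQ.R))), Function.Surjective φ →
      𝒟 (DQ.ρ.baseChangeAlong (φ : DQ.R →+* DualNumber (ResidueField DQ.R)) hφ))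
    {L : ∀ v : Nat.Primes, Submodule (ZMod p) (H1loc (adRep (p := p) rb 1) v)}
    {J : Type*} (y : J → maximalIdeal DQ.R)
    (hL : ∀ l : relTangent 𝒪 DQ.R, (l : Module.Dual (ResidueField DQ.R) (CotangentSpace DQ.R)) ∈
      tanKill 𝒪 y → ∀ v ∈ S, resv S (adRep (p := p) rb 1) v (h.cls l) ∈ L v)
    (hfin : Module.Finite (ZMod p) (H1 (sLevels S) (adRep (p := p) rb 1))) {R : ℕ}
    (hR : Module.finrank (ZMod p) (Sel S (adRep (p := p) rb 1) L) ≤
      R * Module.finrank (ZMod p) (ResidueField 𝒪)) :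
    Module.finrank (ResidueField DQ.R) (tanKill 𝒪 y) ≤ R := by
  haveI : Finite (ResidueField DQ.R) := Finite.of_equiv _ (iota DQ).toEquiv
  exact finrank_le_of_injective_card (p := p) (Sel S (adRep (p := p) rb 1) L)
    (iota DQ).toEquiv hR (fun l : tanKill 𝒪 y => h.cls ⟨l, (mem_tanKill.1 l.2).1⟩)
    (fun a b hab => by
      have h1 := h.cls_injective h𝒟 hab
      exact Subtype.ext (congrArg (fun z : relTangent 𝒪 DQ.R =>
        (z : Module.Dual (ResidueField DQ.R) (CotangentSpace DQ.R))) h1))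
    (fun l => mem_Sel.2 (hL _ l.2))

/-- vanishing of the cocycle on a group where the residual representation is scalar does not
depend on the realisation -/
theorem kcoc_eq_zero_of_tcoc (hr : NormReal DQ rb r) (hr' : Realizes DQ.ρ r')
    (hl : l ∈ relTangent 𝒪 DQ.R) {σ : Γ} (hsc : ∃ c : ResidueField 𝒪, rb σ = c • 1)
    (h : tcoc DQ r' l σ = 0) : kcoc DQ r l σ = 0 := by
  obtain ⟨X, X', Z, hXX', hX'X, hconj, hcoc⟩ := tcoc_compare hr.real hr' hl
  obtain ⟨c, hc⟩ := hsc
  have h1 : (r σ).map (residue DQ.R) = (iota DQ c) • (1 : M₂ (ResidueField DQ.R)) := by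
    rw [hr.red, hc]
    ext i j
    rw [Matrix.map_apply, Matrix.smul_apply, Matrix.smul_apply, smul_eq_mul, smul_eq_mul,
      _root_.map_mul, Matrix.one_apply, Matrix.one_apply]
    split_ifs <;> simp
  have h2 : (r σ).map (residue DQ.R) * (r σ⁻¹).map (residue DQ.R) = 1 := by
    rw [← Matrix.map_mul, ← hr.real.map_mul, mul_inv_cancel, hr.real.map_one]
    exact Matrix.map_one _ (map_zero _) (_root_.map_one _)
  have h3 : (r σ).map (residue DQ.R) * Z * (r σ⁻¹).map (residue DQ.R) = Z := by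
    calc (r σ).map (residue DQ.R) * Z * (r σ⁻¹).map (residue DQ.R)
        = Z * ((r σ).map (residue DQ.R) * (r σ⁻¹).map (residue DQ.R)) := by
          rw [h1, smul_mul_assoc, one_mul, smul_mul_assoc, smul_mul_assoc, one_mul,
            mul_smul_comm]
      _ = Z := by rw [h2, mul_one]
  have h4 : tcoc DQ r l σ = 0 := by
    rw [hcoc σ, h, h3]; simp
  unfold kcoc
  rw [h4]
  ext i j
  simp

/-- If `der` kills the traceless part of `r' φ` and the residual matrix is scalar then the cocycle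
vanishes at `φ`. -/
theorem tcoc_eq_zero_of_traceless (hr' : Realizes DQ.ρ r') (hp2 : p ≠ 2)
    (hp𝒪 : (p : 𝒪) ∈ maximalIdeal 𝒪) (hdet : DQ.ρ.DetIsCyclotomic p)
    (hl : l ∈ relTangent 𝒪 DQ.R) {rb : Γ →* M₂ (ResidueField 𝒪)} (hr : NormReal DQ rb r)
    (hrb : ∀ σ, (rb σ).det ≠ 0) {φ : Γ} (hsc : ∃ c : ResidueField 𝒪, rb φ = c • 1)
    (h0 : der DQ.residue_surjective l (r' φ 0 0) = der DQ.residue_surjective l (r' φ 1 1))
    (h01 : der DQ.residue_surjective l (r' φ 0 1) = 0)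
    (h10 : der DQ.residue_surjective l (r' φ 1 0) = 0) : tcoc DQ r' l φ = 0 := by
  obtain ⟨X, X', Z, hXX', hX'X, hconj, hcoc⟩ := tcoc_compare hr.real hr' hl
  obtain ⟨c, hc⟩ := hsc
  -- `r' φ` is residually scalar
  have h1 : (r φ).map (residue DQ.R) = (iota DQ c) • (1 : M₂ (ResidueField DQ.R)) := by
    rw [hr.red, hc]
    ext i j
    rw [Matrix.map_apply, Matrix.smul_apply, Matrix.smul_apply, smul_eq_mul, smul_eq_mul,
      _root_.map_mul, Matrix.one_apply, Matrix.one_apply]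
    split_ifs <;> simp
  have h2 : (r' φ).map (residue DQ.R) = (iota DQ c) • (1 : M₂ (ResidueField DQ.R)) := by
    have h3 := hconj φ
    rw [h1, smul_mul_assoc, one_mul] at h3
    calc (r' φ).map (residue DQ.R) = X' * (X * (r' φ).map (residue DQ.R)) := by
          rw [← mul_assoc, hX'X, one_mul]
      _ = _ := by rw [h3, mul_smul_comm, hX'X]
  have hc0 : iota DQ c ≠ 0 := by
    intro h
    have h3 : (rb φ).det = 0 := by
      have h4 : c = 0 := (map_eq_zero (iota DQ)).1 h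
      rw [hc, h4, zero_smul, det_fin_two]; simp
    exact hrb φ h3
  -- trace of tcoc
  have htr : (tcoc DQ r' l φ).trace = 0 := by
    have h3 := trace_tcoc (DQ := DQ) (r := r) φ (kcoc_trace hp𝒪 hdet hr hl hrb φ)
    rw [hcoc φ, Matrix.trace_add, Matrix.trace_sub] at h3
    have h4 : ((r φ).map (residue DQ.R) * Z * (r φ⁻¹).map (residue DQ.R)).trace = Z.trace := by
      rw [Matrix.trace_mul_comm, ← mul_assoc, ← Matrix.map_mul, ← hr.real.map_mul,
        inv_mul_cancel, hr.real.map_one, Matrix.map_one _ (map_zero _) (_root_.map_one _), one_mul]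
    have h5 : (X * tcoc DQ r' l φ * X').trace = (tcoc DQ r' l φ).trace := by
      rw [Matrix.trace_mul_comm, ← mul_assoc, hX'X, one_mul]
    rw [h4, sub_self, zero_add, h5] at h3
    exact h3
  have h6 : tcoc DQ r' l φ * (r' φ).map (residue DQ.R) =
      (r' φ).map (der DQ.residue_surjective l) := tcoc_mul_self hr' φ
  rw [h2, mul_smul_comm, mul_one] at h6
  have e : ∀ i j, iota DQ c * tcoc DQ r' l φ i j = der DQ.residue_surjective l (r' φ i j) :=
    fun i j => congrFun (congrFun h6 i) j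
  have e01 : tcoc DQ r' l φ 0 1 = 0 := by
    have := e 0 1
    rw [h01] at this
    exact (mul_eq_zero.1 this).resolve_left hc0
  have e10 : tcoc DQ r' l φ 1 0 = 0 := by
    have := e 1 0
    rw [h10] at this
    exact (mul_eq_zero.1 this).resolve_left hc0
  have e0 : tcoc DQ r' l φ 0 0 = tcoc DQ r' l φ 1 1 := by
    have h7 := e 0 0
    rw [h0, ← e 1 1] at h7
    exact mul_left_cancel₀ hc0 h7
  haveI : CharP (ResidueField 𝒪) p := charP_res (𝒪 := 𝒪) p
  have hk2 : (2 : ResidueField DQ.R) ≠ 0 := by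
    have h8 := two_ne_res (𝒪 := 𝒪) (p := p) hp2
    rw [← map_ofNat (iota DQ) 2]
    exact (map_ne_zero (iota DQ)).2 h8
  have e11 : tcoc DQ r' l φ 1 1 = 0 := by
    rw [trace_fin_two, e0, ← two_mul] at htr
    exact (mul_eq_zero.1 htr).resolve_left hk2
  ext i j
  fin_cases i <;> fin_cases j
  · show tcoc DQ r' l φ 0 0 = 0
    rw [e0, e11]
  · exact e01
  · exact e10
  · exact e11

/-- The cocycle vanishes on the decomposition group at `v` if it vanishes at a Frobenius element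
and at a tame generator. -/
theorem tcoc_eq_zero_on_decomp (hr' : Realizes DQ.ρ r') (hl : l ∈ relTangent 𝒪 DQ.R)
    (hr : NormReal DQ rb r) {v : Nat.Primes} (hvp : (v : ℕ) ≠ p)
    (hsc : ∀ τ : GalLoc (v : ℕ), ∃ c : ResidueField 𝒪,
      rb (localGaloisToGlobal v τ) = c • (1 : M₂ (ResidueField 𝒪)))
    {φ : GalLoc (v : ℕ)} (hφ : IsFrobLoc (v : ℕ) ⊥ φ)
    (hcφ : tcoc DQ r' l (localGaloisToGlobal v φ) = 0) {σ : GalLoc (v : ℕ)}
    (hσ : σ ∈ inertiaLoc (v : ℕ)) {ϖ : PadicAlgCl (v : ℕ)}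
    (hϖ : ϖ ^ p = ((v : ℕ) : PadicAlgCl (v : ℕ))) (hσϖ : σ ϖ ≠ ϖ)
    (hcσ : tcoc DQ r' l (localGaloisToGlobal v σ) = 0) (τ : GalLoc (v : ℕ)) :
    kcoc DQ r l (localGaloisToGlobal v τ) = 0 := by
  have h1 := kcoc_eq_zero_of_tcoc hr hr' hl (hsc φ) hcφ
  have h2 := kcoc_eq_zero_of_tcoc hr hr' hl (hsc σ) hcσ
  refine hom_eq_zero_of_frob_tame (p := p) (l := (v : ℕ)) hvp
    (c := fun g => kcoc DQ r l (localGaloisToGlobal v g)) ?_ ?_ hφ h1 hσ hϖ hσϖ h2 τ
  · obtain ⟨H, hH, hH'⟩ := exists_level_kcoc hr hl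
    exact ⟨_, Levels.cont_comap (𝓛 := galLevels ℚ (AlgebraicClosure ℚ)) _ _ hH,
      fun s hs => hH' _ hs⟩
  · intro g h
    show kcoc DQ r l (localGaloisToGlobal v (g * h)) = _
    obtain ⟨c, hc⟩ := hsc g
    have h3 : rb (localGaloisToGlobal v g) * rb (localGaloisToGlobal v g)⁻¹ = 1 := by
      rw [← _root_.map_mul, mul_inv_cancel, _root_.map_one]
    rw [_root_.map_mul, kcoc_mul hr hl]
    congr 1
    calc rb (localGaloisToGlobal v g) * kcoc DQ r l (localGaloisToGlobal v h) *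
          rb (localGaloisToGlobal v g)⁻¹
        = kcoc DQ r l (localGaloisToGlobal v h) * (rb (localGaloisToGlobal v g) *
            rb (localGaloisToGlobal v g)⁻¹) := by
          rw [hc, smul_mul_assoc, one_mul, smul_mul_assoc, smul_mul_assoc, one_mul,
            mul_smul_comm]
      _ = _ := by rw [h3, mul_one]

end Tan

/-- The conclusion of the Taylor-Wiles primes theorem with auxiliary set `T`, in terms of the
dimension of the space of relative tangent vectors killing given elements of the maximal ideal.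
General form: for a deformation `DQ.ρ` which satisfies the local conditions. -/
def TanConclusionG {𝒪 : Type} [CommRing 𝒪] [IsDomain 𝒪] [IsDiscreteValuationRing 𝒪]
    [IsAdicComplete (maximalIdeal 𝒪) 𝒪] [Finite (ResidueField 𝒪)]
    (p : ℕ) (ρbar : ResidualGaloisRep (ResidueField 𝒪))
    (Smin T : Finset ℕ) (P : LCond) : Prop :=
  ∃ R : ℕ, 3 * T.card ≤ R ∧ ∀ (S : Finset ℕ) (n : ℕ), ∃ qv : Fin R → ℕ, Function.Injective qv ∧
      (∀ i, (qv i).Prime ∧ qv i ∉ S ∧ p ^ (n + 1) ∣ qv i - 1) ∧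
      (∀ i, ∀ P : ValuationSubring (AlgebraicClosure ℚ), P.LiesOverPrime (qv i) →
        ∀ φ : AlgebraicClosure ℚ ≃ₐ[ℚ] AlgebraicClosure ℚ, P.IsFrobeniusAt φ (qv i) →
          ∃ α β : ResidueField 𝒪, α ≠ β ∧ LinearMap.charpoly (ρbar.ρ φ) =
            (Polynomial.X - Polynomial.C α) * (Polynomial.X - Polynomial.C β)) ∧
      ∀ (𝒟 : ∀ ⦃A : Type⦄ [CommRing A] [IsLocalRing A] [Algebra 𝒪 A], GaloisRepAdic A → Prop)
        (DQ : GaloisRep.DeformationRingData 𝒪 ρbar 𝒟),
        (∀ (φ : DQ.R →ₐ[𝒪] DualNumber (ResidueField DQ.R))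
          (hφ : IsLocalHom (φ : DQ.R →+* DualNumber (ResidueField DQ.R))), Function.Surjective φ →
          𝒟 (DQ.ρ.baseChangeAlong (φ : DQ.R →+* DualNumber (ResidueField DQ.R)) hφ)) →
        CondTypeT 𝒪 p Smin T P (Finset.univ.image qv) DQ.ρ →
        ∀ (J : Type) (y : J → maximalIdeal DQ.R) (r' : Γ → M₂ DQ.R),
          Realizes DQ.ρ r' →
          (∀ l ∈ tanKill 𝒪 y, ∀ v : Nat.Primes, (v : ℕ) ∈ T →
            ∃ (φ σ : GalLoc (v : ℕ)) (ϖ : PadicAlgCl (v : ℕ)), IsFrobLoc (v : ℕ) ⊥ φ ∧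
              σ ∈ inertiaLoc (v : ℕ) ∧ ϖ ^ p = ((v : ℕ) : PadicAlgCl (v : ℕ)) ∧ σ ϖ ≠ ϖ ∧
              ∀ τ ∈ ({φ, σ} : Set (GalLoc (v : ℕ))),
                der DQ.residue_surjective l (r' (localGaloisToGlobal v τ) 0 0) =
                  der DQ.residue_surjective l (r' (localGaloisToGlobal v τ) 1 1) ∧
                der DQ.residue_surjective l (r' (localGaloisToGlobal v τ) 0 1) = 0 ∧
                der DQ.residue_surjective l (r' (localGaloisToGlobal v τ) 1 0) = 0) →
          Module.finrank (ResidueField DQ.R) (tanKill 𝒪 y) ≤ R - 3 * T.card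

/-- The conclusion of the Taylor-Wiles primes theorem with auxiliary set `T`, in terms of the
dimension of the space of relative tangent vectors killing given elements of the maximal ideal. -/
def TanConclusionT {𝒪 : Type} [CommRing 𝒪] [IsDomain 𝒪] [IsDiscreteValuationRing 𝒪]
    [IsAdicComplete (maximalIdeal 𝒪) 𝒪] [Finite (ResidueField 𝒪)]
    (p : ℕ) (ρbar : ResidualGaloisRep (ResidueField 𝒪))
    (S Smin T : Finset ℕ) (P : LCond) : Prop :=
  ∃ R : ℕ, 3 * T.card ≤ R ∧ ∀ n : ℕ, ∃ qv : Fin R → ℕ, Function.Injective qv ∧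
      (∀ i, (qv i).Prime ∧ qv i ∉ S ∧ p ^ (n + 1) ∣ qv i - 1) ∧
      (∀ i, ∀ P : ValuationSubring (AlgebraicClosure ℚ), P.LiesOverPrime (qv i) →
        ∀ φ : AlgebraicClosure ℚ ≃ₐ[ℚ] AlgebraicClosure ℚ, P.IsFrobeniusAt φ (qv i) →
          ∃ α β : ResidueField 𝒪, α ≠ β ∧ LinearMap.charpoly (ρbar.ρ φ) =
            (Polynomial.X - Polynomial.C α) * (Polynomial.X - Polynomial.C β)) ∧
      ∀ DQ : GaloisRep.DeformationRingData 𝒪 ρbar
          (CondTypeT 𝒪 p Smin T P (Finset.univ.image qv)),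
        ∀ (J : Type) (y : J → maximalIdeal DQ.R) (r' : Γ → M₂ DQ.R),
          Realizes DQ.ρ r' →
          (∀ l ∈ tanKill 𝒪 y, ∀ v : Nat.Primes, (v : ℕ) ∈ T →
            ∃ (φ σ : GalLoc (v : ℕ)) (ϖ : PadicAlgCl (v : ℕ)), IsFrobLoc (v : ℕ) ⊥ φ ∧
              σ ∈ inertiaLoc (v : ℕ) ∧ ϖ ^ p = ((v : ℕ) : PadicAlgCl (v : ℕ)) ∧ σ ϖ ≠ ϖ ∧
              ∀ τ ∈ ({φ, σ} : Set (GalLoc (v : ℕ))),
                der DQ.residue_surjective l (r' (localGaloisToGlobal v τ) 0 0) =
                  der DQ.residue_surjective l (r' (localGaloisToGlobal v τ) 1 1) ∧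
                der DQ.residue_surjective l (r' (localGaloisToGlobal v τ) 0 1) = 0 ∧
                der DQ.residue_surjective l (r' (localGaloisToGlobal v τ) 1 0) = 0) →
          Module.finrank (ResidueField DQ.R) (tanKill 𝒪 y) ≤ R - 3 * T.card

section

variable {p : ℕ} [Fact p.Prime]
variable {𝒪 : Type} [CommRing 𝒪] [IsDomain 𝒪] [IsDiscreteValuationRing 𝒪]
  [IsAdicComplete (maximalIdeal 𝒪) 𝒪] [Finite (ResidueField 𝒪)] [Algebra (ZMod p) (ResidueField 𝒪)]
  {ρbar : ResidualGaloisRep (ResidueField 𝒪)}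

theorem main_of_local_G (hp2 : p ≠ 2) (hp𝒪 : (p : 𝒪) ∈ maximalIdeal 𝒪)
    (habs : ρbar.IsAbsolutelyIrreducible)
    (hdet : (GaloisRepAdic.ofResidualGaloisRep ρbar).DetIsCyclotomic p)
    (hsplit : ∀ σ : AlgebraicClosure ℚ ≃ₐ[ℚ] AlgebraicClosure ℚ,
      ∃ α β : ResidueField 𝒪, LinearMap.charpoly (ρbar.ρ σ) =
        (Polynomial.X - Polynomial.C α) * (Polynomial.X - Polynomial.C β))
    (hTW : ∀ (K : Type) [Field K] [Algebra (ResidueField 𝒪) K]
      (G : Subgroup (AlgebraicClosure ℚ ≃ₐ[ℚ] AlgebraicClosure ℚ)), G.index = 2 →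
      ∀ V : Submodule K (ρbar.baseChange K).V,
        (∀ σ ∈ G, ∀ x ∈ V, (ρbar.baseChange K).ρ σ x ∈ V) → V = ⊥ ∨ V = ⊤)
    (Smin T : Finset ℕ) (hpSmin : p ∈ Smin) (hST : Disjoint Smin T) (hTp : ∀ q ∈ T, q.Prime)
    (hmin : ∀ q : ℕ, q.Prime → q ≠ p → (q ∈ Smin ↔ ¬ ρbar.IsUnramifiedAt q))
    (hscal : ∀ q ∈ T, ∀ A : ValuationSubring (AlgebraicClosure ℚ), A.LiesOverPrime q →
      ∀ σ ∈ A.decompositionSubgroup ℚ, ∃ c : ResidueField 𝒪, ρbar.ρ σ = c • 1)
    {rb : Γ → M₂ (ResidueField 𝒪)} (hrb : RealizesRes ρbar rb)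
    (G : GWData p (adRep (p := p) (rHom hrb) 1)) (P : LCond)
    (Lp : Submodule (ZMod p) (H1loc (adRep (p := p) (rHom hrb) 1) (ExtCitation.pPrime p)))
    (hLp : finrank (ZMod p) Lp ≤
      h0loc (adRep (p := p) (rHom hrb) 1) (ExtCitation.pPrime p) +
        finrank (ZMod p) (ResidueField 𝒪))
    (hloc : ∀ (𝒟 : ∀ ⦃A : Type⦄ [CommRing A] [IsLocalRing A] [Algebra 𝒪 A],
        GaloisRepAdic A → Prop) (DQ : GaloisRep.DeformationRingData 𝒪 ρbar 𝒟)
      (r : Γ → M₂ DQ.R) (T : Finset Nat.Primes) (h : TanHyp (p := p) DQ (rHom hrb) r T)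
      (l : relTangent 𝒪 DQ.R), P DQ.ρ →
      resv T (adRep (p := p) (rHom hrb) 1) (ExtCitation.pPrime p) (h.cls l) ∈ Lp) :
    TanConclusionG p ρbar Smin T P := by
  classical
  -- the finite sets of primes
  let S' : Finset Nat.Primes := Finset.subtype Nat.Prime Smin
  let T' : Finset Nat.Primes := Finset.subtype Nat.Prime T
  have hmemS' : ∀ v : Nat.Primes, v ∈ S' ↔ (v : ℕ) ∈ Smin := fun v => Finset.mem_subtype
  have hmemT' : ∀ v : Nat.Primes, v ∈ T' ↔ (v : ℕ) ∈ T := fun v => Finset.mem_subtype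
  have hcardT : T'.card = T.card := by
    show (Finset.subtype Nat.Prime T).card = T.card
    rw [Finset.card_subtype, Finset.filter_true_of_mem hTp]
  have hST' : Disjoint S' T' := by
    rw [Finset.disjoint_left]
    intro v hv hv'
    exact (Finset.disjoint_left.1 hST) ((hmemS' v).1 hv) ((hmemT' v).1 hv')
  have hpS' : ExtCitation.pPrime p ∈ S' := (hmemS' _).2 hpSmin
  have hlev := factors_rHom hrb
  have hTWH := fun n => twHyp hp2 habs hdet hTW hrb n
  have hdet' := fun σ => det_eq_of_detIsCyclotomic (p := p) hdet hrb σ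
  have hker : (rHom hrb).ker ∈ sLevels S' := by
    refine ker_mem_sLevels _ hlev fun q hq A hA σ hσ => ?_
    have hqp : (q : ℕ) ≠ p := fun h => hq ((hmemS' q).2 (h ▸ hpSmin))
    have h1 : ρbar.IsUnramifiedAt (q : ℕ) := by
      by_contra h
      exact hq ((hmemS' q).2 ((hmin q q.2 hqp).2 h))
    exact (rho_eq_one_iff hrb σ).1 (h1 A hA σ hσ)
  have hs := smooth_adRep (p := p) hker
  have hs' := smooth_cartier (p := p) hpS' hker
  -- scalars at `T`
  have hscal' : ∀ v ∈ T', ∀ τ : GalLoc (v : ℕ), ∃ c : ResidueField 𝒪,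
      rHom hrb (localGaloisToGlobal v τ) = c • (1 : M₂ (ResidueField 𝒪)) := by
    intro v hv τ
    have hmemD : localGaloisToGlobal (v : ℕ) τ ∈
        (padicPlace (v : ℕ)).decompositionSubgroup ℚ := by
      rw [← range_localGaloisToGlobal]; exact ⟨τ, rfl⟩
    obtain ⟨c, hc⟩ := hscal v ((hmemT' v).1 hv) _ (padicPlace_liesOverPrime (v : ℕ)) _ hmemD
    obtain ⟨b, hb⟩ := id hrb
    refine ⟨c, ?_⟩
    rw [rHom_apply, ← hb, hc, map_smul]
    exact congrArg (c • ·) (LinearMap.toMatrix_one b)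
  obtain ⟨R, hR⟩ := exists_twPrimes_sel G hp2 hlev hTWH hdet'
    (S := S' ∪ T') (Finset.mem_union_left _ hpS') (smooth_mono Finset.subset_union_left hs)
    (smooth_mono Finset.subset_union_left hs')
    (L := locCondT S' T' Lp)
    (fun v hv => by
      rw [Finset.mem_union, not_or] at hv
      have hvp : v ≠ ExtCitation.pPrime p := fun h => hv.1 (h ▸ hpS')
      rw [locCondT_ne S' T' Lp hvp, if_neg hv.1, if_neg hv.2])
    (sum_locCondT_le hpS' hST' hs hscal' hLp)
  rw [hcardT] at hR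
  haveI : FiniteDimensional (ZMod p) (ResidueField 𝒪) := Module.finite_iff_finite.2 inferInstance
  have hf0 : 0 < finrank (ZMod p) (ResidueField 𝒪) := Module.finrank_pos
  refine ⟨R, ?_, fun S n => ?_⟩
  · obtain ⟨Q, -, -, hsel⟩ := hR 0 ∅
    exact Nat.le_of_mul_le_mul_right ((Nat.le_add_left _ _).trans hsel) hf0
  obtain ⟨Q, hQR, hQ, hsel⟩ := hR n S
  let e : Fin R ≃ Q := (Q.equivFinOfCardEq hQR).symm
  let qv : Fin R → ℕ := fun i => ((e i : Nat.Primes) : ℕ)
  have himg : ∀ q : Nat.Primes, (q : ℕ) ∈ Finset.univ.image qv ↔ q ∈ Q := by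
    intro q
    rw [Finset.mem_image]
    constructor
    · rintro ⟨i, -, hi⟩
      have : ((e i : Nat.Primes)) = q := Subtype.ext hi
      rw [← this]; exact (e i).2
    · intro hq
      exact ⟨e.symm ⟨q, hq⟩, Finset.mem_univ _, by simp [qv]⟩
  refine ⟨qv, ?_, ?_, ?_, ?_⟩
  · intro i j hij
    apply e.injective
    apply Subtype.ext
    exact Subtype.ext hij
  · intro i
    obtain ⟨h1, h2⟩ := hQ _ (e i).2
    exact ⟨h1.prime, h2, h1.dvd⟩
  · intro i P hP φ hφ
    obtain ⟨h1, h2⟩ := hQ _ (e i).2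
    exact charpoly_of_isTWPrime hrb h1 hsplit hP hφ
  · intro 𝒟 DQ h𝒟 hof J y r' hr' hkill
    obtain ⟨r, hr⟩ := exists_normReal (DQ := DQ) hrb
    obtain ⟨⟨hdetQ, hPQ, hunrQ⟩, huniQ⟩ := hof
    have hdetne : ∀ σ, (rHom hrb σ).det ≠ 0 := fun σ => by
      rw [rHom_apply, hdet' σ]
      exact (map_ne_zero _).2 (Units.ne_zero _)
    have hTan : TanHyp (p := p) DQ (rHom hrb) r (S' ∪ T' ∪ Q) :=
      { norm := hr
        detne := hdetne
        pmem := hp𝒪
        det := hdetQ
        unr := fun q hq => by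
          rw [Finset.mem_union, Finset.mem_union, not_or, not_or] at hq
          refine hunrQ q q.2 ?_
          rw [Finset.mem_union, Finset.mem_union, not_or, not_or]
          exact ⟨⟨fun h => hq.1.1 ((hmemS' q).2 h), fun h => hq.1.2 ((hmemT' q).2 h)⟩,
            fun h => hq.2 ((himg q).1 h)⟩
        smooth := smooth_mono (Finset.subset_union_left.trans Finset.subset_union_left) hs }
    have hsel' : finrank (ZMod p) (Sel (S' ∪ T' ∪ Q) (adRep (p := p) (rHom hrb) 1)
        (locCondT S' T' Lp)) ≤ (R - 3 * T.card) * finrank (ZMod p) (ResidueField 𝒪) := by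
      rw [Nat.sub_mul]
      exact Nat.le_sub_of_add_le hsel
    exact finrank_tanKill_le hTan h𝒟
      (L := locCondT S' T' Lp) y
      (fun l hly v hv => by
        by_cases hvp : v = ExtCitation.pPrime p
        · subst hvp
          rw [locCondT_p]
          exact hloc _ DQ r _ hTan l hPQ
        · have hvp' : (v : ℕ) ≠ p := fun h => hvp (Subtype.ext h)
          rw [locCondT_ne S' T' Lp hvp]
          split_ifs with hvS hvT
          · refine resv_mem_urCls hTan l hp2 hvp'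
              (huniQ v ((hmemS' v).1 hvS) v.2 hvp') hlev ?_
            have h1 := (hmin v v.2 hvp').1 ((hmemS' v).1 hvS)
            unfold ResidualGaloisRep.IsUnramifiedAt at h1
            push Not at h1
            obtain ⟨A, hA, σ, hσ, hσ1⟩ := h1
            exact ⟨A, hA, σ, hσ, fun h => hσ1 ((rho_eq_one_iff hrb σ).2 h)⟩
          · -- at `T` the class vanishes
            obtain ⟨φ, σ, ϖ, hφ, hσ, hϖ, hσϖ, hder⟩ := hkill l hly v ((hmemT' v).1 hvT)
            have hz : ∀ τ ∈ ({φ, σ} : Set (GalLoc (v : ℕ))),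
                tcoc DQ r' l (localGaloisToGlobal v τ) = 0 := fun τ hτ => by
              obtain ⟨h1, h2, h3⟩ := hder τ hτ
              exact tcoc_eq_zero_of_traceless (p := p) hr' hp2 hp𝒪 hdetQ l.2 hr hdetne
                (hscal' v hvT τ) h1 h2 h3
            have hk0 := tcoc_eq_zero_on_decomp hr' l.2 hr hvp' (hscal' v hvT) hφ
              (hz φ (Or.inl rfl)) hσ hϖ hσϖ (hz σ (Or.inr rfl))
            obtain ⟨hZ, hres⟩ := resv_mk (S' ∪ T' ∪ Q) (adRep (p := p) (rHom hrb) 1) v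
              (hTan.coc l)
            have e1 : resv (S' ∪ T' ∪ Q) (adRep (p := p) (rHom hrb) 1) v (hTan.cls l) = _ := hres
            rw [e1, Submodule.mem_bot, H1.mk_eq_zero]
            have e2 : (fun g => (hTan.coc l).1 (localGaloisToGlobal v g)) = 0 := by
              funext g
              apply Subtype.ext
              exact hk0 g
            show (fun g => (hTan.coc l).1 (localGaloisToGlobal v g)) ∈ _
            rw [e2]
            exact zero_mem _
          · trivial)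
      (G.finite (S' ∪ T' ∪ Q)
        (Finset.mem_union_left _ (Finset.mem_union_left _ hpS'))
        (smooth_mono (Finset.subset_union_left.trans Finset.subset_union_left) hs))
      hsel'

end

theorem tanConclusionT_of_G {p : ℕ} {𝒪 : Type} [CommRing 𝒪] [IsDomain 𝒪]
    [IsDiscreteValuationRing 𝒪] [IsAdicComplete (maximalIdeal 𝒪) 𝒪] [Finite (ResidueField 𝒪)]
    {ρbar : ResidualGaloisRep (ResidueField 𝒪)} {Smin T : Finset ℕ} {P : LCond}
    (hclosed : ∀ {A B : Type} [CommRing A] [IsLocalRing A] [CommRing B] [IsLocalRing B]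
      (φ : A →+* B) (hφ : IsLocalHom φ) (ρ : GaloisRepAdic A), Function.Surjective φ →
      P ρ → P (ρ.baseChangeAlong φ hφ)) (S : Finset ℕ)
    (h : TanConclusionG p ρbar Smin T P) : TanConclusionT p ρbar S Smin T P := by
  obtain ⟨R, hR, h⟩ := h
  refine ⟨R, hR, fun n => ?_⟩
  obtain ⟨qv, h1, h2, h3, h4⟩ := h S n
  refine ⟨qv, h1, h2, h3, fun DQ J y r' hr' hk => ?_⟩
  refine h4 _ DQ (fun φ hφ hsurj => ?_) DQ.isOfType J y r' hr' hk
  obtain ⟨⟨hdetQ, hPQ, hunrQ⟩, huniQ⟩ := DQ.isOfType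
  exact ⟨⟨detIsCyclotomic_baseChange _ hφ hdetQ, hclosed _ hφ _ hsurj hPQ,
    fun q hq hqQ => isUnramifiedAt_baseChange _ hφ (hunrQ q hq hqQ)⟩,
    fun q hq hqp hqp' => isUnipotent_baseChange _ hφ (huniQ q hq hqp hqp')⟩

end Fermat.Agent.TW
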