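import Mathlib
import Fermat.Agent.TW.MainT
import Fermat.Agent.TW.Final

/-!
# The version with an auxiliary set `T`: flat and strict ordinary cases
-/

set_option autoImplicit false
set_option linter.style.haveILetI false
set_option linter.unusedSectionVars false
set_option synthInstance.maxHeartbeats 400000
set_option maxHeartbeats 1000000

namespace Fermat.Agent.TW

open Matrix IsLocalRing Module Fermat.Agent.DefRing Fermat.Agent Fermat.Agent.CFT Fermat.Agent.CFT.Loc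

local notation "M₂" => Matrix (Fin 2) (Fin 2)

variable {𝒪 : Type} [CommRing 𝒪] [IsDomain 𝒪] [IsDiscreteValuationRing 𝒪]
    [IsAdicComplete (maximalIdeal 𝒪) 𝒪] [Finite (ResidueField 𝒪)]

/-- The conclusion of the Taylor-Wiles primes theorem with auxiliary set `T`: for each `n` there
are `R` Taylor-Wiles primes such that the universal ring `DQ.R` (condition `P` at `p`, unipotent at
`Smin`, no condition at `T` and at the Taylor-Wiles primes) is generated by `y` and `R - 3 #T`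
further elements, if `y` controls the traceless parts of `r'` at a Frobenius and a tame generator
at each prime of `T`. -/
def TWConclusionT (p : ℕ) (ρbar : ResidualGaloisRep (ResidueField 𝒪))
    (S Smin T : Finset ℕ) (P : LCond) : Prop :=
  ∃ R : ℕ, 3 * T.card ≤ R ∧ ∀ n : ℕ, ∃ qv : Fin R → ℕ, Function.Injective qv ∧
      (∀ i, (qv i).Prime ∧ qv i ∉ S ∧ p ^ (n + 1) ∣ qv i - 1) ∧
      (∀ i, ∀ P : ValuationSubring (AlgebraicClosure ℚ), P.LiesOverPrime (qv i) →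
        ∀ φ : AlgebraicClosure ℚ ≃ₐ[ℚ] AlgebraicClosure ℚ, P.IsFrobeniusAt φ (qv i) →
          ∃ α β : ResidueField 𝒪, α ≠ β ∧ LinearMap.charpoly (ρbar.ρ φ) =
            (Polynomial.X - Polynomial.C α) * (Polynomial.X - Polynomial.C β)) ∧
      ∀ DQ : GaloisRep.DeformationRingData 𝒪 ρbar
          (CondTypeT 𝒪 p Smin T P (Finset.univ.image qv)),
        ∀ (J : Type) [Finite J] (y : J → maximalIdeal DQ.R) (r' : Γ → M₂ DQ.R),
          Realizes DQ.ρ r' →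
          (∀ l ∈ tanKill 𝒪 y, ∀ v : Nat.Primes, (v : ℕ) ∈ T →
            ∃ (φ σ : GalLoc (v : ℕ)) (ϖ : PadicAlgCl (v : ℕ)), IsFrobLoc (v : ℕ) ⊥ φ ∧
              σ ∈ inertiaLoc (v : ℕ) ∧ ϖ ^ p = ((v : ℕ) : PadicAlgCl (v : ℕ)) ∧ σ ϖ ≠ ϖ ∧
              ∀ τ ∈ ({φ, σ} : Set (GalLoc (v : ℕ))),
                der DQ.residue_surjective l (r' (localGaloisToGlobal v τ) 0 0) =
                  der DQ.residue_surjective l (r' (localGaloisToGlobal v τ) 1 1) ∧
                der DQ.residue_surjective l (r' (localGaloisToGlobal v τ) 0 1) = 0 ∧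
                der DQ.residue_surjective l (r' (localGaloisToGlobal v τ) 1 0) = 0) →
          ∃ γ : MvPowerSeries (J ⊕ Fin (R - 3 * T.card)) 𝒪 →ₐ[𝒪] DQ.R,
            Function.Surjective γ ∧ ∀ j, γ (MvPowerSeries.X (Sum.inl j)) = y j

theorem twConclusionT_of_tan {p : ℕ} {ρbar : ResidualGaloisRep (ResidueField 𝒪)}
    {S Smin T : Finset ℕ} {P : LCond} (h : TanConclusionT p ρbar S Smin T P) :
    TWConclusionT p ρbar S Smin T P := by
  obtain ⟨R, hR, h⟩ := h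
  refine ⟨R, hR, fun n => ?_⟩
  obtain ⟨qv, h1, h2, h3, h4⟩ := h n
  exact ⟨qv, h1, h2, h3, fun DQ J _ y r' hr' hk =>
    exists_surjective_of_finrank_le' DQ.residue_surjective y (h4 DQ J y r' hr' hk)⟩

/-- flat case -/
theorem tanG_flat (p : ℕ) [Fact p.Prime] (hGW : GWExists p) (hFlat : FlatExists p)
    (hp2 : p ≠ 2) (hp𝒪 : (p : 𝒪) ∈ maximalIdeal 𝒪)
    (ρbar : ResidualGaloisRep (ResidueField 𝒪))
    (habs : ρbar.IsAbsolutelyIrreducible)
    (hdet : (GaloisRepAdic.ofResidualGaloisRep ρbar).DetIsCyclotomic p)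
    (hsplit : ∀ σ : AlgebraicClosure ℚ ≃ₐ[ℚ] AlgebraicClosure ℚ,
      ∃ α β : ResidueField 𝒪, LinearMap.charpoly (ρbar.ρ σ) =
        (Polynomial.X - Polynomial.C α) * (Polynomial.X - Polynomial.C β))
    (hTW : ∀ (K : Type) [Field K] [Algebra (ResidueField 𝒪) K]
      (G : Subgroup (AlgebraicClosure ℚ ≃ₐ[ℚ] AlgebraicClosure ℚ)), G.index = 2 →
      ∀ V : Submodule K (ρbar.baseChange K).V,
        (∀ σ ∈ G, ∀ x ∈ V, (ρbar.baseChange K).ρ σ x ∈ V) → V = ⊥ ∨ V = ⊤)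
    (Smin T : Finset ℕ) (hpSmin : p ∈ Smin) (hST : Disjoint Smin T) (hTp : ∀ q ∈ T, q.Prime)
    (hmin : ∀ q : ℕ, q.Prime → q ≠ p → (q ∈ Smin ↔ ¬ ρbar.IsUnramifiedAt q))
    (hscal : ∀ q ∈ T, ∀ A : ValuationSubring (AlgebraicClosure ℚ), A.LiesOverPrime q →
      ∀ σ ∈ A.decompositionSubgroup ℚ, ∃ c : ResidueField 𝒪, ρbar.ρ σ = c • 1) :
    TanConclusionG p ρbar Smin T (fun _ _ _ ρ => ρ.IsFlatAt p) := by
  classical
  have hpk : (p : ResidueField 𝒪) = 0 := by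
    rw [← map_natCast (residue 𝒪), residue_eq_zero_iff]; exact hp𝒪
  haveI hchar : CharP (ResidueField 𝒪) p :=
    (CharP.charP_iff_prime_eq_zero Fact.out).2 hpk
  letI : Algebra (ZMod p) (ResidueField 𝒪) := ZMod.algebra _ p
  obtain ⟨rb, hrb⟩ := exists_realizesRes ρbar
  obtain ⟨G⟩ : Nonempty (GWData p (adRep (p := p) (rHom hrb) 1)) := by
    refine hGW _ ⟨Finset.subtype Nat.Prime Smin, smooth_adRep (ker_mem_sLevels _
      (factors_rHom hrb) fun q hq A hA σ hσ => ?_)⟩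
    have hqp : (q : ℕ) ≠ p := fun h => hq (Finset.mem_subtype.2 (h ▸ hpSmin))
    have h1 : ρbar.IsUnramifiedAt (q : ℕ) := by
      by_contra h
      exact hq (Finset.mem_subtype.2 ((hmin q q.2 hqp).2 h))
    exact (rho_eq_one_iff hrb σ).1 (h1 A hA σ hσ)
  obtain ⟨L, hLdim, hL⟩ := hFlat (rHom hrb) (factors_rHom hrb)
      (fun σ => det_eq_of_detIsCyclotomic (p := p) hdet hrb σ) (fun σ => by
        obtain ⟨α, β, h⟩ := hsplit σ
        refine ⟨α, β, ?_⟩
        obtain ⟨b, hb⟩ := id hrb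
        rw [rHom_apply, ← hb, LinearMap.charpoly_toMatrix, h])
  exact main_of_local_G hp2 hp𝒪 habs hdet hsplit hTW Smin T hpSmin hST hTp hmin hscal hrb G
      (fun A _ _ ρ => ρ.IsFlatAt p) L hLdim
      (fun 𝒟 DQ r T h l hP => resv_mem_flat h l hP hL)

/-- flat case -/
theorem tanT_flat (p : ℕ) [Fact p.Prime] (hGW : GWExists p) (hFlat : FlatExists p)
    (hp2 : p ≠ 2) (hp𝒪 : (p : 𝒪) ∈ maximalIdeal 𝒪)
    (ρbar : ResidualGaloisRep (ResidueField 𝒪))
    (habs : ρbar.IsAbsolutelyIrreducible)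
    (hdet : (GaloisRepAdic.ofResidualGaloisRep ρbar).DetIsCyclotomic p)
    (hsplit : ∀ σ : AlgebraicClosure ℚ ≃ₐ[ℚ] AlgebraicClosure ℚ,
      ∃ α β : ResidueField 𝒪, LinearMap.charpoly (ρbar.ρ σ) =
        (Polynomial.X - Polynomial.C α) * (Polynomial.X - Polynomial.C β))
    (hTW : ∀ (K : Type) [Field K] [Algebra (ResidueField 𝒪) K]
      (G : Subgroup (AlgebraicClosure ℚ ≃ₐ[ℚ] AlgebraicClosure ℚ)), G.index = 2 →
      ∀ V : Submodule K (ρbar.baseChange K).V,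
        (∀ σ ∈ G, ∀ x ∈ V, (ρbar.baseChange K).ρ σ x ∈ V) → V = ⊥ ∨ V = ⊤)
    (S Smin T : Finset ℕ) (hpSmin : p ∈ Smin) (hST : Disjoint Smin T) (hTp : ∀ q ∈ T, q.Prime)
    (hmin : ∀ q : ℕ, q.Prime → q ≠ p → (q ∈ Smin ↔ ¬ ρbar.IsUnramifiedAt q))
    (hscal : ∀ q ∈ T, ∀ A : ValuationSubring (AlgebraicClosure ℚ), A.LiesOverPrime q →
      ∀ σ ∈ A.decompositionSubgroup ℚ, ∃ c : ResidueField 𝒪, ρbar.ρ σ = c • 1) :
    TanConclusionT p ρbar S Smin T (fun _ _ _ ρ => ρ.IsFlatAt p) :=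
  tanConclusionT_of_G (fun φ hφ _ hs h => isFlatAt_baseChange φ hφ hs h) S
    (tanG_flat p hGW hFlat hp2 hp𝒪 ρbar habs hdet hsplit hTW Smin T hpSmin hST hTp hmin hscal)

/-- dimension bound for ordinary classes -/
theorem finrank_ordCls_locRep_le {p : ℕ} [Fact p.Prime] (hp2 : p ≠ 2)
    [Algebra (ZMod p) (ResidueField 𝒪)] {ρbar : ResidualGaloisRep (ResidueField 𝒪)}
    {rb : Γ → M₂ (ResidueField 𝒪)} (hrb : RealizesRes ρbar rb)
    (hrbord : OrdMat p (padicPlace p) rb) {S : Finset Nat.Primes}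
    (hs : Smooth (sLevels S) (adRep (p := p) (rHom hrb) 1)) :
    finrank (ZMod p) (ordCls (p := p) (locRep (adRep (p := p) (rHom hrb) 1)
      (ExtCitation.pPrime p))) ≤
      h0loc (adRep (p := p) (rHom hrb) 1) (ExtCitation.pPrime p) +
        finrank (ZMod p) (ResidueField 𝒪) := by
  haveI := charP_res (𝒪 := 𝒪) p
  have hpk : (p : ResidueField 𝒪) = 0 := CharP.cast_eq_zero _ _
  have hmemD : ∀ τ : GalLoc p, localGaloisToGlobal p τ ∈
      (padicPlace p).decompositionSubgroup ℚ := fun τ => by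
    rw [← range_localGaloisToGlobal]; exact ⟨τ, rfl⟩
  refine finrank_ordCls_le (p := p) (k := ResidueField 𝒪)
    (s := (rHom hrb).comp (localGaloisToGlobal p)) ?_ ?_ ?_ hp2
    (smooth_locRep hs (ExtCitation.pPrime p)) _ ?_
  · intro g m
    have h1 := adRep_one_apply (p := p) (rHom hrb) (localGaloisToGlobal p g) m
    show ((adRep (p := p) (rHom hrb) 1 (localGaloisToGlobal p g) m : sl (ResidueField 𝒪)) :
      M₂ (ResidueField 𝒪)) * rHom hrb (localGaloisToGlobal p g) =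
      rHom hrb (localGaloisToGlobal p g) * m
    rw [h1, mul_assoc, ← _root_.map_mul, inv_mul_cancel, _root_.map_one, mul_one]
  · intro g
    exact hrbord.dec _ (hmemD g)
  · intro g
    have h1 := hrbord.cyc _ (hmemD g) 1 ((locχ p g : ZMod p).val) (fun μ hμ => by
      rw [pow_one] at hμ
      exact CycChar.apply_eq_pow_cycloChar p _ hμ)
    rw [pow_one, hpk, Ideal.span_singleton_eq_bot.2 rfl, Ideal.mem_bot, sub_eq_zero] at h1
    show rb (localGaloisToGlobal p g) 0 0 = (locχ p g : ZMod p) •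
      rb (localGaloisToGlobal p g) 1 1
    rw [h1, Algebra.smul_def]
    congr 1
    rw [← map_natCast (algebraMap (ZMod p) (ResidueField 𝒪)), ZMod.natCast_zmod_val]
  · intro x
    constructor
    · intro h g
      exact h _ ⟨g, rfl⟩
    · rintro h _ ⟨g, rfl⟩
      exact h g

/-- strict ordinary case (assuming that `ρbar` has an ordinary realisation; otherwise there are no
ordinary deformations) -/
theorem tanG_ord (p : ℕ) [Fact p.Prime] (hGW : GWExists p)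
    (hp2 : p ≠ 2) (hp𝒪 : (p : 𝒪) ∈ maximalIdeal 𝒪)
    (ρbar : ResidualGaloisRep (ResidueField 𝒪))
    (habs : ρbar.IsAbsolutelyIrreducible)
    (hdet : (GaloisRepAdic.ofResidualGaloisRep ρbar).DetIsCyclotomic p)
    (hsplit : ∀ σ : AlgebraicClosure ℚ ≃ₐ[ℚ] AlgebraicClosure ℚ,
      ∃ α β : ResidueField 𝒪, LinearMap.charpoly (ρbar.ρ σ) =
        (Polynomial.X - Polynomial.C α) * (Polynomial.X - Polynomial.C β))
    (hTW : ∀ (K : Type) [Field K] [Algebra (ResidueField 𝒪) K]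
      (G : Subgroup (AlgebraicClosure ℚ ≃ₐ[ℚ] AlgebraicClosure ℚ)), G.index = 2 →
      ∀ V : Submodule K (ρbar.baseChange K).V,
        (∀ σ ∈ G, ∀ x ∈ V, (ρbar.baseChange K).ρ σ x ∈ V) → V = ⊥ ∨ V = ⊤)
    (Smin T : Finset ℕ) (hpSmin : p ∈ Smin) (hST : Disjoint Smin T) (hTp : ∀ q ∈ T, q.Prime)
    (hmin : ∀ q : ℕ, q.Prime → q ≠ p → (q ∈ Smin ↔ ¬ ρbar.IsUnramifiedAt q))
    (hscal : ∀ q ∈ T, ∀ A : ValuationSubring (AlgebraicClosure ℚ), A.LiesOverPrime q →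
      ∀ σ ∈ A.decompositionSubgroup ℚ, ∃ c : ResidueField 𝒪, ρbar.ρ σ = c • 1)
    (hord : ∃ rb, RealizesRes ρbar rb ∧ OrdMat p (padicPlace p) rb) :
    TanConclusionG p ρbar Smin T (fun _ _ _ ρ => ρ.IsStrictOrdinaryAt p) := by
  classical
  have hpk : (p : ResidueField 𝒪) = 0 := by
    rw [← map_natCast (residue 𝒪), residue_eq_zero_iff]; exact hp𝒪
  haveI hchar : CharP (ResidueField 𝒪) p :=
    (CharP.charP_iff_prime_eq_zero Fact.out).2 hpk
  letI : Algebra (ZMod p) (ResidueField 𝒪) := ZMod.algebra _ p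
  obtain ⟨rb, hrb, hrbord⟩ := hord
  have hs : Smooth (sLevels (Finset.subtype Nat.Prime Smin))
      (adRep (p := p) (rHom hrb) 1) := by
    refine smooth_adRep (ker_mem_sLevels _ (factors_rHom hrb) fun q hq A hA σ hσ => ?_)
    have hqp : (q : ℕ) ≠ p := fun h => hq (Finset.mem_subtype.2 (h ▸ hpSmin))
    have h1 : ρbar.IsUnramifiedAt (q : ℕ) := by
      by_contra h
      exact hq (Finset.mem_subtype.2 ((hmin q q.2 hqp).2 h))
    exact (rho_eq_one_iff hrb σ).1 (h1 A hA σ hσ)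
  obtain ⟨G⟩ : Nonempty (GWData p (adRep (p := p) (rHom hrb) 1)) := hGW _ ⟨_, hs⟩
  exact main_of_local_G hp2 hp𝒪 habs hdet hsplit hTW Smin T hpSmin hST hTp hmin hscal hrb G
      (fun A _ _ ρ => ρ.IsStrictOrdinaryAt p)
      (ordCls (p := p) (locRep (adRep (p := p) (rHom hrb) 1) (ExtCitation.pPrime p)))
      (finrank_ordCls_locRep_le hp2 hrb hrbord hs)
      (fun 𝒟 DQ r T h l hP => resv_mem_ordCls h l hp2 hP hrbord)

theorem tanT_ord (p : ℕ) [Fact p.Prime] (hGW : GWExists p)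
    (hp2 : p ≠ 2) (hp𝒪 : (p : 𝒪) ∈ maximalIdeal 𝒪)
    (ρbar : ResidualGaloisRep (ResidueField 𝒪))
    (habs : ρbar.IsAbsolutelyIrreducible)
    (hdet : (GaloisRepAdic.ofResidualGaloisRep ρbar).DetIsCyclotomic p)
    (hsplit : ∀ σ : AlgebraicClosure ℚ ≃ₐ[ℚ] AlgebraicClosure ℚ,
      ∃ α β : ResidueField 𝒪, LinearMap.charpoly (ρbar.ρ σ) =
        (Polynomial.X - Polynomial.C α) * (Polynomial.X - Polynomial.C β))
    (hTW : ∀ (K : Type) [Field K] [Algebra (ResidueField 𝒪) K]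
      (G : Subgroup (AlgebraicClosure ℚ ≃ₐ[ℚ] AlgebraicClosure ℚ)), G.index = 2 →
      ∀ V : Submodule K (ρbar.baseChange K).V,
        (∀ σ ∈ G, ∀ x ∈ V, (ρbar.baseChange K).ρ σ x ∈ V) → V = ⊥ ∨ V = ⊤)
    (S Smin T : Finset ℕ) (hpSmin : p ∈ Smin) (hST : Disjoint Smin T) (hTp : ∀ q ∈ T, q.Prime)
    (hmin : ∀ q : ℕ, q.Prime → q ≠ p → (q ∈ Smin ↔ ¬ ρbar.IsUnramifiedAt q))
    (hscal : ∀ q ∈ T, ∀ A : ValuationSubring (AlgebraicClosure ℚ), A.LiesOverPrime q →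
      ∀ σ ∈ A.decompositionSubgroup ℚ, ∃ c : ResidueField 𝒪, ρbar.ρ σ = c • 1)
    (hord : ∃ rb, RealizesRes ρbar rb ∧ OrdMat p (padicPlace p) rb) :
    TanConclusionT p ρbar S Smin T (fun _ _ _ ρ => ρ.IsStrictOrdinaryAt p) :=
  tanConclusionT_of_G (fun φ hφ _ _ h => isStrictOrdinaryAt_baseChange φ hφ h) S
    (tanG_ord p hGW hp2 hp𝒪 ρbar habs hdet hsplit hTW Smin T hpSmin hST hTp hmin hscal hord)

end Fermat.Agent.TW
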