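import Mathlib
import Fermat.Agent.TW.FinalT

/-!
# Generators of the universal ring: the form used by the patching argument
-/

set_option autoImplicit false
set_option linter.style.haveILetI false
set_option linter.unusedSectionVars false
set_option synthInstance.maxHeartbeats 400000
set_option maxHeartbeats 1000000

namespace Fermat.Agent.TW

open Matrix IsLocalRing Module Fermat.Agent.DefRing Fermat.Agent Fermat.Agent.CFT Fermat.Agent.CFT.Loc

local notation "M₂" => Matrix (Fin 2) (Fin 2)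

section Theta

variable {𝒪 : Type} [CommRing 𝒪] [IsDomain 𝒪] [IsDiscreteValuationRing 𝒪]
    [IsAdicComplete (maximalIdeal 𝒪) 𝒪] [Finite (ResidueField 𝒪)]
  {ρbar : ResidualGaloisRep (ResidueField 𝒪)}
  {𝒟 : ∀ ⦃A : Type⦄ [CommRing A] [IsLocalRing A] [Algebra 𝒪 A], GaloisRepAdic A → Prop}
  (DQ : GaloisRep.DeformationRingData 𝒪 ρbar 𝒟)

/-- the hom `R → k[ε]`, `k` the residue field of `𝒪`, attached to a relative tangent vector -/
noncomputable def thetaHom {l : Module.Dual (ResidueField DQ.R) (CotangentSpace DQ.R)}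
    (hl : l ∈ relTangent 𝒪 DQ.R) : DQ.R →ₐ[𝒪] DualNumber (ResidueField 𝒪) where
  toFun a := TrivSqZeroExt.inl ((iota DQ).symm (residue DQ.R a)) +
    TrivSqZeroExt.inr ((iota DQ).symm (der DQ.residue_surjective l a))
  map_one' := by
    have : der DQ.residue_surjective l (1 : DQ.R) = 0 := by
      rw [← map_one (algebraMap 𝒪 DQ.R)]; exact der_algebraMap DQ.residue_surjective hl 1
    rw [this]; simp
  map_mul' a b := by
    rw [der_mul DQ.residue_surjective hl]
    ext <;> simp [mul_comm]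
  map_zero' := by
    have : der DQ.residue_surjective l (0 : DQ.R) = 0 := by
      rw [← map_zero (algebraMap 𝒪 DQ.R)]; exact der_algebraMap DQ.residue_surjective hl 0
    rw [this]; simp
  map_add' a b := by
    rw [der_add DQ.residue_surjective hl]
    ext <;> simp
  commutes' o := by
    rw [der_algebraMap DQ.residue_surjective hl]
    have h1 : (iota DQ).symm (residue DQ.R (algebraMap 𝒪 DQ.R o)) = residue 𝒪 o := by
      rw [RingEquiv.symm_apply_eq]
      rfl
    rw [h1]
    simp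
    rfl

theorem thetaHom_apply {l : Module.Dual (ResidueField DQ.R) (CotangentSpace DQ.R)}
    (hl : l ∈ relTangent 𝒪 DQ.R) (a : DQ.R) :
    thetaHom DQ hl a = TrivSqZeroExt.inl ((iota DQ).symm (residue DQ.R a)) +
    TrivSqZeroExt.inr ((iota DQ).symm (der DQ.residue_surjective l a)) := rfl

theorem thetaHom_snd {l : Module.Dual (ResidueField DQ.R) (CotangentSpace DQ.R)}
    (hl : l ∈ relTangent 𝒪 DQ.R) (a : DQ.R) :
    (thetaHom DQ hl a).snd = (iota DQ).symm (der DQ.residue_surjective l a) := by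
  rw [thetaHom_apply]; simp

theorem isLocalHom_thetaHom {l : Module.Dual (ResidueField DQ.R) (CotangentSpace DQ.R)}
    (hl : l ∈ relTangent 𝒪 DQ.R) :
    IsLocalHom (thetaHom DQ hl : DQ.R →+* DualNumber (ResidueField 𝒪)) := by
  constructor
  intro a ha
  by_contra h
  have h1 : residue DQ.R a = 0 := by
    rw [residue_eq_zero_iff]; exact h
  have h2 := ha.map (TrivSqZeroExt.fstHom (ResidueField 𝒪) (ResidueField 𝒪) (ResidueField 𝒪))
  have h3 : TrivSqZeroExt.fstHom (ResidueField 𝒪) (ResidueField 𝒪) (ResidueField 𝒪)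
      ((thetaHom DQ hl : DQ.R →+* DualNumber (ResidueField 𝒪)) a) = 0 := by
    show (thetaHom DQ hl a).fst = 0
    rw [thetaHom_apply, h1]
    simp
  rw [h3] at h2
  exact not_isUnit_zero h2

end Theta

variable {𝒪 : Type} [CommRing 𝒪] [IsDomain 𝒪] [IsDiscreteValuationRing 𝒪]
    [IsAdicComplete (maximalIdeal 𝒪) 𝒪] [Finite (ResidueField 𝒪)]

/-- The conclusion of the Taylor-Wiles primes theorem with auxiliary set `T`, form used by the
patching argument: for each `n` there are `3 #T + g` Taylor-Wiles primes such that the maximal ideal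
of the universal ring `DQ.R` (condition `P` at `p`, unipotent at `Smin`, no condition at `T` and at
the Taylor-Wiles primes) is generated by the maximal ideal of `𝒪`, by `y` and by `g` further
elements, if the only deformations to the dual numbers killing `y` are scalar on the decomposition
groups at `T`. -/
def GenConclusionT (p : ℕ) (ρbar : ResidualGaloisRep (ResidueField 𝒪))
    (S Smin T : Finset ℕ) (P : LCond) : Prop :=
  ∃ g : ℕ, ∀ n : ℕ, ∃ qv : Fin (3 * T.card + g) → ℕ, Function.Injective qv ∧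
      (∀ i, (qv i).Prime ∧ qv i ∉ S ∧ p ^ (n + 1) ∣ qv i - 1) ∧
      (∀ i, ∀ P : ValuationSubring (AlgebraicClosure ℚ), P.LiesOverPrime (qv i) →
        ∀ φ : AlgebraicClosure ℚ ≃ₐ[ℚ] AlgebraicClosure ℚ, P.IsFrobeniusAt φ (qv i) →
          ∃ α β : ResidueField 𝒪, α ≠ β ∧ LinearMap.charpoly (ρbar.ρ φ) =
            (Polynomial.X - Polynomial.C α) * (Polynomial.X - Polynomial.C β)) ∧
      ∀ DQ : GaloisRep.DeformationRingData 𝒪 ρbar
          (CondTypeT 𝒪 p Smin T P (Finset.univ.image qv)),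
        ∀ (J : Type) (y : J → DQ.R), (∀ j, y j ∈ maximalIdeal DQ.R) →
          (∀ (θ : DQ.R →ₐ[𝒪] DualNumber (ResidueField 𝒪))
              (hθ : IsLocalHom (θ : DQ.R →+* DualNumber (ResidueField 𝒪))), (∀ j, θ (y j) = 0) →
            ∀ q ∈ T, ∀ A : ValuationSubring (AlgebraicClosure ℚ), A.LiesOverPrime q →
              ∀ σ ∈ A.decompositionSubgroup ℚ, ∃ c : ResidueField 𝒪,
                (DQ.ρ.baseChangeAlong (θ : DQ.R →+* DualNumber (ResidueField 𝒪)) hθ).ρ σ =
                  (TrivSqZeroExt.inl c : DualNumber (ResidueField 𝒪)) • LinearMap.id) →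
          ∃ x : Fin g → DQ.R, (∀ i, x i ∈ maximalIdeal DQ.R) ∧
            maximalIdeal DQ.R ≤ (maximalIdeal 𝒪).map (algebraMap 𝒪 DQ.R) ⊔
              Ideal.span (Set.range y ∪ Set.range x)

theorem genConclusionT_of_tan {p : ℕ} [Fact p.Prime] {ρbar : ResidualGaloisRep (ResidueField 𝒪)}
    {S Smin T : Finset ℕ} {P : LCond} (h : TanConclusionT p ρbar S Smin T P) :
    GenConclusionT p ρbar S Smin T P := by
  obtain ⟨R, hR, h⟩ := h
  obtain ⟨g, rfl⟩ := Nat.exists_eq_add_of_le hR
  refine ⟨g, fun n => ?_⟩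
  obtain ⟨qv, h1, h2, h3, h4⟩ := h n
  refine ⟨qv, h1, h2, h3, fun DQ J y hy hk => ?_⟩
  obtain ⟨r', hr'⟩ := exists_realizes DQ.ρ
  have h5 := h4 DQ J (fun j => ⟨y j, hy j⟩) r' hr' (fun l hl v hv => by
    haveI : Fact (v : ℕ).Prime := ⟨v.2⟩
    obtain ⟨φ, hφ⟩ := exists_isFrobLoc (l := (v : ℕ)) ⊥
    obtain ⟨ϖ, hϖ⟩ := IsAlgClosed.exists_pow_nat_eq ((v : ℕ) : PadicAlgCl (v : ℕ))
      (Fact.out (p := p.Prime)).pos
    obtain ⟨σ, hσ, hσϖ⟩ := exists_inertia_apply_ne (p := p) hϖ
    obtain ⟨hl1, hl2⟩ := mem_tanKill.1 hl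
    refine ⟨φ, σ, ϖ, hφ, hσ, hϖ, hσϖ, fun τ _ => ?_⟩
    have hmemD : localGaloisToGlobal (v : ℕ) τ ∈
        (padicPlace (v : ℕ)).decompositionSubgroup ℚ := by
      rw [← range_localGaloisToGlobal]; exact ⟨τ, rfl⟩
    have hθy : ∀ j, thetaHom DQ hl1 (y j) = 0 := fun j => by
      rw [thetaHom_apply, (residue_eq_zero_iff _).2 (hy j), der_of_mem _ hl1 (hy j), hl2 j]
      simp
    obtain ⟨c, hc⟩ := hk (thetaHom DQ hl1) (isLocalHom_thetaHom DQ hl1) hθy v hv _
      (padicPlace_liesOverPrime (v : ℕ)) _ hmemD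
    obtain ⟨b, hb⟩ := hr'.baseChange (thetaHom DQ hl1 : DQ.R →+* DualNumber (ResidueField 𝒪))
      (isLocalHom_thetaHom DQ hl1)
    have h6 := hb (localGaloisToGlobal (v : ℕ) τ)
    rw [hc, map_smul, LinearMap.toMatrix_id] at h6
    have h7 : ∀ i j, (thetaHom DQ hl1 (r' (localGaloisToGlobal (v : ℕ) τ) i j)) =
        (TrivSqZeroExt.inl c : DualNumber (ResidueField 𝒪)) *
          (1 : M₂ (DualNumber (ResidueField 𝒪))) i j := fun i j =>
      (congrFun (congrFun h6 i) j).symm
    have h8 : ∀ i j, der DQ.residue_surjective l (r' (localGaloisToGlobal (v : ℕ) τ) i j) = 0 := by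
      intro i j
      have h9 := congrArg TrivSqZeroExt.snd (h7 i j)
      rw [thetaHom_snd] at h9
      have h10 : ((TrivSqZeroExt.inl c : DualNumber (ResidueField 𝒪)) *
          (1 : M₂ (DualNumber (ResidueField 𝒪))) i j).snd = 0 := by
        rw [Matrix.one_apply]
        split_ifs <;> simp
      rw [h10] at h9
      exact (map_eq_zero_iff _ (iota DQ).symm.injective).1 h9
    exact ⟨by rw [h8, h8], h8 _ _, h8 _ _⟩)
  rw [Nat.add_sub_cancel_left] at h5
  obtain ⟨x, hx⟩ := exists_generators_of_finrank_le' (𝒪 := 𝒪) _ h5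
  refine ⟨fun i => x i, fun i => (x i).2, hx.trans (sup_le_sup le_rfl (Ideal.span_mono ?_))⟩
  rintro _ ⟨j | i, rfl⟩
  · exact Or.inl ⟨j, rfl⟩
  · exact Or.inr ⟨i, rfl⟩

end Fermat.Agent.TW
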