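import Mathlib
import Fermat.Agent.TW.GenT
import Fermat.Agent.LL.Blocks

/-!
# Generators of deformation rings (block GEN)
-/

set_option autoImplicit false
set_option linter.style.haveILetI false
set_option linter.unusedSectionVars false
set_option synthInstance.maxHeartbeats 400000
set_option maxHeartbeats 1000000

namespace Fermat.Agent.TW

open Matrix IsLocalRing Module Fermat.Agent.DefRing Fermat.Agent Fermat.Agent.CFT Fermat.Agent.CFT.Loc

local notation "M₂" => Matrix (Fin 2) (Fin 2)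

section Central

variable {B : Type} [CommRing B]

/-- the subgroup of central matrices -/
def cenSub (B : Type) [CommRing B] : Subgroup (M₂ B)ˣ where
  carrier := {g | ∀ X : M₂ B, Commute (g : M₂ B) X}
  mul_mem' {a b} ha hb X := by
    rw [Units.val_mul]; exact (ha X).mul_left (hb X)
  one_mem' X := by rw [Units.val_one]; exact Commute.one_left X
  inv_mem' {a} ha X := (ha X).units_inv_left

theorem commute_of_scalar {m : M₂ B} {c : B} (h : m = c • (1 : M₂ B)) (X : M₂ B) :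
    Commute m X := by
  show m * X = X * m
  rw [h, smul_mul_assoc, one_mul, mul_smul_comm, mul_one]

theorem scalar_of_commute {m : M₂ B} (h : ∀ X : M₂ B, Commute m X) : m = m 0 0 • (1 : M₂ B) := by
  have h1 : m * !![0, 1; 0, 0] = !![0, 1; 0, 0] * m := h _
  have h2 : m * !![0, 0; 1, 0] = !![0, 0; 1, 0] * m := h _
  have a := congrFun (congrFun h1 0) 0
  have b := congrFun (congrFun h1 0) 1
  have c := congrFun (congrFun h2 0) 0
  simp [Matrix.mul_apply, Fin.sum_univ_two] at a b c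
  ext i j
  fin_cases i <;> fin_cases j
  · simp
  · simpa using c
  · simpa using a.symm
  · simpa using b.symm

theorem cenSub_normal_conj {g n : (M₂ B)ˣ} (hn : n ∈ cenSub B) : g * n * g⁻¹ ∈ cenSub B := by
  have h1 : g * n = n * g := Units.ext (hn g).symm
  rw [h1, mul_assoc, mul_inv_cancel, mul_one]
  exact hn

/-- If the images of the two local generators are central then the decomposition groups have
central image. -/
theorem central_of_locGen {l p : ℕ} (hl : l.Prime) (L : LL.LocGen l p) (h : Γ →* (M₂ B)ˣ)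
    (hlev : GaloisFactorsThroughFiniteLevel h)
    (hI : ∀ σ ∈ L.P.inertiaSubgroupIn ℚ, ∃ k, h σ ^ p ^ k = 1)
    (hφ : h L.φ ∈ cenSub B) (hτ : h L.τ ∈ cenSub B)
    (A : ValuationSubring (AlgebraicClosure ℚ)) (hA : A.LiesOverPrime l) (σ : Γ)
    (hσ : σ ∈ A.decompositionSubgroup ℚ) : h σ ∈ cenSub B := by
  obtain ⟨g, rfl⟩ := Frob.exists_smul_eq hl L.hP hA
  rw [Frob.mem_decompositionSubgroup_smul_iff] at hσ
  have h1 := (L.gen _ h hlev hI).2.2 _ hσ
  have h2 : h (g⁻¹ * σ * g) ∈ cenSub B := by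
    refine (Subgroup.closure_le _).2 ?_ h1
    rintro x (rfl | rfl)
    · exact hφ
    · exact hτ
  have h3 := cenSub_normal_conj (g := h g) h2
  rw [← map_mul, ← map_inv, ← map_mul] at h3
  have : g * (g⁻¹ * σ * g) * g⁻¹ = σ := by group
  rwa [this] at h3

end Central

section

variable {𝒪 : Type} [CommRing 𝒪] [IsDomain 𝒪] [IsDiscreteValuationRing 𝒪]
    [IsAdicComplete (maximalIdeal 𝒪) 𝒪] [Finite (ResidueField 𝒪)]
  {ρbar : ResidualGaloisRep (ResidueField 𝒪)}

/-- scalar on the decomposition groups from scalar at Frobenius elements -/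
theorem scal_of_frob {l p : ℕ} (hl : l.Prime) (L : LL.LocGen l p)
    (hur : ρbar.IsUnramifiedAt l)
    (hsc : ∀ P : ValuationSubring (AlgebraicClosure ℚ), P.LiesOverPrime l →
        ∀ σ : Γ, P.IsFrobeniusAt σ l → ∃ c : ResidueField 𝒪, ρbar.ρ σ = c • 1)
    (A : ValuationSubring (AlgebraicClosure ℚ)) (hA : A.LiesOverPrime l) (σ : Γ)
    (hσ : σ ∈ A.decompositionSubgroup ℚ) : ∃ c : ResidueField 𝒪, ρbar.ρ σ = c • 1 := by
  obtain ⟨rb, hrb⟩ := exists_realizesRes ρbar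
  obtain ⟨b, hb⟩ := id hrb
  have hone : ∀ s, ρbar.ρ s = 1 → (rHom hrb).toHomUnits s = 1 := fun s hs => by
    apply Units.ext
    show rb s = 1
    rw [← hb, hs]; exact LinearMap.toMatrix_one b
  have h1 := central_of_locGen hl L (rHom hrb).toHomUnits (by
      obtain ⟨K, hK, hK'⟩ := factors_rHom hrb
      exact ⟨K, hK, fun s hs => Units.ext (hK' s hs)⟩)
    (fun s hs => ⟨0, by rw [pow_zero, pow_one]; exact hone s (hur L.P L.hP s hs)⟩)
    (by
      obtain ⟨c, hc⟩ := hsc L.P L.hP L.φ L.hφ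
      intro X
      refine commute_of_scalar (c := c) ?_ X
      show rb L.φ = _
      rw [← hb, hc, map_smul]
      exact congrArg (c • ·) (LinearMap.toMatrix_one b))
    (by rw [hone L.τ (hur L.P L.hP _ L.hτ)]; exact one_mem _) A hA σ hσ
  have h2 : rb σ = rb σ 0 0 • (1 : M₂ _) := scalar_of_commute (fun X => h1 X)
  refine ⟨rb σ 0 0, (LinearMap.toMatrix b b).injective ?_⟩
  rw [hb, map_smul]
  refine h2.trans ?_
  exact congrArg (rb σ 0 0 • ·) (LinearMap.toMatrix_one b).symm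

variable (A : Type) [CommRing A] [IsLocalRing A] [IsNoetherianRing A]
  [IsAdicComplete (maximalIdeal A) A] [Algebra 𝒪 A] [IsLocalHom (algebraMap 𝒪 A)]

/-- The deformation condition: being a base change of `ρ`. -/
def BCCond (ρ : GaloisRepAdic A) :
    ∀ ⦃B : Type⦄ [CommRing B] [IsLocalRing B] [Algebra 𝒪 B], GaloisRepAdic B → Prop :=
  fun B _ _ _ ρ' => ∃ (f : A →ₐ[𝒪] B) (hf : IsLocalHom (f : A →+* B)),
    (ρ.baseChangeAlong (f : A →+* B) hf).IsEquiv ρ'

/-- `A` is universal for the condition of being a base change of `ρ`, if homomorphisms from `A` are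
determined by their effect on `ρ`. -/
noncomputable def dataOf (habs : ρbar.IsAbsolutelyIrreducible)
    (hres : Function.Surjective (residue A ∘ algebraMap 𝒪 A)) (ρ : GaloisRepAdic A)
    (hρ : ρ.residual.IsEquiv (ρbar.baseChangeAlong (ResidueField.map (algebraMap 𝒪 A))))
    (hu : ∀ (B : Type) [CommRing B] [IsLocalRing B] [Algebra 𝒪 B] (f g : A →ₐ[𝒪] B)
        (hf : IsLocalHom (f : A →+* B)) (hg : IsLocalHom (g : A →+* B)),
        (ρ.baseChangeAlong (f : A →+* B) hf).IsEquiv (ρ.baseChangeAlong (g : A →+* B) hg) →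
        f = g) : GaloisRep.DeformationRingData 𝒪 ρbar (BCCond (𝒪 := 𝒪) A ρ) where
  R := A
  residue_surjective := hres
  absIrr := habs
  ρ := ρ
  isOfType := by
    refine ⟨AlgHom.id 𝒪 A, ⟨fun a h => h⟩, ?_⟩
    obtain ⟨r, hr⟩ := exists_realizes ρ
    have h1 := hr.baseChange ((AlgHom.id 𝒪 A : A →ₐ[𝒪] A) : A →+* A) ⟨fun a h => h⟩
    refine Realizes.isEquiv h1 (r := fun σ => (r σ).map ((AlgHom.id 𝒪 A : A →ₐ[𝒪] A) : A →+* A)) ?_
    have h2 : (fun σ => (r σ).map ((AlgHom.id 𝒪 A : A →ₐ[𝒪] A) : A →+* A)) = r := by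
      funext σ
      ext i j
      rfl
    rw [h2]
    exact hr
  residual_isEquiv := hρ
  universal B _ _ _ _ _ _ _ ρB h _ := by
    obtain ⟨f, hf, hfe⟩ := h
    refine ⟨f, ⟨hf, hfe⟩, ?_⟩
    rintro g ⟨hg, ⟨e⟩⟩
    obtain ⟨e'⟩ := hfe
    exact hu B g f hg hf ⟨e.trans e'.symm⟩

end

/-- the kill condition in terms of dual numbers -/
theorem kill_of_scalar {𝒪 : Type} [CommRing 𝒪] [IsDomain 𝒪] [IsDiscreteValuationRing 𝒪]
    [IsAdicComplete (maximalIdeal 𝒪) 𝒪] [Finite (ResidueField 𝒪)]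
    {ρbar : ResidualGaloisRep (ResidueField 𝒪)}
    {𝒟 : ∀ ⦃A : Type⦄ [CommRing A] [IsLocalRing A] [Algebra 𝒪 A], GaloisRepAdic A → Prop}
    (DQ : GaloisRep.DeformationRingData 𝒪 ρbar 𝒟) {p : ℕ} [Fact p.Prime] {T : Finset ℕ}
    {J : Type} {y : J → maximalIdeal DQ.R} {r' : Γ → M₂ DQ.R}
    (hk : ∀ θ : DQ.R →ₐ[𝒪] DualNumber (ResidueField 𝒪),
      IsLocalHom (θ : DQ.R →+* DualNumber (ResidueField 𝒪)) → (∀ j, θ (y j) = 0) →
      ∀ q ∈ T, ∀ A : ValuationSubring (AlgebraicClosure ℚ), A.LiesOverPrime q →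
        ∀ σ ∈ A.decompositionSubgroup ℚ, ∀ X : M₂ (DualNumber (ResidueField 𝒪)),
          Commute ((r' σ).map θ) X) :
    ∀ l ∈ tanKill 𝒪 y, ∀ v : Nat.Primes, (v : ℕ) ∈ T →
      ∃ (φ σ : GalLoc (v : ℕ)) (ϖ : PadicAlgCl (v : ℕ)), IsFrobLoc (v : ℕ) ⊥ φ ∧
        σ ∈ inertiaLoc (v : ℕ) ∧ ϖ ^ p = ((v : ℕ) : PadicAlgCl (v : ℕ)) ∧ σ ϖ ≠ ϖ ∧
        ∀ τ ∈ ({φ, σ} : Set (GalLoc (v : ℕ))),
          der DQ.residue_surjective l (r' (localGaloisToGlobal v τ) 0 0) =
            der DQ.residue_surjective l (r' (localGaloisToGlobal v τ) 1 1) ∧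
          der DQ.residue_surjective l (r' (localGaloisToGlobal v τ) 0 1) = 0 ∧
          der DQ.residue_surjective l (r' (localGaloisToGlobal v τ) 1 0) = 0 := by
  intro l hl v hv
  haveI : Fact (v : ℕ).Prime := ⟨v.2⟩
  obtain ⟨φ, hφ⟩ := exists_isFrobLoc (l := (v : ℕ)) ⊥
  obtain ⟨ϖ, hϖ⟩ := IsAlgClosed.exists_pow_nat_eq ((v : ℕ) : PadicAlgCl (v : ℕ))
    (Fact.out (p := p.Prime)).pos
  obtain ⟨σ, hσ, hσϖ⟩ := exists_inertia_apply_ne (p := p) hϖ
  obtain ⟨hl1, hl2⟩ := mem_tanKill.1 hl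
  refine ⟨φ, σ, ϖ, hφ, hσ, hϖ, hσϖ, fun τ _ => ?_⟩
  have hmemD : localGaloisToGlobal (v : ℕ) τ ∈
      (padicPlace (v : ℕ)).decompositionSubgroup ℚ := by
    rw [← range_localGaloisToGlobal]; exact ⟨τ, rfl⟩
  have hθy : ∀ j, thetaHom DQ hl1 (y j) = 0 := fun j => by
    rw [thetaHom_apply, (residue_eq_zero_iff _).2 (y j).2, der_of_mem _ hl1 (y j).2, hl2 j]
    simp
  have h1 := scalar_of_commute (hk (thetaHom DQ hl1) (isLocalHom_thetaHom DQ hl1) hθy v hv _
    (padicPlace_liesOverPrime (v : ℕ)) _ hmemD)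
  have h2 : ∀ i j, (iota DQ).symm (der DQ.residue_surjective l
      (r' (localGaloisToGlobal (v : ℕ) τ) i j)) =
      (((r' (localGaloisToGlobal (v : ℕ) τ)).map (thetaHom DQ hl1) i j)).snd := fun i j => by
    rw [Matrix.map_apply, thetaHom_snd]
  have e00 := h2 0 0
  have e11 := h2 1 1
  have e01 := h2 0 1
  have e10 := h2 1 0
  rw [h1] at e11 e01 e10
  simp only [Matrix.smul_apply, Matrix.one_apply_eq, smul_eq_mul, mul_one] at e11
  rw [Matrix.smul_apply, Matrix.one_apply_ne (by decide), smul_zero, TrivSqZeroExt.snd_zero,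
    map_eq_zero_iff _ (iota DQ).symm.injective] at e01 e10
  exact ⟨(iota DQ).symm.injective (e00.trans e11.symm), e01, e10⟩

end Fermat.Agent.TW
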