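import Mathlib
import Fermat.Agent.TW.GenG

/-!
# The block GEN of level lowering
-/

set_option autoImplicit false
set_option linter.style.haveILetI false
set_option linter.unusedSectionVars false
set_option synthInstance.maxHeartbeats 400000
set_option maxHeartbeats 1000000

namespace Fermat.Agent.TW

open Matrix IsLocalRing Module Fermat.Agent.DefRing Fermat.Agent Fermat.Agent.CFT Fermat.Agent.CFT.Loc

local notation "M₂" => Matrix (Fin 2) (Fin 2)

section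

variable {𝒪 : Type} [CommRing 𝒪] [IsDomain 𝒪] [IsDiscreteValuationRing 𝒪]
    [IsAdicComplete (maximalIdeal 𝒪) 𝒪] [Finite (ResidueField 𝒪)]
  {ρbar : ResidualGaloisRep (ResidueField 𝒪)}
  {A : Type} [CommRing A] [IsLocalRing A] [Algebra 𝒪 A] [IsLocalHom (algebraMap 𝒪 A)]
  {ρ : GaloisRepAdic A} {r : Γ → M₂ A}

theorem red_scalar (hr : Realizes ρ r)
    (hρ : ρ.residual.IsEquiv (ρbar.baseChangeAlong (ResidueField.map (algebraMap 𝒪 A))))
    {σ : Γ} {c : ResidueField 𝒪} (h : ρbar.ρ σ = c • 1) :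
    (r σ).map (residue A) = ResidueField.map (algebraMap 𝒪 A) c • (1 : M₂ _) := by
  obtain ⟨rb, hrb⟩ := exists_realizesRes ρbar
  obtain ⟨P, hP, hconj⟩ := RealizesRes.exists_conj (hr.residual.of_isEquiv hρ)
    (hrb.baseChangeAlong (ResidueField.map (algebraMap 𝒪 A)))
  obtain ⟨b, hb⟩ := id hrb
  have h1 : rb σ = c • (1 : M₂ _) := by
    rw [← hb, h, map_smul]
    exact congrArg (c • ·) (LinearMap.toMatrix_one b)
  have h2 : (rb σ).map (ResidueField.map (algebraMap 𝒪 A)) =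
      ResidueField.map (algebraMap 𝒪 A) c • (1 : M₂ _) := by
    rw [h1]
    ext i j
    rw [Matrix.map_apply, Matrix.smul_apply, Matrix.smul_apply, smul_eq_mul, smul_eq_mul,
      _root_.map_mul, Matrix.one_apply, Matrix.one_apply]
    split_ifs <;> simp
  have h3 : P * (rb σ).map (ResidueField.map (algebraMap 𝒪 A)) =
      (r σ).map (residue A) * P := hconj σ
  rw [h2, mul_smul_comm, mul_one] at h3
  calc (r σ).map (residue A) = (r σ).map (residue A) * P * P⁻¹ := by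
        rw [Matrix.mul_assoc, Matrix.mul_nonsing_inv _ hP, Matrix.mul_one]
    _ = _ := by rw [← h3, smul_mul_assoc, Matrix.mul_nonsing_inv _ hP]

/-- the matrices of a base change to a ring, as a homomorphism -/
def mapHom (hr : Realizes ρ r) {B : Type} [CommRing B] (θ : A →+* B) : Γ →* M₂ B where
  toFun σ := (r σ).map θ
  map_one' := by rw [hr.map_one]; exact Matrix.map_one _ (map_zero _) (_root_.map_one _)
  map_mul' σ τ := by rw [hr.map_mul]; exact Matrix.map_mul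

theorem one_add_pow_of_sq {R : Type*} [Ring R] {N : R} (h : N * N = 0) (n : ℕ) :
    (1 + N) ^ n = 1 + n • N := by
  induction n with
  | zero => simp
  | succ n ih =>
    rw [pow_succ, ih, add_mul, one_mul, mul_add, mul_one, smul_mul_assoc, h, smul_zero, add_zero,
      succ_nsmul]
    abel

variable {θ : A →+* DualNumber (ResidueField 𝒪)}

theorem fst_eq_zero_of_mem (hθ : IsLocalHom θ) {a : A} (ha : a ∈ maximalIdeal A) :
    (θ a).fst = 0 := by
  by_contra h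
  have h1 : IsUnit (θ a) := by
    rw [TrivSqZeroExt.isUnit_iff_isUnit_fst]
    exact isUnit_iff_ne_zero.2 h
  exact ha (hθ.map_nonunit a h1)

theorem mul_eq_zero_of_fst {x y : DualNumber (ResidueField 𝒪)} (hx : x.fst = 0)
    (hy : y.fst = 0) : x * y = 0 := by
  ext <;> simp [hx, hy]

theorem theta_eq_zero_of_mem_sq (hθ : IsLocalHom θ) {a : A} (ha : a ∈ maximalIdeal A ^ 2) :
    θ a = 0 := by
  have h : maximalIdeal A ^ 2 ≤ RingHom.ker θ := by
    rw [pow_two, Ideal.mul_le]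
    intro x hx z hz
    rw [RingHom.mem_ker, map_mul]
    exact mul_eq_zero_of_fst (fst_eq_zero_of_mem hθ hx) (fst_eq_zero_of_mem hθ hz)
  exact h ha

theorem mapHom_factors (hr : Realizes ρ r) (hθ : IsLocalHom θ) :
    GaloisFactorsThroughFiniteLevel (mapHom hr θ).toHomUnits := by
  obtain ⟨L, hL, h⟩ := hr.matCont 2
  refine ⟨L, hL, fun σ hσ => Units.ext ?_⟩
  show (r σ).map θ = 1
  ext i j : 1
  have e : r σ i j = (1 : M₂ A) i j + (r σ - 1) i j := by
    rw [Matrix.sub_apply]; ring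
  rw [Matrix.map_apply, e, map_add, theta_eq_zero_of_mem_sq hθ (h σ hσ i j), add_zero,
    Matrix.one_apply, Matrix.one_apply]
  split_ifs <;> simp

theorem mapHom_pow {p : ℕ} (hp : (p : 𝒪) ∈ maximalIdeal 𝒪) (hr : Realizes ρ r)
    (hθ : IsLocalHom θ) {σ : Γ} (h : (r σ).map (residue A) = 1) :
    (mapHom hr θ).toHomUnits σ ^ p ^ 1 = 1 := by
  apply Units.ext
  rw [Units.val_pow_eq_pow_val, pow_one]
  show ((r σ).map θ) ^ p = 1
  set N := (r σ).map θ - 1 with hN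
  have hfst : ∀ i j, (N i j).fst = 0 := by
    intro i j
    have h1 : r σ i j - (1 : M₂ A) i j ∈ maximalIdeal A := by
      rw [← residue_eq_zero_iff, map_sub]
      have h2 := congrFun (congrFun h i) j
      rw [Matrix.map_apply] at h2
      rw [h2, Matrix.one_apply, Matrix.one_apply]
      split_ifs <;> simp
    have h3 := fst_eq_zero_of_mem hθ h1
    rw [map_sub] at h3
    rw [hN, Matrix.sub_apply, Matrix.map_apply]
    have h4 : θ ((1 : M₂ A) i j) = (1 : M₂ (DualNumber (ResidueField 𝒪))) i j := by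
      rw [Matrix.one_apply, Matrix.one_apply]
      split_ifs <;> simp
    rw [← h4]
    exact h3
  have hNN : N * N = 0 := by
    ext i j : 1
    rw [Matrix.mul_apply, Fin.sum_univ_two, mul_eq_zero_of_fst (hfst _ _) (hfst _ _),
      mul_eq_zero_of_fst (hfst _ _) (hfst _ _), add_zero]
    rfl
  have h5 : (r σ).map θ = 1 + N := by rw [hN]; abel
  rw [h5, one_add_pow_of_sq hNN]
  have h6 : ((p : ℕ) : DualNumber (ResidueField 𝒪)) = 0 := by
    have h7 : ((p : ℕ) : ResidueField 𝒪) = 0 := by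
      rw [← map_natCast (residue 𝒪), residue_eq_zero_iff]; exact hp
    have h8 : ((p : ℕ) : DualNumber (ResidueField 𝒪)) =
        TrivSqZeroExt.inl ((p : ℕ) : ResidueField 𝒪) := by
      rw [← TrivSqZeroExt.inl_natCast]
    rw [h8, h7]; rfl
  have h9 : p • N = 0 := by
    ext i j : 1
    rw [Matrix.smul_apply, nsmul_eq_mul, h6, zero_mul]
    rfl
  rw [h9, add_zero]

end

theorem genCore {p : ℕ} [hpp : Fact p.Prime] (hp2 : p ≠ 2)
    {𝒪 : Type} [CommRing 𝒪] [IsDomain 𝒪] [IsDiscreteValuationRing 𝒪]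
    [IsAdicComplete (maximalIdeal 𝒪) 𝒪] [Finite (ResidueField 𝒪)]
    (hp𝒪 : (p : 𝒪) ∈ maximalIdeal 𝒪) {ρbar : ResidualGaloisRep (ResidueField 𝒪)} {T : Finset ℕ}
    (hTp : ∀ q ∈ T, q.Prime) (hur : ∀ q ∈ T, ρbar.IsUnramifiedAt q)
    (hscal : ∀ q ∈ T, ∀ A : ValuationSubring (AlgebraicClosure ℚ), A.LiesOverPrime q →
      ∀ σ ∈ A.decompositionSubgroup ℚ, ∃ c : ResidueField 𝒪, ρbar.ρ σ = c • 1)
    (L : ∀ l : T, LL.LocGen (l : ℕ) p) {g : ℕ}
    {𝒟 : ∀ ⦃A : Type⦄ [CommRing A] [IsLocalRing A] [Algebra 𝒪 A], GaloisRepAdic A → Prop}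
    (DQ : GaloisRep.DeformationRingData 𝒪 ρbar 𝒟) {r : Γ → M₂ DQ.R} (hr : Realizes DQ.ρ r)
    (hfin : ∀ y : T × Bool × Fin 3 → maximalIdeal DQ.R,
      (∀ l ∈ tanKill 𝒪 y, ∀ v : Nat.Primes, (v : ℕ) ∈ T →
        ∃ (φ σ : GalLoc (v : ℕ)) (ϖ : PadicAlgCl (v : ℕ)), IsFrobLoc (v : ℕ) ⊥ φ ∧
          σ ∈ inertiaLoc (v : ℕ) ∧ ϖ ^ p = ((v : ℕ) : PadicAlgCl (v : ℕ)) ∧ σ ϖ ≠ ϖ ∧
          ∀ τ ∈ ({φ, σ} : Set (GalLoc (v : ℕ))),
            der DQ.residue_surjective l (r (localGaloisToGlobal v τ) 0 0) =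
              der DQ.residue_surjective l (r (localGaloisToGlobal v τ) 1 1) ∧
            der DQ.residue_surjective l (r (localGaloisToGlobal v τ) 0 1) = 0 ∧
            der DQ.residue_surjective l (r (localGaloisToGlobal v τ) 1 0) = 0) →
        Module.finrank (ResidueField DQ.R) (tanKill 𝒪 y) ≤ g) :
      ∃ γ : MvPowerSeries ((T × Bool × Fin 3) ⊕ Fin g) 𝒪 →ₐ[𝒪] DQ.R, Function.Surjective γ ∧
        ∀ (l : T) (b : Bool), let m := r (if b then (L l).τ else (L l).φ);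
          2 * γ (MvPowerSeries.X (Sum.inl (l, b, 0))) = m 0 0 - m 1 1 ∧
          γ (MvPowerSeries.X (Sum.inl (l, b, 1))) = m 0 1 ∧
          γ (MvPowerSeries.X (Sum.inl (l, b, 2))) = m 1 0 := by
  -- scalars
  have hsc : ∀ (l : T) (b : Bool), ∃ c : ResidueField DQ.R,
      (r (if b then (L l).τ else (L l).φ)).map (residue DQ.R) = c • (1 : M₂ _) := by
    intro l b
    have hD : (if b then (L l).τ else (L l).φ) ∈ (L l).P.decompositionSubgroup ℚ := by
      cases b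
      · exact ((Frob.isFrobeniusAt_iff _ _ _).1 (L l).hφ).1
      · exact ((Frob.mem_inertiaSubgroupIn_iff _ _).1 (L l).hτ).1
    obtain ⟨c, hc⟩ := hscal l l.2 _ (L l).hP _ hD
    exact ⟨_, red_scalar hr DQ.residual_isEquiv hc⟩
  have h2u : IsUnit (2 : DQ.R) := by
    have h5 : residue DQ.R (2 : DQ.R) ≠ 0 := by
      haveI : CharP (ResidueField DQ.R) p := by
        refine (CharP.charP_iff_prime_eq_zero Fact.out).2 ?_
        rw [← map_natCast (residue DQ.R), residue_eq_zero_iff, ← map_natCast (algebraMap 𝒪 DQ.R)]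
        exact map_nonunit (algebraMap 𝒪 DQ.R) _ hp𝒪
      rw [map_ofNat]
      intro h6
      have h7 : ((2 : ℕ) : ResidueField DQ.R) = 0 := by exact_mod_cast h6
      rw [CharP.cast_eq_zero_iff (ResidueField DQ.R) p] at h7
      exact hp2 ((Nat.prime_dvd_prime_iff_eq hpp.out Nat.prime_two).1 h7)
    by_contra h6
    exact h5 ((residue_eq_zero_iff _).2 h6)
  obtain ⟨u, hu2⟩ := h2u
  -- the elements
  let m : T → Bool → M₂ DQ.R := fun l b => r (if b then (L l).τ else (L l).φ)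
  let y0 : T × Bool × Fin 3 → DQ.R := fun x =>
    ![(m x.1 x.2.1 0 0 - m x.1 x.2.1 1 1) * ((u⁻¹ : (DQ.R)ˣ) : DQ.R), m x.1 x.2.1 0 1,
      m x.1 x.2.1 1 0] x.2.2
  have hy0 : ∀ x, y0 x ∈ maximalIdeal DQ.R := by
    rintro ⟨l, b, i⟩
    obtain ⟨c, hc⟩ := hsc l b
    have e : ∀ i j, residue DQ.R (m l b i j) = (c • (1 : M₂ (ResidueField DQ.R))) i j :=
      fun i j => congrFun (congrFun hc i) j
    fin_cases i
    · refine Ideal.mul_mem_right _ _ ?_
      show m l b 0 0 - m l b 1 1 ∈ _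
      rw [← residue_eq_zero_iff, map_sub, e, e]
      simp
    · show m l b 0 1 ∈ _
      rw [← residue_eq_zero_iff, e]
      simp
    · show m l b 1 0 ∈ _
      rw [← residue_eq_zero_iff, e]
      simp
  let y : T × Bool × Fin 3 → maximalIdeal DQ.R := fun x => ⟨y0 x, hy0 x⟩
  have hk : ∀ θ : DQ.R →ₐ[𝒪] DualNumber (ResidueField 𝒪),
      IsLocalHom (θ : DQ.R →+* DualNumber (ResidueField 𝒪)) → (∀ j, θ (y j) = 0) →
      ∀ q ∈ T, ∀ A : ValuationSubring (AlgebraicClosure ℚ), A.LiesOverPrime q →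
        ∀ σ ∈ A.decompositionSubgroup ℚ, ∀ X : M₂ (DualNumber (ResidueField 𝒪)),
          Commute ((r σ).map θ) X := by
    intro θ hθ' hy q hq B hB σ hσ
    let θ' : DQ.R →+* DualNumber (ResidueField 𝒪) := θ
    have hmem : ∀ b : Bool, (mapHom hr θ').toHomUnits
        (if b then (L ⟨q, hq⟩).τ else (L ⟨q, hq⟩).φ) ∈ cenSub (DualNumber (ResidueField 𝒪)) := by
      intro b X
      refine commute_of_scalar (c := θ' (m ⟨q, hq⟩ b 0 0)) ?_ X
      show (m ⟨q, hq⟩ b).map θ' = _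
      have z0 : θ' ((m ⟨q, hq⟩ b 0 0 - m ⟨q, hq⟩ b 1 1) * ((u⁻¹ : (DQ.R)ˣ) : DQ.R)) = 0 :=
        hy (⟨q, hq⟩, b, 0)
      have z1 : θ' (m ⟨q, hq⟩ b 0 1) = 0 := hy (⟨q, hq⟩, b, 1)
      have z2 : θ' (m ⟨q, hq⟩ b 1 0) = 0 := hy (⟨q, hq⟩, b, 2)
      have z3 : θ' (m ⟨q, hq⟩ b 1 1) = θ' (m ⟨q, hq⟩ b 0 0) := by
        rw [map_mul] at z0
        have h8 : IsUnit (θ' ((u⁻¹ : (DQ.R)ˣ) : DQ.R)) := (Units.isUnit _).map θ'
        rw [h8.mul_left_eq_zero, map_sub, sub_eq_zero] at z0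
        exact z0.symm
      ext i j : 1
      rw [Matrix.map_apply, Matrix.smul_apply, Matrix.one_apply]
      fin_cases i <;> fin_cases j
      · simp
      · simpa using z1
      · simpa using z2
      · simpa using z3
    exact central_of_locGen (hTp q hq) (L ⟨q, hq⟩) (mapHom hr θ').toHomUnits
      (mapHom_factors hr hθ')
      (fun s hs => ⟨1, mapHom_pow hp𝒪 hr hθ' (by
        have h9 := red_scalar hr DQ.residual_isEquiv (c := 1)
          (by rw [one_smul]; exact hur q hq (L ⟨q, hq⟩).P (L ⟨q, hq⟩).hP s hs)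
        rw [map_one, one_smul] at h9
        exact h9)⟩)
      (by simpa using hmem false) (by simpa using hmem true) B hB σ hσ
  obtain ⟨γ, hγ, hγy⟩ := exists_surjective_of_finrank_le' DQ.residue_surjective y
    (hfin y (kill_of_scalar DQ hk))
  refine ⟨γ, hγ, fun l b => ?_⟩
  refine ⟨?_, hγy (l, b, 1), hγy (l, b, 2)⟩
  have h5 : γ (MvPowerSeries.X (Sum.inl (l, b, 0))) =
      (m l b 0 0 - m l b 1 1) * ((u⁻¹ : (DQ.R)ˣ) : DQ.R) := hγy (l, b, 0)
  rw [h5]
  show (2 : DQ.R) * ((m l b 0 0 - m l b 1 1) * ((u⁻¹ : (DQ.R)ˣ) : DQ.R)) = m l b 0 0 - m l b 1 1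
  rw [← hu2, mul_comm, mul_assoc, Units.inv_mul, mul_one]

theorem genStmt (p : ℕ) [hpp : Fact p.Prime] (hp2 : p ≠ 2) (hGW : GWExists p)
    (hFlat : FlatExists p) : LL.GenStmt p := by
  intro 𝒪 _ _ _ _ _ hp𝒪 ρbar habs hdet hsplit hTW Smin T hpSmin hSp hmin hT L
  have hST : Disjoint Smin T := by
    rw [Finset.disjoint_left]
    exact fun q hq hq' => (hT q hq').2.1 hq
  have hTp : ∀ q ∈ T, q.Prime := fun q hq => (hT q hq).1
  have hur : ∀ q ∈ T, ρbar.IsUnramifiedAt q := fun q hq => by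
    by_contra h
    have hqp : q ≠ p := fun h' => (hT q hq).2.1 (h' ▸ hpSmin)
    exact (hT q hq).2.1 ((hmin q (hTp q hq) hqp).2 h)
  have hscal : ∀ q ∈ T, ∀ A : ValuationSubring (AlgebraicClosure ℚ), A.LiesOverPrime q →
      ∀ σ ∈ A.decompositionSubgroup ℚ, ∃ c : ResidueField 𝒪, ρbar.ρ σ = c • 1 :=
    fun q hq A hA σ hσ => scal_of_frob (hTp q hq) (L ⟨q, hq⟩) (hur q hq) (hT q hq).2.2.2 A hA σ hσ
  obtain ⟨R, hR, h⟩ := tanG_flat p hGW hFlat hp2 hp𝒪 ρbar habs hdet hsplit hTW Smin T hpSmin hST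
    hTp hmin hscal
  obtain ⟨g, rfl⟩ := Nat.exists_eq_add_of_le hR
  refine ⟨g, fun S n => ?_⟩
  obtain ⟨qv, h1, h2, h3, h4⟩ := h S n
  refine ⟨qv, h1, h2, h3, ?_⟩
  intro A _ _ _ _ _ _ hres ρ hof hρ hu r hr
  refine genCore hp2 hp𝒪 hTp hur hscal L (dataOf A habs hres ρ hρ hu) (r := r) hr
    (fun y hy => ?_)
  have := h4 _ (dataOf A habs hres ρ hρ hu)
    (fun φ hφ _ => ⟨φ, hφ, ⟨GaloisRepAdic.Equiv.refl _⟩⟩) (by
      obtain ⟨⟨c1, c2, c3⟩, c4⟩ := hof
      refine ⟨⟨c1, c2, fun q hq hq' => c3 q hq ?_⟩, c4⟩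
      rwa [← Finset.union_assoc]) (T × Bool × Fin 3) y r hr hy
  rwa [Nat.add_sub_cancel_left] at this

end Fermat.Agent.TW
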