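import Mathlib
import Fermat.Agent.TW.Final
import Fermat.Agent.Flat.Final

/-!
# The flat local bound exists
-/

set_option autoImplicit false

namespace Fermat.Agent.TW

/-- the flat local bound -/
theorem flatExists (p : ℕ) [Fact p.Prime] (hp2 : p ≠ 2) : FlatExists p :=
  fun _ hlev hdet hsplit => Flat.flatLocalBound hp2 hlev hdet hsplit

end Fermat.Agent.TW
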