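import Mathlib
import Fermat.Agent.TW.LocalOrd

/-!
# The peu ramifié local condition at `p`

Cocycles with strictly upper triangular values that vanish at an element `s₁` with `s s₁ = 1` on
which the Kummer class of a `p`-th root of `p` does not vanish.
-/

set_option autoImplicit false
set_option linter.style.haveILetI false
set_option linter.unusedSectionVars false

namespace Fermat.Agent.TW

open Fermat.Agent.CFT Fermat.Agent.CFT.Loc Fermat.Agent Fermat.Agent.LocalF Module Matrix ExtCitation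

local notation "M₂" => Matrix (Fin 2) (Fin 2)

section Peu

variable {p : ℕ} [Fact p.Prime] {k : Type} [Field k] [Algebra (ZMod p) k]
  (ρ : Representation (ZMod p) (GalLoc p) (sl k))

/-- cocycles with strictly upper triangular values vanishing at `s₁` -/
def ZP (s₁ : GalLoc p) : Submodule (ZMod p) (ZN ρ) where
  carrier := {c | c.1 s₁ = 0}
  add_mem' := fun {a b} ha hb => by
    show a.1 s₁ + b.1 s₁ = 0
    rw [Set.mem_ofPred_eq] at ha hb
    rw [ha, hb, add_zero]
  zero_mem' := rfl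
  smul_mem' := fun c a ha => by
    show c • a.1 s₁ = 0
    rw [Set.mem_ofPred_eq] at ha
    rw [ha, smul_zero]

/-- peu ramifié classes -/
noncomputable def peuCls (s₁ : GalLoc p) : Submodule (ZMod p) (H1 (locLevels p) ρ) :=
  (ZP ρ s₁).map (ZN.q ρ)

theorem mk_mem_peuCls {ρ : Representation (ZMod p) (GalLoc p) (sl k)} {s₁ : GalLoc p}
    {c : Z1 (locLevels p) ρ} (v : sl k) (hs : Smooth (locLevels p) ρ)
    (h : ∀ g, ((c.1 g - (ρ g v - v) : sl k) : M₂ k) 0 0 = 0 ∧
      ((c.1 g - (ρ g v - v) : sl k) : M₂ k) 1 0 = 0) (h1 : c.1 s₁ = ρ s₁ v - v) :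
    H1.mk (locLevels p) ρ c ∈ peuCls ρ s₁ := by
  have hd : d0 ρ v ∈ Z1 (locLevels p) ρ := B1_le_Z1 hs ⟨v, rfl⟩
  refine ⟨⟨c.1 - d0 ρ v, sub_mem c.2 hd, fun g => h g⟩, ?_, ?_⟩
  · show c.1 s₁ - (ρ s₁ v - v) = 0
    rw [h1, sub_self]
  · show H1.mk (locLevels p) ρ ⟨c.1 - d0 ρ v, _⟩ = _
    rw [H1.mk_eq_mk]
    refine ⟨-v, ?_⟩
    rw [map_neg]
    show - d0 ρ v = c.1 - d0 ρ v - c.1
    abel

/-- matrices concentrated in the upper right corner -/
def e01 : k →ₗ[ZMod p] sl k where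
  toFun b := ⟨!![0, b; 0, 0], by rw [mem_sl]; simp [trace_fin_two]⟩
  map_add' a b := by
    apply Subtype.ext
    show !![0, a + b; 0, 0] = !![0, a; 0, 0] + !![0, b; 0, 0]
    ext i j
    fin_cases i <;> fin_cases j <;> simp
  map_smul' c a := by
    apply Subtype.ext
    show !![0, c • a; 0, 0] = c • !![0, a; 0, 0]
    ext i j
    fin_cases i <;> fin_cases j <;> simp

variable {ρ}
variable {s : GalLoc p →* M₂ k} (hρ : ∀ g m, ((ρ g m : sl k) : M₂ k) * s g = s g * m)
  (hs10 : ∀ g, s g 1 0 = 0) (hs00 : ∀ g, s g 0 0 = (locχ p g : ZMod p) • s g 1 1)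

include hρ hs10 hs00 in
theorem rho_e01 (g : GalLoc p) (b : k) :
    ρ g (e01 (p := p) b) = e01 (p := p) ((locχ p g : ZMod p) • b) := by
  have h1 := rho_upper hρ hs10 g (e01 (p := p) b) rfl
  have h2 := rho_nilp hρ hs10 hs00 g (e01 (p := p) b) rfl rfl
  have h00 : ((ρ g (e01 (p := p) b) : sl k) : M₂ k) 0 0 = 0 := h1.2
  have h11 : ((ρ g (e01 (p := p) b) : sl k) : M₂ k) 1 1 = 0 := by
    have := mem_sl.1 (ρ g (e01 (p := p) b)).2
    rw [trace_fin_two, h00, zero_add] at this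
    exact this
  apply Subtype.ext
  ext i j
  fin_cases i <;> fin_cases j
  · exact h00
  · exact h2
  · exact h1.1
  · exact h11

include hρ hs10 hs00 in
theorem kummer_mem_ZN {ζ : PadicAlgCl p} (hζ : IsPrimitiveRoot ζ p)
    (hχ : ∀ g : GalLoc p, g • ζ = ζ ^ (locχ p g : ZMod p).val) {w : PadicAlgCl p} (hw0 : w ≠ 0)
    (hw : ∀ g : GalLoc p, g • w ^ p = w ^ p) (b : k) :
    ((fun g => kummer p ζ w g • e01 (p := p) b) ∈ Z1 (locLevels p) ρ) ∧
      ∀ g : GalLoc p, ((kummer p ζ w g • e01 (p := p) b : sl k) : M₂ k) 0 0 = 0 ∧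
        ((kummer p ζ w g • e01 (p := p) b : sl k) : M₂ k) 1 0 = 0 := by
  haveI : NeZero p := ⟨(Fact.out : p.Prime).ne_zero⟩
  have hG : IsGal (locLevels p) (PadicAlgCl p) := by
    rw [locLevels_eq]; exact (locGal_top p).isGal
  refine ⟨⟨?_, fun g h => ?_⟩, fun g => ?_⟩
  · have hκ : (locLevels p).LC (kummer p ζ w : GalLoc p → ZMod p) :=
      ⟨_, hG.smooth w, fun g s hs => by
        rw [kummer_twist hζ hχ hw0 hw, kummer_of_fixed hζ hw0 hs, mul_zero, zero_add]⟩
    exact hκ.comp (fun a => a • e01 (p := p) b)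
  · show kummer p ζ w (g * h) • e01 (p := p) b = ρ g (kummer p ζ w h • e01 (p := p) b) +
      kummer p ζ w g • e01 (p := p) b
    rw [kummer_twist hζ hχ hw0 hw, add_smul, map_smul, rho_e01 hρ hs10 hs00, map_smul, smul_smul,
      mul_comm]
  · constructor
    · show kummer p ζ w g • (0 : k) = 0
      rw [smul_zero]
    · show kummer p ζ w g • (0 : k) = 0
      rw [smul_zero]

include hρ hs10 hs00 in
/-- **dimension of the space of peu ramifié classes** -/
theorem finrank_peuCls_le' [Finite k] (hp2 : p ≠ 2) (hs : Smooth (locLevels p) ρ)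
    {s₁ : GalLoc p} (h1 : s s₁ = 1) {w : PadicAlgCl p} (hw0 : w ≠ 0)
    (hw : ∀ g : GalLoc p, g • w ^ p = w ^ p) (hsw : s₁ w ≠ w)
    (W : Submodule (ZMod p) (sl k)) (hW : ∀ v, v ∈ W ↔ ∀ g, ρ g v = v) :
    finrank (ZMod p) (peuCls ρ s₁) ≤ finrank (ZMod p) W := by
  haveI : NeZero p := ⟨(Fact.out : p.Prime).ne_zero⟩
  haveI : FiniteDimensional (ZMod p) k := Module.finite_iff_finite.2 inferInstance
  have hord := finrank_ordCls_le hρ hs10 hs00 hp2 hs W hW
  obtain ⟨hfd, -⟩ := finrank_ZN_le hρ hs10 hs00 hp2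
  obtain ⟨ζ₀, hζ₀⟩ := exists_zeta p
  have hζ := isPrimitiveRoot_padicEmbedding p hζ₀
  have hχ : ∀ g : GalLoc p, g • (padicEmbedding p ζ₀) =
      (padicEmbedding p ζ₀) ^ (locχ p g : ZMod p).val := apply_zeta hζ₀
  set ζ := padicEmbedding p ζ₀ with hζdef
  have hker : kummer p ζ w s₁ ≠ 0 := by
    intro h
    exact hsw ((kummer_eq_zero_iff hζ hw0 (hw s₁)).1 h)
  have hρ1 : ∀ m, ρ s₁ m = m := by
    intro m
    have h2 := hρ s₁ m
    rw [h1, mul_one, one_mul] at h2
    exact Subtype.ext h2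
  -- the Kummer line
  let K : k →ₗ[ZMod p] ZN ρ :=
    { toFun := fun b => ⟨fun g => kummer p ζ w g • e01 (p := p) b,
        (kummer_mem_ZN hρ hs10 hs00 hζ hχ hw0 hw b).1,
        (kummer_mem_ZN hρ hs10 hs00 hζ hχ hw0 hw b).2⟩
      map_add' := fun a b => by
        apply Subtype.ext
        funext g
        show kummer p ζ w g • e01 (p := p) (a + b) = kummer p ζ w g • e01 (p := p) a +
          kummer p ζ w g • e01 (p := p) b
        rw [map_add, smul_add]
      map_smul' := fun c b => by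
        apply Subtype.ext
        funext g
        show kummer p ζ w g • e01 (p := p) (c • b) = c • (kummer p ζ w g • e01 (p := p) b)
        rw [map_smul, smul_comm] }
  let Φ : (peuCls ρ s₁ × k) →ₗ[ZMod p] ordCls ρ :=
    { toFun := fun x => ⟨x.1.1 + ZN.q ρ (K x.2), by
        refine add_mem ?_ ⟨_, rfl⟩
        obtain ⟨c, -, hc⟩ := x.1.2
        exact ⟨c, hc⟩⟩
      map_add' := fun x y => by
        apply Subtype.ext
        show (x + y).1.1 + ZN.q ρ (K (x + y).2) = (x.1.1 + ZN.q ρ (K x.2)) +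
          (y.1.1 + ZN.q ρ (K y.2))
        rw [Prod.snd_add, map_add, map_add, Prod.fst_add, Submodule.coe_add]
        abel
      map_smul' := fun c x => by
        apply Subtype.ext
        show (c • x).1.1 + ZN.q ρ (K (c • x).2) = c • (x.1.1 + ZN.q ρ (K x.2))
        rw [Prod.smul_snd, map_smul, map_smul, Prod.smul_fst, Submodule.coe_smul, smul_add] }
  have hΦ : Function.Injective Φ := by
    rw [injective_iff_map_eq_zero]
    rintro ⟨x, b⟩ hx
    have h2 : x.1 + ZN.q ρ (K b) = 0 := congrArg Subtype.val hx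
    obtain ⟨c, hc, hcx⟩ := x.2
    have h3 : ZN.q ρ (c + K b) = 0 := by rw [map_add, hcx, h2]
    obtain ⟨v, hv⟩ := H1.mk_eq_zero.1 h3
    have h4 : ρ s₁ v - v = c.1 s₁ + kummer p ζ w s₁ • e01 (p := p) b := congrFun hv s₁
    have h5 : c.1 s₁ = 0 := hc
    rw [hρ1, sub_self, h5, zero_add] at h4
    have h6 : e01 (p := p) b = 0 := (smul_eq_zero.1 h4.symm).resolve_left hker
    have h7 : b = 0 := congrFun (congrFun (congrArg Subtype.val h6) 0) 1
    subst h7
    rw [map_zero, map_zero, add_zero] at h2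
    exact Prod.ext (Subtype.ext h2) rfl
  haveI : FiniteDimensional (ZMod p) (ordCls ρ) :=
    inferInstanceAs (FiniteDimensional (ZMod p) (LinearMap.range (ZN.q ρ)))
  haveI : FiniteDimensional (ZMod p) (peuCls ρ s₁) :=
    inferInstanceAs (FiniteDimensional (ZMod p) ((ZP ρ s₁).map (ZN.q ρ)))
  have h8 := LinearMap.finrank_le_finrank_of_injective hΦ
  rw [Module.finrank_prod] at h8
  omega

include hρ hs10 hs00 in
/-- **dimension of the space of peu ramifié classes** -/
theorem finrank_peuCls_le [Finite k] (hp2 : p ≠ 2) (hs : Smooth (locLevels p) ρ)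
    {s₁ : GalLoc p} (h1 : s s₁ = 1) {w : PadicAlgCl p} (hw : w ^ p = (p : PadicAlgCl p))
    (hsw : s₁ w ≠ w)
    (W : Submodule (ZMod p) (sl k)) (hW : ∀ v, v ∈ W ↔ ∀ g, ρ g v = v) :
    finrank (ZMod p) (peuCls ρ s₁) ≤ finrank (ZMod p) W := by
  have hp : p.Prime := Fact.out
  refine finrank_peuCls_le' hρ hs10 hs00 hp2 hs h1 (w := w) ?_ (fun g => ?_) hsw W hW
  · rintro rfl
    rw [zero_pow hp.ne_zero] at hw
    exact hp.ne_zero (by exact_mod_cast hw.symm)
  · rw [hw]
    exact map_natCast g p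

end Peu

end Fermat.Agent.TW
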