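import Fermat.Agent.TW.Group

/-!
# Cocycles with values in `ad⁰(χ)` vanishing on semisimple elements: the kernel step
-/

set_option autoImplicit false

namespace Fermat.Agent.TW

open Matrix

local notation "M₂" => Matrix (Fin 2) (Fin 2)

variable {k : Type*} [Field k] {G : Type*} [Group G]

theorem comm_of_anticomm {x a b : M₂ k} (ha : x * a = -(a * x)) (hb : x * b = -(b * x)) :
    (a * b - b * a) * x = x * (a * b - b * a) := by
  have h1 : x * (a * b) = a * b * x := by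
    rw [← mul_assoc, ha, neg_mul, mul_assoc, hb, mul_neg, neg_neg, mul_assoc]
  have h2 : x * (b * a) = b * a * x := by
    rw [← mul_assoc, hb, neg_mul, mul_assoc, ha, mul_neg, neg_neg, mul_assoc]
  rw [sub_mul, mul_sub, h1, h2]

/-- `ψ` is a 1-cocycle with values in `ad⁰ ρ ⊗ χ`. -/
structure IsCoc (ρ : G →* M₂ k) (χ : G →* k) (ψ : G → M₂ k) : Prop where
  tr : ∀ g, (ψ g).trace = 0
  mul : ∀ g h, ψ (g * h) = ψ g + χ g • (ρ g * ψ h * ρ g⁻¹)

variable {ρ : G →* M₂ k} {χ : G →* k} {ψ : G → M₂ k} {H : Subgroup G}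

/-- the infinitesimal trace -/
def TT (ρ : G →* M₂ k) (ψ : G → M₂ k) (g : G) : k := (ψ g * ρ g).trace

theorem chi_mul_inv (χ : G →* k) (g : G) : χ g * χ g⁻¹ = 1 := by
  rw [← map_mul, mul_inv_cancel, map_one]

theorem chi_ne_zero (χ : G →* k) (g : G) : χ g ≠ 0 := by
  intro h
  have := chi_mul_inv χ g
  rw [h, zero_mul] at this
  exact zero_ne_one this

namespace IsCoc

theorem one (hψ : IsCoc ρ χ ψ) : ψ 1 = 0 := by
  have := hψ.mul 1 1
  simp at this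
  exact this

theorem inv (hψ : IsCoc ρ χ ψ) (g : G) : χ g • (ρ g * ψ g⁻¹ * ρ g⁻¹) = - ψ g := by
  have := hψ.mul g g⁻¹
  rw [mul_inv_cancel, hψ.one] at this
  exact eq_neg_of_add_eq_zero_right this.symm

theorem mul_of_chi (hψ : IsCoc ρ χ ψ) {g : G} (hg : χ g = 1) (h : G) :
    ψ (g * h) = ψ g + ρ g * ψ h * ρ g⁻¹ := by
  rw [hψ.mul, hg, one_smul]

/-- formula for the cocycle at a conjugate -/
theorem conj (hψ : IsCoc ρ χ ψ) (g : G) {s : G} (hs : χ s = 1) :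
    ψ (g * s * g⁻¹) = ψ g + χ g • (ρ g * ψ s * ρ g⁻¹)
      - ρ (g * s * g⁻¹) * ψ g * ρ (g * s⁻¹ * g⁻¹) := by
  have h1 := hψ.inv g
  have h2 : χ g • (ψ g⁻¹) = - (ρ g⁻¹ * ψ g * ρ g) := by
    have := congrArg (fun X => ρ g⁻¹ * X * ρ g) h1
    simp only [mul_smul_comm, smul_mul_assoc] at this
    rw [show ρ g⁻¹ * (ρ g * ψ g⁻¹ * ρ g⁻¹) * ρ g = ψ g⁻¹ by
      rw [← mul_assoc, ← mul_assoc, map_inv_mul, one_mul, mul_assoc, map_inv_mul, mul_one]] at this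
    rw [this]; simp
  rw [hψ.mul, hψ.mul g s, map_mul χ, hs, mul_one, _root_.mul_inv_rev]
  have h3 : χ g • (ρ (g * s) * ψ g⁻¹ * ρ (s⁻¹ * g⁻¹)) =
      - (ρ (g * s * g⁻¹) * ψ g * ρ (g * s⁻¹ * g⁻¹)) := by
    rw [← smul_mul_assoc, ← mul_smul_comm, h2]
    simp only [map_mul, mul_neg, neg_mul, mul_assoc]
  rw [h3]
  abel

/-- `T` is equivariant. -/
theorem TT_conj (hψ : IsCoc ρ χ ψ) (g : G) {s : G} (hs : χ s = 1) :
    TT ρ ψ (g * s * g⁻¹) = χ g * TT ρ ψ s := by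
  unfold TT
  rw [hψ.conj g hs, sub_mul, add_mul, Matrix.trace_sub, Matrix.trace_add]
  have h1 : ρ (g * s * g⁻¹) * ψ g * ρ (g * s⁻¹ * g⁻¹) * ρ (g * s * g⁻¹) =
      ρ (g * s * g⁻¹) * ψ g := by
    rw [mul_assoc _ _ (ρ (g * s * g⁻¹)), ← map_mul]
    have : g * s⁻¹ * g⁻¹ * (g * s * g⁻¹) = 1 := by group
    rw [this, map_one, mul_one]
  rw [h1, Matrix.trace_mul_comm (ρ (g * s * g⁻¹)) (ψ g), smul_mul_assoc, Matrix.trace_smul,
    smul_eq_mul]
  have h2 : ρ g * ψ s * ρ g⁻¹ * ρ (g * s * g⁻¹) = ρ g * (ψ s * ρ s) * ρ g⁻¹ := by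
    rw [map_mul, map_mul]
    simp only [mul_assoc]
    rw [← mul_assoc (ρ g⁻¹) (ρ g), map_inv_mul, one_mul]
  rw [h2, Matrix.trace_mul_comm (ρ g * (ψ s * ρ s)) (ρ g⁻¹), ← mul_assoc (ρ g⁻¹), map_inv_mul,
    one_mul]
  ring

theorem TT_one (hψ : IsCoc ρ χ ψ) : TT ρ ψ 1 = 0 := by
  unfold TT; rw [hψ.one]; simp

/-- fundamental trace identity -/
theorem TT_add (hψ : IsCoc ρ χ ψ) {b : G} (hb : χ b = 1) (hd : (ρ b).det = 1) (a : G) :
    TT ρ ψ (b * a) + TT ρ ψ (b⁻¹ * a) = TT ρ ψ b * (ρ a).trace + (ρ b).trace * TT ρ ψ a := by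
  have hb' : χ b⁻¹ = 1 := by
    have := chi_mul_inv χ b
    rwa [hb, one_mul] at this
  have hinv := map_inv_eq ρ hd
  have e1 : ψ (b * a) * ρ (b * a) = ψ b * ρ b * ρ a + ρ b * (ψ a * ρ a) := by
    rw [hψ.mul_of_chi hb, map_mul, add_mul]
    congr 1
    · rw [mul_assoc]
    · simp only [mul_assoc]
      rw [← mul_assoc (ρ b⁻¹), map_inv_mul, one_mul]
  have e2 : ψ (b⁻¹ * a) * ρ (b⁻¹ * a) = ψ b⁻¹ * ρ b⁻¹ * ρ a + ρ b⁻¹ * (ψ a * ρ a) := by
    rw [hψ.mul_of_chi hb', inv_inv, map_mul, add_mul]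
    congr 1
    · rw [mul_assoc]
    · simp only [mul_assoc]
      rw [← mul_assoc (ρ b), map_mul_inv, one_mul]
  have e3 : ψ b⁻¹ * ρ b⁻¹ = - (ρ b⁻¹ * ψ b) := by
    have h1 := hψ.inv b
    rw [hb, one_smul] at h1
    have := congrArg (fun X => ρ b⁻¹ * X) h1
    simp only [mul_neg] at this
    rw [← this, ← mul_assoc, ← mul_assoc, map_inv_mul, one_mul]
  have e4 : ψ b * ρ b + ψ b⁻¹ * ρ b⁻¹ = (ψ b * ρ b).trace • (1 : M₂ k) := by
    rw [e3, hinv, sub_mul, smul_mul_assoc, one_mul]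
    have := mul_add_mul_eq (ψ b) (ρ b)
    rw [hψ.tr b, zero_smul, zero_add, zero_mul, sub_zero] at this
    rw [← sub_eq_zero]
    rw [← sub_eq_zero] at this
    rw [← this]; abel
  have e5 : ρ b + ρ b⁻¹ = (ρ b).trace • (1 : M₂ k) := by rw [hinv]; abel
  unfold TT
  rw [e1, e2, ← Matrix.trace_add]
  have e6 : ψ b * ρ b * ρ a + ρ b * (ψ a * ρ a) + (ψ b⁻¹ * ρ b⁻¹ * ρ a + ρ b⁻¹ * (ψ a * ρ a)) =
      (ψ b * ρ b + ψ b⁻¹ * ρ b⁻¹) * ρ a + (ρ b + ρ b⁻¹) * (ψ a * ρ a) := by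
    rw [add_mul, add_mul]; abel
  rw [e6, e4, e5, smul_mul_assoc, smul_mul_assoc, one_mul, one_mul, Matrix.trace_add,
    Matrix.trace_smul, Matrix.trace_smul, smul_eq_mul, smul_eq_mul]

end IsCoc

/-- The standing assumptions of the main argument. -/
structure Std (ρ : G →* M₂ k) (χ : G →* k) (ψ : G → M₂ k) (H : Subgroup G) : Prop where
  hT : TWHyp ρ H
  coc : IsCoc ρ χ ψ
  chiH : ∀ h ∈ H, χ h = 1
  van : ∀ h ∈ H, (ρ h).trace ^ 2 ≠ 4 → TT ρ ψ h = 0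

namespace Std

variable (S : Std ρ χ ψ H)
include S

/-- Step 1: `ψ` vanishes on the kernel of `ρ|H`. -/
theorem psi_ker {κ : G} (hκ : κ ∈ H) (hρ : ρ κ = 1) : ψ κ = 0 := by
  obtain ⟨σ0, hσ0, hss⟩ := S.hT.exists_semisimple
  have h2 := S.hT.two_ne
  set c := (ρ σ0).trace / 2 with hc
  set a0 : M₂ k := ρ σ0 - c • (1 : M₂ k) with ha0
  have ha0tr : a0.trace = 0 := by
    rw [ha0, Matrix.trace_sub, Matrix.trace_smul, Matrix.trace_one, Fintype.card_fin, smul_eq_mul,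
      hc]
    push_cast
    field_simp
    ring
  have ha00 : a0 ≠ 0 := by
    intro h0
    apply hss
    have h1 : ρ σ0 = c • (1 : M₂ k) := sub_eq_zero.1 h0
    have h3 := S.hT.detH σ0 hσ0
    rw [h1, Matrix.det_smul, Matrix.det_one, Fintype.card_fin, mul_one] at h3
    have h4 : (ρ σ0).trace = 2 * c := by rw [hc]; field_simp
    rw [h4]; linear_combination 4 * h3
  -- orthogonality
  have horth : ∀ x ∈ H, ρ x = 1 → ∀ g, (ψ x * (ρ g * a0 * ρ g⁻¹)).trace = 0 := by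
    intro x hx hρx g
    have hs : g * σ0 * g⁻¹ ∈ H := S.hT.conj_mem g hσ0
    have htr : (ρ (g * σ0 * g⁻¹)).trace = (ρ σ0).trace := by
      rw [map_mul, map_mul, Matrix.trace_mul_comm, ← mul_assoc, map_inv_mul, one_mul]
    have h1 := S.van _ hs (by rw [htr]; exact hss)
    have h3 := S.van _ (H.mul_mem hx hs) (by rw [map_mul, hρx, one_mul, htr]; exact hss)
    unfold TT at h1 h3
    rw [S.coc.mul_of_chi (S.chiH x hx), map_mul ρ x, hρx] at h3
    have hx' : ρ x⁻¹ = 1 := by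
      have := map_mul_inv ρ x
      rwa [hρx, one_mul] at this
    rw [hx', one_mul, mul_one, one_mul, add_mul, Matrix.trace_add, h1, add_zero] at h3
    have h4 : ρ g * a0 * ρ g⁻¹ = ρ (g * σ0 * g⁻¹) - c • (1 : M₂ k) := by
      rw [ha0, mul_sub, sub_mul, map_mul, map_mul, mul_smul_comm, mul_one, smul_mul_assoc,
        map_mul_inv]
    rw [h4, mul_sub, Matrix.trace_sub, h3, mul_smul_comm, mul_one, Matrix.trace_smul, S.coc.tr]
    simp
  -- a non-proportional conjugate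
  obtain ⟨g1, hg1⟩ : ∃ g1, ∀ lam : k, ρ g1 * a0 ≠ lam • (a0 * ρ g1) := by
    by_contra hcon
    push Not at hcon
    choose lam hlam using hcon
    exact S.hT.no_line ha00 ha0tr lam hlam
  set a1 : M₂ k := ρ g1 * a0 * ρ g1⁻¹ with ha1
  have ha1tr : a1.trace = 0 := by
    rw [ha1, Matrix.trace_mul_comm, ← mul_assoc, map_inv_mul, one_mul, ha0tr]
  set C : M₂ k := a0 * a1 - a1 * a0 with hC
  have hCtr : C.trace = 0 := by
    rw [hC, Matrix.trace_sub, Matrix.trace_mul_comm, sub_self]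
  have hC0 : C ≠ 0 := by
    intro h0
    obtain ⟨lam, hlam⟩ := exists_smul_of_comm h2 ha0tr ha1tr ha00 (sub_eq_zero.1 h0)
    apply hg1 lam
    have := congrArg (fun X => X * ρ g1) hlam
    simp only [smul_mul_assoc] at this
    rw [← this, ha1, mul_assoc _ _ (ρ g1), map_inv_mul, mul_one]
  -- all values of ψ on the kernel are multiples of C
  have hprop : ∀ x ∈ H, ρ x = 1 → ∃ lam : k, ψ x = lam • C := by
    intro x hx hρx
    have o0 : (ψ x * a0).trace = 0 := by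
      have := horth x hx hρx 1
      simpa using this
    have o1 : (ψ x * a1).trace = 0 := horth x hx hρx g1
    have c0 := mul_add_mul_of_trace_zero (S.coc.tr x) ha0tr
    have c1 := mul_add_mul_of_trace_zero (S.coc.tr x) ha1tr
    rw [o0, zero_smul] at c0
    rw [o1, zero_smul] at c1
    have d0 : ψ x * a0 = -(a0 * ψ x) := eq_neg_of_add_eq_zero_left c0
    have d1 : ψ x * a1 = -(a1 * ψ x) := eq_neg_of_add_eq_zero_left c1
    exact exists_smul_of_comm h2 hCtr (S.coc.tr x) hC0 (comm_of_anticomm d0 d1)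
  by_contra hx0
  obtain ⟨l, hl⟩ := hprop κ hκ hρ
  have hl0 : l ≠ 0 := by
    intro h; apply hx0; rw [hl, h, zero_smul]
  have hconj : ∀ g, ∃ m : k, ρ g * ψ κ = m • (ψ κ * ρ g) := by
    intro g
    have hmem : g * κ * g⁻¹ ∈ H := S.hT.conj_mem g hκ
    have hρ' : ρ (g * κ * g⁻¹) = 1 := by rw [map_mul, map_mul, hρ, mul_one, map_mul_inv]
    have hρ'' : ρ (g * κ⁻¹ * g⁻¹) = 1 := by
      have h3 := map_mul_inv ρ (g * κ * g⁻¹)
      rw [hρ', one_mul] at h3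
      rw [← h3]; congr 1; group
    obtain ⟨m, hm⟩ := hprop _ hmem hρ'
    rw [S.coc.conj g (S.chiH κ hκ), hρ', hρ'', one_mul, mul_one, add_sub_cancel_left] at hm
    refine ⟨(χ g)⁻¹ * (m * l⁻¹), ?_⟩
    have h5 : ρ g * ψ κ * ρ g⁻¹ = ((χ g)⁻¹ * (m * l⁻¹)) • ψ κ := by
      have h6 := congrArg (fun X => (χ g)⁻¹ • X) hm
      simp only [smul_smul, inv_mul_cancel₀ (chi_ne_zero χ g), one_smul] at h6
      rw [h6, hl, smul_smul]
      congr 1
      field_simp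
    have h7 := congrArg (fun X => X * ρ g) h5
    simp only [smul_mul_assoc] at h7
    rw [← h7, mul_assoc _ _ (ρ g), map_inv_mul, mul_one]
  choose m hm using hconj
  exact S.hT.no_line hx0 (S.coc.tr κ) m hm

/-- Step 2: on `H`, `ψ` only depends on `ρ`. -/
theorem psi_congr {h h' : G} (hh : h ∈ H) (hh' : h' ∈ H) (e : ρ h = ρ h') : ψ h = ψ h' := by
  have hκ : h' * h⁻¹ ∈ H := H.mul_mem hh' (H.inv_mem hh)
  have hρ : ρ (h' * h⁻¹) = 1 := by rw [map_mul, ← e, map_mul_inv]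
  have h1 := S.psi_ker hκ hρ
  have h2 : h' = (h' * h⁻¹) * h := by group
  have hρ' : ρ (h' * h⁻¹)⁻¹ = 1 := by
    have := map_mul_inv ρ (h' * h⁻¹)
    rwa [hρ, one_mul] at this
  conv_rhs => rw [h2]
  rw [S.coc.mul_of_chi (S.chiH _ hκ), h1, hρ, hρ', zero_add, one_mul, mul_one]

theorem TT_congr {h h' : G} (hh : h ∈ H) (hh' : h' ∈ H) (e : ρ h = ρ h') :
    TT ρ ψ h = TT ρ ψ h' := by
  unfold TT; rw [S.psi_congr hh hh' e, e]

/-- trace identity on `H` -/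
theorem TT_add {b : G} (hb : b ∈ H) (a : G) :
    TT ρ ψ (b * a) + TT ρ ψ (b⁻¹ * a) = TT ρ ψ b * (ρ a).trace + (ρ b).trace * TT ρ ψ a :=
  S.coc.TT_add (S.chiH b hb) (S.hT.detH b hb) a

/-- `T(u^(i+2) w) + T(u^i w) = 2 T(u^(i+1) w) + T(u) t(u^(i+1) w)` -/
theorem TT_rec {u : G} (hu : u ∈ H) {N : M₂ k} (hN : ρ u = 1 + N) (hNN : N * N = 0) (w : G)
    (i : ℕ) :
    TT ρ ψ (u ^ (i + 2) * w) + TT ρ ψ (u ^ i * w) =
      2 * TT ρ ψ (u ^ (i + 1) * w) +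
        TT ρ ψ u * ((ρ w).trace + ((i + 1 : ℕ) : k) * (N * ρ w).trace) := by
  have h1 := S.TT_add hu (u ^ (i + 1) * w)
  have e1 : u * (u ^ (i + 1) * w) = u ^ (i + 2) * w := by
    rw [← mul_assoc, ← pow_succ']
  have e2 : u⁻¹ * (u ^ (i + 1) * w) = u ^ i * w := by
    rw [pow_succ', ← mul_assoc, ← mul_assoc, inv_mul_cancel, one_mul]
  have e3 : (ρ (u ^ (i + 1) * w)).trace = (ρ w).trace + ((i + 1 : ℕ) : k) * (N * ρ w).trace := by
    rw [map_mul, TWHyp.pow_unip hN hNN, add_mul, one_mul, smul_mul_assoc, Matrix.trace_add,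
      Matrix.trace_smul, smul_eq_mul]
  have e4 : (ρ u).trace = 2 := by
    rw [hN, Matrix.trace_add, (trace_zero_det_zero_of_sq hNN).1, Matrix.trace_one,
      Fintype.card_fin]
    simp
  rw [e1, e2, e3, e4] at h1
  rw [h1]; ring

end Std

end Fermat.Agent.TW
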