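import Fermat.Agent.TW.Mat2
import Mathlib.GroupTheory.Index
import Mathlib.GroupTheory.Perm.Cycle.Type

/-!
# Group theory of Taylor-Wiles primes

`ρ : G →* M₂(k)` is a representation (residual Galois representation), `H` a normal subgroup with
abelian quotient on which `det ρ = 1` (the Galois group of `ℚ(μ_{p^n})`).
-/

set_option autoImplicit false

namespace Fermat.Agent.TW

open Matrix

local notation "M₂" => Matrix (Fin 2) (Fin 2)

variable {k : Type*} [Field k] {G : Type*} [Group G]

/-- Hypotheses on the residual representation. -/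
structure TWHyp (ρ : G →* M₂ k) (H : Subgroup G) : Prop where
  two_ne : (2 : k) ≠ 0
  irr : ∀ N : M₂ k, N ≠ 0 → N * N = 0 → ∃ g, N * ρ g * N ≠ 0
  comm2 : ∀ G' : Subgroup G, (G' = ⊤ ∨ G'.index = 2) → ∀ m : M₂ k,
    (∀ g ∈ G', ρ g * m = m * ρ g) → ∃ c : k, m = c • (1 : M₂ k)
  normal : H.Normal
  detH : ∀ h ∈ H, (ρ h).det = 1
  commG : ∀ a b : G, a * b * a⁻¹ * b⁻¹ ∈ H

theorem map_mul_inv (ρ : G →* M₂ k) (g : G) : ρ g * ρ g⁻¹ = 1 := by
  rw [← map_mul, mul_inv_cancel, map_one]

theorem map_inv_mul (ρ : G →* M₂ k) (g : G) : ρ g⁻¹ * ρ g = 1 := by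
  rw [← map_mul, inv_mul_cancel, map_one]

theorem det_ne_zero (ρ : G →* M₂ k) (g : G) : (ρ g).det ≠ 0 := by
  intro h
  have := congrArg Matrix.det (map_mul_inv ρ g)
  rw [Matrix.det_mul, h, zero_mul, Matrix.det_one] at this
  exact zero_ne_one this

theorem mul_left_cancel' (ρ : G →* M₂ k) (g : G) {A B : M₂ k} (h : ρ g * A = ρ g * B) : A = B := by
  have := congrArg (fun X => ρ g⁻¹ * X) h
  simpa [← mul_assoc, map_inv_mul] using this

theorem mul_right_cancel' (ρ : G →* M₂ k) (g : G) {A B : M₂ k} (h : A * ρ g = B * ρ g) : A = B := by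
  have := congrArg (fun X => X * ρ g⁻¹) h
  simpa [mul_assoc, map_mul_inv] using this

theorem map_inv_eq (ρ : G →* M₂ k) {g : G} (h : (ρ g).det = 1) :
    ρ g⁻¹ = (ρ g).trace • (1 : M₂ k) - ρ g := by
  apply mul_left_cancel' ρ g
  rw [map_mul_inv, mul_sub, mul_self_eq, h]
  simp

namespace TWHyp

variable {ρ : G →* M₂ k} {H : Subgroup G}

/-- `ad⁰` has no stable line. -/
theorem no_line (hT : TWHyp ρ H) {y : M₂ k} (hy : y ≠ 0) (htr : y.trace = 0) (lam : G → k)
    (h : ∀ g, ρ g * y = lam g • (y * ρ g)) : False := by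
  have hlam : ∀ g, lam g ≠ 0 := by
    intro g hg
    apply hy
    apply mul_left_cancel' ρ g
    rw [h g, hg, zero_smul, mul_zero]
  by_cases hd : y.det = 0
  · have hyy : y * y = 0 := by rw [mul_self_eq, htr, hd]; simp
    obtain ⟨g, hg⟩ := hT.irr y hy hyy
    apply hg
    have : lam g • (y * ρ g * y) = 0 := by
      rw [← smul_mul_assoc, ← h g, mul_assoc, hyy, mul_zero]
    exact (smul_eq_zero.1 this).resolve_left (hlam g)
  · have hsq : ∀ g, lam g = 1 ∨ lam g = -1 := by
      intro g
      have h1 := congrArg Matrix.det (h g)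
      rw [Matrix.det_smul, Matrix.det_mul, Matrix.det_mul, Fintype.card_fin] at h1
      have h2 : ((ρ g).det * y.det) * ((lam g - 1) * (lam g + 1)) = 0 := by
        linear_combination -h1
      rcases mul_eq_zero.1 h2 with h3 | h3
      · exact absurd h3 (mul_ne_zero (det_ne_zero ρ g) hd)
      · rcases mul_eq_zero.1 h3 with h4 | h4
        · left; linear_combination h4
        · right; linear_combination h4
    let G' : Subgroup G :=
      { carrier := {g | ρ g * y = y * ρ g}
        mul_mem' := by
          intro a b ha hb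
          simp only [Set.mem_ofPred_eq] at ha hb ⊢
          rw [map_mul, mul_assoc, hb, ← mul_assoc, ha, mul_assoc]
        one_mem' := by simp
        inv_mem' := by
          intro a ha
          simp only [Set.mem_ofPred_eq] at ha ⊢
          apply mul_left_cancel' ρ a
          apply mul_right_cancel' ρ a
          rw [← mul_assoc, map_mul_inv, one_mul, mul_assoc (ρ a), mul_assoc y, map_inv_mul, mul_one,
            ha] }
    have hmem : ∀ g, g ∈ G' ↔ ρ g * y = y * ρ g := fun g => Iff.rfl
    have hidx : G' = ⊤ ∨ G'.index = 2 := by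
      by_cases hall : ∀ g, g ∈ G'
      · left; exact (Subgroup.eq_top_iff' G').2 hall
      · right
        push Not at hall
        obtain ⟨a, ha⟩ := hall
        rw [Subgroup.index_eq_two_iff_exists_notMem_and]
        refine ⟨a, ha, fun b => ?_⟩
        by_cases hb : b ∈ G'
        · right; exact hb
        · left
          have h1 : lam a = -1 := by
            rcases hsq a with h1 | h1
            · exfalso; apply ha; rw [hmem, h a, h1, one_smul]
            · exact h1
          have h2 : lam b = -1 := by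
            rcases hsq b with h2 | h2
            · exfalso; apply hb; rw [hmem, h b, h2, one_smul]
            · exact h2
          rw [hmem, map_mul, mul_assoc, h a, h1, mul_smul_comm, ← mul_assoc, h b, h2, smul_mul_assoc,
            smul_smul]
          simp [mul_assoc]
    obtain ⟨c, hc⟩ := hT.comm2 G' hidx y (fun g hg => hg)
    rw [hc] at htr
    rw [Matrix.trace_smul, Matrix.trace_one, Fintype.card_fin, smul_eq_mul] at htr
    have hc0 : c = 0 := by
      rcases mul_eq_zero.1 htr with h1 | h1
      · exact h1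
      · exact absurd (by exact_mod_cast h1) hT.two_ne
    apply hy; rw [hc, hc0, zero_smul]

theorem conj_mem (hT : TWHyp ρ H) (g : G) {h : G} (hh : h ∈ H) : g * h * g⁻¹ ∈ H :=
  hT.normal.conj_mem h hh g

/-- a nontrivial unipotent of `H` is moved by some element of `H` -/
theorem exists_trace_ne (hT : TWHyp ρ H) {u : G} (hu : u ∈ H) {N : M₂ k} (hN : ρ u = 1 + N)
    (hN0 : N ≠ 0) (hNN : N * N = 0) : ∃ w ∈ H, (N * ρ w).trace ≠ 0 := by
  by_contra hcon
  push Not at hcon
  obtain ⟨htr, hdet⟩ := trace_zero_det_zero_of_sq hNN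
  obtain ⟨g, hg⟩ := hT.irr N hN0 hNN
  apply hg
  have h1 := hcon _ (hT.conj_mem g hu)
  rw [map_mul, map_mul, hN, mul_add, mul_one, add_mul, map_mul_inv, mul_add, mul_one,
    Matrix.trace_add, htr, zero_add] at h1
  -- tr (N g N g⁻¹) = 0
  have h2 : (N * ρ g).trace * (N * ρ g⁻¹).trace = 0 := by
    have h3 := mul_mul_self_of_det_zero hdet (ρ g)
    have h4 : N * (ρ g * N * ρ g⁻¹) = (N * ρ g).trace • (N * ρ g⁻¹) := by
      rw [← mul_assoc, ← mul_assoc, h3, smul_mul_assoc]
    rw [h4, Matrix.trace_smul, smul_eq_mul] at h1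
    exact h1
  have h5 : (ρ g).det * (N * ρ g⁻¹).trace = - (N * ρ g).trace := by
    have h6 : (ρ g).det • ρ g⁻¹ = (ρ g).trace • (1 : M₂ k) - ρ g := by
      apply mul_left_cancel' ρ g
      rw [mul_smul_comm, map_mul_inv, mul_sub, mul_self_eq]
      simp
    have h7 := congrArg (fun X => (N * X).trace) h6
    simp only [mul_smul_comm, mul_sub, mul_one, Matrix.trace_smul, Matrix.trace_sub, htr,
      smul_eq_mul, mul_zero, zero_sub] at h7
    exact h7
  have h8 : (N * ρ g).trace = 0 := by
    rcases mul_eq_zero.1 h2 with h9 | h9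
    · exact h9
    · rw [h9, mul_zero] at h5
      linear_combination h5
  rw [mul_mul_self_of_det_zero hdet, h8, zero_smul]

theorem pow_unip {ρ : G →* M₂ k} {u : G} {N : M₂ k} (hN : ρ u = 1 + N) (hNN : N * N = 0) (i : ℕ) :
    ρ (u ^ i) = 1 + (i : k) • N := by
  induction i with
  | zero => simp
  | succ n ih =>
    rw [pow_succ, map_mul, ih, hN, mul_add, mul_one, add_mul, one_mul, smul_mul_assoc, hNN,
      smul_zero, add_zero]
    push_cast
    rw [add_smul, one_smul, add_assoc]

/-- `ρ(H)` contains a non-scalar semisimple element. -/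
theorem exists_semisimple (hT : TWHyp ρ H) : ∃ h ∈ H, (ρ h).trace ^ 2 ≠ 4 := by
  by_contra hcon
  push Not at hcon
  have h4 : (4 : k) ≠ 0 := by
    have : (4 : k) = 2 * 2 := by norm_num
    rw [this]; exact mul_ne_zero hT.two_ne hT.two_ne
  -- all elements of ρ(H) are scalar
  have hscal : ∀ h ∈ H, ρ h = ((ρ h).trace / 2) • (1 : M₂ k) := by
    intro h hh
    by_contra hns
    set t := (ρ h).trace with ht
    have ht2 : t ^ 2 = 4 := hcon h hh
    set N : M₂ k := t • ρ h - (2 : k) • (1 : M₂ k) with hNdef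
    have hsq : ρ h * ρ h = t • ρ h - (1 : M₂ k) := by
      rw [mul_self_eq, hT.detH h hh, one_smul]
    have hu : ρ (h * h) = 1 + N := by
      rw [map_mul, hsq, hNdef]
      have : (2 : k) • (1 : M₂ k) = 1 + 1 := by rw [two_smul]
      rw [this]; abel
    have hNN : N * N = 0 := by
      have e1 : N * N = (t ^ 2) • (ρ h * ρ h) - (4 * t) • ρ h + (4 : k) • (1 : M₂ k) := by
        rw [hNdef, sub_mul, mul_sub, mul_sub]
        simp only [smul_mul_assoc, mul_smul_comm, smul_smul, mul_one, one_mul]
        rw [show (4 * t) • ρ h = (t * 2) • ρ h + (2 * t) • ρ h by rw [← add_smul]; congr 1; ring,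
          show t ^ 2 = t * t by ring, show (4 : k) = 2 * 2 by norm_num]
        abel
      rw [e1, ht2, hsq, smul_sub, smul_smul]
      abel
    have hN0 : N ≠ 0 := by
      intro h0
      apply hns
      have ht0 : t ≠ 0 := by
        intro h00; rw [h00] at ht2; apply h4; rw [← ht2]; ring
      rw [hNdef, sub_eq_zero] at h0
      have h1 : ρ h = (t⁻¹ * 2) • (1 : M₂ k) := by
        rw [← smul_smul, ← h0, smul_smul, inv_mul_cancel₀ ht0, one_smul]
      rw [h1]
      congr 1
      have := hT.two_ne
      field_simp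
      rw [ht2]; norm_num
    obtain ⟨w, hw, hy⟩ := hT.exists_trace_ne (H.mul_mem hh hh) hu hN0 hNN
    set y := (N * ρ w).trace with hydef
    set s := (ρ w).trace with hsdef
    have htr : ∀ i : ℕ, (ρ ((h * h) ^ i * w)).trace = s + i * y := by
      intro i
      rw [map_mul, pow_unip hu hNN, add_mul, one_mul, smul_mul_assoc, Matrix.trace_add,
        Matrix.trace_smul, smul_eq_mul]
    have hmem : ∀ i : ℕ, (h * h) ^ i * w ∈ H := fun i =>
      H.mul_mem (H.pow_mem (H.mul_mem hh hh) i) hw
    have q0 := hcon _ (hmem 0)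
    have q1 := hcon _ (hmem 1)
    have q2 := hcon _ (hmem 2)
    rw [htr] at q0 q1 q2
    push_cast at q0 q1 q2
    have f1 : y = -2 * s := by
      have : y * (y + 2 * s) = 0 := by linear_combination q1 - q0
      rcases mul_eq_zero.1 this with h0 | h0
      · exact absurd h0 hy
      · linear_combination h0
    rw [f1] at q2
    have f2 : (32 : k) = 0 := by linear_combination q2 - 9 * q0
    have : (2 : k) ^ 5 = 0 := by linear_combination f2
    exact hT.two_ne (pow_eq_zero_iff (by norm_num) |>.1 this)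
  -- pick a non scalar element of ρ(G)
  have hns : ∃ a, ρ a ≠ ((ρ a).trace / 2) • (1 : M₂ k) := by
    by_contra hall
    push Not at hall
    let E : M₂ k := !![0, 1; 0, 0]
    have hE0 : E ≠ 0 := by
      intro h0
      have := congrFun (congrFun h0 0) 1
      simp [E] at this
    have hEE : E * E = 0 := by
      ext i j; fin_cases i <;> fin_cases j <;> simp [E, Matrix.mul_apply, Fin.sum_univ_two]
    obtain ⟨g, hg⟩ := hT.irr E hE0 hEE
    apply hg
    rw [hall g, mul_smul_comm, mul_one, smul_mul_assoc, hEE, smul_zero]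
  obtain ⟨a, ha⟩ := hns
  set c := (ρ a).trace / 2 with hcdef
  set y : M₂ k := ρ a - c • (1 : M₂ k) with hydef
  have hy0 : y ≠ 0 := fun h0 => ha (sub_eq_zero.1 h0)
  have hytr : y.trace = 0 := by
    rw [hydef, Matrix.trace_sub, Matrix.trace_smul, Matrix.trace_one, Fintype.card_fin, smul_eq_mul,
      hcdef]
    push_cast
    have := hT.two_ne
    field_simp
    ring
  have hcomm : ∀ b, ∃ e : k, (e = 1 ∨ e = -1) ∧ ρ b * ρ a = e • (ρ a * ρ b) := by
    intro b
    have hm := hT.commG b a
    refine ⟨(ρ (b * a * b⁻¹ * a⁻¹)).trace / 2, ?_, ?_⟩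
    · have h1 := hcon _ hm
      have h2 : ((ρ (b * a * b⁻¹ * a⁻¹)).trace / 2 - 1) *
          ((ρ (b * a * b⁻¹ * a⁻¹)).trace / 2 + 1) = 0 := by
        have := hT.two_ne
        field_simp
        linear_combination h1
      rcases mul_eq_zero.1 h2 with h3 | h3
      · left; linear_combination h3
      · right; linear_combination h3
    · have h1 : b * a = (b * a * b⁻¹ * a⁻¹) * (a * b) := by group
      have h2 := congrArg ρ h1
      rw [map_mul, map_mul ρ (b * a * b⁻¹ * a⁻¹), hscal _ hm, map_mul ρ a b, smul_mul_assoc,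
        one_mul] at h2
      exact h2
  choose e he1 he2 using hcomm
  refine hT.no_line hy0 hytr e (fun g => ?_)
  rcases he1 g with h1 | h1
  · have := he2 g
    rw [h1, one_smul] at this ⊢
    rw [hydef, mul_sub, sub_mul, this]
    simp
  · have h2 := he2 g
    rw [h1] at h2
    have hc0 : c = 0 := by
      have h3 : ρ g * ρ a * ρ g⁻¹ = -ρ a := by
        rw [h2, smul_mul_assoc, mul_assoc, map_mul_inv, mul_one, neg_smul, one_smul]
      have h4 := congrArg Matrix.trace h3
      rw [Matrix.trace_mul_comm, ← mul_assoc, map_inv_mul, one_mul, Matrix.trace_neg] at h4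
      have h5 : 2 * (ρ a).trace = 0 := by linear_combination h4
      rw [hcdef, (mul_eq_zero.1 h5).resolve_left hT.two_ne, zero_div]
    rw [h1, hydef, hc0, zero_smul, sub_zero, h2]

end TWHyp

end Fermat.Agent.TW
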