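import Fermat.Agent.TW.Cocycle
import Mathlib.Algebra.Polynomial.Roots
import Mathlib.Algebra.CharP.Lemmas

/-!
# The infinitesimal trace vanishes on unipotent elements
-/

set_option autoImplicit false

namespace Fermat.Agent.TW

open Matrix

local notation "M₂" => Matrix (Fin 2) (Fin 2)

variable {k : Type*} [Field k] {G : Type*} [Group G]
variable {ρ : G →* M₂ k} {χ : G →* k} {ψ : G → M₂ k} {H : Subgroup G}

namespace Std

variable (S : Std ρ χ ψ H)
include S

theorem TT_pow {u : G} (hu : u ∈ H) {N : M₂ k} (hN : ρ u = 1 + N) (hNN : N * N = 0) :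
    ∀ j : ℕ, TT ρ ψ (u ^ j) = (j : k) ^ 2 * TT ρ ψ u ∧
      TT ρ ψ (u ^ (j + 1)) = ((j + 1 : ℕ) : k) ^ 2 * TT ρ ψ u := by
  intro j
  induction j with
  | zero => simp [S.coc.TT_one]
  | succ n ih =>
    refine ⟨ih.2, ?_⟩
    have h1 := S.TT_rec hu hN hNN 1 n
    have htr := (trace_zero_det_zero_of_sq hNN).1
    simp only [mul_one, map_one, Matrix.trace_one, Fintype.card_fin, htr, mul_zero, add_zero] at h1
    rw [ih.1, ih.2] at h1
    push_cast at h1 ⊢
    linear_combination h1

/-- closed form -/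
theorem TT_closed {u : G} (hu : u ∈ H) {N : M₂ k} (hN : ρ u = 1 + N) (hNN : N * N = 0) (w : G) :
    ∀ i : ℕ, 6 * TT ρ ψ (u ^ i * w) = 6 * TT ρ ψ w +
        i * (6 * TT ρ ψ (u * w) - 6 * TT ρ ψ w - 3 * TT ρ ψ u * (ρ w).trace) +
        TT ρ ψ u * (3 * (ρ w).trace * i ^ 2 + (N * ρ w).trace * (i ^ 3 - i)) := by
  have key : ∀ i : ℕ, (6 * TT ρ ψ (u ^ i * w) = 6 * TT ρ ψ w +
        i * (6 * TT ρ ψ (u * w) - 6 * TT ρ ψ w - 3 * TT ρ ψ u * (ρ w).trace) +
        TT ρ ψ u * (3 * (ρ w).trace * i ^ 2 + (N * ρ w).trace * (i ^ 3 - i))) ∧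
      (6 * TT ρ ψ (u ^ (i + 1) * w) = 6 * TT ρ ψ w +
        ((i + 1 : ℕ) : k) * (6 * TT ρ ψ (u * w) - 6 * TT ρ ψ w - 3 * TT ρ ψ u * (ρ w).trace) +
        TT ρ ψ u * (3 * (ρ w).trace * ((i + 1 : ℕ) : k) ^ 2 +
          (N * ρ w).trace * (((i + 1 : ℕ) : k) ^ 3 - ((i + 1 : ℕ) : k)))) := by
    intro i
    induction i with
    | zero =>
      constructor
      · simp
      · push_cast
        simp only [pow_one]
        ring
    | succ n ih =>
      refine ⟨ih.2, ?_⟩
      have h1 := S.TT_rec hu hN hNN w n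
      obtain ⟨h2, h3⟩ := ih
      push_cast at h1 h2 h3 ⊢
      linear_combination 6 * h1 - h2 + 2 * h3
  exact fun i => (key i).1

theorem TT_periodic {p : ℕ} [CharP k p] {u : G} (hu : u ∈ H) {N : M₂ k} (hN : ρ u = 1 + N)
    (hNN : N * N = 0) {w : G} (hw : w ∈ H) (i : ℕ) :
    TT ρ ψ (u ^ (i + p) * w) = TT ρ ψ (u ^ i * w) := by
  apply S.TT_congr (H.mul_mem (H.pow_mem hu _) hw) (H.mul_mem (H.pow_mem hu _) hw)
  rw [map_mul, map_mul, TWHyp.pow_unip hN hNN, TWHyp.pow_unip hN hNN]
  push_cast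
  rw [CharP.cast_eq_zero k p, add_zero]

/-- main dichotomy: `T(u) = 0` except possibly if `p = 5` and all `tr(N ρ(w))` are in `𝔽_5`. -/
theorem TT_unip_aux {p : ℕ} (hp : p.Prime) [CharP k p] {u : G} (hu : u ∈ H) {N : M₂ k}
    (hN : ρ u = 1 + N) (hNN : N * N = 0) (hτ : TT ρ ψ u ≠ 0) {w : G} (hw : w ∈ H)
    (hy : (N * ρ w).trace ≠ 0) :
    p = 5 ∧ ∃ i j : ℕ, (N * ρ w).trace * ((i : k) - j) = 4 := by
  have h2 := S.hT.two_ne
  set y := (N * ρ w).trace with hydef
  set s := (ρ w).trace with hsdef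
  set τ := TT ρ ψ u with hτdef
  have hp2 : p ≠ 2 := by
    intro h; apply h2
    have := CharP.cast_eq_zero k p
    rw [h] at this
    exact_mod_cast this
  have hp3 : p ≠ 3 := by
    intro h
    have h3 : (3 : k) = 0 := by
      have := CharP.cast_eq_zero k p
      rw [h] at this
      exact_mod_cast this
    have r0 := S.TT_rec hu hN hNN w 0
    have r1 := S.TT_rec hu hN hNN w 1
    have pr := S.TT_periodic (p := p) hu hN hNN hw 0
    rw [h] at pr
    norm_num at r0 r1 pr
    rw [pr] at r1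
    have : τ * y = 0 := by
      simp only [← hydef, ← hsdef, ← hτdef] at r0 r1
      linear_combination r0 - r1 + (TT ρ ψ (u * w) - TT ρ ψ (u ^ 2 * w)) * h3
    rcases mul_eq_zero.1 this with h | h
    · exact hτ h
    · exact hy h
  have hp5 : 5 ≤ p := by
    have := hp.two_le
    have h4 : p ≠ 4 := by intro h; rw [h] at hp; exact absurd hp (by decide)
    omega
  -- the polynomial
  classical
  let P : Polynomial k := Polynomial.C (6 * TT ρ ψ w) +
      Polynomial.X * Polynomial.C (6 * TT ρ ψ (u * w) - 6 * TT ρ ψ w - 3 * τ * s) +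
      Polynomial.C τ * (Polynomial.C (3 * s) * Polynomial.X ^ 2 +
        Polynomial.C y * (Polynomial.X ^ 3 - Polynomial.X))
  have hPeval : ∀ i : ℕ, P.eval (i : k) = 6 * TT ρ ψ (u ^ i * w) := by
    intro i
    rw [S.TT_closed hu hN hNN w i]
    simp [P, ← hydef, ← hsdef, ← hτdef]
  have hPcoeff : P.coeff 3 = τ * y := by
    simp only [P, Polynomial.coeff_add, Polynomial.coeff_C_mul, Polynomial.coeff_X_mul,
      Polynomial.coeff_sub, Polynomial.coeff_X_pow, Polynomial.coeff_C]
    simp [Polynomial.coeff_X]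
  have hP0 : P ≠ 0 := by
    intro h; rw [h] at hPcoeff
    simp at hPcoeff
    rcases hPcoeff with h | h
    · exact hτ h
    · exact hy h
  have hPdeg : P.natDegree ≤ 3 := by
    simp only [P]
    compute_degree
  -- zeros
  have h6 : (6 : k) ≠ 0 := by
    intro h
    have h7 : ((6 : ℕ) : k) = 0 := by exact_mod_cast h
    rw [CharP.cast_eq_zero_iff k p] at h7
    have := (Nat.Prime.dvd_mul hp).1 (show p ∣ 2 * 3 by norm_num; exact h7)
    rcases this with h8 | h8
    · have := Nat.le_of_dvd (by norm_num) h8; omega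
    · have := Nat.le_of_dvd (by norm_num) h8; omega
  have hinj : Set.InjOn (fun i : ℕ => (i : k)) (Finset.range p : Set ℕ) := by
    intro a ha b hb hab
    simp only [Finset.coe_range, Set.mem_Iio] at ha hb
    exact CharP.natCast_injOn_Iio k p ha hb hab
  have hinjy : ∀ c : k, Set.InjOn (fun i : ℕ => s + (i : k) * y) (Finset.range p : Set ℕ) := by
    intro c a ha b hb hab
    apply hinj ha hb
    simp only at hab ⊢
    have : ((a : k) - b) * y = 0 := by linear_combination hab
    rcases mul_eq_zero.1 this with h | h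
    · linear_combination h
    · exact absurd h hy
  let Z := (Finset.range p).filter (fun i : ℕ => TT ρ ψ (u ^ i * w) = 0)
  let A := (Finset.range p).filter (fun i : ℕ => s + (i : k) * y = 2)
  let B := (Finset.range p).filter (fun i : ℕ => s + (i : k) * y = -2)
  have hZ : Z.card ≤ 3 := by
    have h8 : (Z.image (fun i : ℕ => (i : k))).card = Z.card := by
      apply Finset.card_image_of_injOn
      exact hinj.mono (by intro x hx; exact (Finset.mem_filter.1 hx).1)
    rw [← h8]
    refine le_trans ?_ hPdeg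
    refine le_trans (Finset.card_le_card ?_) (Polynomial.card_roots' P |>.trans' (Multiset.toFinset_card_le _))
    intro x hx
    rw [Finset.mem_image] at hx
    obtain ⟨i, hi, rfl⟩ := hx
    rw [Multiset.mem_toFinset, Polynomial.mem_roots hP0, Polynomial.IsRoot.def, hPeval,
      (Finset.mem_filter.1 hi).2, mul_zero]
  have hA : A.card ≤ 1 := by
    rw [Finset.card_le_one]
    intro a ha b hb
    have ha' := Finset.mem_filter.1 ha
    have hb' := Finset.mem_filter.1 hb
    exact hinjy 0 (by exact_mod_cast ha'.1) (by exact_mod_cast hb'.1) (by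
      show s + (a : k) * y = s + (b : k) * y
      rw [ha'.2, hb'.2])
  have hB : B.card ≤ 1 := by
    rw [Finset.card_le_one]
    intro a ha b hb
    have ha' := Finset.mem_filter.1 ha
    have hb' := Finset.mem_filter.1 hb
    exact hinjy 0 (by exact_mod_cast ha'.1) (by exact_mod_cast hb'.1) (by
      show s + (a : k) * y = s + (b : k) * y
      rw [ha'.2, hb'.2])
  have hcov : Finset.range p ⊆ Z ∪ (A ∪ B) := by
    intro i hi
    rw [Finset.mem_union, Finset.mem_union]
    by_cases h0 : TT ρ ψ (u ^ i * w) = 0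
    · left; exact Finset.mem_filter.2 ⟨hi, h0⟩
    · right
      have h8 : (ρ (u ^ i * w)).trace ^ 2 = 4 := by
        by_contra hne
        exact h0 (S.van _ (H.mul_mem (H.pow_mem hu i) hw) hne)
      have h9 : (ρ (u ^ i * w)).trace = s + i * y := by
        rw [map_mul, TWHyp.pow_unip hN hNN, add_mul, one_mul, smul_mul_assoc, Matrix.trace_add,
          Matrix.trace_smul, smul_eq_mul]
      rw [h9] at h8
      have h10 : (s + i * y - 2) * (s + i * y + 2) = 0 := by linear_combination h8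
      rcases mul_eq_zero.1 h10 with h | h
      · left; exact Finset.mem_filter.2 ⟨hi, by linear_combination h⟩
      · right; exact Finset.mem_filter.2 ⟨hi, by linear_combination h⟩
  have hcard := Finset.card_le_card hcov
  rw [Finset.card_range] at hcard
  have hc2 := Finset.card_union_le Z (A ∪ B)
  have hc3 := Finset.card_union_le A B
  have hA1 : A.card = 1 := by omega
  have hB1 : B.card = 1 := by omega
  refine ⟨by omega, ?_⟩
  obtain ⟨i, hi⟩ := Finset.card_pos.1 (by omega : 0 < A.card)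
  obtain ⟨j, hj⟩ := Finset.card_pos.1 (by omega : 0 < B.card)
  refine ⟨i, j, ?_⟩
  have e1 := (Finset.mem_filter.1 hi).2
  have e2 := (Finset.mem_filter.1 hj).2
  linear_combination e1 - e2

omit S in
/-- elements of the prime field of `k` in characteristic 5 -/
theorem exists_nat_of_pow_five [CharP k 5] {z : k} (hz : z ^ 5 = z) : ∃ n : ℕ, (n : k) = z := by
  have h5 : (5 : k) = 0 := by exact_mod_cast CharP.cast_eq_zero k 5
  have h : z * ((z - 1) * ((z - 2) * ((z - 3) * (z - 4)))) = 0 := by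
    linear_combination hz + (-2 * z ^ 4 + 7 * z ^ 3 - 10 * z ^ 2 + 5 * z) * h5
  rcases mul_eq_zero.1 h with h | h
  · exact ⟨0, by rw [h]; simp⟩
  rcases mul_eq_zero.1 h with h | h
  · exact ⟨1, by push_cast; linear_combination -h⟩
  rcases mul_eq_zero.1 h with h | h
  · exact ⟨2, by push_cast; linear_combination -h⟩
  rcases mul_eq_zero.1 h with h | h
  · exact ⟨3, by push_cast; linear_combination -h⟩
  · exact ⟨4, by push_cast; linear_combination -h⟩

omit S in
theorem natCast_pow_five [CharP k 5] (n : ℕ) : (n : k) ^ 5 = n := by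
  have h5 : Fact (Nat.Prime 5) := ⟨by norm_num⟩
  have h := map_natCast (frobenius k 5) n
  rwa [frobenius_def] at h

/-- in characteristic 5: if `T(u) ≠ 0` then all `tr(N ρ(w))` lie in `𝔽_5`. -/
theorem star [CharP k 5] {u : G} (hu : u ∈ H) {N : M₂ k}
    (hN : ρ u = 1 + N) (hNN : N * N = 0) (hτ : TT ρ ψ u ≠ 0) {w : G} (hw : w ∈ H) :
    (N * ρ w).trace ^ 5 = (N * ρ w).trace := by
  by_cases hy : (N * ρ w).trace = 0
  · rw [hy]; norm_num
  · obtain ⟨-, i, j, hij⟩ := S.TT_unip_aux (p := 5) (by norm_num) hu hN hNN hτ hw hy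
    have h5 : Fact (Nat.Prime 5) := ⟨by norm_num⟩
    have h5' : (5 : k) = 0 := by exact_mod_cast CharP.cast_eq_zero k 5
    set y := (N * ρ w).trace
    have hd : ((i : k) - j) ^ 5 = (i : k) - j := by
      rw [sub_pow_char, natCast_pow_five, natCast_pow_five]
    have hd0 : (i : k) - j ≠ 0 := by
      intro h; rw [h, mul_zero] at hij
      have h4 : ((4 : ℕ) : k) = 0 := by exact_mod_cast hij.symm
      rw [CharP.cast_eq_zero_iff k 5] at h4
      exact absurd h4 (by decide)
    have h1 : (y * ((i : k) - j)) ^ 5 = 4 ^ 5 := by rw [hij]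
    rw [mul_pow, hd] at h1
    apply mul_right_cancel₀ hd0
    rw [h1, hij]
    linear_combination 204 * h5'

/-- **Step 3**: the infinitesimal trace vanishes on unipotent elements of `H`. -/
theorem TT_unip {p : ℕ} (hp : p.Prime) [CharP k p] (h5 : p = 5 → ∃ g, χ g = 2) {u : G} (hu : u ∈ H)
    {N : M₂ k} (hN : ρ u = 1 + N) (hNN : N * N = 0) : TT ρ ψ u = 0 := by
  by_contra hτ
  have hN0 : N ≠ 0 := by
    intro h0
    rw [h0, add_zero] at hN
    apply hτ
    unfold TT
    rw [S.psi_ker hu hN]; simp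
  obtain ⟨w, hw, hy⟩ := S.hT.exists_trace_ne hu hN hN0 hNN
  have hp5 : p = 5 := (S.TT_unip_aux hp hu hN hNN hτ hw hy).1
  subst hp5
  have h5z : (5 : k) = 0 := by exact_mod_cast CharP.cast_eq_zero k 5
  obtain ⟨g, hg⟩ := h5 rfl
  have h2 := S.hT.two_ne
  have h3 : (3 : k) ≠ 0 := by
    intro h
    have h4 : ((3 : ℕ) : k) = 0 := by exact_mod_cast h
    rw [CharP.cast_eq_zero_iff k 5] at h4
    exact absurd h4 (by decide)
  set τ := TT ρ ψ u with hτdef
  -- contradiction from `T(u^j) = 2 τ` with `j = z`, `z^5 = z`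
  have final : ∀ z : k, z ^ 5 = z → z ^ 2 ≠ 2 := by
    intro z hz h
    have hz0 : z ≠ 0 := by
      intro h0; rw [h0] at h; apply h2; rw [← h]; norm_num
    have h4 : z ^ 4 = 1 := by
      apply mul_right_cancel₀ hz0
      linear_combination hz
    apply h3
    linear_combination h4 - (z ^ 2 + 2) * h
  have final2 : ∀ g' : G, χ g' = 2 → ∀ z : k, z ^ 5 = z → ρ (g' * u * g'⁻¹) = 1 + z • N → False := by
    intro g' hg' z hz hρ
    obtain ⟨j, hj⟩ := exists_nat_of_pow_five hz
    have h1 : TT ρ ψ (g' * u * g'⁻¹) = TT ρ ψ (u ^ j) := by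
      apply S.TT_congr (S.hT.conj_mem g' hu) (H.pow_mem hu j)
      rw [hρ, TWHyp.pow_unip hN hNN, hj]
    rw [S.coc.TT_conj g' (S.chiH u hu), hg', (S.TT_pow hu hN hNN j).1, hj] at h1
    apply final z hz
    apply mul_right_cancel₀ hτ
    exact h1.symm
  set N' : M₂ k := ρ g * N * ρ g⁻¹ with hN'def
  have hu' : g * u * g⁻¹ ∈ H := S.hT.conj_mem g hu
  have hρu' : ρ (g * u * g⁻¹) = 1 + N' := by
    rw [map_mul, map_mul, hN, mul_add, mul_one, add_mul, map_mul_inv]
  have hNN' : N' * N' = 0 := by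
    rw [hN'def]
    have : ρ g * N * ρ g⁻¹ * (ρ g * N * ρ g⁻¹) = ρ g * (N * N) * ρ g⁻¹ := by
      simp only [mul_assoc]
      rw [← mul_assoc (ρ g⁻¹) (ρ g), map_inv_mul, one_mul]
    rw [this, hNN, mul_zero, zero_mul]
  have hτ' : TT ρ ψ (g * u * g⁻¹) ≠ 0 := by
    rw [S.coc.TT_conj g (S.chiH u hu), hg]
    exact mul_ne_zero h2 hτ
  have hstar1 := S.star hu hN hNN hτ hu'
  have htrN := trace_zero_det_zero_of_sq hNN
  have htrN' := trace_zero_det_zero_of_sq hNN'
  rw [hρu', mul_add, mul_one, Matrix.trace_add, htrN.1, zero_add] at hstar1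
  by_cases hyy : (N * N').trace = 0
  · obtain ⟨m, hm⟩ := exists_smul_of_nilp hNN hNN' hN0 hyy
    have s1 := S.star hu hN hNN hτ hw
    have s2 := S.star hu' hρu' hNN' hτ' hw
    rw [hm, smul_mul_assoc, Matrix.trace_smul, smul_eq_mul, mul_pow, s1] at s2
    have s3 : m ^ 5 = m := mul_right_cancel₀ hy s2
    exact final2 g hg m s3 (by rw [hρu', hm])
  · set y := (N * N').trace with hydef
    have hb5 : (-y⁻¹) ^ 5 = -y⁻¹ := by
      have : (-y⁻¹) ^ 5 = -((y ^ 5)⁻¹) := by ring
      rw [this, hstar1]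
    obtain ⟨b, hb⟩ := exists_nat_of_pow_five hb5
    have hby : (b : k) * y = -1 := by
      rw [hb]; field_simp
    have hmem : u * (g * u * g⁻¹) ^ b * u ∈ H := H.mul_mem (H.mul_mem hu (H.pow_mem hu' b)) hu
    have i1 : N * N' + N' * N = y • (1 : M₂ k) := mul_add_mul_of_trace_zero htrN.1 htrN'.1
    have i2 : N * N' * N = y • N := mul_mul_self_of_det_zero htrN.2 N'
    have hρh : ρ (u * (g * u * g⁻¹) ^ b * u) = N + (b : k) • N' := by
      rw [map_mul, map_mul, TWHyp.pow_unip hρu' hNN' b, hN]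
      have e1 : (1 + N) * (1 + (b : k) • N') * (1 + N) =
          1 + N + N + N * N + (b : k) • N' + (b : k) • (N * N' + N' * N) +
            (b : k) • (N * N' * N) := by
        simp only [add_mul, mul_add, mul_one, one_mul, smul_mul_assoc, mul_smul_comm, smul_add]
        abel
      rw [e1, i1, i2, hNN, smul_smul, smul_smul, hby]
      simp only [neg_smul, one_smul]
      abel
    have hρh' : ρ (u * (g * u * g⁻¹) ^ b * u)⁻¹ = -(N + (b : k) • N') := by
      rw [map_inv_eq ρ (S.hT.detH _ hmem), hρh, Matrix.trace_add, Matrix.trace_smul, htrN.1,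
        htrN'.1]
      simp
    have hz5 : (-y) ^ 5 = -y := by
      have : (-y) ^ 5 = -(y ^ 5) := by ring
      rw [this, hstar1]
    refine final2 ((u * (g * u * g⁻¹) ^ b * u) * g) ?_ (-y) hz5 ?_
    · rw [map_mul, S.chiH _ hmem, one_mul, hg]
    · have e1 : (u * (g * u * g⁻¹) ^ b * u) * g * u * ((u * (g * u * g⁻¹) ^ b * u) * g)⁻¹ =
          (u * (g * u * g⁻¹) ^ b * u) * (g * u * g⁻¹) * (u * (g * u * g⁻¹) ^ b * u)⁻¹ := by
        group
      rw [e1, map_mul, map_mul, hρu', mul_add, mul_one, add_mul, map_mul_inv, hρh, hρh']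
      congr 1
      have e2 : (N + (b : k) • N') * N' = N * N' := by
        rw [add_mul, smul_mul_assoc, hNN', smul_zero, add_zero]
      rw [e2, mul_neg, mul_add, i2, mul_smul_comm, mul_assoc, hNN', mul_zero, smul_zero, add_zero,
        neg_smul]

end Std

end Fermat.Agent.TW
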